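import Mathlib
import Fermat.Agent.GJ.J2.Dict.FieldGenCor
import Fermat.Agent.DS.P1.RelLagrangeGamma1
import Fermat.Agent.DS.P1.RealizeGen

/-!
# GATE-N / S48-P3-SAT1: saturation (`SatC`) for an arbitrary subgroup `Γ ≤ SL(2,ℤ)`

`Γ`-generic twin of `GJ/J2/Dict/FieldGenCor` (helper41):

* `IMGG Γ N` : the `ℂ`-algebra of `Γ`-invariant holomorphic functions of moderate growth;
* `mem_range_real_iff` : when `real : F →+* Mer` satisfies field generation for `Γ` and every
  `real f` is a quotient of elements of `IMGG Γ N`, the image of `real` is exactly the set of such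
  quotients;
* `exists_real_eq_of_pow` / `sat_of_fieldGen` (**F5**, the `hsat` hypothesis of
  `DS/P3/KumCoreG.IsKumDatumG.exists_eq_mul_pow`): a `Γ`-invariant element of `Mer` whose `p`-th
  power lies in the image of `real` lies in the image;
* `eq_const_of_boundedG` (**F7**) : an invariant holomorphic function bounded at all cusps is
  constant;
* `hquot_realG` : the quotient hypothesis for the generic realisation `RealizeGen.realG G hCE`
  of helper30 when all the generators `G i` lie in `IMGG Γ N`.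
-/

set_option autoImplicit false
set_option linter.unusedSectionVars false

noncomputable section

namespace Fermat.Agent.DS.P3.Sat1

open UpperHalfPlane Fermat.Agent.S24_helper82 Fermat.Agent.GJ.Dict.FieldGen
open Fermat.Agent.GJ.Dict.OrdHol Fermat.Agent.DS.P1.RelLagrange
open scoped MatrixGroups Manifold ModularForm

section IMGG

variable (Γ : Subgroup SL(2, ℤ)) (N : ℕ) [NeZero N]

/-- `Γ`-invariant holomorphic functions of moderate growth at all cusps -/
def IMGG : Subalgebra ℂ Hol where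
  carrier := {f | f ∈ MG N ∧ ∀ γ ∈ Γ, compSL γ f = f}
  mul_mem' := fun {_ _} hf hg => ⟨(MG N).mul_mem hf.1 hg.1, fun γ hγ => by
    rw [map_mul, hf.2 γ hγ, hg.2 γ hγ]⟩
  one_mem' := ⟨(MG N).one_mem, fun γ _ => map_one _⟩
  add_mem' := fun {_ _} hf hg => ⟨(MG N).add_mem hf.1 hg.1, fun γ hγ => by
    rw [map_add, hf.2 γ hγ, hg.2 γ hγ]⟩
  zero_mem' := ⟨(MG N).zero_mem, fun γ _ => map_zero _⟩
  algebraMap_mem' := fun c => ⟨(MG N).algebraMap_mem c, fun γ _ => AlgHom.commutes _ c⟩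

theorem mem_IMGG_iff {f : Hol} :
    f ∈ IMGG Γ N ↔ ModerateGrowth N (f : ℍ → ℂ) ∧ ∀ γ ∈ Γ, compSL γ f = f := Iff.rfl

theorem IMGG_mono {Γ Γ' : Subgroup SL(2, ℤ)} (h : Γ' ≤ Γ) : IMGG Γ N ≤ IMGG Γ' N :=
  fun _ hf => ⟨hf.1, fun γ hγ => hf.2 γ (h hγ)⟩

end IMGG

section Range

variable {Γ : Subgroup SL(2, ℤ)} {N : ℕ} [NeZero N] {F : Type*} [Field F] (real : F →+* Mer)

/-- the quotient hypothesis: every `real f` is a quotient of two `Γ`-invariant holomorphic
functions of moderate growth -/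
def QuotHyp (Γ : Subgroup SL(2, ℤ)) (N : ℕ) [NeZero N] {F : Type*} [Field F]
    (real : F →+* Mer) : Prop :=
  ∀ f : F, ∃ H Q : Hol, H ∈ IMGG Γ N ∧ Q ∈ IMGG Γ N ∧ Q ≠ 0 ∧
    algebraMap Hol Mer Q * real f = algebraMap Hol Mer H

/-- the field generation hypothesis (`= DS/P3/TwEisG/Field.FieldGenHol Γ N real`, unfolded) -/
def FieldGenHyp (Γ : Subgroup SL(2, ℤ)) (N : ℕ) {F : Type*} [Field F]
    (real : F →+* Mer) : Prop :=
  ∀ H : Hol, (∀ γ ∈ Γ, compSL γ H = H) → ModerateGrowth N (H : ℍ → ℂ) →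
    ∃ f : F, real f = algebraMap Hol Mer H

variable {real}

/-- **(F3)** quotients of invariant holomorphic functions of moderate growth are in the image -/
theorem exists_real_eq_div (hreal : FieldGenHyp Γ N real) (H Q : Hol) (hQ : Q ≠ 0)
    (hH : H ∈ IMGG Γ N) (hQm : Q ∈ IMGG Γ N) (m : Mer)
    (hm : algebraMap Hol Mer Q * m = algebraMap Hol Mer H) : ∃ f : F, real f = m := by
  obtain ⟨h, hh⟩ := hreal H hH.2 hH.1
  obtain ⟨q, hq⟩ := hreal Q hQm.2 hQm.1
  refine ⟨h / q, ?_⟩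
  have hQ' : algebraMap Hol Mer Q ≠ 0 := algebraMap_ne_zero hQ
  rw [map_div₀, hh, hq, div_eq_iff hQ', mul_comm, hm]

/-- **Characterisation of the image of `real` in `Mer`.** -/
theorem mem_range_real_iff (hreal : FieldGenHyp Γ N real) (hquot : QuotHyp Γ N real) (m : Mer) :
    (∃ f : F, real f = m) ↔ ∃ H Q : Hol, H ∈ IMGG Γ N ∧ Q ∈ IMGG Γ N ∧ Q ≠ 0 ∧
      algebraMap Hol Mer Q * m = algebraMap Hol Mer H := by
  constructor
  · rintro ⟨f, rfl⟩
    exact hquot f
  · rintro ⟨H, Q, hH, hQ, hQ0, h⟩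
    exact exists_real_eq_div hreal H Q hQ0 hH hQ m h

/-- **(F5) Invariant `p`-th roots of modular functions are modular functions.** -/
theorem exists_real_eq_of_pow (hreal : FieldGenHyp Γ N real) (hquot : QuotHyp Γ N real)
    {p : ℕ} (hp : 0 < p) (m : Mer) (hinv : ∀ γ ∈ Γ, compM γ m = m) (f : F)
    (hpow : m ^ p = real f) : ∃ f' : F, real f' = m := by
  obtain ⟨H, Q, hH, hQ, hQ0, hrel⟩ := hquot f
  obtain ⟨k, rfl⟩ : ∃ k, p = k + 1 := ⟨p - 1, by omega⟩
  have h1 : (algebraMap Hol Mer Q * m) ^ (k + 1) = algebraMap Hol Mer (H * Q ^ k) := by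
    rw [mul_pow, hpow, pow_succ, mul_assoc, hrel, map_mul, map_pow, mul_comm]
  obtain ⟨W, hW⟩ := exists_hol_of_pow hp _ _ h1
  have hWp : W ^ (k + 1) = H * Q ^ k := by
    apply IsFractionRing.injective Hol Mer
    rw [map_pow, hW, h1]
  have hWmem : W ∈ IMGG Γ N := by
    refine ⟨?_, fun γ hγ => ?_⟩
    · apply ModerateGrowth.of_pow (N := N) hp
      have : ((W : ℍ → ℂ)) ^ (k + 1) = ((W ^ (k + 1) : Hol) : ℍ → ℂ) := rfl
      rw [this, hWp]
      exact ((IMGG Γ N).mul_mem hH ((IMGG Γ N).pow_mem hQ k)).1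
    · apply IsFractionRing.injective Hol Mer
      rw [← compM_algebraMap, hW, map_mul, hinv γ hγ, compM_algebraMap, hQ.2 γ hγ]
  exact exists_real_eq_div hreal W Q hQ0 hWmem hQ m hW.symm

/-- **`SatC` for `Γ`** in the exact shape of the hypothesis `hsat` of
`DS/P3/KumCoreG.IsKumDatumG.exists_eq_mul_pow`. -/
theorem sat_of_fieldGen (hreal : FieldGenHyp Γ N real) (hquot : QuotHyp Γ N real)
    {p : ℕ} (hp : 0 < p) :
    ∀ m : Mer, (∀ γ : Γ, compM (γ : SL(2, ℤ)) m = m) → m ^ p ∈ Set.range real →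
      m ∈ Set.range real := by
  rintro m hinv ⟨f, hf⟩
  exact exists_real_eq_of_pow hreal hquot hp m (fun γ hγ => hinv ⟨γ, hγ⟩) f hf.symm

/-- the image of `real` is `Γ`-invariant under the quotient hypothesis -/
theorem compM_real_of_quot (hquot : QuotHyp Γ N real) (f : F) {γ : SL(2, ℤ)} (hγ : γ ∈ Γ) :
    compM γ (real f) = real f := by
  obtain ⟨H, Q, hH, hQ, hQ0, hrel⟩ := hquot f
  have hQ' : algebraMap Hol Mer Q ≠ 0 := algebraMap_ne_zero hQ0
  have h1 := congrArg (compM γ) hrel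
  rw [map_mul, compM_algebraMap, compM_algebraMap, hQ.2 γ hγ, hH.2 γ hγ, ← hrel] at h1
  exact mul_left_cancel₀ hQ' h1

end Range

section Const

variable (Γ : Subgroup SL(2, ℤ)) [Γ.FiniteIndex]

/-- **(F7)** a `Γ`-invariant holomorphic function that is bounded at every cusp is constant. -/
theorem eq_const_of_boundedG (H : Hol) (hinv : ∀ γ ∈ Γ, compSL γ H = H)
    (hbdd : ∀ g : SL(2, ℤ), IsBoundedAtImInfty fun z : ℍ => (H : ℍ → ℂ) (g • z)) :
    ∃ c : ℂ, H = algebraMap ℂ Hol c := by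
  have hslash : ∀ γ : SL(2, ℤ), ((H : ℍ → ℂ) ∣[(0 : ℤ)] γ) = fun z => (H : ℍ → ℂ) (γ • z) := by
    intro γ
    funext z
    rw [ModularForm.SL_slash_apply]
    simp
  let Fm : ModularForm (Γ : Subgroup (GL (Fin 2) ℝ)) 0 :=
    { toFun := (H : ℍ → ℂ)
      slash_action_eq' := by
        rintro _ ⟨γ, hγ, rfl⟩
        show ((H : ℍ → ℂ) ∣[(0 : ℤ)] γ) = _
        rw [hslash]
        funext z
        exact congrFun (congrArg Subtype.val (hinv γ hγ)) z
      holo' := H.2
      bdd_at_cusps' := fun {c} hc => by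
        rw [OnePoint.isBoundedAt_iff_forall_SL2Z (hc.mono (Subgroup.map_le_range _ _))]
        intro γ _
        rw [hslash]
        exact hbdd γ }
  obtain ⟨c, hc⟩ := ModularForm.eq_const_of_weight_zero Fm
  refine ⟨c, Subtype.ext ?_⟩
  exact hc

end Const

/-! ### The quotient hypothesis for the generic realisation of helper30 -/

section RealG

open Fermat.Agent.DS.P1.RealizeGen Fermat.Agent.S28 Fermat.Agent.S28.CuspExp

variable {Γ : Subgroup SL(2, ℤ)} {N : ℕ} [NeZero N] {σ : Type*} (G : σ → Hol)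
  (hCE : ∀ i, IsCE 1 ((G i : Hol) : ℍ → ℂ))

theorem aeval_mem_IMGG (hG : ∀ i, G i ∈ IMGG Γ N) (P : MvPolynomial σ ℂ) :
    MvPolynomial.aeval G P ∈ IMGG Γ N := by
  have h : MvPolynomial.aeval G P ∈ Algebra.adjoin ℂ (Set.range G) := by
    rw [Algebra.adjoin_range_eq_range_aeval]
    exact ⟨P, rfl⟩
  exact Algebra.adjoin_le (S := IMGG Γ N) (by rintro _ ⟨i, rfl⟩; exact hG i) h

/-- every element of `FG G` is a quotient of polynomials in the generators -/
theorem exists_aeval_div_FG (f : FG G) : ∃ r s : MvPolynomial σ ℂ,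
    f = MvPolynomial.aeval (gen G) r / MvPolynomial.aeval (gen G) s := by
  have hf : (f : LaurentSeries ℂ) ∈ IntermediateField.adjoin ℂ (Set.range (genSer G)) := f.2
  obtain ⟨r, s, hrs⟩ := (IntermediateField.mem_adjoin_range_iff ℂ (genSer G) _).mp hf
  refine ⟨r, s, Subtype.ext ?_⟩
  have hval : ∀ P : MvPolynomial σ ℂ,
      ((MvPolynomial.aeval (gen G) P : FG G) : LaurentSeries ℂ) =
        MvPolynomial.aeval (genSer G) P := by
    intro P
    have := MvPolynomial.comp_aeval_apply (f := gen G) (FG G).val P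
    exact this
  rw [hrs]
  show _ = ((FG G).val (MvPolynomial.aeval (gen G) r / MvPolynomial.aeval (gen G) s))
  rw [map_div₀]
  show _ = ((MvPolynomial.aeval (gen G) r : FG G) : LaurentSeries ℂ) /
    ((MvPolynomial.aeval (gen G) s : FG G) : LaurentSeries ℂ)
  rw [hval, hval]

/-- **the quotient hypothesis for `realG G hCE`** when all the generators are `Γ`-invariant
holomorphic functions of moderate growth -/
theorem hquot_realG (hG : ∀ i, G i ∈ IMGG Γ N) :
    QuotHyp Γ N ((realG G hCE : FG G →ₐ[ℂ] Mer) : FG G →+* Mer) := by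
  intro f
  obtain ⟨r, s, rfl⟩ := exists_aeval_div_FG G f
  show ∃ H Q : Hol, H ∈ IMGG Γ N ∧ Q ∈ IMGG Γ N ∧ Q ≠ 0 ∧
    algebraMap Hol Mer Q * realG G hCE (MvPolynomial.aeval (gen G) r /
      MvPolynomial.aeval (gen G) s) = algebraMap Hol Mer H
  by_cases hs : MvPolynomial.aeval G s = 0
  · refine ⟨0, 1, (IMGG Γ N).zero_mem, (IMGG Γ N).one_mem, one_ne_zero, ?_⟩
    rw [map_div₀, realG_aeval G hCE s, hs, map_zero, div_zero, mul_zero]
  · refine ⟨MvPolynomial.aeval G r, MvPolynomial.aeval G s,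
      aeval_mem_IMGG G hG r, aeval_mem_IMGG G hG s, hs, ?_⟩
    rw [map_div₀, realG_aeval, realG_aeval, mul_div_cancel₀ _ (algebraMap_ne_zero hs)]

/-- **`SatC` for the generic realisation**: generators in `IMGG Γ N` + field generation ⟹
saturation, in the `hsat` shape of `KumCoreG`. -/
theorem sat_realG (hG : ∀ i, G i ∈ IMGG Γ N)
    (hreal : FieldGenHyp Γ N ((realG G hCE : FG G →ₐ[ℂ] Mer) : FG G →+* Mer))
    {p : ℕ} (hp : 0 < p) :
    ∀ m : Mer, (∀ γ : Γ, compM (γ : SL(2, ℤ)) m = m) →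
      m ^ p ∈ Set.range ((realG G hCE : FG G →ₐ[ℂ] Mer) : FG G →+* Mer) →
      m ∈ Set.range ((realG G hCE : FG G →ₐ[ℂ] Mer) : FG G →+* Mer) :=
  sat_of_fieldGen hreal (hquot_realG G hCE hG) hp

end RealG

end Fermat.Agent.DS.P3.Sat1
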