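/-
S48 / GATE-N, node S48-P3-COH1, generic layer (helper42): ABSTRACT HECKE CORRESPONDENCES on
`Hom(Γ, A)` for an arbitrary subgroup `Γ ≤ SL(2, ℤ)`.

A `HeckeSys Γ` is a finite family of representatives `rep x ∈ GL(2, ℝ)` together with a right
action `perm` of `Γ` on the index set such that `rep x * g ∈ Γ * rep (perm g x)`.  It yields

* the cocycle `c g x ∈ Γ` (`rep x * g = c g x * rep (perm g x)`), `c_mul`;
* the cohomological operator `coh A : Hom(Γ, A) → Hom(Γ, A)`, `(coh φ)(g) = ∑ₓ φ (c g x)`,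
  natural in `A` (`coh_comp`);
* `coh` preserves the homomorphisms killing a conjugation-stable class (parabolic elements,
  elements of finite order): `coh_isParabolicHom`, `coh_kills_finOrder`;
* INDEPENDENCE OF THE REPRESENTATIVES (`coh_eq_of_rep`): changing `rep x` to `δ x * rep x`,
  `δ x ∈ Γ`, does not change `coh`;
* COMPOSITION (`comp`, `coh_comp_sys`): `(S.comp T).coh = S.coh ∘ T.coh` with representatives
  `T.rep y * S.rep x`; hence `S.coh` and `T.coh` commute as soon as the two product systems are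
  equivalent (`commute_of_equiv`), and the compatibility of the permutations is automatic when the
  cosets `Γ * rep z` are pairwise distinct (`perm_eq_of_distinct`).

This is the twin of `S16_helper49/HeckeHom.lean` + `GJ/J2/HeckePar.lean` (Γ₀(N)), made
Γ-generic.  Mathlib + Prelude `IsParabolicHom` + the generic cycle lemmas of `GJ/J2/HeckePar.lean`.
-/
import Mathlib
import Fermat.Prelude.Def_ModularCurve_PeriodMap
import Fermat.Agent.GJ.J2.HeckePar

set_option autoImplicit false

open scoped MatrixGroups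
open Matrix Matrix.SpecialLinearGroup ModularCurve.Period

namespace Fermat.Agent.DS.P3

/-- An abstract Hecke correspondence on `Γ ≤ SL(2, ℤ)`: finitely many representatives in
`GL(2, ℝ)`, permuted by right multiplication by `Γ` up to left multiplication by `Γ`. -/
structure HeckeSys (Γ : Subgroup SL(2, ℤ)) where
  /-- the index set -/
  X : Type
  /-- the index set is finite -/
  instFintype : Fintype X
  /-- the representatives -/
  rep : X → GL (Fin 2) ℝ
  /-- the (right) action of `Γ` on the index set -/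
  perm : Γ → Equiv.Perm X
  perm_mul : ∀ (g h : Γ) (x : X), perm (g * h) x = perm h (perm g x)
  rel : ∀ (g : Γ) (x : X), ∃ g' : SL(2, ℤ), g' ∈ Γ ∧
    rep x * mapGL ℝ (g : SL(2, ℤ)) = mapGL ℝ g' * rep (perm g x)

namespace HeckeSys

attribute [instance] HeckeSys.instFintype

variable {Γ : Subgroup SL(2, ℤ)} (S : HeckeSys Γ)

/-- the cocycle: `rep x * g = c g x * rep (perm g x)` -/
noncomputable def c (g : Γ) (x : S.X) : Γ :=
  ⟨(S.rel g x).choose, (S.rel g x).choose_spec.1⟩

theorem c_rel (g : Γ) (x : S.X) :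
    S.rep x * mapGL ℝ (g : SL(2, ℤ)) = mapGL ℝ (S.c g x : SL(2, ℤ)) * S.rep (S.perm g x) :=
  (S.rel g x).choose_spec.2

theorem c_unique {g : Γ} {x : S.X} {g' : SL(2, ℤ)}
    (h : S.rep x * mapGL ℝ (g : SL(2, ℤ)) = mapGL ℝ g' * S.rep (S.perm g x)) :
    (S.c g x : SL(2, ℤ)) = g' := by
  have h1 := S.c_rel g x
  rw [h] at h1
  exact (mapGL_injective (R := ℤ) (S := ℝ) (mul_right_cancel h1)).symm

/-- the value of the cocycle as a conjugate in `GL(2, ℝ)` -/
theorem mapGL_c (g : Γ) (x : S.X) :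
    mapGL ℝ (S.c g x : SL(2, ℤ))
      = S.rep x * mapGL ℝ (g : SL(2, ℤ)) * (S.rep (S.perm g x))⁻¹ := by
  rw [S.c_rel g x, mul_inv_cancel_right]

/-- the cocycle relation -/
theorem c_mul (g h : Γ) (x : S.X) :
    S.c (g * h) x = S.c g x * S.c h (S.perm g x) := by
  apply Subtype.ext
  rw [Subgroup.coe_mul]
  apply S.c_unique
  rw [Subgroup.coe_mul, map_mul, ← mul_assoc, S.c_rel g x, mul_assoc, S.c_rel h, ← mul_assoc,
    ← map_mul, S.perm_mul]

theorem perm_one (x : S.X) : S.perm 1 x = x :=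
  Fermat.Agent.GJ.J2.Lat.datum_sigma_one S.perm S.perm_mul x

theorem c_one (x : S.X) : S.c 1 x = 1 :=
  Fermat.Agent.GJ.J2.Lat.datum_c_one S.perm S.c S.c_mul x

section Coh

variable {A : Type*} [AddCommGroup A]

/-- the value of the cohomological operator -/
noncomputable def cohFun (φ : Additive Γ →+ A) : Additive Γ →+ A :=
  AddMonoidHom.mk' (fun g => ∑ x : S.X, φ (Additive.ofMul (S.c (Additive.toMul g) x)))
    (by
      intro g h
      show ∑ x : S.X, φ (Additive.ofMul (S.c (Additive.toMul g * Additive.toMul h) x)) = _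
      simp_rw [S.c_mul, ofMul_mul, map_add]
      rw [Finset.sum_add_distrib]
      congr 1
      exact Equiv.sum_comp (S.perm (Additive.toMul g))
        (fun x => φ (Additive.ofMul (S.c (Additive.toMul h) x))))

variable (A) in
/-- **the cohomological Hecke operator of the correspondence `S` on `Hom(Γ, A)`** -/
noncomputable def coh : (Additive Γ →+ A) →+ (Additive Γ →+ A) where
  toFun := S.cohFun
  map_zero' := by
    refine AddMonoidHom.ext fun g => ?_
    show ∑ x : S.X, (0 : Additive Γ →+ A) _ = 0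
    simp
  map_add' φ ψ := by
    refine AddMonoidHom.ext fun g => ?_
    show ∑ x : S.X, (φ + ψ) _ = (∑ x : S.X, φ _) + ∑ x : S.X, ψ _
    simp [Finset.sum_add_distrib]

theorem coh_apply (φ : Additive Γ →+ A) (g : Γ) :
    S.coh A φ (Additive.ofMul g) = ∑ x : S.X, φ (Additive.ofMul (S.c g x)) := rfl

/-- naturality in the coefficient group -/
theorem coh_comp {B : Type*} [AddCommGroup B] (f : A →+ B) (φ : Additive Γ →+ A) :
    S.coh B (f.comp φ) = f.comp (S.coh A φ) := by
  refine AddMonoidHom.ext fun g => ?_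
  obtain ⟨g, rfl⟩ : ∃ g' : Γ, Additive.ofMul g' = g := ⟨Additive.toMul g, rfl⟩
  rw [coh_apply, AddMonoidHom.comp_apply, coh_apply, map_sum]
  rfl

theorem coh_smul {R : Type*} [Ring R] [Module R A] (r : R) (φ : Additive Γ →+ A) :
    S.coh A (r • φ) = r • S.coh A φ := by
  refine AddMonoidHom.ext fun g => ?_
  obtain ⟨g, rfl⟩ : ∃ g' : Γ, Additive.ofMul g' = g := ⟨Additive.toMul g, rfl⟩
  rw [coh_apply, AddMonoidHom.smul_apply, coh_apply, Finset.smul_sum]
  rfl

end Coh

/-! ### Conjugation-stable classes -/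

/-- A predicate on `Γ` stable under positive powers and under conjugation inside `GL₂(ℝ)`. -/
structure IsConjStableG (P : Γ → Prop) : Prop where
  pow : ∀ (g : Γ) (r : ℕ), 0 < r → P g → P (g ^ r)
  conj : ∀ (g g' : Γ) (a : GL (Fin 2) ℝ),
    a * mapGL ℝ (g : SL(2, ℤ)) = mapGL ℝ (g' : SL(2, ℤ)) * a → P g → P g'

theorem isConjStableG_parabolic (Γ : Subgroup SL(2, ℤ)) :
    IsConjStableG (Γ := Γ)
      (fun g => ((g : SL(2, ℤ)) : Matrix (Fin 2) (Fin 2) ℤ).trace ^ 2 = 4) where
  pow g r _ hg := by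
    rw [Subgroup.coe_pow]
    exact Fermat.Agent.GJ.J2.Lat.trace_sq_pow_SL _ hg r
  conj g g' a h hg := by
    rw [Fermat.Agent.GJ.J2.Lat.trace_eq_of_conj _ _ a h]
    exact hg

theorem isConjStableG_finOrder (Γ : Subgroup SL(2, ℤ)) :
    IsConjStableG (Γ := Γ) (fun g => IsOfFinOrder g) where
  pow g r _ hg := hg.pow
  conj g g' a h hg := by
    have h1 : IsOfFinOrder (g : SL(2, ℤ)) :=
      (Submonoid.isOfFinOrder_coe (H := Γ.toSubmonoid) (x := g)).mpr hg
    exact (Submonoid.isOfFinOrder_coe (H := Γ.toSubmonoid) (x := g')).mp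
      (Fermat.Agent.GJ.J2.Lat.isOfFinOrder_of_conj _ _ a h h1)

section Kills

variable {A : Type*} [AddCommGroup A]

/-- `coh` preserves the homomorphisms killing a conjugation-stable class. -/
theorem coh_kills {P : Γ → Prop} (hP : IsConjStableG P) (φ : Additive Γ →+ A)
    (hφ : ∀ g, P g → φ (Additive.ofMul g) = 0) (g : Γ) (hg : P g) :
    S.coh A φ (Additive.ofMul g) = 0 := by
  classical
  rw [coh_apply]
  refine Fermat.Agent.GJ.J2.Lat.datum_sum_eq_zero S.perm S.c S.perm_mul S.c_mul P hP.pow ?_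
    φ hφ g hg
  intro g x hx hg
  have h := S.c_rel g x
  rw [hx] at h
  exact hP.conj g _ _ h hg

/-- **`coh` preserves parabolic homomorphisms** (any coefficient group). -/
theorem coh_isParabolicHom (φ : Additive Γ →+ A) (hφ : IsParabolicHom Γ φ) :
    IsParabolicHom Γ (S.coh A φ) :=
  fun g hg => S.coh_kills (isConjStableG_parabolic Γ) φ hφ g hg

/-- **`coh` preserves the homomorphisms killing all elements of finite order.** -/
theorem coh_kills_finOrder (φ : Additive Γ →+ A)
    (hφ : ∀ g : Γ, IsOfFinOrder g → φ (Additive.ofMul g) = 0)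
    (g : Γ) (hg : IsOfFinOrder g) : S.coh A φ (Additive.ofMul g) = 0 :=
  S.coh_kills (isConjStableG_finOrder Γ) φ hφ g hg

end Kills

/-! ### Independence of the representatives -/

section Indep

variable {A : Type*} [AddCommGroup A]

/-- the cocycle of a system whose representatives are `δ x * rep x` -/
theorem c_of_rep {S S' : HeckeSys Γ} (e : S.X ≃ S'.X) (δ : S.X → Γ)
    (hrep : ∀ x, S'.rep (e x) = mapGL ℝ (δ x : SL(2, ℤ)) * S.rep x)
    (hperm : ∀ (g : Γ) (x : S.X), S'.perm g (e x) = e (S.perm g x)) (g : Γ) (x : S.X) :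
    S'.c g (e x) = δ x * S.c g x * (δ (S.perm g x))⁻¹ := by
  apply Subtype.ext
  apply S'.c_unique
  rw [hperm, hrep, hrep, mul_assoc, S.c_rel g x]
  simp only [Subgroup.coe_mul, Subgroup.coe_inv, map_mul, map_inv]
  group

/-- **Independence of the representatives**: two systems whose representatives differ by left
multiplication by elements of `Γ` (compatibly with the permutations) define the same operator on
`Hom(Γ, A)`. -/
theorem coh_eq_of_rep {S S' : HeckeSys Γ} (e : S.X ≃ S'.X) (δ : S.X → Γ)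
    (hrep : ∀ x, S'.rep (e x) = mapGL ℝ (δ x : SL(2, ℤ)) * S.rep x)
    (hperm : ∀ (g : Γ) (x : S.X), S'.perm g (e x) = e (S.perm g x)) :
    S'.coh A = S.coh A := by
  refine AddMonoidHom.ext fun φ => AddMonoidHom.ext fun g => ?_
  obtain ⟨g, rfl⟩ : ∃ g' : Γ, Additive.ofMul g' = g := ⟨Additive.toMul g, rfl⟩
  rw [coh_apply, coh_apply, ← Equiv.sum_comp e]
  simp_rw [c_of_rep e δ hrep hperm, ofMul_mul, ofMul_inv, map_add, map_neg]
  rw [Finset.sum_add_distrib, Finset.sum_add_distrib, Finset.sum_neg_distrib,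
    Equiv.sum_comp (S.perm g) (fun x => φ (Additive.ofMul (δ x)))]
  abel

/-- If the cosets `Γ * rep z` of `S'` are pairwise distinct, the compatibility of the permutations
in `coh_eq_of_rep` is automatic. -/
theorem perm_eq_of_distinct {S S' : HeckeSys Γ} (e : S.X ≃ S'.X) (δ : S.X → Γ)
    (hrep : ∀ x, S'.rep (e x) = mapGL ℝ (δ x : SL(2, ℤ)) * S.rep x)
    (hdist : ∀ (z z' : S'.X) (γ : Γ), S'.rep z' = mapGL ℝ (γ : SL(2, ℤ)) * S'.rep z → z' = z)
    (g : Γ) (x : S.X) : S'.perm g (e x) = e (S.perm g x) := by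
  refine hdist (e (S.perm g x)) (S'.perm g (e x))
    ((S'.c g (e x))⁻¹ * δ x * S.c g x * (δ (S.perm g x))⁻¹) ?_
  have h1 := S'.c_rel g (e x)
  have h2 := S.c_rel g x
  rw [hrep x, mul_assoc, h2] at h1
  rw [hrep (S.perm g x)]
  simp only [Subgroup.coe_mul, Subgroup.coe_inv, map_mul, map_inv]
  have h3 : S'.rep (S'.perm g (e x))
      = (mapGL ℝ (S'.c g (e x) : SL(2, ℤ)))⁻¹ *
        (mapGL ℝ (δ x : SL(2, ℤ)) * (mapGL ℝ (S.c g x : SL(2, ℤ)) * S.rep (S.perm g x))) := by
    rw [h1, inv_mul_cancel_left]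
  rw [h3]
  group

end Indep

/-! ### Composition of correspondences -/

/-- the composite correspondence: representatives `T.rep y * S.rep x` -/
noncomputable def comp (S T : HeckeSys Γ) : HeckeSys Γ where
  X := S.X × T.X
  instFintype := inferInstance
  rep z := T.rep z.2 * S.rep z.1
  perm g :=
    { toFun := fun z => (S.perm g z.1, T.perm (S.c g z.1) z.2)
      invFun := fun z => ((S.perm g).symm z.1, (T.perm (S.c g ((S.perm g).symm z.1))).symm z.2)
      left_inv := by
        intro z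
        simp
      right_inv := by
        intro z
        simp }
  perm_mul g h z := by
    show (S.perm (g * h) z.1, T.perm (S.c (g * h) z.1) z.2)
      = (S.perm h (S.perm g z.1), T.perm (S.c h (S.perm g z.1)) (T.perm (S.c g z.1) z.2))
    rw [S.perm_mul, S.c_mul, T.perm_mul]
  rel g z := by
    refine ⟨(T.c (S.c g z.1) z.2 : SL(2, ℤ)), (T.c (S.c g z.1) z.2).2, ?_⟩
    show T.rep z.2 * S.rep z.1 * mapGL ℝ (g : SL(2, ℤ))
      = mapGL ℝ (T.c (S.c g z.1) z.2 : SL(2, ℤ)) *
        (T.rep (T.perm (S.c g z.1) z.2) * S.rep (S.perm g z.1))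
    rw [mul_assoc, S.c_rel g z.1, ← mul_assoc, T.c_rel, mul_assoc]

theorem comp_perm_apply (S T : HeckeSys Γ) (g : Γ) (z : S.X × T.X) :
    (S.comp T).perm g z = (S.perm g z.1, T.perm (S.c g z.1) z.2) := rfl

theorem comp_rep (S T : HeckeSys Γ) (z : S.X × T.X) :
    (S.comp T).rep z = T.rep z.2 * S.rep z.1 := rfl

theorem comp_c (S T : HeckeSys Γ) (g : Γ) (z : S.X × T.X) :
    (S.comp T).c g z = T.c (S.c g z.1) z.2 := by
  apply Subtype.ext
  apply (S.comp T).c_unique
  show T.rep z.2 * S.rep z.1 * mapGL ℝ (g : SL(2, ℤ))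
    = mapGL ℝ (T.c (S.c g z.1) z.2 : SL(2, ℤ)) *
      (T.rep (T.perm (S.c g z.1) z.2) * S.rep (S.perm g z.1))
  rw [mul_assoc, S.c_rel g z.1, ← mul_assoc, T.c_rel, mul_assoc]

/-- **the operator of the composite correspondence is the composite of the operators** -/
theorem coh_comp_sys (S T : HeckeSys Γ) {A : Type*} [AddCommGroup A] (φ : Additive Γ →+ A) :
    (S.comp T).coh A φ = S.coh A (T.coh A φ) := by
  refine AddMonoidHom.ext fun g => ?_
  obtain ⟨g, rfl⟩ : ∃ g' : Γ, Additive.ofMul g' = g := ⟨Additive.toMul g, rfl⟩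
  rw [coh_apply, coh_apply]
  simp_rw [coh_apply, comp_c]
  exact Fintype.sum_prod_type _

/-- **Commutation criterion**: if the product systems `S.comp T` and `T.comp S` have the same
representatives up to left multiplication by `Γ` (compatibly with the permutations), then the
operators of `S` and `T` commute on `Hom(Γ, A)`. -/
theorem commute_of_equiv (S T : HeckeSys Γ) (e : (S.comp T).X ≃ (T.comp S).X)
    (δ : (S.comp T).X → Γ)
    (hrep : ∀ z, (T.comp S).rep (e z) = mapGL ℝ (δ z : SL(2, ℤ)) * (S.comp T).rep z)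
    (hperm : ∀ (g : Γ) (z : (S.comp T).X), (T.comp S).perm g (e z) = e ((S.comp T).perm g z))
    {A : Type*} [AddCommGroup A] (φ : Additive Γ →+ A) :
    T.coh A (S.coh A φ) = S.coh A (T.coh A φ) := by
  rw [← coh_comp_sys, ← coh_comp_sys, coh_eq_of_rep e δ hrep hperm]

end HeckeSys

end Fermat.Agent.DS.P3
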