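/-
S48 / GATE-N, node S48-P3-COH1 (helper42): the cohomological Hecke operators `cohT1 ℓ` (`ℓ ∤ N`)
and diamond operators `diaCoh d` (`d ∈ (ℤ/N)ˣ`) on `Hom(Γ₁(N), A)`, for every coefficient group `A`.

Twin of `S16_helper49/HeckeHom.lean` (`cohT` on `Γ₀(N)`) + `GJ/J2/HeckePar.lean` §T, built on the
generic layer `DS/P3/HeckeSys.lean` and on helper10's coset relation `DS/N0/HeckeGamma1.rep1_mul`.

* `sysT hℓN σ hσ0 hσ1 : HeckeSys (Gamma1 N)` : representatives `rep1 ℓ σ` (`[1 j; 0 ℓ]` and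
  `σ · diag(ℓ, 1)`, `σ ∈ Γ₀(N)`, `σ₁₁ ≡ ℓ`), permutation `redMat ℓ g` of `ℙ¹(𝔽_ℓ)`;
* `sysD σ hσ0 : HeckeSys (Gamma1 N)` : the single representative `σ ∈ Γ₀(N)` (a diamond);
* `sigmaOf u` : a chosen `σ ∈ Γ₀(N)` with `σ₁₁ ≡ u`; `cohT1 hℓN A`, `diaCoh d A` : the canonical
  operators; `cohT1_eq`, `diaCoh_eq` : they do not depend on the choice of `σ`;
* `diaCoh_apply'` : `(diaCoh d φ)(g) = φ(σ g σ⁻¹)`; `diaCoh_one`, `diaCoh_mul`;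
* `cohT1_isParabolicHom`, `diaCoh_isParabolicHom`, `…_kills_finOrder`, `cohT1_comp`, `diaCoh_comp`.
-/
import Mathlib
import Fermat.Agent.DS.P3.HeckeSys
import Fermat.Agent.DS.N0.HeckeGamma1

set_option autoImplicit false

open scoped MatrixGroups
open Matrix Matrix.SpecialLinearGroup ModularCurve.Period CongruenceSubgroup ModularForm
open Fermat.Agent.DS.N0

namespace Fermat.Agent.DS.P3.Coh1

open Fermat.Agent.DS.P3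

variable {N : ℕ}

/-! ### The reduction `redMat` is an anti-homomorphism -/

section Red

variable {ℓ : ℕ} [Fact ℓ.Prime]

theorem redMat_mul (g h : SL(2, ℤ)) : redMat ℓ (g * h) = redMat ℓ h * redMat ℓ g := by
  apply Matrix.GeneralLinearGroup.ext
  intro i j
  rw [Matrix.GeneralLinearGroup.coe_mul, Matrix.mul_apply, Fin.sum_univ_two]
  fin_cases i <;> fin_cases j <;>
    simp [Matrix.mul_apply, Fin.sum_univ_two] <;> ring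

end Red

/-! ### The Hecke systems -/

section Sys

variable {ℓ : ℕ} [Fact ℓ.Prime]

/-- the Hecke correspondence `T_ℓ` on `Γ₁(N)`, with the diamond representative `σ` -/
noncomputable def sysT (hℓN : ¬ ℓ ∣ N) (σ : SL(2, ℤ)) (hσ0 : (N : ℤ) ∣ σ 1 0)
    (hσ1 : ((σ 1 1 : ℤ) : ZMod N) = (ℓ : ZMod N)) : HeckeSys (Gamma1 N) where
  X := OnePoint (ZMod ℓ)
  instFintype := inferInstance
  rep := rep1 ℓ σ
  perm g := MulAction.toPerm (redMat ℓ (g : SL(2, ℤ)))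
  perm_mul g h x := by
    show redMat ℓ ((g * h : Gamma1 N) : SL(2, ℤ)) • x
      = redMat ℓ (h : SL(2, ℤ)) • redMat ℓ (g : SL(2, ℤ)) • x
    rw [Subgroup.coe_mul, redMat_mul, mul_smul]
  rel g x := rep1_mul hℓN σ hσ0 hσ1 (g : SL(2, ℤ)) g.2 x

theorem sysT_rep (hℓN : ¬ ℓ ∣ N) (σ : SL(2, ℤ)) (hσ0 : (N : ℤ) ∣ σ 1 0)
    (hσ1 : ((σ 1 1 : ℤ) : ZMod N) = (ℓ : ZMod N)) (x : OnePoint (ZMod ℓ)) :
    (sysT hℓN σ hσ0 hσ1).rep x = rep1 ℓ σ x := rfl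

theorem sysT_perm (hℓN : ¬ ℓ ∣ N) (σ : SL(2, ℤ)) (hσ0 : (N : ℤ) ∣ σ 1 0)
    (hσ1 : ((σ 1 1 : ℤ) : ZMod N) = (ℓ : ZMod N)) (g : Gamma1 N) (x : OnePoint (ZMod ℓ)) :
    (sysT hℓN σ hσ0 hσ1).perm g x = redMat ℓ (g : SL(2, ℤ)) • x := rfl

end Sys

/-- the diamond correspondence of `σ ∈ Γ₀(N)` on `Γ₁(N)` -/
noncomputable def sysD (σ : SL(2, ℤ)) (hσ0 : (N : ℤ) ∣ σ 1 0) : HeckeSys (Gamma1 N) where
  X := Unit
  instFintype := inferInstance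
  rep _ := mapGL ℝ σ
  perm _ := 1
  perm_mul _ _ _ := rfl
  rel g _ := ⟨σ * (g : SL(2, ℤ)) * σ⁻¹, conj_mem_Gamma1 hσ0 g.2, by
    rw [map_mul, map_mul, map_inv]
    simp⟩

theorem sysD_c (σ : SL(2, ℤ)) (hσ0 : (N : ℤ) ∣ σ 1 0) (g : Gamma1 N) (x : Unit) :
    ((sysD σ hσ0).c g x : SL(2, ℤ)) = σ * (g : SL(2, ℤ)) * σ⁻¹ := by
  apply (sysD σ hσ0).c_unique
  show mapGL ℝ σ * mapGL ℝ (g : SL(2, ℤ)) = mapGL ℝ (σ * (g : SL(2, ℤ)) * σ⁻¹) * mapGL ℝ σ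
  rw [map_mul, map_mul, map_inv]
  simp

/-- the conjugation `g ↦ σ g σ⁻¹` of `Γ₁(N)` by `σ ∈ Γ₀(N)` -/
noncomputable def conjG1 (σ : SL(2, ℤ)) (hσ0 : (N : ℤ) ∣ σ 1 0) (g : Gamma1 N) : Gamma1 N :=
  ⟨σ * (g : SL(2, ℤ)) * σ⁻¹, conj_mem_Gamma1 hσ0 g.2⟩

theorem sysD_c_eq (σ : SL(2, ℤ)) (hσ0 : (N : ℤ) ∣ σ 1 0) (g : Gamma1 N) (x : Unit) :
    (sysD σ hσ0).c g x = conjG1 σ hσ0 g :=
  Subtype.ext (sysD_c σ hσ0 g x)

theorem sysD_coh_apply {A : Type*} [AddCommGroup A] (σ : SL(2, ℤ)) (hσ0 : (N : ℤ) ∣ σ 1 0)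
    (φ : Additive (Gamma1 N) →+ A) (g : Gamma1 N) :
    (sysD σ hσ0).coh A φ (Additive.ofMul g) = φ (Additive.ofMul (conjG1 σ hσ0 g)) := by
  rw [HeckeSys.coh_apply]
  show ∑ x : Unit, φ (Additive.ofMul ((sysD σ hσ0).c g x)) = _
  rw [Fintype.sum_unique, sysD_c_eq]

/-! ### Independence of the diamond representative -/

section Indep

variable {A : Type*} [AddCommGroup A]

/-- two elements of `Γ₀(N)` with the same lower right entry mod `N` differ by `Γ₁(N)` -/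
theorem mul_inv_mem_Gamma1 {σ σ' : SL(2, ℤ)} (hσ0 : (N : ℤ) ∣ σ 1 0) (hσ'0 : (N : ℤ) ∣ σ' 1 0)
    (h : ((σ' 1 1 : ℤ) : ZMod N) = ((σ 1 1 : ℤ) : ZMod N)) : σ' * σ⁻¹ ∈ Gamma1 N := by
  rw [mem_Gamma1_iff_dvd_and]
  refine ⟨dvd_mul_apply_one_zero hσ'0 (dvd_inv_apply_one_zero hσ0), ?_⟩
  rw [cast_mul_apply_one_one hσ'0, sl_inv_apply_one_one, h, mul_comm]
  exact cast_zero_zero_mul_one_one hσ0

theorem sysD_coh_eq {σ σ' : SL(2, ℤ)} (hσ0 : (N : ℤ) ∣ σ 1 0) (hσ'0 : (N : ℤ) ∣ σ' 1 0)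
    (h : ((σ' 1 1 : ℤ) : ZMod N) = ((σ 1 1 : ℤ) : ZMod N)) :
    (sysD σ' hσ'0).coh A = (sysD σ hσ0).coh A := by
  refine HeckeSys.coh_eq_of_rep (S := sysD σ hσ0) (S' := sysD σ' hσ'0) (Equiv.refl _)
    (fun _ => ⟨σ' * σ⁻¹, mul_inv_mem_Gamma1 hσ0 hσ'0 h⟩) ?_ ?_
  · intro x
    show mapGL ℝ σ' = mapGL ℝ (σ' * σ⁻¹) * mapGL ℝ σ
    rw [← map_mul, inv_mul_cancel_right]
  · intro g x
    rfl

variable {ℓ : ℕ} [Fact ℓ.Prime]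

theorem sysT_coh_eq (hℓN : ¬ ℓ ∣ N) {σ σ' : SL(2, ℤ)} (hσ0 : (N : ℤ) ∣ σ 1 0)
    (hσ1 : ((σ 1 1 : ℤ) : ZMod N) = (ℓ : ZMod N)) (hσ'0 : (N : ℤ) ∣ σ' 1 0)
    (hσ'1 : ((σ' 1 1 : ℤ) : ZMod N) = (ℓ : ZMod N)) :
    (sysT hℓN σ' hσ'0 hσ'1).coh A = (sysT hℓN σ hσ0 hσ1).coh A := by
  classical
  refine HeckeSys.coh_eq_of_rep (S := sysT hℓN σ hσ0 hσ1) (S' := sysT hℓN σ' hσ'0 hσ'1)
    (Equiv.refl _)
    (fun x => x.elim ⟨σ' * σ⁻¹, mul_inv_mem_Gamma1 hσ0 hσ'0 (hσ'1.trans hσ1.symm)⟩ (fun _ => 1))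
    ?_ ?_
  · intro x
    induction x using OnePoint.rec with
    | infty =>
      show mapGL ℝ σ' * heckeDiagMatrix ℓ = mapGL ℝ (σ' * σ⁻¹) * (mapGL ℝ σ * heckeDiagMatrix ℓ)
      rw [← mul_assoc, ← map_mul, inv_mul_cancel_right]
    | coe j =>
      show heckeMatrix ℓ j.val = mapGL ℝ ((1 : Gamma1 N) : SL(2, ℤ)) * heckeMatrix ℓ j.val
      rw [Subgroup.coe_one, map_one, one_mul]
  · intro g x
    rfl

end Indep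

/-! ### The canonical operators -/

/-- every unit of `ℤ/N` is the lower right entry of an element of `Γ₀(N)` -/
theorem exists_sigma [NeZero N] (u : (ZMod N)ˣ) :
    ∃ σ : SL(2, ℤ), (N : ℤ) ∣ σ 1 0 ∧ ((σ 1 1 : ℤ) : ZMod N) = (u : ZMod N) := by
  have hcop : Nat.Coprime (u : ZMod N).val N := ZMod.val_coe_unit_coprime u
  have hcop' : IsCoprime (((u : ZMod N).val : ℕ) : ℤ) (N : ℤ) :=
    Nat.isCoprime_iff_coprime.mpr hcop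
  obtain ⟨a, b, hab⟩ := hcop'
  refine ⟨⟨!![a, -b; (N : ℤ), ((u : ZMod N).val : ℤ)], ?_⟩, ?_, ?_⟩
  · rw [Matrix.det_fin_two_of]
    linarith
  · show (N : ℤ) ∣ (N : ℤ)
    exact dvd_rfl
  · show ((((u : ZMod N).val : ℕ) : ℤ) : ZMod N) = (u : ZMod N)
    rw [Int.cast_natCast, ZMod.natCast_zmod_val]

/-- a chosen element of `Γ₀(N)` with lower right entry `≡ u` -/
noncomputable def sigmaOf [NeZero N] (u : (ZMod N)ˣ) : SL(2, ℤ) := (exists_sigma u).choose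

theorem sigmaOf_dvd [NeZero N] (u : (ZMod N)ˣ) : (N : ℤ) ∣ sigmaOf u 1 0 :=
  (exists_sigma u).choose_spec.1

theorem sigmaOf_cast [NeZero N] (u : (ZMod N)ˣ) :
    ((sigmaOf u 1 1 : ℤ) : ZMod N) = (u : ZMod N) :=
  (exists_sigma u).choose_spec.2

/-- the class of a prime `ℓ ∤ N` in `(ℤ/N)ˣ` -/
noncomputable def unitOf {ℓ : ℕ} [Fact ℓ.Prime] (hℓN : ¬ ℓ ∣ N) : (ZMod N)ˣ :=
  ZMod.unitOfCoprime ℓ ((Nat.Prime.coprime_iff_not_dvd Fact.out).mpr hℓN)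

theorem coe_unitOf {ℓ : ℕ} [Fact ℓ.Prime] (hℓN : ¬ ℓ ∣ N) :
    ((unitOf hℓN : (ZMod N)ˣ) : ZMod N) = (ℓ : ZMod N) :=
  ZMod.coe_unitOfCoprime ℓ _

section Canonical

variable [NeZero N] (A : Type*) [AddCommGroup A]

/-- **the diamond operator `⟨d⟩` on `Hom(Γ₁(N), A)`**: `φ ↦ φ ∘ (g ↦ σ g σ⁻¹)`, `σ ∈ Γ₀(N)`,
`σ₁₁ ≡ d` -/
noncomputable def diaCoh (d : (ZMod N)ˣ) :
    (Additive (Gamma1 N) →+ A) →+ (Additive (Gamma1 N) →+ A) :=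
  (sysD (sigmaOf d) (sigmaOf_dvd d)).coh A

/-- **the cohomological Hecke operator `T_ℓ` (`ℓ ∤ N`) on `Hom(Γ₁(N), A)`** -/
noncomputable def cohT1 {ℓ : ℕ} [Fact ℓ.Prime] (hℓN : ¬ ℓ ∣ N) :
    (Additive (Gamma1 N) →+ A) →+ (Additive (Gamma1 N) →+ A) :=
  (sysT hℓN (sigmaOf (unitOf hℓN)) (sigmaOf_dvd _)
    ((sigmaOf_cast _).trans (coe_unitOf hℓN))).coh A

variable {A}

/-- `diaCoh d` may be computed with any `σ ∈ Γ₀(N)`, `σ₁₁ ≡ d` -/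
theorem diaCoh_eq (d : (ZMod N)ˣ) (σ : SL(2, ℤ)) (hσ0 : (N : ℤ) ∣ σ 1 0)
    (hσ1 : ((σ 1 1 : ℤ) : ZMod N) = (d : ZMod N)) :
    diaCoh A d = (sysD σ hσ0).coh A :=
  sysD_coh_eq hσ0 (sigmaOf_dvd d) ((sigmaOf_cast d).trans hσ1.symm)

/-- `cohT1` may be computed with any `σ ∈ Γ₀(N)`, `σ₁₁ ≡ ℓ` -/
theorem cohT1_eq {ℓ : ℕ} [Fact ℓ.Prime] (hℓN : ¬ ℓ ∣ N) (σ : SL(2, ℤ)) (hσ0 : (N : ℤ) ∣ σ 1 0)
    (hσ1 : ((σ 1 1 : ℤ) : ZMod N) = (ℓ : ZMod N)) :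
    cohT1 A hℓN = (sysT hℓN σ hσ0 hσ1).coh A :=
  sysT_coh_eq hℓN hσ0 hσ1 (sigmaOf_dvd _) ((sigmaOf_cast _).trans (coe_unitOf hℓN))

theorem diaCoh_apply' (d : (ZMod N)ˣ) (σ : SL(2, ℤ)) (hσ0 : (N : ℤ) ∣ σ 1 0)
    (hσ1 : ((σ 1 1 : ℤ) : ZMod N) = (d : ZMod N)) (φ : Additive (Gamma1 N) →+ A)
    (g : Gamma1 N) :
    diaCoh A d φ (Additive.ofMul g) = φ (Additive.ofMul (conjG1 σ hσ0 g)) := by
  rw [diaCoh_eq d σ hσ0 hσ1, sysD_coh_apply]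

theorem cohT1_apply {ℓ : ℕ} [Fact ℓ.Prime] (hℓN : ¬ ℓ ∣ N) (σ : SL(2, ℤ))
    (hσ0 : (N : ℤ) ∣ σ 1 0) (hσ1 : ((σ 1 1 : ℤ) : ZMod N) = (ℓ : ZMod N))
    (φ : Additive (Gamma1 N) →+ A) (g : Gamma1 N) :
    cohT1 A hℓN φ (Additive.ofMul g)
      = ∑ x : OnePoint (ZMod ℓ), φ (Additive.ofMul ((sysT hℓN σ hσ0 hσ1).c g x)) := by
  rw [cohT1_eq hℓN σ hσ0 hσ1]
  rfl

/-- naturality in the coefficients -/
theorem cohT1_comp {ℓ : ℕ} [Fact ℓ.Prime] (hℓN : ¬ ℓ ∣ N) {B : Type*} [AddCommGroup B]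
    (f : A →+ B) (φ : Additive (Gamma1 N) →+ A) :
    cohT1 B hℓN (f.comp φ) = f.comp (cohT1 A hℓN φ) :=
  HeckeSys.coh_comp _ f φ

theorem diaCoh_comp (d : (ZMod N)ˣ) {B : Type*} [AddCommGroup B]
    (f : A →+ B) (φ : Additive (Gamma1 N) →+ A) :
    diaCoh B d (f.comp φ) = f.comp (diaCoh A d φ) :=
  HeckeSys.coh_comp _ f φ

theorem cohT1_smul {ℓ : ℕ} [Fact ℓ.Prime] (hℓN : ¬ ℓ ∣ N) {R : Type*} [Ring R] [Module R A]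
    (r : R) (φ : Additive (Gamma1 N) →+ A) :
    cohT1 A hℓN (r • φ) = r • cohT1 A hℓN φ :=
  HeckeSys.coh_smul _ r φ

theorem diaCoh_smul (d : (ZMod N)ˣ) {R : Type*} [Ring R] [Module R A]
    (r : R) (φ : Additive (Gamma1 N) →+ A) :
    diaCoh A d (r • φ) = r • diaCoh A d φ :=
  HeckeSys.coh_smul _ r φ

/-- **`T_ℓ` preserves parabolic homomorphisms of `Γ₁(N)`** -/
theorem cohT1_isParabolicHom {ℓ : ℕ} [Fact ℓ.Prime] (hℓN : ¬ ℓ ∣ N)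
    (φ : Additive (Gamma1 N) →+ A) (hφ : IsParabolicHom (Gamma1 N) φ) :
    IsParabolicHom (Gamma1 N) (cohT1 A hℓN φ) :=
  HeckeSys.coh_isParabolicHom _ φ hφ

/-- **`⟨d⟩` preserves parabolic homomorphisms of `Γ₁(N)`** -/
theorem diaCoh_isParabolicHom (d : (ZMod N)ˣ)
    (φ : Additive (Gamma1 N) →+ A) (hφ : IsParabolicHom (Gamma1 N) φ) :
    IsParabolicHom (Gamma1 N) (diaCoh A d φ) :=
  HeckeSys.coh_isParabolicHom _ φ hφ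

theorem cohT1_kills_finOrder {ℓ : ℕ} [Fact ℓ.Prime] (hℓN : ¬ ℓ ∣ N)
    (φ : Additive (Gamma1 N) →+ A)
    (hφ : ∀ g : Gamma1 N, IsOfFinOrder g → φ (Additive.ofMul g) = 0)
    (g : Gamma1 N) (hg : IsOfFinOrder g) : cohT1 A hℓN φ (Additive.ofMul g) = 0 :=
  HeckeSys.coh_kills_finOrder _ φ hφ g hg

theorem diaCoh_kills_finOrder (d : (ZMod N)ˣ)
    (φ : Additive (Gamma1 N) →+ A)
    (hφ : ∀ g : Gamma1 N, IsOfFinOrder g → φ (Additive.ofMul g) = 0)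
    (g : Gamma1 N) (hg : IsOfFinOrder g) : diaCoh A d φ (Additive.ofMul g) = 0 :=
  HeckeSys.coh_kills_finOrder _ φ hφ g hg

/-! ### The diamonds form a group action -/

theorem diaCoh_one (φ : Additive (Gamma1 N) →+ A) : diaCoh A (1 : (ZMod N)ˣ) φ = φ := by
  refine AddMonoidHom.ext fun g => ?_
  obtain ⟨g, rfl⟩ : ∃ g' : Gamma1 N, Additive.ofMul g' = g := ⟨Additive.toMul g, rfl⟩
  rw [diaCoh_apply' 1 1 (by simp) (by simp)]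
  congr 2
  apply Subtype.ext
  show (1 : SL(2, ℤ)) * (g : SL(2, ℤ)) * 1⁻¹ = g
  simp

theorem diaCoh_mul (d d' : (ZMod N)ˣ) (φ : Additive (Gamma1 N) →+ A) :
    diaCoh A (d * d') φ = diaCoh A d (diaCoh A d' φ) := by
  refine AddMonoidHom.ext fun g => ?_
  obtain ⟨g, rfl⟩ : ∃ g' : Gamma1 N, Additive.ofMul g' = g := ⟨Additive.toMul g, rfl⟩
  have h0 : (N : ℤ) ∣ (sigmaOf d' * sigmaOf d) 1 0 :=
    dvd_mul_apply_one_zero (sigmaOf_dvd d') (sigmaOf_dvd d)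
  have h1 : (((sigmaOf d' * sigmaOf d) 1 1 : ℤ) : ZMod N) = ((d * d' : (ZMod N)ˣ) : ZMod N) := by
    rw [cast_mul_apply_one_one (sigmaOf_dvd d'), sigmaOf_cast, sigmaOf_cast, Units.val_mul,
      mul_comm]
  rw [diaCoh_apply' (d * d') _ h0 h1, diaCoh_apply' d _ (sigmaOf_dvd d) (sigmaOf_cast d),
    diaCoh_apply' d' _ (sigmaOf_dvd d') (sigmaOf_cast d')]
  congr 2
  apply Subtype.ext
  show sigmaOf d' * sigmaOf d * (g : SL(2, ℤ)) * (sigmaOf d' * sigmaOf d)⁻¹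
    = sigmaOf d' * (sigmaOf d * (g : SL(2, ℤ)) * (sigmaOf d)⁻¹) * (sigmaOf d')⁻¹
  group

theorem diaCoh_comm (d d' : (ZMod N)ˣ) (φ : Additive (Gamma1 N) →+ A) :
    diaCoh A d (diaCoh A d' φ) = diaCoh A d' (diaCoh A d φ) := by
  rw [← diaCoh_mul, ← diaCoh_mul, mul_comm]

end Canonical

end Fermat.Agent.DS.P3.Coh1
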