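/-
GATE-N / S48 J1-port, P3 (EIG twin), leaf S48-P3-HECKEMER1, `Γ₁(M)` part (helper49): the Hecke
norm `heckeNormT1 ℓ σ` and the diamond `diaNorm σ` on T24's `Mer`, their multipliers on `Γ₁(M)`,
and (K4) in the exact shape of helper94's abstract assembly (`hK4`).

Representatives: helper10's `DS.N0.rep1 ℓ σ` (`[1 j; 0 ℓ]` for `j : ZMod ℓ`, `σ · diag(ℓ,1)` at `∞`,
`σ ∈ Γ₀(M)`, `σ₁₁ ≡ ℓ`), i.e. exactly the representatives of helper18's `heckeT1Lin`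
(`σ := primeRep hℓ hℓM`).

The cocycle `c(g, x) ∈ Γ₁(M)` with `rep1 x · g = c(g,x) · rep1 (x·g)` is UNIQUE (`mapGL` is
injective and the representatives are invertible), so the statements below quantify over an
arbitrary family `t` satisfying the relation: they apply verbatim to the cocycle of the
cohomological operator `cohT1` of S48-P3-COH1, whatever its definition.
-/
import Mathlib
import Fermat.Agent.DS.P3.HeckeMerG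
import Fermat.Agent.DS.N0.HeckeGamma1
import Fermat.Agent.DS.Hecke.HeckeNeb

set_option autoImplicit false
set_option linter.unusedSectionVars false

open UpperHalfPlane Complex CongruenceSubgroup
open scoped MatrixGroups

noncomputable section

namespace Fermat.Agent.DS.P3.HeckeMer1

open Fermat.Agent.S24_helper82 Fermat.Agent.GJ.HeckeMer Fermat.Agent.DS.P3.KumCoreG
open Fermat.Agent.DS.P3.HeckeMerG Fermat.Agent.DS.N0 Fermat.Agent.DS.Hecke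
open Matrix.SpecialLinearGroup ModularForm

/-! ### Positivity of the determinants of the representatives -/

theorem det_rep1_pos (ℓ : ℕ) (σ : SL(2, ℤ)) (x : OnePoint (ZMod ℓ)) :
    0 < (rep1 ℓ σ x).det.val := by
  induction x using OnePoint.rec with
  | infty =>
    rw [rep1_infty]
    exact det_mul_pos (det_mapGL_pos σ) (det_heckeDiagMatrix_pos ℓ)
  | coe j =>
    rw [rep1_coe]
    exact det_heckeMatrix_pos ℓ j.val

/-! ### The cocycle of the representatives on `Γ₁(M)` -/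

section Cocycle

variable {M : ℕ} {ℓ : ℕ} [Fact ℓ.Prime]

/-- `σ` is an admissible twist for `T_ℓ` on `Γ₁(M)`: `σ ∈ Γ₀(M)` with lower right entry `≡ ℓ`. -/
structure IsTwist (M ℓ : ℕ) (σ : SL(2, ℤ)) : Prop where
  dvd : (M : ℤ) ∣ σ 1 0
  d_eq : ((σ 1 1 : ℤ) : ZMod M) = (ℓ : ZMod M)

theorem isTwist_primeRep [NeZero M] (hℓ : ℓ.Prime) (hℓM : ¬ ℓ ∣ M) :
    IsTwist M ℓ (primeRep hℓ hℓM) :=
  ⟨primeRep_dvd hℓ hℓM, primeRep_d hℓ hℓM⟩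

/-- The cocycle `c(g, x) ∈ Γ₁(M)` of the representatives `rep1 ℓ σ` (chosen; it is unique, see
`cocT1_unique`). -/
def cocT1 (hℓM : ¬ ℓ ∣ M) {σ : SL(2, ℤ)} (hσ : IsTwist M ℓ σ) (g : Gamma1 M)
    (x : OnePoint (ZMod ℓ)) : Gamma1 M :=
  ⟨(rep1_mul hℓM σ hσ.dvd hσ.d_eq (g : SL(2, ℤ)) g.2 x).choose,
    (rep1_mul hℓM σ hσ.dvd hσ.d_eq (g : SL(2, ℤ)) g.2 x).choose_spec.1⟩

theorem cocT1_rel (hℓM : ¬ ℓ ∣ M) {σ : SL(2, ℤ)} (hσ : IsTwist M ℓ σ) (g : Gamma1 M)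
    (x : OnePoint (ZMod ℓ)) :
    rep1 ℓ σ x * mapGL ℝ (g : SL(2, ℤ))
      = mapGL ℝ ((cocT1 hℓM hσ g x : Gamma1 M) : SL(2, ℤ))
        * rep1 ℓ σ (redMat ℓ (g : SL(2, ℤ)) • x) :=
  (rep1_mul hℓM σ hσ.dvd hσ.d_eq (g : SL(2, ℤ)) g.2 x).choose_spec.2

/-- The cocycle relation determines the cocycle. -/
theorem cocT1_unique (hℓM : ¬ ℓ ∣ M) {σ : SL(2, ℤ)} (hσ : IsTwist M ℓ σ) (g : Gamma1 M)
    (x : OnePoint (ZMod ℓ)) (t : Gamma1 M)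
    (ht : rep1 ℓ σ x * mapGL ℝ (g : SL(2, ℤ))
      = mapGL ℝ ((t : Gamma1 M) : SL(2, ℤ)) * rep1 ℓ σ (redMat ℓ (g : SL(2, ℤ)) • x)) :
    t = cocT1 hℓM hσ g x := by
  have h1 := (cocT1_rel hℓM hσ g x).symm.trans ht
  have h2 := mul_right_cancel h1
  have h3 := mapGL_injective (R := ℤ) (S := ℝ) h2
  exact Subtype.ext h3.symm

/-- The permutation of `ℙ¹(𝔽_ℓ)` induced by `g`. -/
def permT1 (ℓ : ℕ) [Fact ℓ.Prime] (g : SL(2, ℤ)) : Equiv.Perm (OnePoint (ZMod ℓ)) :=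
  MulAction.toPerm (redMat ℓ g)

theorem permT1_apply (g : SL(2, ℤ)) (x : OnePoint (ZMod ℓ)) :
    permT1 ℓ g x = redMat ℓ g • x := rfl

end Cocycle

/-! ### The Hecke norm `T_ℓ^×` on `Γ₁(M)`-functions -/

section T

variable (ℓ : ℕ) [NeZero ℓ] (σ : SL(2, ℤ))

/-- The multiplicative Hecke operator `T_ℓ^×` for `Γ₁(M)` on meromorphic functions:
`u ↦ u(σ(ℓτ)) · ∏_b u((τ+b)/ℓ)`. -/
def heckeNormT1 : Mer →* Mer := normG (rep1 ℓ σ) (det_rep1_pos ℓ σ)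

theorem heckeNormT1_apply (m : Mer) :
    heckeNormT1 ℓ σ m
      = ∏ x : OnePoint (ZMod ℓ), compMGL (rep1 ℓ σ x) (det_rep1_pos ℓ σ x) m := rfl

theorem heckeNormT1_ne_zero {m : Mer} (hm : m ≠ 0) : heckeNormT1 ℓ σ m ≠ 0 :=
  normG_ne_zero _ _ hm

theorem ordM_heckeNormT1 {m : Mer} (hm : m ≠ 0) (τ : ℍ) :
    ordM τ (heckeNormT1 ℓ σ m) = ∑ x : OnePoint (ZMod ℓ), ordM (rep1 ℓ σ x • τ) m :=
  ordM_normG _ _ hm τ

theorem heckeNormT1_const (c : ℂ) :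
    heckeNormT1 ℓ σ (algebraMap ℂ Mer c) = algebraMap ℂ Mer (c ^ (ℓ + 1)) := by
  unfold heckeNormT1
  rw [normG_const]
  congr 2
  have : Fintype.card (OnePoint (ZMod ℓ)) = Fintype.card (Option (ZMod ℓ)) := rfl
  rw [this, Fintype.card_option, ZMod.card]

/-- The part at `∞` of the Hecke norm is the diamond followed by `τ ↦ ℓτ`:
`compMGL (σ · diag(ℓ,1)) m = compMGL diag(ℓ,1) (compM σ m)`. -/
theorem compMGL_rep1_infty (m : Mer) :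
    compMGL (rep1 ℓ σ OnePoint.infty) (det_rep1_pos ℓ σ OnePoint.infty) m
      = compMGL (heckeDiagMatrix ℓ) (det_heckeDiagMatrix_pos ℓ) (compM σ m) := by
  rw [← compMGL_mapGL, ← compMGL_mul (det_mapGL_pos σ) (det_heckeDiagMatrix_pos ℓ)]
  exact compMGL_congr (rep1_infty ℓ σ) _ _ m

end T

section TMult

variable {ℓ : ℕ} [Fact ℓ.Prime] {σ : SL(2, ℤ)} {M : ℕ}

/-- **Multiplier of the Hecke norm** on `Γ₁(M)` (`ℓ ∤ M`), multiplicative form. -/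
theorem compM_heckeNormT1 (hℓM : ¬ ℓ ∣ M) (hσ : IsTwist M ℓ σ) (h : Mer) (χ : Gamma1 M → ℂ)
    (hχ : ∀ γ : Gamma1 M, compM (γ : SL(2, ℤ)) h = algebraMap ℂ Mer (χ γ) * h)
    (γ : Gamma1 M) :
    compM (γ : SL(2, ℤ)) (heckeNormT1 ℓ σ h)
      = algebraMap ℂ Mer (∏ x : OnePoint (ZMod ℓ), χ (cocT1 hℓM hσ γ x)) * heckeNormT1 ℓ σ h :=
  compM_normG (rep1 ℓ σ) (det_rep1_pos ℓ σ) h χ hχ γ (permT1 ℓ (γ : SL(2, ℤ)))
    (cocT1 hℓM hσ γ) (fun x => cocT1_rel hℓM hσ γ x)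

/-- `Γ₁(M)`-invariant functions are mapped to `Γ₁(M)`-invariant functions by `T_ℓ^×`. -/
theorem compM_heckeNormT1_of_invariant (hℓM : ¬ ℓ ∣ M) (hσ : IsTwist M ℓ σ) (f : Mer)
    (hf : ∀ γ : Gamma1 M, compM (γ : SL(2, ℤ)) f = f) (γ : Gamma1 M) :
    compM (γ : SL(2, ℤ)) (heckeNormT1 ℓ σ f) = heckeNormT1 ℓ σ f :=
  compM_normG_of_invariant (rep1 ℓ σ) (det_rep1_pos ℓ σ) f hf γ (permT1 ℓ (γ : SL(2, ℤ)))
    (cocT1 hℓM hσ γ) (fun x => cocT1_rel hℓM hσ γ x)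

/-- **Multiplier of the Hecke norm** on `Γ₁(M)`, additive form, for ANY additive character `ψ'`
whose values are the transfer sums of `ψ` along a family satisfying the cocycle relation (e.g.
`ψ' = cohT1 ψ`). -/
theorem HasMultG.heckeNormT1 (hℓM : ¬ ℓ ∣ M) (hσ : IsTwist M ℓ σ) {p : ℕ} [NeZero p] {ζ : ℂ}
    (hζ : ζ ^ p = 1) {h : Mer} {ψ : Additive (Gamma1 M) →+ ZMod p}
    (H : HasMultG (Gamma1 M) ζ ψ h) (ψ' : Additive (Gamma1 M) →+ ZMod p)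
    (hψ' : ∀ g : Gamma1 M, ∃ t : OnePoint (ZMod ℓ) → Gamma1 M,
      (∀ x, rep1 ℓ σ x * mapGL ℝ (g : SL(2, ℤ))
        = mapGL ℝ ((t x : Gamma1 M) : SL(2, ℤ)) * rep1 ℓ σ (redMat ℓ (g : SL(2, ℤ)) • x)) ∧
      ψ' (Additive.ofMul g) = ∑ x, ψ (Additive.ofMul (t x))) :
    HasMultG (Gamma1 M) ζ ψ' (Fermat.Agent.DS.P3.HeckeMer1.heckeNormT1 ℓ σ h) := by
  refine HasMultG.normG (rep1 ℓ σ) (det_rep1_pos ℓ σ) hζ H (fun g => permT1 ℓ (g : SL(2, ℤ)))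
    (cocT1 hℓM hσ) (fun g x => cocT1_rel hℓM hσ g x) ψ' fun g => ?_
  obtain ⟨t, ht, hs⟩ := hψ' g
  rw [hs]
  refine Finset.sum_congr rfl fun x _ => ?_
  rw [cocT1_unique hℓM hσ g x (t x) (ht x)]

/-- **(K4) for `T_ℓ` on `Γ₁(M)`**: the Hecke norm of a Kummer datum for `ψ` is a Kummer datum for
the transfer `ψ'` of `ψ` (e.g. `ψ' = cohT1 ψ`). -/
theorem IsKumDatumG.heckeNormT1 (hℓM : ¬ ℓ ∣ M) (hσ : IsTwist M ℓ σ) {p : ℕ} [NeZero p]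
    {F : Type*} [Field F] {real : F →+* Mer} {ζ : ℂ} (hζ : ζ ^ p = 1)
    {ψ : Additive (Gamma1 M) →+ ZMod p} {h : Mer} {u : F}
    (D : IsKumDatumG (Gamma1 M) real ζ ψ h u) (ψ' : Additive (Gamma1 M) →+ ZMod p)
    (hψ' : ∀ g : Gamma1 M, ∃ t : OnePoint (ZMod ℓ) → Gamma1 M,
      (∀ x, rep1 ℓ σ x * mapGL ℝ (g : SL(2, ℤ))
        = mapGL ℝ ((t x : Gamma1 M) : SL(2, ℤ)) * rep1 ℓ σ (redMat ℓ (g : SL(2, ℤ)) • x)) ∧
      ψ' (Additive.ofMul g) = ∑ x, ψ (Additive.ofMul (t x)))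
    {Tu : F} (hTu : real Tu = Fermat.Agent.DS.P3.HeckeMer1.heckeNormT1 ℓ σ (real u)) :
    IsKumDatumG (Gamma1 M) real ζ ψ' (Fermat.Agent.DS.P3.HeckeMer1.heckeNormT1 ℓ σ h) Tu :=
  ⟨heckeNormT1_ne_zero ℓ σ D.1, HasMultG.heckeNormT1 hℓM hσ hζ D.2.1 ψ' hψ', by
    rw [hTu, D.2.2, map_pow]⟩

end TMult

/-! ### Diamonds -/

section Dia

variable {M : ℕ}

/-- Conjugation by `σ ∈ Γ₀(M)` on `Γ₁(M)`. -/
def conjG1 {σ : SL(2, ℤ)} (hσ : (M : ℤ) ∣ σ 1 0) (g : Gamma1 M) : Gamma1 M :=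
  ⟨σ * (g : SL(2, ℤ)) * σ⁻¹, conj_mem_Gamma1 hσ g.2⟩

theorem conjG1_rel {σ : SL(2, ℤ)} (hσ : (M : ℤ) ∣ σ 1 0) (g : Gamma1 M) :
    σ * (g : SL(2, ℤ)) = ((conjG1 hσ g : Gamma1 M) : SL(2, ℤ)) * σ := by
  show σ * (g : SL(2, ℤ)) = σ * (g : SL(2, ℤ)) * σ⁻¹ * σ
  rw [inv_mul_cancel_right]

/-- The diamond on meromorphic functions: `m ↦ m ∘ σ` (classical `⟨d⟩ f = f ∣ σ_d` in weight `0`). -/
def diaNorm (σ : SL(2, ℤ)) : Mer →+* Mer := compM σ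

theorem diaNorm_apply (σ : SL(2, ℤ)) (m : Mer) : diaNorm σ m = compM σ m := rfl

theorem diaNorm_ne_zero (σ : SL(2, ℤ)) {m : Mer} (hm : m ≠ 0) : diaNorm σ m ≠ 0 :=
  (map_ne_zero_iff _ (compM σ).injective).mpr hm

theorem ordM_diaNorm (σ : SL(2, ℤ)) (m : Mer) (τ : ℍ) :
    ordM τ (diaNorm σ m) = ordM (σ • τ) m := ordM_compM σ m τ

/-- `Γ₁(M)`-invariant functions are mapped to `Γ₁(M)`-invariant functions by diamonds. -/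
theorem compM_diaNorm_of_invariant {σ : SL(2, ℤ)} (hσ : (M : ℤ) ∣ σ 1 0) (f : Mer)
    (hf : ∀ γ : Gamma1 M, compM (γ : SL(2, ℤ)) f = f) (γ : Gamma1 M) :
    compM (γ : SL(2, ℤ)) (diaNorm σ f) = diaNorm σ f :=
  compM_conj_of_invariant σ f hf γ (conjG1 hσ γ) (conjG1_rel hσ γ)

/-- On `Γ₁(M)`-invariant functions the diamond only depends on the class `σ₁₁ mod M`. -/
theorem diaNorm_congr {σ σ' : SL(2, ℤ)} (hσ : σ ∈ Gamma0 M) (hσ' : σ' ∈ Gamma0 M)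
    (h : ((σ' 1 1 : ℤ) : ZMod M) = ((σ 1 1 : ℤ) : ZMod M)) (f : Mer)
    (hf : ∀ γ : Gamma1 M, compM (γ : SL(2, ℤ)) f = f) :
    diaNorm σ' f = diaNorm σ f := by
  have hmem : σ' * σ⁻¹ ∈ Gamma1 M := mul_inv_mem_Gamma1 hσ hσ' h
  have h1 : σ' = (σ' * σ⁻¹) * σ := by rw [inv_mul_cancel_right]
  rw [diaNorm_apply, diaNorm_apply, h1, compM_mul, hf ⟨_, hmem⟩]

/-- **(K4) for diamonds on `Γ₁(M)`**: `h ∘ σ` is a Kummer datum for any `ψ'` with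
`ψ' g = ψ (σ g σ⁻¹)` (e.g. `ψ' = diaCoh d ψ`). -/
theorem IsKumDatumG.dia {σ : SL(2, ℤ)} (hσ : (M : ℤ) ∣ σ 1 0) {p : ℕ} [NeZero p]
    {F : Type*} [Field F] {real : F →+* Mer} {ζ : ℂ}
    {ψ : Additive (Gamma1 M) →+ ZMod p} {h : Mer} {u : F}
    (D : IsKumDatumG (Gamma1 M) real ζ ψ h u) (ψ' : Additive (Gamma1 M) →+ ZMod p)
    (hψ' : ∀ g : Gamma1 M, ψ' (Additive.ofMul g) = ψ (Additive.ofMul (conjG1 hσ g)))
    {Du : F} (hDu : real Du = diaNorm σ (real u)) :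
    IsKumDatumG (Gamma1 M) real ζ ψ' (diaNorm σ h) Du :=
  IsKumDatumG.conj D σ (conjG1 hσ) (conjG1_rel hσ) ψ' hψ' hDu

end Dia

end Fermat.Agent.DS.P3.HeckeMer1
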