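/-
GATE-N / S48 J1-port, P3 (EIG twin), leaf S48-P3-HECKEMER1 (helper49): (K4) for an abstract Hecke
correspondence `S : HeckeSys Γ` of helper42 (`DS/P3/HeckeSys.lean`) — the multiplicative norm
`merSys S hdet := normG S.rep hdet` on `Mer` realises the cohomological operator `S.coh` on
multipliers — and its two `Γ₁(M)` instances `cohT1`, `diaCoh` (`DS/P3/Coh1.lean`), in the exact
shape `hK4` of helper94's abstract assembly `DS/P3/EigAsmG.lean`.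
-/
import Mathlib
import Fermat.Agent.DS.P3.HeckeMer1
import Fermat.Agent.DS.P3.Coh1

set_option autoImplicit false
set_option linter.unusedSectionVars false

open UpperHalfPlane Complex CongruenceSubgroup
open scoped MatrixGroups

noncomputable section

namespace Fermat.Agent.DS.P3.HeckeMerSys

open Fermat.Agent.S24_helper82 Fermat.Agent.GJ.HeckeMer Fermat.Agent.DS.P3.KumCoreG
open Fermat.Agent.DS.P3.HeckeMerG Fermat.Agent.DS.P3.HeckeMer1 Fermat.Agent.DS.N0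
open Fermat.Agent.DS.P3 Matrix.SpecialLinearGroup

/-! ### Abstract Hecke correspondences -/

section Sys

variable {Γ : Subgroup SL(2, ℤ)} (S : HeckeSys Γ) (hdet : ∀ x, 0 < (S.rep x).det.val)

/-- The multiplicative norm on `Mer` attached to a Hecke correspondence. -/
def merSys : Mer →* Mer := normG S.rep hdet

theorem merSys_apply (m : Mer) :
    merSys S hdet m = ∏ x : S.X, compMGL (S.rep x) (hdet x) m := rfl

theorem merSys_ne_zero {m : Mer} (hm : m ≠ 0) : merSys S hdet m ≠ 0 :=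
  normG_ne_zero _ _ hm

theorem ordM_merSys {m : Mer} (hm : m ≠ 0) (τ : ℍ) :
    ordM τ (merSys S hdet m) = ∑ x : S.X, ordM (S.rep x • τ) m :=
  ordM_normG _ _ hm τ

/-- `Γ`-invariant functions are mapped to `Γ`-invariant functions. -/
theorem compM_merSys_of_invariant (f : Mer) (hf : ∀ γ : Γ, compM (γ : SL(2, ℤ)) f = f)
    (γ : Γ) : compM (γ : SL(2, ℤ)) (merSys S hdet f) = merSys S hdet f :=
  compM_normG_of_invariant S.rep hdet f hf γ (S.perm γ) (S.c γ) (fun x => S.c_rel γ x)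

/-- The norm of a function with multiplier `ζ^ψ` has multiplier `ζ^(S.coh ψ)`. -/
theorem HasMultG.merSys {p : ℕ} [NeZero p] {ζ : ℂ} (hζ : ζ ^ p = 1) {h : Mer}
    {ψ : Additive Γ →+ ZMod p} (H : HasMultG Γ ζ ψ h) :
    HasMultG Γ ζ (S.coh (ZMod p) ψ) (Fermat.Agent.DS.P3.HeckeMerSys.merSys S hdet h) :=
  HasMultG.normG S.rep hdet hζ H S.perm S.c (fun g x => S.c_rel g x) _
    (fun g => S.coh_apply ψ g)

/-- **(K4)** for an abstract Hecke correspondence: the norm of a Kummer datum for `ψ` is a Kummer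
datum for `S.coh ψ`. -/
theorem IsKumDatumG.merSys {p : ℕ} [NeZero p] {F : Type*} [Field F] {real : F →+* Mer} {ζ : ℂ}
    (hζ : ζ ^ p = 1) {ψ : Additive Γ →+ ZMod p} {h : Mer} {u : F}
    (D : IsKumDatumG Γ real ζ ψ h u) {Tu : F}
    (hTu : real Tu = Fermat.Agent.DS.P3.HeckeMerSys.merSys S hdet (real u)) :
    IsKumDatumG Γ real ζ (S.coh (ZMod p) ψ) (Fermat.Agent.DS.P3.HeckeMerSys.merSys S hdet h) Tu :=
  IsKumDatumG.normG S.rep hdet hζ D S.perm S.c (fun g x => S.c_rel g x) _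
    (fun g => S.coh_apply ψ g) hTu

end Sys

/-! ### The `Γ₁(M)` instances -/

section Gamma1

variable {M : ℕ} [NeZero M]

/-- **(K4) for `T_ℓ` on `Γ₁(M)`**: the Hecke norm `heckeNormT1 ℓ σ` (any `σ ∈ Γ₀(M)`, `σ₁₁ ≡ ℓ`,
e.g. helper18's `primeRep`) of a Kummer datum for `ψ` is a Kummer datum for `cohT1 ψ`. -/
theorem IsKumDatumG.cohT1 {ℓ : ℕ} [Fact ℓ.Prime] (hℓM : ¬ ℓ ∣ M) {σ : SL(2, ℤ)}
    (hσ : IsTwist M ℓ σ) {p : ℕ} [NeZero p] {F : Type*} [Field F] {real : F →+* Mer} {ζ : ℂ}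
    (hζ : ζ ^ p = 1) {ψ : Additive (Gamma1 M) →+ ZMod p} {h : Mer} {u : F}
    (D : IsKumDatumG (Gamma1 M) real ζ ψ h u) {Tu : F}
    (hTu : real Tu = heckeNormT1 ℓ σ (real u)) :
    IsKumDatumG (Gamma1 M) real ζ (Coh1.cohT1 (ZMod p) hℓM ψ) (heckeNormT1 ℓ σ h) Tu :=
  IsKumDatumG.heckeNormT1 hℓM hσ hζ D _
    (fun g => ⟨(Coh1.sysT hℓM σ hσ.dvd hσ.d_eq).c g,
      fun x => (Coh1.sysT hℓM σ hσ.dvd hσ.d_eq).c_rel g x,
      Coh1.cohT1_apply hℓM σ hσ.dvd hσ.d_eq ψ g⟩) hTu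

/-- **(K4) for `⟨d⟩` on `Γ₁(M)`**: `h ∘ σ` (any `σ ∈ Γ₀(M)`, `σ₁₁ ≡ d`, e.g. helper18's
`diamondRep d`) of a Kummer datum for `ψ` is a Kummer datum for `diaCoh d ψ`. -/
theorem IsKumDatumG.diaCoh (d : (ZMod M)ˣ) {σ : SL(2, ℤ)} (hσ0 : (M : ℤ) ∣ σ 1 0)
    (hσ1 : ((σ 1 1 : ℤ) : ZMod M) = (d : ZMod M)) {p : ℕ} [NeZero p] {F : Type*} [Field F]
    {real : F →+* Mer} {ζ : ℂ} {ψ : Additive (Gamma1 M) →+ ZMod p} {h : Mer} {u : F}
    (D : IsKumDatumG (Gamma1 M) real ζ ψ h u) {Du : F}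
    (hDu : real Du = diaNorm σ (real u)) :
    IsKumDatumG (Gamma1 M) real ζ (Coh1.diaCoh (ZMod p) d ψ) (diaNorm σ h) Du :=
  IsKumDatumG.dia hσ0 D _ (fun g => Coh1.diaCoh_apply' d σ hσ0 hσ1 ψ g) hDu

/-- The Hecke norm with the canonical twist of helper18 (`primeRep`). -/
theorem IsKumDatumG.cohT1_primeRep {ℓ : ℕ} (hℓ : ℓ.Prime) (hℓM : ¬ ℓ ∣ M) {p : ℕ} [NeZero p]
    {F : Type*} [Field F] {real : F →+* Mer} {ζ : ℂ}
    (hζ : ζ ^ p = 1) {ψ : Additive (Gamma1 M) →+ ZMod p} {h : Mer} {u : F}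
    (D : IsKumDatumG (Gamma1 M) real ζ ψ h u) {Tu : F}
    (hTu : haveI : Fact ℓ.Prime := ⟨hℓ⟩
      real Tu = heckeNormT1 ℓ (Fermat.Agent.DS.Hecke.primeRep hℓ hℓM) (real u)) :
    haveI : Fact ℓ.Prime := ⟨hℓ⟩
    IsKumDatumG (Gamma1 M) real ζ (Coh1.cohT1 (ZMod p) hℓM ψ)
      (heckeNormT1 ℓ (Fermat.Agent.DS.Hecke.primeRep hℓ hℓM) h) Tu :=
  haveI : Fact ℓ.Prime := ⟨hℓ⟩
  IsKumDatumG.cohT1 hℓM (isTwist_primeRep hℓ hℓM) hζ D hTu

/-- The diamond with the canonical representative of helper18 (`diamondRep`). -/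
theorem IsKumDatumG.diaCoh_diamondRep (d : (ZMod M)ˣ) {p : ℕ} [NeZero p] {F : Type*} [Field F]
    {real : F →+* Mer} {ζ : ℂ} {ψ : Additive (Gamma1 M) →+ ZMod p} {h : Mer} {u : F}
    (D : IsKumDatumG (Gamma1 M) real ζ ψ h u) {Du : F}
    (hDu : real Du = diaNorm (Fermat.Agent.DS.Hecke.diamondRep d) (real u)) :
    IsKumDatumG (Gamma1 M) real ζ (Coh1.diaCoh (ZMod p) d ψ)
      (diaNorm (Fermat.Agent.DS.Hecke.diamondRep d) h) Du :=
  IsKumDatumG.diaCoh d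
    (Fermat.Agent.DS.Hecke.mem_Gamma0_iff_dvd.1 (Fermat.Agent.DS.Hecke.diamondRep_mem d))
    (Fermat.Agent.DS.Hecke.diamondRep_d d) D hDu

end Gamma1

end Fermat.Agent.DS.P3.HeckeMerSys
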