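/-
S48 / GATE-N, leaf S48-P3-HN1Q1-MEM (helper42): MEMBERSHIP half of (HN), Γ-generic.

For an abstract Hecke correspondence `S : HeckeSys Γ` with INTEGRAL representatives of positive
determinant, and a realisation `real : F →+* Mer` with the field-generation property
`FieldGenHol Γ N real` (P1 deliverable), the multiplicative norm `merSys S` maps the realisation of
every quotient `A / B` of `Γ`-invariant holomorphic functions of moderate growth into the range of
`real`:

* `im_smul_of_upper`      : `Im (u • τ) = (u₀₀ / u₁₁) · Im τ` for upper triangular `u`, `det u > 0`;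
* `moderateGrowth_comp`   : moderate growth (in `q_N`, at all cusps) is stable under precomposition
                            with an integral matrix of positive determinant (Hermite normal form);
* `prodHol S hdet A`      : the holomorphic function `∏ₓ A ∘ rep x`; invariance, moderate growth;
* `merSys_algebraMap_mem_range`, **`merSys_div_mem_range`** : the membership statement;
* `merSys_real_mem_range` : the same for `real f`, given a quotient presentation of `real f`.

Consumers: helper86 `DS/P3/HNBridge.lean` (hypothesis (MEM) of (B3)), helper62 HN1Q1, helper17 HNMem1.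
-/
import Mathlib
import Fermat.Agent.DS.P3.HeckeMerSys
import Fermat.Agent.DS.P3.TwEisG.Field
import Fermat.Agent.DS.ES.Stable

set_option autoImplicit false
set_option linter.unusedSectionVars false

open UpperHalfPlane Complex Function.Periodic
open scoped MatrixGroups

noncomputable section

namespace Fermat.Agent.DS.P3.HNMem

open Fermat.Agent.S24_helper82 Fermat.Agent.GJ.HeckeMer Fermat.Agent.GJ.Dict
open Fermat.Agent.GJ.Dict.FieldGen
open Fermat.Agent.DS.P3 Fermat.Agent.DS.P3.HeckeMerG Fermat.Agent.DS.P3.HeckeMerSys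
open Fermat.Agent.DS.P3.TwEisG Fermat.Agent.DS.ES
open Matrix.SpecialLinearGroup

/-! ### Upper triangular matrices and the imaginary part -/

theorem im_smul_of_upper {u : GL (Fin 2) ℝ} (h10 : u.val 1 0 = 0) (hdet : 0 < u.val.det)
    (τ : ℍ) : (u • τ).im = u.val 0 0 / u.val 1 1 * τ.im := by
  have hd : u.val.det = u.val 0 0 * u.val 1 1 := by
    rw [Matrix.det_fin_two, h10, mul_zero, sub_zero]
  have h11 : u.val 1 1 ≠ 0 := by
    intro h
    rw [hd, h, mul_zero] at hdet
    exact lt_irrefl _ hdet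
  have hden : denom u (τ : ℂ) = ((u.val 1 1 : ℝ) : ℂ) := by
    show ((u 1 0 : ℝ) : ℂ) * (τ : ℂ) + ((u 1 1 : ℝ) : ℂ) = _
    have : (u 1 0 : ℝ) = 0 := h10
    rw [this]
    simp
  rw [UpperHalfPlane.im_smul_eq_div_normSq, hden, Complex.normSq_ofReal]
  have hdet' : |u.det.val| = u.val 0 0 * u.val 1 1 := by
    have : u.det.val = u.val.det := rfl
    rw [this, abs_of_pos hdet, hd]
  rw [hdet']
  field_simp

/-! ### Comparison of powers of `q` -/

theorem norm_qParam_pow_le {N : ℕ} [NeZero N] {z w : ℍ} {m m' : ℕ}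
    (h : (m : ℝ) * w.im ≤ (m' : ℝ) * z.im) :
    ‖qParam (N : ℝ) (z : ℂ)‖ ^ m' ≤ ‖qParam (N : ℝ) (w : ℂ)‖ ^ m := by
  have hN : (0 : ℝ) < (N : ℝ) := Nat.cast_pos.mpr (NeZero.pos N)
  rw [norm_qParam, norm_qParam, ← Real.exp_nat_mul, ← Real.exp_nat_mul]
  apply Real.exp_le_exp.mpr
  rw [UpperHalfPlane.coe_im, UpperHalfPlane.coe_im]
  have e1 : (m' : ℝ) * (-2 * Real.pi * z.im / (N : ℝ)) = -(2 * Real.pi / N) * ((m' : ℝ) * z.im) := by
    field_simp
  have e2 : (m : ℝ) * (-2 * Real.pi * w.im / (N : ℝ)) = -(2 * Real.pi / N) * ((m : ℝ) * w.im) := by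
    field_simp
  rw [e1, e2]
  have hpos : 0 < 2 * Real.pi / (N : ℝ) := div_pos (by positivity) hN
  nlinarith

/-! ### Moderate growth is stable under integral matrices -/

/-- **moderate growth is stable under precomposition with an integral matrix of positive
determinant** -/
theorem moderateGrowth_comp {N : ℕ} [NeZero N] {f : ℍ → ℂ} (hf : ModerateGrowth N f)
    {α : GL (Fin 2) ℝ} (hα : IsIntGL α) : ModerateGrowth N (fun τ => f (α • τ)) := by
  intro g
  obtain ⟨β, u, hu, hu10, hx⟩ := exists_hnf (hα.mul (isIntGL_mapGL g))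
  obtain ⟨m, hm⟩ := hf β
  rw [UpperHalfPlane.isBoundedAtImInfty_iff] at hm
  obtain ⟨C, Y, hC⟩ := hm
  obtain ⟨a, ha⟩ := hu.2 0 0
  obtain ⟨d, hd⟩ := hu.2 1 1
  have hdet : u.val.det = u.val 0 0 * u.val 1 1 := by
    rw [Matrix.det_fin_two, hu10, mul_zero, sub_zero]
  have had : (0 : ℝ) < (a : ℝ) * (d : ℝ) := by
    have := hu.1
    rwa [hdet, ha, hd] at this
  have hd0 : (d : ℝ) ≠ 0 := by
    intro h
    rw [h, mul_zero] at had
    exact lt_irrefl _ had
  have hdZ : d ≠ 0 := by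
    intro h
    apply hd0
    rw [h]
    simp
  -- the ratio `a / d` is positive and at most `|a|`
  have hr : (0 : ℝ) < (a : ℝ) / (d : ℝ) := by
    have : (a : ℝ) / (d : ℝ) = (a : ℝ) * (d : ℝ) / ((d : ℝ) * (d : ℝ)) := by
      field_simp
    rw [this]
    exact div_pos had (mul_self_pos.mpr hd0)
  have hr_le : (a : ℝ) / (d : ℝ) ≤ (a.natAbs : ℝ) := by
    have h1 : (1 : ℝ) ≤ |(d : ℝ)| := by
      have : (1 : ℤ) ≤ |d| := Int.one_le_abs hdZ
      exact_mod_cast this
    have h2 : (a : ℝ) / (d : ℝ) = |(a : ℝ)| / |(d : ℝ)| := by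
      rw [← abs_div, abs_of_pos hr]
    have h3 : ((a.natAbs : ℕ) : ℝ) = |(a : ℝ)| := by
      rw [← Int.cast_abs, Int.abs_eq_natAbs]
      simp
    rw [h2, h3]
    exact div_le_self (abs_nonneg _) h1
  refine ⟨m * a.natAbs, ?_⟩
  rw [UpperHalfPlane.isBoundedAtImInfty_iff]
  refine ⟨C, Y / ((a : ℝ) / (d : ℝ)), fun z hz => ?_⟩
  -- rewrite the argument
  have harg : α • ((g : SL(2, ℤ)) • z) = mapGL ℝ β • (u • z) := by
    have : ((g : SL(2, ℤ)) • z : ℍ) = mapGL ℝ g • z := rfl
    rw [this, ← mul_smul, ← mul_smul, hx]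
  have him : (u • z).im = (a : ℝ) / (d : ℝ) * z.im := by
    rw [im_smul_of_upper hu10 hu.1, ha, hd]
  have hY : Y ≤ (u • z).im := by
    rw [him]
    calc Y = Y / ((a : ℝ) / (d : ℝ)) * ((a : ℝ) / (d : ℝ)) := (div_mul_cancel₀ Y hr.ne').symm
      _ ≤ z.im * ((a : ℝ) / (d : ℝ)) := mul_le_mul_of_nonneg_right hz hr.le
      _ = (a : ℝ) / (d : ℝ) * z.im := mul_comm _ _
  have hb := hC (u • z) hY
  have hb' : ‖qParam (N : ℝ) ((u • z : ℍ) : ℂ)‖ ^ m * ‖f (β • (u • z))‖ ≤ C := by
    rw [← norm_pow, ← norm_mul]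
    exact hb
  show ‖qParam (N : ℝ) (z : ℂ) ^ (m * a.natAbs) * f (α • ((g : SL(2, ℤ)) • z))‖ ≤ C
  rw [harg, norm_mul, norm_pow]
  have hzim : 0 < z.im := z.im_pos
  have hpow : ‖qParam (N : ℝ) (z : ℂ)‖ ^ (m * a.natAbs) ≤ ‖qParam (N : ℝ) ((u • z : ℍ) : ℂ)‖ ^ m := by
    apply norm_qParam_pow_le
    rw [him]
    push_cast
    have : (m : ℝ) * ((a : ℝ) / (d : ℝ) * z.im) ≤ (m : ℝ) * ((a.natAbs : ℝ) * z.im) := by
      apply mul_le_mul_of_nonneg_left _ (Nat.cast_nonneg m)
      exact mul_le_mul_of_nonneg_right hr_le hzim.le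
    calc (m : ℝ) * ((a : ℝ) / (d : ℝ) * z.im) ≤ (m : ℝ) * ((a.natAbs : ℝ) * z.im) := this
      _ = (m : ℝ) * (a.natAbs : ℝ) * z.im := by ring
  have : mapGL ℝ β • (u • z) = β • (u • z) := rfl
  rw [this]
  calc ‖qParam (N : ℝ) (z : ℂ)‖ ^ (m * a.natAbs) * ‖f (β • (u • z))‖
      ≤ ‖qParam (N : ℝ) ((u • z : ℍ) : ℂ)‖ ^ m * ‖f (β • (u • z))‖ :=
        mul_le_mul_of_nonneg_right hpow (norm_nonneg _)
    _ ≤ C := hb'

/-! ### The holomorphic norm -/

section Norm

variable {Γ : Subgroup SL(2, ℤ)} (S : HeckeSys Γ) (hdet : ∀ x, 0 < (S.rep x).det.val)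

/-- the holomorphic function `∏ₓ A ∘ rep x` -/
def prodHol (A : Hol) : Hol := ∏ x : S.X, compGL (S.rep x) (hdet x) A

theorem algebraMap_prodHol (A : Hol) :
    algebraMap Hol Mer (prodHol S hdet A) = merSys S hdet (algebraMap Hol Mer A) := by
  rw [prodHol, map_prod, merSys_apply]
  refine Finset.prod_congr rfl fun x _ => ?_
  rw [compMGL_algebraMap]

theorem prodHol_ne_zero {A : Hol} (hA : A ≠ 0) : prodHol S hdet A ≠ 0 := by
  intro h
  have h1 := algebraMap_prodHol S hdet A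
  rw [h, map_zero] at h1
  exact merSys_ne_zero S hdet
    ((map_ne_zero_iff _ (IsFractionRing.injective Hol Mer)).mpr hA) h1.symm

/-- `Γ`-invariance of the holomorphic norm of a `Γ`-invariant function -/
theorem compSL_prodHol {A : Hol} (hA : ∀ γ ∈ Γ, compSL γ A = A) (γ : SL(2, ℤ)) (hγ : γ ∈ Γ) :
    compSL γ (prodHol S hdet A) = prodHol S hdet A := by
  apply IsFractionRing.injective Hol Mer
  rw [← compM_algebraMap, algebraMap_prodHol]
  refine compM_merSys_of_invariant S hdet _ (fun δ => ?_) ⟨γ, hγ⟩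
  rw [compM_algebraMap, hA _ δ.2]

variable {N : ℕ} [NeZero N]

theorem compGL_mem_MG {α : GL (Fin 2) ℝ} (hα : IsIntGL α) (hα' : 0 < α.det.val) {A : Hol}
    (hA : A ∈ MG N) : compGL α hα' A ∈ MG N := by
  have h := moderateGrowth_comp (N := N) hA hα
  exact h

theorem prodHol_mem_MG (hint : ∀ x, IsIntGL (S.rep x)) {A : Hol} (hA : A ∈ MG N) :
    prodHol S hdet A ∈ MG N :=
  Subalgebra.prod_mem _ fun x _ => compGL_mem_MG (hint x) (hdet x) hA

/-! ### Membership -/

variable {F : Type*} [Field F] {real : F →+* Mer}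

/-- the norm of a `Γ`-invariant holomorphic function of moderate growth is realised -/
theorem merSys_algebraMap_mem_range (hreal : FieldGenHol Γ N real)
    (hint : ∀ x, IsIntGL (S.rep x)) {A : Hol} (hAinv : ∀ γ ∈ Γ, compSL γ A = A)
    (hAmg : ModerateGrowth N (A : ℍ → ℂ)) :
    merSys S hdet (algebraMap Hol Mer A) ∈ Set.range real := by
  obtain ⟨a, ha⟩ := hreal (prodHol S hdet A) (fun γ hγ => compSL_prodHol S hdet hAinv γ hγ)
    (prodHol_mem_MG S hdet hint hAmg)
  exact ⟨a, by rw [ha, algebraMap_prodHol]⟩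

/-- **(MEM)** the norm of a quotient of `Γ`-invariant holomorphic functions of moderate growth is
realised by an element of the function field -/
theorem merSys_div_mem_range (hreal : FieldGenHol Γ N real)
    (hint : ∀ x, IsIntGL (S.rep x)) {A B : Hol}
    (hAinv : ∀ γ ∈ Γ, compSL γ A = A) (hBinv : ∀ γ ∈ Γ, compSL γ B = B)
    (hAmg : ModerateGrowth N (A : ℍ → ℂ)) (hBmg : ModerateGrowth N (B : ℍ → ℂ)) :
    merSys S hdet (algebraMap Hol Mer A / algebraMap Hol Mer B) ∈ Set.range real := by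
  obtain ⟨a, ha⟩ := merSys_algebraMap_mem_range S hdet hreal hint hAinv hAmg
  obtain ⟨b, hb⟩ := merSys_algebraMap_mem_range S hdet hreal hint hBinv hBmg
  refine ⟨a / b, ?_⟩
  rw [map_div₀, ha, hb, merSys_apply, merSys_apply, merSys_apply, ← Finset.prod_div_distrib]
  refine Finset.prod_congr rfl fun x _ => ?_
  rw [map_div₀]

/-- a quotient presentation of the realisation: every `real f` is `A / B` with `A`, `B`
`Γ`-invariant holomorphic of moderate growth (true for every field generated by holomorphic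
`Γ`-invariant generators of moderate growth, e.g. helper30's `realG`) -/
def QuotHol (Γ : Subgroup SL(2, ℤ)) (N : ℕ) (real : F →+* Mer) : Prop :=
  ∀ f : F, ∃ A B : Hol, B ≠ 0 ∧ (∀ γ ∈ Γ, compSL γ A = A) ∧ (∀ γ ∈ Γ, compSL γ B = B) ∧
    ModerateGrowth N (A : ℍ → ℂ) ∧ ModerateGrowth N (B : ℍ → ℂ) ∧
    real f = algebraMap Hol Mer A / algebraMap Hol Mer B

/-- **(MEM), final form**: for every `f : F` the norm of `real f` is realised -/
theorem merSys_real_mem_range (hreal : FieldGenHol Γ N real) (hq : QuotHol Γ N real)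
    (hint : ∀ x, IsIntGL (S.rep x)) (f : F) :
    merSys S hdet (real f) ∈ Set.range real := by
  obtain ⟨A, B, -, hAinv, hBinv, hAmg, hBmg, hf⟩ := hq f
  rw [hf]
  exact merSys_div_mem_range S hdet hreal hint hAinv hBinv hAmg hBmg

/-- the same for the precomposition with a normalising element (diamonds) -/
theorem compM_real_mem_range (hreal : FieldGenHol Γ N real) (hq : QuotHol Γ N real)
    (σ : SL(2, ℤ)) (hσ : ∀ γ ∈ Γ, σ * γ * σ⁻¹ ∈ Γ) (f : F) :
    compM σ (real f) ∈ Set.range real := by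
  obtain ⟨A, B, -, hAinv, hBinv, hAmg, hBmg, hf⟩ := hq f
  have key : ∀ {A : Hol}, (∀ γ ∈ Γ, compSL γ A = A) → ModerateGrowth N (A : ℍ → ℂ) →
      ∃ a : F, real a = algebraMap Hol Mer (compSL σ A) := by
    intro A hAinv hAmg
    refine hreal (compSL σ A) (fun γ hγ => ?_) (ModerateGrowth.comp_smul (N := N) hAmg σ)
    -- `A(σ γ τ) = A(σ γ σ⁻¹ · σ τ) = A(σ τ)`
    ext τ
    have h1 := congrArg (fun X : Hol => (X : ℍ → ℂ) (σ • τ)) (hAinv _ (hσ γ hγ))
    simp only [compSL_apply] at h1 ⊢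
    rw [← h1, ← mul_smul, ← mul_smul]
    group
  obtain ⟨a, ha⟩ := key hAinv hAmg
  obtain ⟨b, hb⟩ := key hBinv hBmg
  refine ⟨a / b, ?_⟩
  rw [hf, map_div₀, ha, hb, map_div₀, compM_algebraMap, compM_algebraMap]

end Norm

end Fermat.Agent.DS.P3.HNMem
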