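/-
GATE-N / S48 J1-port, P3 (EIG twin), leaf S48-P3-ASM-HYP (helper94): the ABSTRACT, Γ-generic
assembly of the Kummer eigenvector.  Twin of helper86's `GJ/J2/EigData.lean` (`IsDat`) and of the
assembly `GJ/J2/Eig.eig_of_Q`, with

* an arbitrary subgroup `Γ ≤ SL(2,ℤ)`, an arbitrary function field `F/K` with `real : F →+* Mer`;
* an ABSTRACT index type `Op` of operators (for the port: the Hecke operators `T_ℓ`, `ℓ ∤ M`,
  `ℓ ∉ S`, and the diamond operators `⟨d⟩`), each acting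
  - on `Hom(Γ, ℤ/p)` by `coh t`,
  - on `Mer` by `mer t` with the Kummer equivariance **(K4)** as a hypothesis,
  - on the field `F` through a relation `Rel t u Tu` ("`Tu` is the `t`-transform of `u`")
    together with **(HN)**: every `u ≠ 0` has a transform realised by `mer t`.

Output `exists_eigenvector`: from an eigenclass `χ : Γ → k0` (the (LAT) input) whose coordinates are
"good", an eigenvector `∑ eᵢ ⊗ [uᵢ] ≠ 0` of `k0 ⊗ Kum_p(F)` in the relational form of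
`GJ/J2/EigIface.EIG`.  The linear algebra of `GJ/J2/Eig.lean` (§LinAlg, §Coord) is generic and
imported.
-/
import Mathlib
import Fermat.Agent.DS.P3.KumCoreG
import Fermat.Agent.GJ.J2.Eig

set_option autoImplicit false
set_option linter.unusedSectionVars false

open UpperHalfPlane Complex AlgebraicCurve TensorProduct
open scoped MatrixGroups

noncomputable section

namespace Fermat.Agent.DS.P3.EigAsmG

open Fermat.Agent.S24_helper82 Fermat.Agent.GJ.HeckeMer Fermat.Agent.GJ.KumGroup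
open Fermat.Agent.DS.P3.KumCoreG
open Fermat.Agent.GJ.EigAsm (eq_zero_of_sum_tmul_eq_zero sum_tmul_eq_smul repr_mul_eq_sum)

variable {Γ : Subgroup SL(2, ℤ)} {K F : Type*} [Field K] [Field F] [Algebra K F]
  {p : ℕ} [Fact p.Prime]

/-! ### Saturation and data -/

variable (Γ) (p) in
/-- **(SAT)** a `Γ`-invariant meromorphic function whose `p`-th power is realised by an element of
`F` is itself realised. -/
def SatG (real : F →+* Mer) : Prop :=
  ∀ m : Mer, (∀ γ : Γ, compM (γ : SL(2, ℤ)) m = m) → m ^ p ∈ Set.range real →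
    m ∈ Set.range real

variable (Γ) in
/-- `u` is the `u`-part of a Kummer datum for `ψ` -/
def IsDatG (real : F →+* Mer) (ζ : ℂ) (ψ : Additive Γ →+ ZMod p) (u : pDivUnits K F p) : Prop :=
  ∃ h : Mer, IsKumDatumG Γ real ζ ψ h (((u : Fˣ) : F))

variable {real : F →+* Mer}

theorem IsDatG.one (ζ : ℂ) : IsDatG Γ (K := K) (p := p) real ζ 0 1 := by
  refine ⟨1, one_ne_zero, ?_, ?_⟩
  · rw [hasMultG_zero_iff]
    intro γ
    exact map_one _
  · simp

theorem IsDatG.mul {ζ : ℂ} (hζ : ζ ^ p = 1) {ψ ψ' : Additive Γ →+ ZMod p}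
    {u u' : pDivUnits K F p} (D : IsDatG Γ real ζ ψ u) (D' : IsDatG Γ real ζ ψ' u') :
    IsDatG Γ real ζ (ψ + ψ') (u * u') := by
  obtain ⟨h, h0, hm, hr⟩ := D
  obtain ⟨h', h0', hm', hr'⟩ := D'
  refine ⟨h * h', mul_ne_zero h0 h0', hm.mul hζ hm', ?_⟩
  rw [Subgroup.coe_mul, Units.val_mul, map_mul, hr, hr', mul_pow]

theorem IsDatG.pow {ζ : ℂ} (hζ : ζ ^ p = 1) {ψ : Additive Γ →+ ZMod p}
    {u : pDivUnits K F p} (D : IsDatG Γ real ζ ψ u) (n : ℕ) :
    IsDatG Γ real ζ (n • ψ) (u ^ n) := by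
  induction n with
  | zero => simpa using IsDatG.one (Γ := Γ) (K := K) (p := p) (real := real) ζ
  | succ n ih =>
    rw [succ_nsmul, pow_succ]
    exact ih.mul hζ D

theorem IsDatG.prod {ζ : ℂ} (hζ : ζ ^ p = 1) {ι : Type*} (s : Finset ι)
    {ψ : ι → (Additive Γ →+ ZMod p)} {u : ι → pDivUnits K F p}
    (D : ∀ i ∈ s, IsDatG Γ real ζ (ψ i) (u i)) :
    IsDatG Γ real ζ (∑ i ∈ s, ψ i) (∏ i ∈ s, u i) := by
  classical
  induction s using Finset.induction_on with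
  | empty => simpa using IsDatG.one (Γ := Γ) (K := K) (p := p) (real := real) ζ
  | insert a s ha ih =>
    rw [Finset.sum_insert ha, Finset.prod_insert ha]
    exact (D a (Finset.mem_insert_self a s)).mul hζ
      (ih fun i hi => D i (Finset.mem_insert_of_mem hi))

/-- data for `ψ i` give a datum for `∑ a i • ψ i` -/
theorem IsDatG.sum_nsmul {ζ : ℂ} (hζ : ζ ^ p = 1) {ι : Type*} (s : Finset ι)
    {ψ : ι → (Additive Γ →+ ZMod p)} {u : ι → pDivUnits K F p}
    (D : ∀ i ∈ s, IsDatG Γ real ζ (ψ i) (u i)) (a : ι → ℕ) :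
    IsDatG Γ real ζ (∑ i ∈ s, a i • ψ i) (∏ i ∈ s, u i ^ a i) :=
  IsDatG.prod hζ s fun i hi => (D i hi).pow hζ (a i)

/-- **(K1)** the Kummer class of a datum only depends on `ψ` -/
theorem IsDatG.mk_eq (hsat : SatG Γ p real) {ζ : ℂ} (hζ : ζ ^ p = 1)
    {ψ : Additive Γ →+ ZMod p} {u u' : pDivUnits K F p}
    (D : IsDatG Γ real ζ ψ u) (D' : IsDatG Γ real ζ ψ u') : Kum.mk u = Kum.mk u' := by
  obtain ⟨h, Dh⟩ := D
  obtain ⟨h', Dh'⟩ := D'
  obtain ⟨h1, D1⟩ := IsDatG.one (Γ := Γ) (K := K) (p := p) (real := real) ζ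
  have Dh'' : IsKumDatumG Γ real ζ (ψ + 0) h' (((u' : Fˣ) : F)) := by
    rw [add_zero]
    exact Dh'
  obtain ⟨g, hg0, hg⟩ := IsKumDatumG.exists_eq_mul_pow hsat hζ Dh D1 Dh''
  rw [Kum.mk_eq_mk_iff]
  refine ⟨Units.mk0 g hg0, ?_⟩
  apply Units.ext
  rw [hg]
  simp

/-- **(K2)** a datum with trivial Kummer class belongs to `ψ = 0` -/
theorem IsDatG.eq_zero_of_mk_eq_one
    (hinv : ∀ (γ : Γ) (u : F), compM (γ : SL(2, ℤ)) (real u) = real u)
    {ζ : ℂ} (hζ : IsPrimitiveRoot ζ p)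
    {ψ : Additive Γ →+ ZMod p} {u : pDivUnits K F p}
    (D : IsDatG Γ real ζ ψ u) (h1 : Kum.mk u = 1) : ψ = 0 := by
  obtain ⟨h, Dh⟩ := D
  have h2 : Kum.mk (1 : pDivUnits K F p) = Kum.mk u := by rw [h1, map_one]
  rw [Kum.mk_eq_mk_iff] at h2
  obtain ⟨w, hw⟩ := h2
  have hw' : (((u : Fˣ) : F)) = (w : F) ^ p := by
    rw [hw]
    simp
  exact Dh.eq_zero_of_eq_pow hinv hζ hw'

/-- the Kummer group is killed by `p` -/
theorem nsmul_kumG_eq_zero (v : Additive (Kum K F p)) : p • v = 0 := by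
  obtain ⟨x, rfl⟩ : ∃ x : Kum K F p, Additive.ofMul x = v := ⟨Additive.toMul v, rfl⟩
  obtain ⟨u, rfl⟩ := Kum.mk_surjective x
  rw [← ofMul_pow, ← map_pow]
  have h : Kum.mk (1 : pDivUnits K F p) = Kum.mk (u ^ p) := by
    rw [Kum.mk_eq_mk_iff]
    exact ⟨(u : Fˣ), by simp⟩
  rw [← h, map_one]
  rfl

/-! ### The assembly -/

/-- **Abstract J2 assembly**.  See the file header. -/
theorem exists_eigenvector {ζ : ℂ} (hζ : IsPrimitiveRoot ζ p)
    (hinv : ∀ (γ : Γ) (u : F), compM (γ : SL(2, ℤ)) (real u) = real u)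
    (hsat : SatG Γ p real)
    {k0 : Type*} [Field k0] [Algebra (ZMod p) k0] [Module.Finite (ZMod p) k0]
    (χ : Additive Γ →+ k0) (hχ0 : χ ≠ 0)
    (Good : (Additive Γ →+ ZMod p) → Prop)
    (hχgood : ∀ f : k0 →+ ZMod p, Good (f.comp χ))
    (hex : ∀ ψ : Additive Γ →+ ZMod p, Good ψ → ∃ (h : Mer) (u : F), IsKumDatumG Γ real ζ ψ h u)
    (hpd : ∀ (ψ : Additive Γ →+ ZMod p) (h : Mer) (u : F), Good ψ → IsKumDatumG Γ real ζ ψ h u →
      ∀ P : Place K F, (p : ℤ) ∣ P.ord u)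
    {Op : Type*} (coh : Op → (Additive Γ →+ ZMod p) → (Additive Γ →+ ZMod p))
    (hcohgood : ∀ t ψ, Good ψ → Good (coh t ψ))
    (mer : Op → Mer → Mer)
    (hK4 : ∀ (t : Op) (ψ : Additive Γ →+ ZMod p) (h : Mer) (u Tu : F),
      IsKumDatumG Γ real ζ ψ h u → real Tu = mer t (real u) →
        IsKumDatumG Γ real ζ (coh t ψ) (mer t h) Tu)
    (Rel : Op → F → F → Prop)
    (hHN : ∀ (t : Op) (u : F), u ≠ 0 → ∃ Tu : F, Rel t u Tu ∧ real Tu = mer t (real u))
    (a : Op → k0)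
    (heig : ∀ (t : Op) (f : k0 →+ ZMod p) (g : Γ),
      coh t (f.comp χ) (Additive.ofMul g) = f (a t * χ (Additive.ofMul g))) :
    ∃ (n : ℕ) (c : Fin n → k0) (u : Fin n → pDivUnits K F p),
      tens c u ≠ 0 ∧
      ∀ t : Op, ∃ u' : Fin n → pDivUnits K F p,
        (∀ i, Rel t (((u i : Fˣ) : F)) (((u' i : Fˣ) : F))) ∧ tens c u' = a t • tens c u := by
  classical
  let e := Module.finBasis (ZMod p) k0
  -- the coordinates of `χ`
  let ψ : Fin (Module.finrank (ZMod p) k0) → (Additive Γ →+ ZMod p) :=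
    fun i => (e.coord i).toAddMonoidHom.comp χ
  have hψ_apply : ∀ i (g : Additive Γ), ψ i g = e.repr (χ g) i := fun i g => rfl
  have hgood : ∀ i, Good (ψ i) := fun i => hχgood _
  choose h u hD using fun i => hex (ψ i) (hgood i)
  have hu0 : ∀ i, u i ≠ 0 := fun i => (hD i).ne_zero
  have hup : ∀ i, Units.mk0 (u i) (hu0 i) ∈ pDivUnits K F p :=
    fun i P => hpd _ _ _ (hgood i) (hD i) P
  let U : Fin (Module.finrank (ZMod p) k0) → pDivUnits K F p :=
    fun i => ⟨Units.mk0 (u i) (hu0 i), hup i⟩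
  have hU : ∀ i, IsDatG Γ real ζ (ψ i) (U i) := fun i => ⟨h i, hD i⟩
  refine ⟨Module.finrank (ZMod p) k0, e, U, ?_, ?_⟩
  · -- nonvanishing
    intro h0
    have hall := eq_zero_of_sum_tmul_eq_zero (nsmul_kumG_eq_zero (K := K) (F := F) (p := p)) e
      (fun i => Additive.ofMul (Kum.mk (U i))) h0
    apply hχ0
    refine AddMonoidHom.ext fun g => ?_
    have h1 : e.repr (χ g) = 0 := by
      ext i
      have h2 : ψ i = 0 := (hU i).eq_zero_of_mk_eq_one hinv hζ (hall i)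
      have h3 := DFunLike.congr_fun h2 g
      rw [hψ_apply] at h3
      rw [h3]
      rfl
    rw [AddMonoidHom.zero_apply, ← e.repr.map_eq_zero_iff]
    exact h1
  · intro t
    choose Tu hTs hTr using fun i => hHN t (u i) (hu0 i)
    have hTD : ∀ i, IsKumDatumG Γ real ζ (coh t (ψ i)) (mer t (h i)) (Tu i) :=
      fun i => hK4 t _ _ _ _ (hD i) (hTr i)
    have hT0 : ∀ i, Tu i ≠ 0 := fun i => (hTD i).ne_zero
    have hTp : ∀ i, Units.mk0 (Tu i) (hT0 i) ∈ pDivUnits K F p :=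
      fun i P => hpd _ _ _ (hcohgood t _ (hgood i)) (hTD i) P
    let U' : Fin (Module.finrank (ZMod p) k0) → pDivUnits K F p :=
      fun i => ⟨Units.mk0 (Tu i) (hT0 i), hTp i⟩
    refine ⟨U', fun i => hTs i, ?_⟩
    refine sum_tmul_eq_smul e (a t)
      (fun i => Additive.ofMul (Kum.mk (U i))) (fun j => Additive.ofMul (Kum.mk (U' j))) ?_
    intro j
    have hdat1 : IsDatG Γ real ζ (coh t (ψ j)) (U' j) := ⟨_, hTD j⟩
    have hcoord : coh t (ψ j) = ∑ i, (e.repr (a t * e i) j).val • ψ i := by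
      refine AddMonoidHom.ext fun g₀ => ?_
      obtain ⟨g, rfl⟩ : ∃ g : Γ, Additive.ofMul g = g₀ := ⟨Additive.toMul g₀, rfl⟩
      rw [heig t (e.coord j).toAddMonoidHom g, AddMonoidHom.finsetSum_apply]
      show e.repr (a t * χ (Additive.ofMul g)) j = _
      rw [repr_mul_eq_sum]
      rfl
    rw [hcoord] at hdat1
    have hdat2 := IsDatG.sum_nsmul hζ.pow_eq_one Finset.univ (fun i _ => hU i)
      (fun i => (e.repr (a t * e i) j).val)
    have h3 := IsDatG.mk_eq hsat hζ.pow_eq_one hdat1 hdat2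
    show Additive.ofMul (Kum.mk (U' j)) = _
    rw [h3, map_prod, ofMul_prod]
    refine Finset.sum_congr rfl fun i _ => ?_
    rw [map_pow, ofMul_pow]

end Fermat.Agent.DS.P3.EigAsmG
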