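/-
GATE-N / S48 J1-port, P3 (EIG twin), leaf S48-P3-ASM-HYP, part 2 (helper94): the transfer
`ℂ → ℚ̄` of the inputs of the assembly, ABSTRACT twin of helper86's `GJ/J2/EigDesc.lean`.

Setting: two function fields `FQ / KQ` ("over `ℚ̄`") and `FC / KC` ("over `ℂ`"), a base change
`bc : FQ →+* FC`, a realisation `realC : FC →+* Mer`, and `realQ := realC ∘ bc`.  From the
`ℂ`-statements `SatG`, `ExG`, `PDivG` for `realC` and the four descent bricks
(`DescPG`, `D1G`, `IsPowDescG`, a primitive `p`-th root of unity in `FQ`) we get the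
`ℚ̄`-statements for `realQ`, i.e. the inputs `hsat`, `hex`, `hpd` of
`EigAsmG.exists_eigenvector` for `real := realQ`.
-/
import Mathlib
import Fermat.Agent.DS.P3.EigAsmG

set_option autoImplicit false
set_option linter.unusedSectionVars false

open UpperHalfPlane Complex AlgebraicCurve
open scoped MatrixGroups

noncomputable section

namespace Fermat.Agent.DS.P3.EigDescG

open Fermat.Agent.S24_helper82 Fermat.Agent.GJ.HeckeMer Fermat.Agent.GJ.KumGroup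
open Fermat.Agent.DS.P3.KumCoreG Fermat.Agent.DS.P3.EigAsmG

variable (Γ : Subgroup SL(2, ℤ)) {KQ FQ KC FC : Type*} [Field KQ] [Field FQ] [Algebra KQ FQ]
  [Field KC] [Field FC] [Algebra KC FC] (p : ℕ) [Fact p.Prime]
  (bc : FQ →+* FC) (realC : FC →+* Mer)

/-- the realisation over `ℚ̄` -/
def realQ : FQ →+* Mer := realC.comp bc

theorem realQ_apply (f : FQ) : realQ bc realC f = realC (bc f) := rfl

/-! ### The hypotheses -/

/-- **(EX)** every good character has a Kummer datum -/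
def ExG {F : Type*} [Field F] (real : F →+* Mer) (ζ : ℂ)
    (Good : (Additive Γ →+ ZMod p) → Prop) : Prop :=
  ∀ ψ : Additive Γ →+ ZMod p, Good ψ → ∃ (h : Mer) (u : F), IsKumDatumG Γ real ζ ψ h u

/-- **(PDIV)** the `u`-part of any Kummer datum of a good character is `p`-divisible -/
def PDivG {K F : Type*} [Field K] [Field F] [Algebra K F] (real : F →+* Mer) (ζ : ℂ)
    (Good : (Additive Γ →+ ZMod p) → Prop) : Prop :=
  ∀ (ψ : Additive Γ →+ ZMod p) (h : Mer) (u : F), Good ψ →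
    IsKumDatumG Γ real ζ ψ h u → ∀ Q : Place K F, (p : ℤ) ∣ Q.ord u

/-- **(DESC)** every `p`-divisible unit of `FC` is, modulo `p`-th powers, the base change of a
`p`-divisible unit of `FQ` -/
def DescPG : Prop :=
  ∀ u : FC, u ≠ 0 → (∀ Q : Place KC FC, (p : ℤ) ∣ Q.ord u) →
    ∃ u₀ : FQ, u₀ ≠ 0 ∧ (∀ P : Place KQ FQ, (p : ℤ) ∣ P.ord u₀) ∧
      ∃ v : FC, v ≠ 0 ∧ u = bc u₀ * v ^ p

/-- **(D1)** `p`-divisibility descends along the base change -/
def D1G : Prop :=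
  ∀ u₀ : FQ, (∀ Q : Place KC FC, (p : ℤ) ∣ Q.ord (bc u₀)) →
    ∀ P : Place KQ FQ, (p : ℤ) ∣ P.ord u₀

/-- **(D1conv)** `p`-divisibility is preserved by the base change -/
def D1convG : Prop :=
  ∀ u₀ : FQ, (∀ P : Place KQ FQ, (p : ℤ) ∣ P.ord u₀) →
    ∀ Q : Place KC FC, (p : ℤ) ∣ Q.ord (bc u₀)

/-- **(LD-d)** injectivity of the base change on Kummer classes -/
def IsPowDescG : Prop :=
  ∀ (u₀ : FQ) (v : FC), bc u₀ = v ^ p → ∃ v₀ : FQ, u₀ = v₀ ^ p

variable {Γ p bc realC}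

/-! ### The transfer -/

/-- a Kummer datum over `ℚ̄` is a Kummer datum over `ℂ` -/
theorem isKumDatumG_bc {ζ : ℂ} {ψ : Additive Γ →+ ZMod p} {h : Mer} {u : FQ}
    (D : IsKumDatumG Γ (realQ bc realC) ζ ψ h u) : IsKumDatumG Γ realC ζ ψ h (bc u) :=
  ⟨D.1, D.2.1, D.2.2⟩

/-- `(PDIVC) + (D1) ⇒ (PDIVQ)` -/
theorem pDivQ_of {ζ : ℂ} {Good : (Additive Γ →+ ZMod p) → Prop}
    (hP : PDivG Γ p (K := KC) realC ζ Good) (hD1 : D1G (KQ := KQ) (KC := KC) p bc) :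
    PDivG Γ p (K := KQ) (realQ bc realC) ζ Good :=
  fun ψ h u hψ D => hD1 u (hP ψ h (bc u) hψ (isKumDatumG_bc D))

/-- `(EXC) + (PDIVC) + (DESC) ⇒ (EXQ)` -/
theorem exQ_of {ζ : ℂ} {Good : (Additive Γ →+ ZMod p) → Prop}
    (hinvC : ∀ (γ : Γ) (f : FC), compM (γ : SL(2, ℤ)) (realC f) = realC f)
    (hE : ExG Γ p realC ζ Good) (hP : PDivG Γ p (K := KC) realC ζ Good)
    (hD : DescPG (KQ := KQ) (KC := KC) p bc) : ExG Γ p (realQ bc realC) ζ Good := by
  intro ψ hψ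
  obtain ⟨h, u, D⟩ := hE ψ hψ
  obtain ⟨u₀, hu₀, -, v, hv, huv⟩ := hD u D.ne_zero (hP ψ h u hψ D)
  have hrv : realC v ≠ 0 := (map_ne_zero realC).mpr hv
  refine ⟨h * (realC v)⁻¹, u₀, mul_ne_zero D.1 (inv_ne_zero hrv), ?_, ?_⟩
  · intro γ
    rw [map_mul, map_inv₀, hinvC, D.2.1 γ, mul_assoc]
  · have h1 : realC u = realQ bc realC u₀ * realC v ^ p := by
      rw [huv, map_mul, map_pow, realQ_apply]
    rw [mul_pow, inv_pow, ← D.2.2, h1, mul_assoc, mul_inv_cancel₀ (pow_ne_zero _ hrv), mul_one]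

/-- `(SATC) + (LD-d) + a primitive `p`-th root of unity in `FQ` ⇒ (SATQ)` -/
theorem satQ_of (hS : SatG Γ p realC) (hL : IsPowDescG p bc) {ξ : FQ}
    (hξ : IsPrimitiveRoot ξ p) : SatG Γ p (realQ bc realC) := by
  intro m hm ⟨u₀, hu₀⟩
  obtain ⟨v, hv⟩ := hS m hm ⟨bc u₀, hu₀⟩
  have h1 : bc u₀ = v ^ p := by
    apply realC.injective
    rw [map_pow, hv]
    exact hu₀
  obtain ⟨v₀, hv₀⟩ := hL u₀ v h1
  by_cases hv0 : v₀ = 0
  · refine ⟨0, ?_⟩
    rw [hv0, zero_pow (NeZero.ne p)] at hv₀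
    rw [hv₀, map_zero] at hu₀
    rw [map_zero]
    exact (pow_eq_zero_iff (NeZero.ne p)).mp hu₀.symm |>.symm
  · have hr0 : realQ bc realC v₀ ≠ 0 := (map_ne_zero (realQ bc realC)).mpr hv0
    have hξ' : IsPrimitiveRoot (realQ bc realC ξ) p :=
      hξ.map_of_injective (realQ bc realC).injective
    have hmp : m ^ p = (realQ bc realC v₀) ^ p := by rw [← hu₀, hv₀, map_pow]
    have h2 : (m * (realQ bc realC v₀)⁻¹) ^ p = 1 := by
      rw [mul_pow, inv_pow, hmp]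
      exact mul_inv_cancel₀ (pow_ne_zero _ hr0)
    obtain ⟨i, -, hi⟩ := hξ'.eq_pow_of_pow_eq_one h2
    refine ⟨ξ ^ i * v₀, ?_⟩
    rw [map_mul, map_pow, hi, inv_mul_cancel_right₀ hr0]

/-- invariance of the realisation over `ℚ̄` -/
theorem compM_realQ (hinvC : ∀ (γ : Γ) (f : FC), compM (γ : SL(2, ℤ)) (realC f) = realC f)
    (γ : Γ) (f : FQ) : compM (γ : SL(2, ℤ)) (realQ bc realC f) = realQ bc realC f :=
  hinvC γ (bc f)


/-! ### The assembly over `ℂ` -/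

/-- **Abstract J2 assembly over `ℂ`** (twin of `GJ/J2/EigDesc.eig_of_C`): the eigenvector in
`k0 ⊗ Kum_p(FQ)` from the `ℂ`-statements, the descent bricks, (K4) + (HN) over `ℚ̄` and the
eigenclass `χ` of (LAT). -/
theorem exists_eigenvector_of_C {ζ : ℂ} (hζ : IsPrimitiveRoot ζ p)
    (hinvC : ∀ (γ : Γ) (f : FC), compM (γ : SL(2, ℤ)) (realC f) = realC f)
    (hS : SatG Γ p realC) (hL : IsPowDescG p bc) {ξ : FQ} (hξ : IsPrimitiveRoot ξ p)
    {k0 : Type*} [Field k0] [Algebra (ZMod p) k0] [Module.Finite (ZMod p) k0]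
    (χ : Additive Γ →+ k0) (hχ0 : χ ≠ 0)
    (Good : (Additive Γ →+ ZMod p) → Prop)
    (hχgood : ∀ f : k0 →+ ZMod p, Good (f.comp χ))
    (hE : ExG Γ p realC ζ Good) (hP : PDivG Γ p (K := KC) realC ζ Good)
    (hD : DescPG (KQ := KQ) (KC := KC) p bc) (hD1 : D1G (KQ := KQ) (KC := KC) p bc)
    {Op : Type*} (coh : Op → (Additive Γ →+ ZMod p) → (Additive Γ →+ ZMod p))
    (hcohgood : ∀ t ψ, Good ψ → Good (coh t ψ))
    (mer : Op → Mer → Mer)
    (hK4 : ∀ (t : Op) (ψ : Additive Γ →+ ZMod p) (h : Mer) (u Tu : FQ),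
      IsKumDatumG Γ (realQ bc realC) ζ ψ h u → realQ bc realC Tu = mer t (realQ bc realC u) →
        IsKumDatumG Γ (realQ bc realC) ζ (coh t ψ) (mer t h) Tu)
    (Rel : Op → FQ → FQ → Prop)
    (hHN : ∀ (t : Op) (u : FQ), u ≠ 0 →
      ∃ Tu : FQ, Rel t u Tu ∧ realQ bc realC Tu = mer t (realQ bc realC u))
    (a : Op → k0)
    (heig : ∀ (t : Op) (f : k0 →+ ZMod p) (g : Γ),
      coh t (f.comp χ) (Additive.ofMul g) = f (a t * χ (Additive.ofMul g))) :
    ∃ (n : ℕ) (c : Fin n → k0) (u : Fin n → pDivUnits KQ FQ p),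
      tens c u ≠ 0 ∧
      ∀ t : Op, ∃ u' : Fin n → pDivUnits KQ FQ p,
        (∀ i, Rel t (((u i : FQˣ) : FQ)) (((u' i : FQˣ) : FQ))) ∧ tens c u' = a t • tens c u :=
  exists_eigenvector (K := KQ) hζ (compM_realQ hinvC) (satQ_of hS hL hξ) χ hχ0 Good hχgood
    (exQ_of hinvC hE hP hD) (pDivQ_of hP hD1) coh hcohgood mer hK4 Rel hHN a heig

/-! ### Finiteness of the Kummer group -/

/-- base change on `p`-divisible units -/
def bcPDivG (hc : D1convG (KQ := KQ) (KC := KC) p bc) : pDivUnits KQ FQ p →* pDivUnits KC FC p :=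
  MonoidHom.codRestrict ((Units.map (bc : FQ →* FC)).comp (pDivUnits KQ FQ p).subtype)
    (pDivUnits KC FC p) (fun u => hc ((u : FQˣ) : FQ) u.2)

theorem coe_bcPDivG (hc : D1convG (KQ := KQ) (KC := KC) p bc) (u : pDivUnits KQ FQ p) :
    (((bcPDivG hc u : pDivUnits KC FC p) : FCˣ) : FC) = bc ((u : FQˣ) : FQ) :=
  rfl

/-- base change on Kummer groups -/
def bcKumG (hc : D1convG (KQ := KQ) (KC := KC) p bc) : Kum KQ FQ p →* Kum KC FC p :=
  QuotientGroup.lift (pPowers KQ FQ p) (Kum.mk.comp (bcPDivG hc)) (by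
    intro x hx
    obtain ⟨w, hw⟩ := hx
    have hw' : w ^ p = (x : FQˣ) := hw
    show Kum.mk (bcPDivG hc x) = 1
    have h : Kum.mk (1 : pDivUnits KC FC p) = Kum.mk (bcPDivG hc x) := by
      rw [Kum.mk_eq_mk_iff]
      refine ⟨Units.map (bc : FQ →* FC) w, ?_⟩
      apply Units.ext
      rw [Subgroup.coe_one, one_mul, coe_bcPDivG, ← hw']
      simp
    rw [← h, map_one])

theorem bcKumG_mk (hc : D1convG (KQ := KQ) (KC := KC) p bc) (u : pDivUnits KQ FQ p) :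
    bcKumG hc (Kum.mk u) = Kum.mk (bcPDivG hc u) := rfl

theorem bcKumG_injective (hc : D1convG (KQ := KQ) (KC := KC) p bc) (hL : IsPowDescG p bc) :
    Function.Injective (bcKumG hc) := by
  rw [injective_iff_map_eq_one]
  intro x hx
  obtain ⟨u, rfl⟩ := Kum.mk_surjective x
  rw [bcKumG_mk] at hx
  have h : Kum.mk (1 : pDivUnits KC FC p) = Kum.mk (bcPDivG hc u) := by rw [hx, map_one]
  rw [Kum.mk_eq_mk_iff] at h
  obtain ⟨w, hw⟩ := h
  have hw' : bc ((u : FQˣ) : FQ) = (w : FC) ^ p := by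
    rw [← coe_bcPDivG hc, hw]
    simp
  obtain ⟨v₀, hv₀⟩ := hL _ _ hw'
  have hv0 : v₀ ≠ 0 := by
    rintro rfl
    rw [zero_pow (NeZero.ne p)] at hv₀
    exact (u : FQˣ).ne_zero hv₀
  have h2 : Kum.mk (1 : pDivUnits KQ FQ p) = Kum.mk u := by
    rw [Kum.mk_eq_mk_iff]
    refine ⟨Units.mk0 v₀ hv0, ?_⟩
    apply Units.ext
    rw [hv₀]
    simp
  rw [← h2, map_one]

/-- **FIN**: `(F_ℂ) + (D1conv) + (LD-d) ⇒ Finite (Kum KQ FQ p)`. -/
theorem finite_kum_of_C (hF : Finite (Kum KC FC p)) (hc : D1convG (KQ := KQ) (KC := KC) p bc)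
    (hL : IsPowDescG p bc) : Finite (Kum KQ FQ p) := by
  haveI : Finite (Kum KC FC p) := hF
  exact Finite.of_injective _ (bcKumG_injective hc hL)

end Fermat.Agent.DS.P3.EigDescG
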