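/-
GATE-N / S48 J1-port, P3 (EIG twin), leaf S48-P3-DESC1, generic part (helper49): the four descent
leaves `DescPG`, `D1G`, `D1convG`, `IsPowDescG` of helper94's `DS/P3/EigDescG.lean`, for the base
change `ℚ̄ → ℂ` of an ARBITRARY field `F₀ ⊂ ℚ((q))` (twin of helper86's `GJ/J2/EigDescLeaves.lean`,
which is the case `F₀ = ℚ(X₀(N))`).

Setting: `KQ = ℚ̄`, `FQ = laurentBaseChange ℚ̄ F₀`, `KC = ℂ`, `FC = laurentBaseChange ℂ F₀`,
`bc = bcHom ℚ̄ ℂ F₀` (`ℂ` a `ℚ̄`-algebra through T24's `iotaC`, instance `algKbC`).  The `GJ/Desc`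
bricks are generic in `F₀`; the only inputs are

* a generator `x₀ : FQ` with `[IsGen ℚ̄ x₀]` (for the port: `j`, from P1's degree leaf);
* `∃ f ∈ F₀, f.order ≠ 0` (for the port: `j(q)` has order `-1`);
* `Finite (Kum ℂ FC p)` (for the port: helper6's `FinC1`).

The instance at `F₀ := F1 M` is one line per leaf.
-/
import Mathlib
import Fermat.Agent.DS.P3.EigDescG
import Fermat.Agent.GJ.J2.EigDesc
import Fermat.Agent.GJ.Desc.Modular
import Fermat.Agent.GJ.Desc.PlaceOver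
import Fermat.Agent.GJ.Desc.Places

set_option autoImplicit false
set_option linter.unusedSectionVars false

open AlgebraicCurve ModularCurve

noncomputable section

namespace Fermat.Agent.DS.P3.Desc1G

open Fermat.Agent.S24 Fermat.Agent.S24_helper82 Fermat.Agent.GJ.KumGroup
open Fermat.Agent.GJ.Desc Fermat.Agent.DS.P3.EigDescG
open Fermat.Agent.GJ.EigAsm (algKbC)

/-- `ℚ̄` -/
local notation "Qb" => AlgebraicClosure ℚ

attribute [local instance] Fermat.Agent.GJ.EigAsm.algKbC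

variable (F₀ : IntermediateField ℚ (LaurentSeries ℚ)) (p : ℕ) [Fact p.Prime]

/-- the base change `F₀ ⊗ ℚ̄ → F₀ ⊗ ℂ`, coefficientwise `iotaC` -/
def bcG : ↥(laurentBaseChange Qb F₀) →+* ↥(laurentBaseChange ℂ F₀) := bcHom Qb ℂ F₀

theorem bcG_apply (f : ↥(laurentBaseChange Qb F₀)) : bcG F₀ f = bcHom Qb ℂ F₀ f := rfl

theorem bcG_injective : Function.Injective (bcG F₀) := (bcG F₀).injective

/-- places of `F₀ ⊗ ℚ̄` extend to `F₀ ⊗ ℂ` without ramification -/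
theorem exists_place_over_bcG (x₀ : ↥(laurentBaseChange Qb F₀)) [IsGen Qb x₀]
    (P : Place Qb ↥(laurentBaseChange Qb F₀)) :
    ∃ Q : Place ℂ ↥(laurentBaseChange ℂ F₀),
      ∀ f : ↥(laurentBaseChange Qb F₀), Q.ord (bcG F₀ f) = P.ord f :=
  Fermat.Agent.GJ.Desc.PlaceOver.exists_place_over Qb ℂ F₀ x₀ P

/-- **(D1)** for `F₀`. -/
theorem d1G (x₀ : ↥(laurentBaseChange Qb F₀)) [IsGen Qb x₀] :
    D1G (KQ := Qb) (KC := ℂ) p (bcG F₀) := by
  intro u₀ h P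
  obtain ⟨Q, hQ⟩ := exists_place_over_bcG F₀ x₀ P
  rw [← hQ u₀]
  exact h Q

/-- **(D1conv)** for `F₀`. -/
theorem d1convG : D1convG (KQ := Qb) (KC := ℂ) p (bcG F₀) := fun u₀ h Q =>
  dvd_ord_bcHom Qb ℂ F₀ p u₀ h Q

/-- **(LD-d)** for `F₀`. -/
theorem isPowDescG : IsPowDescG p (bcG F₀) := by
  intro u₀ v h
  haveI : CharZero Qb := charZero_of_injective_algebraMap (algebraMap ℚ Qb).injective
  exact isPow_of_bcHom_eq_pow Qb ℂ F₀ p (Nat.pos_of_ne_zero (NeZero.ne p)) u₀ v h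

/-- **(DESC)** for `F₀`. -/
theorem descPG (x₀ : ↥(laurentBaseChange Qb F₀)) [IsGen Qb x₀]
    (hq : ∃ f ∈ F₀, f.order ≠ 0) (hfin : Finite (Kum ℂ ↥(laurentBaseChange ℂ F₀) p)) :
    DescPG (KQ := Qb) (KC := ℂ) p (bcG F₀) := by
  intro u hu hdiv
  haveI : CharZero Qb := charZero_of_injective_algebraMap (algebraMap ℚ Qb).injective
  haveI : IsGen ℂ (bcHom Qb ℂ F₀ x₀) := isGen_bcHom Qb ℂ F₀ x₀
  exact descent_of_gen Qb ℂ F₀ (bcHom Qb ℂ F₀ x₀) (exists_place_over_bcG F₀ x₀) hq p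
    (Nat.pos_of_ne_zero (NeZero.ne p))
    (Fermat.Agent.GJ.Desc.Modular.exists_finset_of_finite p hfin) u hu hdiv

/-- **FIN** over `ℚ̄` from FIN over `ℂ`. -/
theorem finite_kum_Qb (hfin : Finite (Kum ℂ ↥(laurentBaseChange ℂ F₀) p)) :
    Finite (Kum Qb ↥(laurentBaseChange Qb F₀) p) :=
  finite_kum_of_C (KQ := Qb) (KC := ℂ) hfin (d1convG F₀ p) (isPowDescG F₀ p)

end Fermat.Agent.DS.P3.Desc1G
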