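/-
GATE-N / S48 J1-port, P3 (EIG twin), cusp half of (P) in Γ-GENERIC hypothesis form (helper94).

For ANY Kummer datum `(h, u)` of a parabolic homomorphism `ψ : Γ → ℤ/p` (`real u = h ^ p`,
`h ∘ γ = ζ^ψ(γ) h`) and any cusp `g ∞` of width dividing `w` (`g T^w g⁻¹ ∈ Γ`): if the translate
`(real u) ∘ g` has the cusp expansion `L ≠ 0` in the parameter `𝕢_{w e}` (`MerCE`), then
`L.order = e * n'` with `p ∣ n'`.  With the cusp dictionary of P1 (`L.order = e * ord_Q u`, `e` the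
ramification of `𝕢_{w e}` over the local parameter `𝕢_w` of the cusp) this is `p ∣ ord_Q u`.
Γ-generic twin of the core of `GJ/J2/PDivCuspAsm.dvd_ord_cuspPlaceC`; ingredients: helper65's
(R-par) `compM_conj_T_pow_of_merOrd` and `MerCE.merOrdAtImInfty`, both Γ-free.
-/
import Fermat.Agent.DS.P3.KumCoreG
import Fermat.Agent.GJ.J2.PDivCusp

set_option autoImplicit false
set_option linter.unusedSectionVars false

open Complex UpperHalfPlane Set Filter Topology Function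
open scoped MatrixGroups Manifold
open Fermat.Agent.S24_helper82 Fermat.Agent.GJ.Root Fermat.Agent.GJ.HeckeMer

namespace Fermat.Agent.DS.P3.PDivCuspG

open Fermat.Agent.DS.P3.KumCoreG
open Fermat.Agent.GJ.TwEis (MerCE MerCE.merOrdAtImInfty trace_conj_T_zpow)

noncomputable section

variable {Γ : Subgroup SL(2, ℤ)} {F : Type*} [Field F] {real : F →+* Mer}

/-- the multiplier of a Kummer datum of a parabolic homomorphism is trivial at every parabolic
element `g T^w g⁻¹ ∈ Γ`. -/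
theorem compM_conj_T_pow_eq {p : ℕ} [NeZero p] {ζ : ℂ} {ψ : Additive ↥Γ →+ ZMod p}
    (hψ : ModularCurve.Period.IsParabolicHom Γ ψ) {h : Mer} (H : HasMultG Γ ζ ψ h)
    (g : SL(2, ℤ)) (w : ℕ) (hmem : g * ModularGroup.T ^ w * g⁻¹ ∈ Γ) :
    compM (g * ModularGroup.T ^ w * g⁻¹) h = h := by
  have h1 := H ⟨g * ModularGroup.T ^ w * g⁻¹, hmem⟩
  have h2 : ψ (Additive.ofMul (⟨g * ModularGroup.T ^ w * g⁻¹, hmem⟩ : ↥Γ)) = 0 := by
    apply hψ
    show ((g * ModularGroup.T ^ w * g⁻¹ : SL(2, ℤ)) : Matrix (Fin 2) (Fin 2) ℤ).trace ^ 2 = 4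
    have := trace_conj_T_zpow g (w : ℤ)
    rw [zpow_natCast] at this
    rw [this]
    norm_num
  rw [h2, zmodPow_zero, map_one, one_mul] at h1
  exact h1

/-- **(P), cusp half, analytic core**: the order at the cusp `g ∞` (in the parameter `𝕢_{w e}`)
of the `u`-part of a Kummer datum of a parabolic homomorphism is `e * n'` with `p ∣ n'`. -/
theorem exists_order_eq_mul_of_merOrd {p : ℕ} [NeZero p] {ζ : ℂ} {ψ : Additive ↥Γ →+ ZMod p}
    (hψ : ModularCurve.Period.IsParabolicHom Γ ψ) {h : Mer} {u : F}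
    (D : IsKumDatumG Γ real ζ ψ h u) (g : SL(2, ℤ)) {w e : ℕ} (hw : 0 < w) (he : 0 < e)
    (hmem : g * ModularGroup.T ^ w * g⁻¹ ∈ Γ) {n : ℤ}
    (hord : MerOrdAtImInfty ((w * e : ℕ) : ℝ) (compM g (real u)) n) :
    ∃ n' : ℤ, n = e * n' ∧ (p : ℤ) ∣ n' := by
  have hp : 0 < p := NeZero.pos p
  have hh0 : h ≠ 0 := D.1
  have hpar : compM (g * ModularGroup.T ^ w * g⁻¹) h = h :=
    compM_conj_T_pow_eq hψ D.2.1 g w hmem
  have hT : compM (g * ModularGroup.T ^ w * g⁻¹) (h ^ p) = h ^ p := by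
    rw [map_pow, hpar]
  have hord' : MerOrdAtImInfty ((w * e : ℕ) : ℝ) (compM g (h ^ p)) n := by
    rw [← D.2.2]
    exact hord
  obtain ⟨n', hn', hc⟩ := compM_conj_T_pow_of_merOrd hp hw he hh0 g hord' hT
  refine ⟨n', hn', ?_⟩
  rw [hpar] at hc
  have h4 : algebraMap ℂ Mer (Complex.exp (2 * Real.pi * Complex.I * n' / p)) = 1 := by
    have h5 : (algebraMap ℂ Mer (Complex.exp (2 * Real.pi * Complex.I * n' / p)) - 1) * h = 0 := by
      rw [sub_mul, one_mul, ← hc, sub_self]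
    exact sub_eq_zero.mp ((mul_eq_zero.mp h5).resolve_right hh0)
  have h6 : Complex.exp (2 * Real.pi * Complex.I * n' / p) = 1 := by
    apply (algebraMap ℂ Mer).injective
    rw [h4, map_one]
  exact (exp_two_pi_I_div_eq_one_iff hp n').mp h6

/-- the same with the cusp expansion given as a `MerCE` datum. -/
theorem exists_order_eq_mul_of_merCE {p : ℕ} [NeZero p] {ζ : ℂ} {ψ : Additive ↥Γ →+ ZMod p}
    (hψ : ModularCurve.Period.IsParabolicHom Γ ψ) {h : Mer} {u : F}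
    (D : IsKumDatumG Γ real ζ ψ h u) (g : SL(2, ℤ)) {w e : ℕ} (hw : 0 < w) (he : 0 < e)
    (hmem : g * ModularGroup.T ^ w * g⁻¹ ∈ Γ) {L : LaurentSeries ℂ}
    (hL : MerCE ((w * e : ℕ) : ℝ) (compM g (real u)) L) (hL0 : L ≠ 0) :
    ∃ n' : ℤ, L.order = e * n' ∧ (p : ℤ) ∣ n' := by
  have hpos : (0 : ℝ) < ((w * e : ℕ) : ℝ) := by exact_mod_cast Nat.mul_pos hw he
  exact exists_order_eq_mul_of_merOrd hψ D g hw he hmem (hL.merOrdAtImInfty hpos hL0)

/-- **(P), cusp half, place form**: if moreover `L.order = e * ordQ` (the cusp dictionary), then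
`p ∣ ordQ`. -/
theorem dvd_ord_of_merCE {p : ℕ} [NeZero p] {ζ : ℂ} {ψ : Additive ↥Γ →+ ZMod p}
    (hψ : ModularCurve.Period.IsParabolicHom Γ ψ) {h : Mer} {u : F}
    (D : IsKumDatumG Γ real ζ ψ h u) (g : SL(2, ℤ)) {w e : ℕ} (hw : 0 < w) (he : 0 < e)
    (hmem : g * ModularGroup.T ^ w * g⁻¹ ∈ Γ) {L : LaurentSeries ℂ}
    (hL : MerCE ((w * e : ℕ) : ℝ) (compM g (real u)) L) (hL0 : L ≠ 0) {ordQ : ℤ}
    (hdict : L.order = e * ordQ) : (p : ℤ) ∣ ordQ := by
  obtain ⟨n', hn', hdvd⟩ := exists_order_eq_mul_of_merCE hψ D g hw he hmem hL hL0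
  have h9 : n' = ordQ :=
    mul_left_cancel₀ (by exact_mod_cast he.ne' : (e : ℤ) ≠ 0) (hn'.symm.trans hdict)
  rwa [← h9]

end

end Fermat.Agent.DS.P3.PDivCuspG
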