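/-
GATE-N / S48 J1-port, P3, leaf S48-P3-PDIV1, PLUG file (helper75): `PDiv1.pdiv_of_dict` in the
EXACT shape `EigDescG.PDivG Γ p (K := ℂ) realC ζ Good` consumed by helper94's
`EigDescG.exists_eigenvector_of_C` / `EigFinalHyp.eig1Rel_of_hyps`, plus adapters from the output
shape (c) `exists_cusp_chart` announced by helper80 (DICT-CUSP, invariance group `Γ' ⊇ Γ` with the
regular-cusp hypothesis `hreg`) to `PDiv1.CuspDict`.
-/
import Fermat.Agent.DS.P3.PDiv1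
import Fermat.Agent.DS.P3.EigDescG

set_option autoImplicit false
set_option linter.unusedSectionVars false

open Complex UpperHalfPlane AlgebraicCurve
open scoped MatrixGroups
open Fermat.Agent.S24_helper82 Fermat.Agent.GJ.Root Fermat.Agent.GJ.HeckeMer

namespace Fermat.Agent.DS.P3.PDiv1Plug

open Fermat.Agent.DS.P3.KumCoreG Fermat.Agent.DS.P3.PDiv1 Fermat.Agent.DS.P3.EigDescG
open Fermat.Agent.GJ.TwEis (MerCE)
open ModularCurve.Period (IsParabolicHom)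

noncomputable section

variable {Γ : Subgroup SL(2, ℤ)} {F : Type*} [Field F] [Algebra ℂ F] {real : F →+* Mer} {jF : F}
variable {p : ℕ} [Fact p.Prime] {ζ : ℂ}

/-- **(PDIV) in helper94's shape**, `Good := IsGoodG Γ`. -/
theorem pdivG_of_dict (hI : IntDict Γ real jF) (hC : CuspDict Γ real jF) :
    PDivG Γ p (K := ℂ) real ζ (IsGoodG Γ) :=
  pdiv_of_dict hI hC

/-- **(PDIV) in helper94's shape**, torsion-free `Γ`, `Good := IsParabolicHom Γ`. -/
theorem pdivG_of_dict_torsionFree (htf : ∀ g : ↥Γ, IsOfFinOrder g → g = 1)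
    (hI : IntDict Γ real jF) (hC : CuspDict Γ real jF) :
    PDivG Γ p (K := ℂ) real ζ (fun ψ => IsParabolicHom Γ ψ) :=
  pdiv_of_dict_torsionFree htf hI hC

open CongruenceSubgroup in
/-- **(PDIV) in helper94's shape** for `Γ₁(M)`, `4 ≤ M`, `Good := IsParabolicHom (Γ₁(M))`. -/
theorem pdivG_of_dict_Gamma1 {M : ℕ} (hM : 4 ≤ M) {real : F →+* Mer}
    (hI : IntDict (Gamma1 M) real jF) (hC : CuspDict (Gamma1 M) real jF) :
    PDivG (Gamma1 M) p (K := ℂ) real ζ (fun ψ => IsParabolicHom (Gamma1 M) ψ) :=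
  pdiv_of_dict_Gamma1 hM hI hC

/-- (PDIV) from its two halves (split along `Q.ord jF < 0`), for ANY goodness predicate. -/
theorem pdivG_of_halves {Good : (Additive ↥Γ →+ ZMod p) → Prop}
    (hint : ∀ (ψ : Additive ↥Γ →+ ZMod p) (h : Mer) (u : F), Good ψ →
      IsKumDatumG Γ real ζ ψ h u → ∀ Q : Place ℂ F, ¬ Q.ord jF < 0 → (p : ℤ) ∣ Q.ord u)
    (hcusp : ∀ (ψ : Additive ↥Γ →+ ZMod p) (h : Mer) (u : F), Good ψ →
      IsKumDatumG Γ real ζ ψ h u → ∀ Q : Place ℂ F, Q.ord jF < 0 → (p : ℤ) ∣ Q.ord u) :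
    PDivG Γ p (K := ℂ) real ζ Good := by
  intro ψ h u hgood D Q
  by_cases hQ : Q.ord jF < 0
  · exact hcusp ψ h u hgood D Q hQ
  · exact hint ψ h u hgood D Q hQ

/-- adapter: helper80's announced `exists_cusp_chart` shape (invariance group `Γ'`, level `N`,
conjuncts in his order) + the regular-cusp hypothesis `hreg` ⟹ `CuspDict Γ real jF`. -/
theorem cuspDict_of_cusp_chart {Γ' : Subgroup SL(2, ℤ)} {N : ℕ}
    (hreg : ∀ (g : SL(2, ℤ)) (w : ℕ), g * ModularGroup.T ^ w * g⁻¹ ∈ Γ' →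
      g * ModularGroup.T ^ w * g⁻¹ ∈ Γ)
    (H : ∀ Q : Place ℂ F, Q.ord jF < 0 → ∃ (g : SL(2, ℤ)) (w e : ℕ), 0 < w ∧ 0 < e ∧ w * e = N ∧
      g * ModularGroup.T ^ w * g⁻¹ ∈ Γ' ∧
      ∀ u : F, u ≠ 0 → ∃ L : LaurentSeries ℂ,
        MerCE ((w * e : ℕ) : ℝ) (compM g (real u)) L ∧ L ≠ 0 ∧ L.order = e * Q.ord u) :
    CuspDict Γ real jF := by
  apply cuspDict_of_merCE
  intro Q hQ
  obtain ⟨g, w, e, hw, he, -, hmem, hexp⟩ := H Q hQ
  refine ⟨g, w, e, hw, he, hreg g w hmem, fun u hu => ?_⟩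
  obtain ⟨L, hL, hL0, hord⟩ := hexp u hu
  exact ⟨L, hL0, hL, hord⟩

/-- the regular-cusp hypothesis for `Γ₁(M) ≤ Γ'` when `Γ'` is generated by `Γ₁(M)` and `-1`
(abstractly: every element of `Γ'` of trace `2` lies in `Γ`). -/
theorem hreg_of_trace_two {Γ' : Subgroup SL(2, ℤ)}
    (htr : ∀ γ ∈ Γ', (γ : Matrix (Fin 2) (Fin 2) ℤ).trace = 2 → γ ∈ Γ) :
    ∀ (g : SL(2, ℤ)) (w : ℕ), g * ModularGroup.T ^ w * g⁻¹ ∈ Γ' →
      g * ModularGroup.T ^ w * g⁻¹ ∈ Γ := by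
  intro g w hmem
  apply htr _ hmem
  have := Fermat.Agent.GJ.TwEis.trace_conj_T_zpow g (w : ℤ)
  rw [zpow_natCast] at this
  exact this

end

end Fermat.Agent.DS.P3.PDiv1Plug
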