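import Mathlib
import Fermat.Agent.DS.P1.RealizeF1
import Fermat.Agent.DS.P1.CuspExpGen
import Fermat.Agent.DS.P3.DictCusp.Main
import Fermat.Agent.DS.P3.PDiv1Plug
import Fermat.Agent.DS.P3.TwEisG.Char

/-!
# GATE-N / S48-P3-DICT-CUSP-INST: the cusp dictionary of `X₁(M)` from analytic Weber data

helper80's Γ-generic cusp dictionary (`DS/P3/DictCusp/{Emb,Orbit,Main}`) takes ONE hypothesis
structure `CuspHyp real jF Γ' N`.  Here it is instantiated at helper30's realisation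
`real1C D : F1C ℂ M →ₐ[ℂ] Mer` (`D : WeberData M`), `jF := j1C M`, `Γ' := ±Γ₁(M)`, `N := M`:

* `cuspHyp1 D : CuspHyp (real1C D) (j1C M) (pm (Gamma1 M)) M`;
* `exists_cusp_chart1 D`, `dvd_ord_of_datum_cusp1 D` (cusp half of (P) for `Γ₁(M)`, `M ∤ 4`);
* `cuspDict1 D : PDiv1.CuspDict (Gamma1 M) (real1C D) (j1C M)` (`M ∤ 4`), the hypothesis `hC` of
  helper75's `pdivG_of_dict_Gamma1`.
-/

set_option autoImplicit false
set_option linter.unusedSectionVars false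

noncomputable section

namespace Fermat.Agent.DS.P3.DictCuspInst

open UpperHalfPlane ModularCurve IntermediateField CongruenceSubgroup AlgebraicCurve
open Fermat.Agent.S24 Fermat.Agent.S28 Fermat.Agent.S28.CuspExp
open Fermat.Agent.S24_helper62 Fermat.Agent.S24_helper82
open Fermat.Agent.GJ.Dict Fermat.Agent.GJ.Dict.FieldGen
open Fermat.Agent.GJ.TwEis (MerCE)
open Fermat.Agent.DS.P0 Fermat.Agent.DS.P1.RealizeGen Fermat.Agent.DS.P1.FieldGenG
open Fermat.Agent.DS.P1.RealizeF1 Fermat.Agent.DS.P3.Sat1 Fermat.Agent.DS.P3.DictCusp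
open scoped MatrixGroups Manifold

variable {M : ℕ} [NeZero M] (D : WeberData M)

/-- the realisation as a ring homomorphism -/
abbrev realR : F1C ℂ M →+* Mer := ((real1C D : F1C ℂ M →ₐ[ℂ] Mer) : F1C ℂ M →+* Mer)

/-- `Γ₁(M)` has level `M`: all the conjugates of `T^M` lie in `Γ₁(M)` (no condition on `M`) -/
theorem level_Gamma1 (M : ℕ) (g : SL(2, ℤ)) :
    g * ModularGroup.T ^ (M : ℤ) * g⁻¹ ∈ Gamma1 M := by
  refine Fermat.Agent.DS.P3.TwEisG.conj_T_zpow_mem_of_Gamma_le (fun A hA => ?_) g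
  rw [CongruenceSubgroup.Gamma_mem] at hA
  rw [Gamma1_mem]
  exact ⟨hA.1, hA.2.2.2, hA.2.2.1⟩

/-- coset separation on the realisation `real1C D` -/
theorem sep_real1C {g : SL(2, ℤ)} (h : ∀ f : F1C ℂ M, compM g (real1C D f) = real1C D f) :
    g ∈ pm (Gamma1 M) := by
  apply genFam_sep D
  intro i
  rcases i with d | a
  · have : NeZero d.1 := ⟨(DivIdx.pos M d).ne'⟩
    have h1 := h (jd1 M ℂ d.1 d.2)
    rw [real1C_jd, compM_algebraMap] at h1
    exact IsFractionRing.injective Hol Mer h1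
  · have h1 := h (w1 M ℂ a.1 a.2)
    rw [real1C_w, compM_algebraMap] at h1
    exact IsFractionRing.injective Hol Mer h1

/-- **(P1f)** every translate of every element of `ℂ(X₁(M))` has a cusp expansion in `𝕢_M` -/
theorem exists_merCE_compM_real1C (g : SL(2, ℤ)) (f : F1C ℂ M) :
    ∃ L : LaurentSeries ℂ, MerCE (M : ℝ) (compM g (real1C D f)) L :=
  Fermat.Agent.DS.P1.CuspExpGen.exists_merCE_compM_realOf (Γ := Gamma1 M) (N := M)
    (genFam D) (isCE_genFam D) (F1C_eq_FG D) (level_Gamma1 M) (genFam_mem_IMGG D) g f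

/-- **the `CuspHyp` instance of `X₁(M)`** -/
theorem cuspHyp1 : CuspHyp (realR D) (j1C M) (pm (Gamma1 M)) M where
  real_const c := (real1C D).commutes c
  real_j := ⟨jH, fun τ => Fermat.Agent.S24.InteriorCounts.jDil_one_eq_jInv τ, real1C_j D⟩
  inv γ hγ f := compM_real1C D hγ f
  sep g h := sep_real1C D h
  finite := (finrank_F1C_C D).1
  deg := by
    rw [Nat.card_eq_fintype_card]
    exact (finrank_F1C_C D).2.symm
  exp g f := exists_merCE_compM_real1C D g f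

/-- every element of `±Γ₁(M)` is `± ` an element of `Γ₁(M)` -/
theorem pm_Gamma1_cases {x : SL(2, ℤ)} (hx : x ∈ pm (Gamma1 M)) :
    x ∈ Gamma1 M ∨ -x ∈ Gamma1 M := mem_pm.mp hx

/-- **the cusp chart of a place of `ℂ(X₁(M))` over `j = ∞`** -/
theorem exists_cusp_chart1 (Q : Place ℂ (F1C ℂ M)) (hQ : Q.ord (j1C M) < 0) :
    ∃ (g : SL(2, ℤ)) (w e : ℕ), 0 < w ∧ 0 < e ∧ w * e = M ∧
      g * ModularGroup.T ^ w * g⁻¹ ∈ pm (Gamma1 M) ∧
      ∀ u : F1C ℂ M, u ≠ 0 → ∃ L : LaurentSeries ℂ,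
        MerCE ((w * e : ℕ) : ℝ) (compM g (realR D u)) L ∧ L ≠ 0 ∧ L.order = e * Q.ord u :=
  (cuspHyp1 D).exists_cusp_chart Q hQ

/-- the regular-cusp hypothesis for `Γ₁(M) ≤ ±Γ₁(M)`, `M ∤ 4` -/
theorem hreg1 (hM : ¬ M ∣ 4) (g : SL(2, ℤ)) (w : ℕ)
    (h : g * ModularGroup.T ^ w * g⁻¹ ∈ pm (Gamma1 M)) :
    g * ModularGroup.T ^ w * g⁻¹ ∈ Gamma1 M :=
  hreg_Gamma1 hM (fun _ hx => pm_Gamma1_cases hx) g w h

/-- **(P), cusp half, for `Γ₁(M)`, `M ∤ 4`** -/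
theorem dvd_ord_of_datum_cusp1 (hM : ¬ M ∣ 4) {p : ℕ} [NeZero p] {ζ : ℂ}
    {ψ : Additive ↥(Gamma1 M) →+ ZMod p}
    (hψ : ModularCurve.Period.IsParabolicHom (Gamma1 M) ψ) {h : Mer} {u : F1C ℂ M}
    (K : Fermat.Agent.DS.P3.KumCoreG.IsKumDatumG (Gamma1 M) (realR D) ζ ψ h u)
    (Q : Place ℂ (F1C ℂ M)) (hQ : Q.ord (j1C M) < 0) : (p : ℤ) ∣ Q.ord u :=
  (cuspHyp1 D).dvd_ord_of_datum_cusp (hreg1 hM) hψ K Q hQ

/-- **the cusp dictionary of `X₁(M)`, `M ∤ 4`** (`hC` of helper75's `pdivG_of_dict_Gamma1`) -/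
theorem cuspDict1 (hM : ¬ M ∣ 4) :
    Fermat.Agent.DS.P3.PDiv1.CuspDict (Gamma1 M) (realR D) (j1C M) :=
  Fermat.Agent.DS.P3.PDiv1Plug.cuspDict_of_cusp_chart (hreg1 hM) (exists_cusp_chart1 D)

end Fermat.Agent.DS.P3.DictCuspInst
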