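/-
GATE-N / S48 J1-port, P3 (EIG twin), leaf S48-P3-FINC1 (helper6): the Γ-GENERIC twin of helper41's
`GJ/J2/KumFin.lean` — the Kummer group `Kum ℂ F p` of a function field `F` realised inside
`Mer = Frac(Hol)` by `real : F →+* Mer` is FINITE, for any finitely generated `Γ ≤ SL(2,ℤ)` under
which `real F` is invariant and saturated (target: `Γ = Γ₁(M)`).

The multiplier of a `p`-th root of `real u` (a homomorphism `Γ → ℤ/p`) determines the Kummer class
of `u`: if roots `h`, `h'` of `real u`, `real v` have the same multiplier then `h'/h` is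
`Γ`-invariant with `p`-th power in `real F`, hence in `real F` (saturation `hsat`, leaf SAT1), so
`v = u w^p`.  `Hom(Γ, ℤ/p)` is finite since `Γ` is finitely generated (Schreier, `Γ` of finite
index in `SL(2,ℤ) = ⟨S, T⟩`).

Hypotheses, all in the shapes of helper94's `DS/P3/KumCoreG.lean`:
* `hinv : ∀ (γ : Γ) (u : F), compM γ (real u) = real u`;
* `hsat : ∀ m : Mer, (∀ γ : Γ, compM γ m = m) → m ^ p ∈ Set.range real → m ∈ Set.range real`;
* the interior dictionary in the weakest form `PDivInt real p` (orders of `real u` on `ℍ` are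
  divisible by `p` for `p`-divisible `u`), implied by `E1 real` (`ord_τ ∘ real = e · ord_P`).

Besides finiteness the file exports the Kummer map itself,
`kappa : Additive (Kum ℂ F p) →+ (Additive Γ →+ ZMod p)`, an INJECTIVE group homomorphism.
-/
import Mathlib
import Fermat.Agent.GJ.J2.EigIface
import Fermat.Agent.GJ.J2.RootMer
import Fermat.Agent.DS.P3.KumCoreG

set_option autoImplicit false

open UpperHalfPlane Complex AlgebraicCurve
open scoped MatrixGroups

noncomputable section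

namespace Fermat.Agent.DS.P3.FinC1

open Fermat.Agent.S24_helper82 Fermat.Agent.GJ.KumGroup Fermat.Agent.GJ.HeckeMer
open Fermat.Agent.DS.P3.KumCoreG

/-! ### Finite generation -/

/-- `SL(2,ℤ) = ⟨S, T⟩` is finitely generated. -/
theorem fg_SL2Z : Group.FG SL(2, ℤ) := by
  rw [Group.fg_iff]
  refine ⟨{ModularGroup.S, ModularGroup.T}, SpecialLinearGroup.SL2Z_generators, ?_⟩
  exact (Set.finite_singleton _).insert _

/-- a finite-index subgroup of `SL(2,ℤ)` is finitely generated (Schreier) -/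
theorem fg_of_finiteIndex (Γ : Subgroup SL(2, ℤ)) [Γ.FiniteIndex] : Group.FG Γ := by
  have := fg_SL2Z
  infer_instance

/-- `Γ₁(M)` is finitely generated -/
theorem fg_Gamma1 (M : ℕ) [NeZero M] : Group.FG (CongruenceSubgroup.Gamma1 M) :=
  fg_of_finiteIndex _

/-- a finitely generated group has finitely many homomorphisms to `ℤ/p` -/
theorem finite_hom_of_fg {G : Type*} [Group G] (hfg : Group.FG G) (p : ℕ) [NeZero p] :
    Finite (Additive G →+ ZMod p) := by
  obtain ⟨S, hS, hfin⟩ := Group.fg_iff.mp hfg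
  have := hfin.to_subtype
  let ev : (Additive G →+ ZMod p) → (S → ZMod p) := fun φ x => φ (Additive.ofMul x.1)
  refine Finite.of_injective ev fun φ φ' h => ?_
  have h1 : AddMonoidHom.toMultiplicativeRight φ = AddMonoidHom.toMultiplicativeRight φ' :=
    MonoidHom.eq_of_eqOn_dense hS
      (fun x hx => congrArg Multiplicative.ofAdd (congrFun h ⟨x, hx⟩))
  exact AddMonoidHom.toMultiplicativeRight.injective h1

/-! ### The interior dictionary, in the forms used here -/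

section Dict

variable {F : Type*} [Field F] [Algebra ℂ F]

/-- the interior dictionary (E1) in the form of `GJ/J2/KumFin.lean`: the order at a point of the
upper half plane is a multiple of the order at a place of `F`. -/
def E1 (real : F →+* Mer) : Prop :=
  ∀ τ : ℍ, ∃ (P : Place ℂ F) (e : ℕ), ∀ f : F, f ≠ 0 →
    ordM τ (real f) = (e : ℤ) * P.ord f

/-- the interior `p`-divisibility transfer, the weakest form of the dictionary that suffices: the
orders on `ℍ` of the realisation of a `p`-divisible unit are divisible by `p`. -/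
def PDivInt (real : F →+* Mer) (p : ℕ) : Prop :=
  ∀ u : Fˣ, u ∈ pDivUnits ℂ F p → ∀ τ : ℍ, (p : ℤ) ∣ ordM τ (real (u : F))

theorem pDivInt_of_e1 {real : F →+* Mer} (hE1 : E1 real) (p : ℕ) : PDivInt real p := by
  intro u hu τ
  obtain ⟨P, e, hPe⟩ := hE1 τ
  rw [hPe _ u.ne_zero]
  exact Dvd.dvd.mul_left (hu P) _

end Dict

/-! ### Roots and multipliers of `p`-divisible units -/

section Finite

variable {F : Type*} [Field F] [Algebra ℂ F] {Γ : Subgroup SL(2, ℤ)} {real : F →+* Mer} {p : ℕ}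

omit [Algebra ℂ F] in
theorem real_unit_ne_zero (real : F →+* Mer) (u : Fˣ) : real (u : F) ≠ 0 :=
  (map_ne_zero real).mpr u.ne_zero

/-- every `p`-divisible unit has a `p`-th root in `Mer` -/
theorem exists_root (hpd : PDivInt real p) (hp : 0 < p) {u : Fˣ} (hu : u ∈ pDivUnits ℂ F p) :
    ∃ h : Mer, h ≠ 0 ∧ h ^ p = real (u : F) := by
  obtain ⟨h, hh⟩ := Fermat.Agent.GJ.Root.exists_pow_eq_mer hp _ (real_unit_ne_zero real u)
    (hpd u hu)
  refine ⟨h, ?_, hh⟩
  rintro rfl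
  rw [zero_pow hp.ne'] at hh
  exact real_unit_ne_zero real u hh.symm

omit [Algebra ℂ F] in
theorem compM_pow_of_root
    (hinv : ∀ (γ : Γ) (u : F), compM (γ : SL(2, ℤ)) (real u) = real u)
    {h : Mer} {f : F} (hh : h ^ p = real f) (γ : Γ) :
    compM (γ : SL(2, ℤ)) (h ^ p) = h ^ p := by
  rw [hh]
  exact hinv γ f

variable [NeZero p]

/-- **Same multiplier ⇒ same Kummer class.** -/
theorem mk_eq_mk_of_hasMultG
    (hsat : ∀ m : Mer, (∀ γ : Γ, compM (γ : SL(2, ℤ)) m = m) → m ^ p ∈ Set.range real →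
      m ∈ Set.range real)
    {ζ : ℂ} (hζ : ζ ^ p = 1) {u v : pDivUnits ℂ F p}
    {h h' : Mer} (hh0 : h ≠ 0) (hh : h ^ p = real ((u : Fˣ) : F))
    (hh' : h' ^ p = real ((v : Fˣ) : F))
    {ψ : Additive Γ →+ ZMod p} (H : HasMultG Γ ζ ψ h) (H' : HasMultG Γ ζ ψ h') :
    Kum.mk u = Kum.mk v := by
  have hp : 0 < p := Nat.pos_of_ne_zero (NeZero.ne p)
  -- `m = h'/h` is invariant
  have hm : HasMultG Γ ζ (ψ + -ψ) (h' * h⁻¹) := H'.mul hζ (H.inv hζ)
  rw [add_neg_cancel, hasMultG_zero_iff] at hm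
  have hpow : (h' * h⁻¹) ^ p = real ((((v : Fˣ) * (u : Fˣ)⁻¹ : Fˣ)) : F) := by
    rw [mul_pow, inv_pow, hh, hh', Units.val_mul, map_mul, Units.val_inv_eq_inv_val, map_inv₀]
  obtain ⟨w, hw⟩ := hsat _ hm ⟨_, hpow.symm⟩
  have hw0 : w ≠ 0 := by
    rintro rfl
    rw [map_zero] at hw
    have h'0 : h' ≠ 0 := by
      rintro rfl
      rw [zero_pow hp.ne'] at hh'
      exact real_unit_ne_zero real _ hh'.symm
    exact mul_ne_zero h'0 (inv_ne_zero hh0) hw.symm
  have hwp : w ^ p = (((v : Fˣ) * (u : Fˣ)⁻¹ : Fˣ) : F) := by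
    apply real.injective
    rw [map_pow, hw, hpow]
  rw [Kum.mk_eq_mk_iff]
  refine ⟨Units.mk0 w hw0, Units.ext ?_⟩
  rw [Units.val_mul, Units.val_pow_eq_pow_val, Units.val_mk0, hwp, Units.val_mul,
    Units.val_inv_eq_inv_val]
  field_simp

/-- a multiplier for every `p`-divisible unit -/
theorem exists_mult (hpd : PDivInt real p)
    (hinv : ∀ (γ : Γ) (u : F), compM (γ : SL(2, ℤ)) (real u) = real u)
    {ζ : ℂ} (hζ : IsPrimitiveRoot ζ p) (u : pDivUnits ℂ F p) :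
    ∃ (ψ : Additive Γ →+ ZMod p) (h : Mer), h ≠ 0 ∧
      h ^ p = real ((u : Fˣ) : F) ∧ HasMultG Γ ζ ψ h := by
  have hp : 0 < p := Nat.pos_of_ne_zero (NeZero.ne p)
  obtain ⟨h, hh0, hh⟩ := exists_root hpd hp u.2
  obtain ⟨ψ, hψ⟩ := exists_hasMultG hζ hh0 (compM_pow_of_root hinv hh)
  exact ⟨ψ, h, hh0, hh, hψ⟩

/-- the multiplier map on `p`-divisible units (a choice; see `kappaU_eq` for independence) -/
def kappaU (hpd : PDivInt real p)
    (hinv : ∀ (γ : Γ) (u : F), compM (γ : SL(2, ℤ)) (real u) = real u)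
    {ζ : ℂ} (hζ : IsPrimitiveRoot ζ p) (u : pDivUnits ℂ F p) : Additive Γ →+ ZMod p :=
  (exists_mult hpd hinv hζ u).choose

theorem kappaU_spec (hpd : PDivInt real p)
    (hinv : ∀ (γ : Γ) (u : F), compM (γ : SL(2, ℤ)) (real u) = real u)
    {ζ : ℂ} (hζ : IsPrimitiveRoot ζ p) (u : pDivUnits ℂ F p) :
    ∃ h : Mer, h ≠ 0 ∧ h ^ p = real ((u : Fˣ) : F) ∧
      HasMultG Γ ζ (kappaU hpd hinv hζ u) h :=
  (exists_mult hpd hinv hζ u).choose_spec

/-- the multiplier does not depend on the choice of the root -/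
theorem kappaU_eq (hpd : PDivInt real p)
    (hinv : ∀ (γ : Γ) (u : F), compM (γ : SL(2, ℤ)) (real u) = real u)
    {ζ : ℂ} (hζ : IsPrimitiveRoot ζ p) (u : pDivUnits ℂ F p)
    {h : Mer} (hh : h ^ p = real ((u : Fˣ) : F))
    {ψ : Additive Γ →+ ZMod p} (H : HasMultG Γ ζ ψ h) : kappaU hpd hinv hζ u = ψ := by
  have hp : 0 < p := Nat.pos_of_ne_zero (NeZero.ne p)
  obtain ⟨h₁, h₁0, hh₁, H₁⟩ := kappaU_spec hpd hinv hζ u
  obtain ⟨c, hc, hch⟩ := Fermat.Agent.GJ.Root.eq_smul_of_pow_eq hp h h₁ h₁0 (hh.trans hh₁.symm)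
  -- `h = c h₁` has the same multiplier as `h₁`
  have H' : HasMultG Γ ζ (kappaU hpd hinv hζ u) h := by
    intro γ
    rw [hch, map_mul, compM_const, H₁ γ]
    ring
  have hh0 : h ≠ 0 := by
    rintro rfl
    rw [zero_pow hp.ne'] at hh
    exact real_unit_ne_zero real _ hh.symm
  exact HasMultG.unique hζ hh0 H' H

/-- the Kummer datum attached to a `p`-divisible unit -/
theorem exists_isKumDatumG (hpd : PDivInt real p)
    (hinv : ∀ (γ : Γ) (u : F), compM (γ : SL(2, ℤ)) (real u) = real u)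
    {ζ : ℂ} (hζ : IsPrimitiveRoot ζ p) (u : pDivUnits ℂ F p) :
    ∃ h : Mer, IsKumDatumG Γ real ζ (kappaU hpd hinv hζ u) h ((u : Fˣ) : F) := by
  obtain ⟨h, h0, hh, H⟩ := kappaU_spec hpd hinv hζ u
  exact ⟨h, h0, H, hh.symm⟩

/-- conversely the multiplier of any Kummer datum of `u` is `kappaU u` -/
theorem kappaU_eq_of_isKumDatumG (hpd : PDivInt real p)
    (hinv : ∀ (γ : Γ) (u : F), compM (γ : SL(2, ℤ)) (real u) = real u)
    {ζ : ℂ} (hζ : IsPrimitiveRoot ζ p) (u : pDivUnits ℂ F p)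
    {ψ : Additive Γ →+ ZMod p} {h : Mer} (D : IsKumDatumG Γ real ζ ψ h ((u : Fˣ) : F)) :
    kappaU hpd hinv hζ u = ψ :=
  kappaU_eq hpd hinv hζ u D.2.2.symm D.2.1

theorem kappaU_mul (hpd : PDivInt real p)
    (hinv : ∀ (γ : Γ) (u : F), compM (γ : SL(2, ℤ)) (real u) = real u)
    {ζ : ℂ} (hζ : IsPrimitiveRoot ζ p) (u v : pDivUnits ℂ F p) :
    kappaU hpd hinv hζ (u * v) = kappaU hpd hinv hζ u + kappaU hpd hinv hζ v := by
  obtain ⟨h₁, -, hh₁, H₁⟩ := kappaU_spec hpd hinv hζ u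
  obtain ⟨h₂, -, hh₂, H₂⟩ := kappaU_spec hpd hinv hζ v
  refine kappaU_eq hpd hinv hζ (u * v) (h := h₁ * h₂) ?_ (H₁.mul hζ.pow_eq_one H₂)
  rw [mul_pow, hh₁, hh₂, Subgroup.coe_mul, Units.val_mul, map_mul]

/-- `p`-th powers have trivial multiplier -/
theorem kappaU_eq_zero_of_pow (hpd : PDivInt real p)
    (hinv : ∀ (γ : Γ) (u : F), compM (γ : SL(2, ℤ)) (real u) = real u)
    {ζ : ℂ} (hζ : IsPrimitiveRoot ζ p) (u : pDivUnits ℂ F p) {w : Fˣ}
    (hw : (u : Fˣ) = w ^ p) : kappaU hpd hinv hζ u = 0 := by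
  refine kappaU_eq hpd hinv hζ u (h := real (w : F)) ?_ ?_
  · rw [hw, Units.val_pow_eq_pow_val, map_pow]
  · rw [hasMultG_zero_iff]
    exact fun γ => hinv γ _

theorem kappaU_injective_mod (hpd : PDivInt real p)
    (hinv : ∀ (γ : Γ) (u : F), compM (γ : SL(2, ℤ)) (real u) = real u)
    (hsat : ∀ m : Mer, (∀ γ : Γ, compM (γ : SL(2, ℤ)) m = m) → m ^ p ∈ Set.range real →
      m ∈ Set.range real)
    {ζ : ℂ} (hζ : IsPrimitiveRoot ζ p)
    {u v : pDivUnits ℂ F p} (h : kappaU hpd hinv hζ u = kappaU hpd hinv hζ v) :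
    Kum.mk u = Kum.mk v := by
  obtain ⟨h₁, h₁0, hh₁, H₁⟩ := kappaU_spec hpd hinv hζ u
  obtain ⟨h₂, -, hh₂, H₂⟩ := kappaU_spec hpd hinv hζ v
  rw [← h] at H₂
  exact mk_eq_mk_of_hasMultG hsat hζ.pow_eq_one h₁0 hh₁ hh₂ H₁ H₂

/-- the multiplier is constant on Kummer classes -/
theorem kappaU_eq_of_mk_eq (hpd : PDivInt real p)
    (hinv : ∀ (γ : Γ) (u : F), compM (γ : SL(2, ℤ)) (real u) = real u)
    {ζ : ℂ} (hζ : IsPrimitiveRoot ζ p)
    {u v : pDivUnits ℂ F p} (h : Kum.mk u = Kum.mk v) :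
    kappaU hpd hinv hζ u = kappaU hpd hinv hζ v := by
  obtain ⟨w, hw⟩ := Kum.mk_eq_mk_iff.mp h
  have hwmem : w ^ p ∈ pDivUnits ℂ F p := pow_mem_pDivUnits ℂ F p w
  have hv : v = u * ⟨w ^ p, hwmem⟩ := Subtype.ext hw
  rw [hv, kappaU_mul, kappaU_eq_zero_of_pow hpd hinv hζ ⟨w ^ p, hwmem⟩ (w := w) rfl, add_zero]

/-- **(F) KUM-FIN over `ℂ`, Γ-generic**: the Kummer group of a function field `F` realised in
`Mer`, invariant and saturated under a finitely generated `Γ`, is finite. -/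
theorem finite_kum (hpd : PDivInt real p)
    (hinv : ∀ (γ : Γ) (u : F), compM (γ : SL(2, ℤ)) (real u) = real u)
    (hsat : ∀ m : Mer, (∀ γ : Γ, compM (γ : SL(2, ℤ)) m = m) → m ^ p ∈ Set.range real →
      m ∈ Set.range real)
    (hfg : Group.FG Γ) {ζ : ℂ} (hζ : IsPrimitiveRoot ζ p) :
    Finite (Kum ℂ F p) := by
  have := finite_hom_of_fg hfg p
  let g : Kum ℂ F p → (Additive Γ →+ ZMod p) :=
    fun x => kappaU hpd hinv hζ (Function.surjInv Kum.mk_surjective x)
  refine Finite.of_injective g fun x y hxy => ?_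
  have h1 := kappaU_injective_mod hpd hinv hsat hζ hxy
  have e1 : Kum.mk (Function.surjInv (Kum.mk_surjective (K := ℂ) (F := F) (p := p)) x) = x :=
    Function.surjInv_eq _ x
  have e2 : Kum.mk (Function.surjInv (Kum.mk_surjective (K := ℂ) (F := F) (p := p)) y) = y :=
    Function.surjInv_eq _ y
  rw [← e1, ← e2]
  exact h1

/-- the same with the standard primitive root `exp (2πi/p)` -/
theorem finite_kum' (hpd : PDivInt real p)
    (hinv : ∀ (γ : Γ) (u : F), compM (γ : SL(2, ℤ)) (real u) = real u)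
    (hsat : ∀ m : Mer, (∀ γ : Γ, compM (γ : SL(2, ℤ)) m = m) → m ^ p ∈ Set.range real →
      m ∈ Set.range real)
    (hfg : Group.FG Γ) : Finite (Kum ℂ F p) :=
  finite_kum hpd hinv hsat hfg (Complex.isPrimitiveRoot_exp p (NeZero.ne p))

/-- finite-index form (e.g. `Γ = Γ₁(M)`, `Γ₀(N)`, `Γ(N)`) -/
theorem finite_kum_of_finiteIndex [Γ.FiniteIndex] (hpd : PDivInt real p)
    (hinv : ∀ (γ : Γ) (u : F), compM (γ : SL(2, ℤ)) (real u) = real u)
    (hsat : ∀ m : Mer, (∀ γ : Γ, compM (γ : SL(2, ℤ)) m = m) → m ^ p ∈ Set.range real →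
      m ∈ Set.range real) : Finite (Kum ℂ F p) :=
  finite_kum' hpd hinv hsat (fg_of_finiteIndex Γ)

/-- **FinC1**: the `Γ₁(M)` instance, from the interior dictionary `E1`. -/
theorem finite_kum_Gamma1 (M : ℕ) [NeZero M] {real : F →+* Mer} (hE1 : E1 real)
    (hinv : ∀ (γ : CongruenceSubgroup.Gamma1 M) (u : F),
      compM (γ : SL(2, ℤ)) (real u) = real u)
    (hsat : ∀ m : Mer, (∀ γ : CongruenceSubgroup.Gamma1 M, compM (γ : SL(2, ℤ)) m = m) →
      m ^ p ∈ Set.range real → m ∈ Set.range real) : Finite (Kum ℂ F p) :=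
  finite_kum_of_finiteIndex (pDivInt_of_e1 hE1 p) hinv hsat

/-! ### The Kummer map as an injective homomorphism -/

omit [NeZero p] in
theorem mk_surjInv (x : Kum ℂ F p) :
    Kum.mk (Function.surjInv (Kum.mk_surjective (K := ℂ) (F := F) (p := p)) x) = x :=
  Function.surjInv_eq _ x

/-- the Kummer map `Kum ℂ F p → Hom(Γ, ℤ/p)`, `[u] ↦ multiplier of a p-th root of real u` -/
def kappa (hpd : PDivInt real p)
    (hinv : ∀ (γ : Γ) (u : F), compM (γ : SL(2, ℤ)) (real u) = real u)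
    {ζ : ℂ} (hζ : IsPrimitiveRoot ζ p) : Additive (Kum ℂ F p) →+ (Additive Γ →+ ZMod p) :=
  AddMonoidHom.mk'
    (fun x => kappaU hpd hinv hζ (Function.surjInv Kum.mk_surjective (Additive.toMul x)))
    (by
      intro x y
      rw [← kappaU_mul]
      apply kappaU_eq_of_mk_eq
      rw [map_mul, mk_surjInv, mk_surjInv, mk_surjInv]
      rfl)

theorem kappa_mk (hpd : PDivInt real p)
    (hinv : ∀ (γ : Γ) (u : F), compM (γ : SL(2, ℤ)) (real u) = real u)
    {ζ : ℂ} (hζ : IsPrimitiveRoot ζ p) (u : pDivUnits ℂ F p) :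
    kappa hpd hinv hζ (Additive.ofMul (Kum.mk u)) = kappaU hpd hinv hζ u := by
  show kappaU hpd hinv hζ (Function.surjInv Kum.mk_surjective (Kum.mk u)) = _
  apply kappaU_eq_of_mk_eq
  rw [mk_surjInv]

/-- `kappa [u] = ψ` for every Kummer datum `(h, u)` of `ψ` -/
theorem kappa_mk_of_isKumDatumG (hpd : PDivInt real p)
    (hinv : ∀ (γ : Γ) (u : F), compM (γ : SL(2, ℤ)) (real u) = real u)
    {ζ : ℂ} (hζ : IsPrimitiveRoot ζ p) (u : pDivUnits ℂ F p)
    {ψ : Additive Γ →+ ZMod p} {h : Mer} (D : IsKumDatumG Γ real ζ ψ h ((u : Fˣ) : F)) :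
    kappa hpd hinv hζ (Additive.ofMul (Kum.mk u)) = ψ := by
  rw [kappa_mk, kappaU_eq_of_isKumDatumG hpd hinv hζ u D]

theorem kappa_injective (hpd : PDivInt real p)
    (hinv : ∀ (γ : Γ) (u : F), compM (γ : SL(2, ℤ)) (real u) = real u)
    (hsat : ∀ m : Mer, (∀ γ : Γ, compM (γ : SL(2, ℤ)) m = m) → m ^ p ∈ Set.range real →
      m ∈ Set.range real)
    {ζ : ℂ} (hζ : IsPrimitiveRoot ζ p) : Function.Injective (kappa (Γ := Γ) hpd hinv hζ) := by
  intro x y hxy
  obtain ⟨u, hu⟩ := Kum.mk_surjective (Additive.toMul x)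
  obtain ⟨v, hv⟩ := Kum.mk_surjective (Additive.toMul y)
  have hx : x = Additive.ofMul (Kum.mk u) := by rw [hu]; rfl
  have hy : y = Additive.ofMul (Kum.mk v) := by rw [hv]; rfl
  rw [hx, hy, kappa_mk, kappa_mk] at hxy
  rw [hx, hy, kappaU_injective_mod hpd hinv hsat hζ hxy]

end Finite

end Fermat.Agent.DS.P3.FinC1
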