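/-
GATE-N / S48 J1-port, P3, helper leaf of S48-P3-PDIV1 (helper75): `Γ₁(M)` is TORSION-FREE for
`4 ≤ M`.

* `eq_one_of_trace_eq_two`      : a finite-order element of `SL(2,ℤ)` of trace `2` is `1`;
* `eq_neg_one_of_trace_eq_neg_two` : a finite-order element of trace `-2` is `-1`;
* `torsionFree_Gamma1 (hM : 4 ≤ M)` : `∀ g : Γ₁(M), IsOfFinOrder g → g = 1`;
* `eq_one_of_fixes_Gamma1`       : an element of `Γ₁(M)`, `4 ≤ M`, of finite order in `SL(2,ℤ)` is
  `1` (ambient form, for stabilisers of points of `ℍ`).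

Mathlib + `S16/LB/ShimuraClass` (`abs_trace_le_two_of_isOfFinOrder`) only.
-/
import Mathlib
import Fermat.Agent.S16.LB.ShimuraClass

set_option autoImplicit false

open scoped MatrixGroups
open CongruenceSubgroup Matrix

namespace Fermat.Agent.DS.P3.TorsionFree1

open Fermat.Agent.S16.LB.Shimura (abs_trace_le_two_of_isOfFinOrder)

/-- Cayley–Hamilton for trace `2`, determinant `1`: `A ^ 2 = 2 • A - 1`. -/
theorem sq_eq_of_trace_two (A : Matrix (Fin 2) (Fin 2) ℤ) (hdet : A.det = 1)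
    (htr : A.trace = 2) : A ^ 2 = (2 : ℤ) • A - 1 := by
  rw [Matrix.det_fin_two] at hdet
  rw [Matrix.trace_fin_two] at htr
  ext i j
  fin_cases i <;> fin_cases j
  · simp [pow_two, Matrix.mul_apply, Fin.sum_univ_two, Matrix.smul_apply, -zsmul_eq_mul]
    linear_combination (-1) * hdet + A 0 0 * htr
  · simp [pow_two, Matrix.mul_apply, Fin.sum_univ_two, Matrix.smul_apply, -zsmul_eq_mul]
    linear_combination A 0 1 * htr
  · simp [pow_two, Matrix.mul_apply, Fin.sum_univ_two, Matrix.smul_apply, -zsmul_eq_mul]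
    linear_combination A 1 0 * htr
  · simp [pow_two, Matrix.mul_apply, Fin.sum_univ_two, Matrix.smul_apply, -zsmul_eq_mul]
    linear_combination (-1) * hdet + A 1 1 * htr

/-- powers of a matrix of trace `2`, determinant `1`: `A ^ (n+1) = (n+1) • A - n • 1`. -/
theorem pow_succ_eq_of_trace_two (A : Matrix (Fin 2) (Fin 2) ℤ) (hdet : A.det = 1)
    (htr : A.trace = 2) (n : ℕ) :
    A ^ (n + 1) = ((n : ℤ) + 1) • A - (n : ℤ) • (1 : Matrix (Fin 2) (Fin 2) ℤ) := by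
  induction n with
  | zero => simp
  | succ k ih =>
    have h2 := sq_eq_of_trace_two A hdet htr
    calc A ^ (k + 1 + 1) = A ^ (k + 1) * A := pow_succ _ _
      _ = (((k : ℤ) + 1) • A - (k : ℤ) • (1 : Matrix (Fin 2) (Fin 2) ℤ)) * A := by rw [ih]
      _ = ((k : ℤ) + 1) • A ^ 2 - (k : ℤ) • A := by
        rw [sub_mul, smul_mul_assoc, smul_mul_assoc, one_mul, pow_two]
      _ = ((k : ℤ) + 1) • ((2 : ℤ) • A - 1) - (k : ℤ) • A := by rw [h2]
      _ = (((k + 1 : ℕ) : ℤ) + 1) • A - ((k + 1 : ℕ) : ℤ) • (1 : Matrix (Fin 2) (Fin 2) ℤ) := by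
        push_cast
        module

/-- a matrix of trace `2`, determinant `1` and finite order is `1`. -/
theorem matrix_eq_one_of_trace_two (A : Matrix (Fin 2) (Fin 2) ℤ) (hdet : A.det = 1)
    (htr : A.trace = 2) {m : ℕ} (hm : 0 < m) (hpow : A ^ m = 1) : A = 1 := by
  obtain ⟨n, rfl⟩ : ∃ n, m = n + 1 := ⟨m - 1, by omega⟩
  rw [pow_succ_eq_of_trace_two A hdet htr n] at hpow
  have h1 : ((n : ℤ) + 1) • (A - 1) = 0 := by
    have : ((n : ℤ) + 1) • (A - 1)
        = (((n : ℤ) + 1) • A - (n : ℤ) • (1 : Matrix (Fin 2) (Fin 2) ℤ)) - 1 := by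
      module
    rw [this, hpow, sub_self]
  have hne : ((n : ℤ) + 1) ≠ 0 := by positivity
  have h2 : A - 1 = 0 := by
    rcases smul_eq_zero.mp h1 with h | h
    · exact absurd h hne
    · exact h
  exact sub_eq_zero.mp h2

/-- a finite-order element of `SL(2,ℤ)` of trace `2` is `1`. -/
theorem eq_one_of_trace_eq_two {g : SL(2, ℤ)} (hg : IsOfFinOrder g)
    (htr : (g : Matrix (Fin 2) (Fin 2) ℤ).trace = 2) : g = 1 := by
  obtain ⟨m, hm, hgm⟩ := isOfFinOrder_iff_pow_eq_one.mp hg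
  have h1 : (g : Matrix (Fin 2) (Fin 2) ℤ) ^ m = 1 := by
    have := congrArg (fun x : SL(2, ℤ) => (x : Matrix (Fin 2) (Fin 2) ℤ)) hgm
    simpa using this
  have h2 := matrix_eq_one_of_trace_two (g : Matrix (Fin 2) (Fin 2) ℤ) g.2 htr hm h1
  apply Subtype.ext
  rw [h2]
  rfl

/-- a finite-order element of `SL(2,ℤ)` of trace `-2` is `-1`. -/
theorem eq_neg_one_of_trace_eq_neg_two {g : SL(2, ℤ)} (hg : IsOfFinOrder g)
    (htr : (g : Matrix (Fin 2) (Fin 2) ℤ).trace = -2) : g = -1 := by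
  have hneg : IsOfFinOrder (-g) := by
    obtain ⟨m, hm, hgm⟩ := isOfFinOrder_iff_pow_eq_one.mp hg
    refine isOfFinOrder_iff_pow_eq_one.mpr ⟨2 * m, by omega, ?_⟩
    have h1 : (-g) ^ (2 * m) = g ^ (2 * m) := by
      rw [pow_mul, pow_mul, neg_sq]
    rw [h1, mul_comm, pow_mul, hgm, one_pow]
  have htr' : ((-g : SL(2, ℤ)) : Matrix (Fin 2) (Fin 2) ℤ).trace = 2 := by
    rw [Matrix.SpecialLinearGroup.coe_neg, Matrix.trace_neg, htr]
    norm_num
  have h2 := eq_one_of_trace_eq_two hneg htr'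
  rw [← h2, neg_neg]

/-- the trace of an element of `Γ₁(M)` is `≡ 2 (mod M)`. -/
theorem trace_sub_two_of_mem_Gamma1 {M : ℕ} {g : SL(2, ℤ)} (hg : g ∈ Gamma1 M) :
    (M : ℤ) ∣ (g : Matrix (Fin 2) (Fin 2) ℤ).trace - 2 := by
  obtain ⟨h00, h11, -⟩ := (Gamma1_mem M g).mp hg
  rw [← ZMod.intCast_zmod_eq_zero_iff_dvd, Matrix.trace_fin_two]
  push_cast
  rw [h00, h11]
  ring

/-- **`Γ₁(M)` is torsion-free for `4 ≤ M`** (ambient form). -/
theorem eq_one_of_isOfFinOrder_of_mem_Gamma1 {M : ℕ} (hM : 4 ≤ M) {g : SL(2, ℤ)}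
    (hg : g ∈ Gamma1 M) (hfin : IsOfFinOrder g) : g = 1 := by
  have habs := abs_trace_le_two_of_isOfFinOrder g hfin
  rw [abs_le] at habs
  obtain ⟨c, hc⟩ := trace_sub_two_of_mem_Gamma1 hg
  have hM' : (4 : ℤ) ≤ (M : ℤ) := by exact_mod_cast hM
  -- `-4 ≤ M * c ≤ 0`
  have hc0 : c = 0 ∨ c = -1 := by
    have h1 : (M : ℤ) * c ≤ 0 := by omega
    have h2 : -4 ≤ (M : ℤ) * c := by omega
    have hc_le : c ≤ 0 := by
      by_contra hpos
      rw [not_le] at hpos
      have : (M : ℤ) * 1 ≤ (M : ℤ) * c := by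
        apply mul_le_mul_of_nonneg_left _ (by omega)
        omega
      omega
    have hc_ge : -1 ≤ c := by
      by_contra hlt
      rw [not_le] at hlt
      have : (M : ℤ) * c ≤ (M : ℤ) * (-2) := by
        apply mul_le_mul_of_nonneg_left _ (by omega)
        omega
      omega
    omega
  rcases hc0 with rfl | rfl
  · apply eq_one_of_trace_eq_two hfin
    rw [mul_zero] at hc
    omega
  · -- `trace = 2 - M`, so `M = 4` and `trace = -2`, `g = -1 ∉ Γ₁(4)`
    have hM4 : (M : ℤ) = 4 := by omega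
    have htr : (g : Matrix (Fin 2) (Fin 2) ℤ).trace = -2 := by omega
    have hg1 := eq_neg_one_of_trace_eq_neg_two hfin htr
    exfalso
    obtain ⟨h00, -, -⟩ := (Gamma1_mem M g).mp hg
    have hM4' : M = 4 := by exact_mod_cast hM4
    subst hM4'
    rw [hg1] at h00
    have h5 : ((-1 : SL(2, ℤ)) 0 0 : ℤ) = -1 := by
      simp [Matrix.SpecialLinearGroup.coe_neg]
    rw [h5] at h00
    revert h00
    decide

/-- **`Γ₁(M)` is torsion-free for `4 ≤ M`**. -/
theorem torsionFree_Gamma1 {M : ℕ} (hM : 4 ≤ M) :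
    ∀ g : ↥(Gamma1 M), IsOfFinOrder g → g = 1 := by
  intro g hg
  have hg' : IsOfFinOrder (g : SL(2, ℤ)) := by
    obtain ⟨m, hm, hgm⟩ := isOfFinOrder_iff_pow_eq_one.mp hg
    refine isOfFinOrder_iff_pow_eq_one.mpr ⟨m, hm, ?_⟩
    rw [← Subgroup.coe_pow, hgm, Subgroup.coe_one]
  apply Subtype.ext
  rw [eq_one_of_isOfFinOrder_of_mem_Gamma1 hM g.2 hg']
  rfl

end Fermat.Agent.DS.P3.TorsionFree1
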