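/-
GATE-N / S48 J1-port, P3 (EIG twin), leaf S48-P3-PDIV1 (helper75).

`(P)` = the `p`-DIVISIBILITY of the `u`-part of every Kummer datum of a good character, at EVERY
place of the function field, in Γ-GENERIC HYPOTHESIS FORM: the Γ-generic twin of
`GJ/J2/PDivC.lean` (`dvd_ord_of_datum` / `pdivC_of_cuspBridge`).

Setting: `Γ ≤ SL(2,ℤ)` ANY subgroup, `F` a field over `ℂ` with `real : F →+* Mer`, `jF : F` (the
`j`-function of `F`).  The two halves of the place dictionary are HYPOTHESES (small `Prop`s, to be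
produced by DICT-INT and DICT-CUSP of the port):

* `IntDict Γ real jF`  : every place `Q` of `F` with `ord_Q j ≥ 0` is "a point `τ ∈ ℍ` with
  ramification index `e`": `ordM τ (real u) = e * Q.ord u`, and `e ∣ ordM τ h` for every `h : Mer`
  invariant under the stabiliser of `τ` in `Γ`;
* `CuspDict Γ real jF` : every place `Q` of `F` with `ord_Q j < 0` is "a cusp `g ∞` of width
  dividing `w`" (`g T^w g⁻¹ ∈ Γ`): the translate `(real u) ∘ g` has order `e * Q.ord u` at `i∞` in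
  the parameter `𝕢_{w e}`.

Main theorem `pdiv_of_dict` = the binder `hpd` of helper94's `EigAsmG.exists_eigenvector` VERBATIM
at `K := ℂ`, `Good := IsGoodG Γ` (parabolic + kills the elements of finite order).

Convenience producers: `intDict_of_gen` (stabiliser generated by ONE element with a primitive
multiplier, the `eAt_spec` shape of `GJ/J2/Dict`), `intDict_of_unramified` (`e = 1`, the
torsion-free case `Γ₁(M)`, `M ≥ 4`), `cuspDict_of_merCE` (expansions given as `MerCE` data),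
`isGoodG_iff_of_torsionFree`, `torsionFree_Gamma1` (`4 ≤ M`).
-/
import Fermat.Agent.DS.P3.PDivCuspG
import Fermat.Agent.DS.P3.TorsionFree1
import Fermat.Agent.S20_helper25.Elliptic

set_option autoImplicit false
set_option linter.unusedSectionVars false

open Complex UpperHalfPlane Set Filter Topology Function AlgebraicCurve
open scoped MatrixGroups Manifold
open Fermat.Agent.S24_helper82 Fermat.Agent.GJ.Root Fermat.Agent.GJ.HeckeMer

namespace Fermat.Agent.DS.P3.PDiv1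

open Fermat.Agent.DS.P3.KumCoreG Fermat.Agent.DS.P3.PDivCuspG
open Fermat.Agent.GJ.TwEis (MerCE MerCE.merOrdAtImInfty)
open ModularCurve.Period (IsParabolicHom)

noncomputable section

/-! ### Good characters -/

section Good

variable (Γ : Subgroup SL(2, ℤ))

/-- parabolic homomorphisms killing the elements of finite order (Γ-generic twin of
`GJ.EigAsm.IsGood`). -/
def IsGoodG {A : Type*} [AddCommGroup A] (ψ : Additive ↥Γ →+ A) : Prop :=
  IsParabolicHom Γ ψ ∧ ∀ g : ↥Γ, IsOfFinOrder g → ψ (Additive.ofMul g) = 0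

variable {Γ}

theorem IsGoodG.comp {A B : Type*} [AddCommGroup A] [AddCommGroup B]
    {ψ : Additive ↥Γ →+ A} (h : IsGoodG Γ ψ) (f : A →+ B) : IsGoodG Γ (f.comp ψ) := by
  refine ⟨fun γ hγ => ?_, fun g hg => ?_⟩
  · rw [AddMonoidHom.comp_apply, h.1 γ hγ, map_zero]
  · rw [AddMonoidHom.comp_apply, h.2 g hg, map_zero]

theorem isGoodG_zero {A : Type*} [AddCommGroup A] : IsGoodG Γ (0 : Additive ↥Γ →+ A) :=
  ⟨fun _ _ => rfl, fun _ _ => rfl⟩

theorem IsGoodG.add {A : Type*} [AddCommGroup A] {ψ ψ' : Additive ↥Γ →+ A}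
    (h : IsGoodG Γ ψ) (h' : IsGoodG Γ ψ') : IsGoodG Γ (ψ + ψ') := by
  refine ⟨fun γ hγ => ?_, fun g hg => ?_⟩
  · rw [AddMonoidHom.add_apply, h.1 γ hγ, h'.1 γ hγ, add_zero]
  · rw [AddMonoidHom.add_apply, h.2 g hg, h'.2 g hg, add_zero]

theorem IsGoodG.neg {A : Type*} [AddCommGroup A] {ψ : Additive ↥Γ →+ A}
    (h : IsGoodG Γ ψ) : IsGoodG Γ (-ψ) := by
  refine ⟨fun γ hγ => ?_, fun g hg => ?_⟩
  · rw [AddMonoidHom.neg_apply, h.1 γ hγ, neg_zero]
  · rw [AddMonoidHom.neg_apply, h.2 g hg, neg_zero]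

/-- for a torsion-free `Γ`, "good" = "parabolic". -/
theorem isGoodG_iff_of_torsionFree (htf : ∀ g : ↥Γ, IsOfFinOrder g → g = 1)
    {A : Type*} [AddCommGroup A] (ψ : Additive ↥Γ →+ A) :
    IsGoodG Γ ψ ↔ IsParabolicHom Γ ψ := by
  refine ⟨fun h => h.1, fun h => ⟨h, fun g hg => ?_⟩⟩
  rw [htf g hg]
  exact map_zero ψ

end Good

/-! ### Elements with a fixed point in `ℍ` have finite order -/

section Fixed

open Fermat.Agent.S20_helper25 (Stab mem_Stab)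

/-- an element of `SL(2, ℤ)` with a fixed point in `ℍ` has finite order. -/
theorem isOfFinOrder_of_fixes {γ : SL(2, ℤ)} {τ : ℍ} (h : γ • τ = τ) : IsOfFinOrder γ := by
  have hfin : Finite (Stab τ) := by
    apply Nat.finite_of_card_ne_zero
    rcases Fermat.Agent.S20_helper25.card_Stab τ with h | h | h <;> rw [h] <;> norm_num
  have h1 : IsOfFinOrder (⟨γ, mem_Stab.mpr h⟩ : Stab τ) := isOfFinOrder_of_finite _
  rw [← orderOf_pos_iff] at h1 ⊢
  rwa [Subgroup.orderOf_mk] at h1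

theorem isOfFinOrder_mk_of_fixes {Γ : Subgroup SL(2, ℤ)} {γ : SL(2, ℤ)} (hγ : γ ∈ Γ) {τ : ℍ}
    (h : γ • τ = τ) : IsOfFinOrder (⟨γ, hγ⟩ : ↥Γ) := by
  have h1 := isOfFinOrder_of_fixes h
  rw [← orderOf_pos_iff] at h1 ⊢
  rwa [Subgroup.orderOf_mk]

/-- a Kummer datum of a character killing the elements of finite order is invariant under every
element of `Γ` with a fixed point in `ℍ`. -/
theorem compM_eq_of_fixes {Γ : Subgroup SL(2, ℤ)} {p : ℕ} [NeZero p] {ζ : ℂ}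
    {ψ : Additive ↥Γ →+ ZMod p} (hfin : ∀ g : ↥Γ, IsOfFinOrder g → ψ (Additive.ofMul g) = 0)
    {h : Mer} (H : HasMultG Γ ζ ψ h) {γ : SL(2, ℤ)} (hγ : γ ∈ Γ) {τ : ℍ} (hfix : γ • τ = τ) :
    compM γ h = h := by
  have h1 := H ⟨γ, hγ⟩
  rw [hfin ⟨γ, hγ⟩ (isOfFinOrder_mk_of_fixes hγ hfix), zmodPow_zero, map_one, one_mul] at h1
  exact h1

end Fixed

/-! ### The two halves of the place dictionary, as hypotheses -/

section Dict

variable (Γ : Subgroup SL(2, ℤ)) {F : Type*} [Field F] [Algebra ℂ F] (real : F →+* Mer) (jF : F)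

/-- **Interior dictionary** (hypothesis): every place `Q` of `F` at which `j` has no pole is a point
`τ ∈ ℍ` with ramification index `e`. -/
def IntDict : Prop :=
  ∀ Q : Place ℂ F, ¬ Q.ord jF < 0 → ∃ (τ : ℍ) (e : ℕ), 0 < e ∧
    (∀ h : Mer, (∀ γ ∈ Γ, γ • τ = τ → compM γ h = h) → (e : ℤ) ∣ ordM τ h) ∧
    ∀ u : F, u ≠ 0 → ordM τ (real u) = e * Q.ord u

/-- **Cusp dictionary** (hypothesis): every place `Q` of `F` at which `j` has a pole is a cusp
`g ∞` (`g T^w g⁻¹ ∈ Γ`), with `ord_{i∞}` of `(real u) ∘ g` in the parameter `𝕢_{w e}` equal to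
`e * Q.ord u`. -/
def CuspDict : Prop :=
  ∀ Q : Place ℂ F, Q.ord jF < 0 → ∃ (g : SL(2, ℤ)) (w e : ℕ), 0 < w ∧ 0 < e ∧
    g * ModularGroup.T ^ w * g⁻¹ ∈ Γ ∧
    ∀ u : F, u ≠ 0 → MerOrdAtImInfty ((w * e : ℕ) : ℝ) (compM g (real u)) (e * Q.ord u)

variable {Γ real jF}

/-- producer of `IntDict`: the stabiliser datum in the `eAt_spec` shape of `GJ/J2/Dict` (ONE
element `γ ∈ Γ` fixing `τ` whose multiplier at `τ` is a primitive `e`-th root of unity). -/
theorem intDict_of_gen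
    (H : ∀ Q : Place ℂ F, ¬ Q.ord jF < 0 → ∃ (τ : ℍ) (e : ℕ) (γ : SL(2, ℤ)), 0 < e ∧ γ ∈ Γ ∧
      γ • τ = τ ∧ IsPrimitiveRoot (mult γ τ) e ∧
      ∀ u : F, u ≠ 0 → ordM τ (real u) = e * Q.ord u) : IntDict Γ real jF := by
  intro Q hQ
  obtain ⟨τ, e, γ, he, hγ, hfix, hprim, hord⟩ := H Q hQ
  exact ⟨τ, e, he, fun h hh => dvd_ordM_of_fixed hfix hprim (hh γ hγ hfix), hord⟩

/-- producer of `IntDict`: the unramified case `ordM τ (real u) = Q.ord u` (e.g. `Γ̄` torsion-free: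
`Γ₁(M)`, `M ≥ 4`). -/
theorem intDict_of_unramified
    (H : ∀ Q : Place ℂ F, ¬ Q.ord jF < 0 → ∃ τ : ℍ,
      ∀ u : F, u ≠ 0 → ordM τ (real u) = Q.ord u) : IntDict Γ real jF := by
  intro Q hQ
  obtain ⟨τ, hord⟩ := H Q hQ
  refine ⟨τ, 1, one_pos, fun h _ => ?_, fun u hu => ?_⟩
  · rw [Nat.cast_one]
    exact one_dvd _
  · rw [hord u hu, Nat.cast_one, one_mul]

/-- producer of `CuspDict`: the cusp expansions given as `MerCE` data. -/
theorem cuspDict_of_merCE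
    (H : ∀ Q : Place ℂ F, Q.ord jF < 0 → ∃ (g : SL(2, ℤ)) (w e : ℕ), 0 < w ∧ 0 < e ∧
      g * ModularGroup.T ^ w * g⁻¹ ∈ Γ ∧
      ∀ u : F, u ≠ 0 → ∃ L : LaurentSeries ℂ, L ≠ 0 ∧
        MerCE ((w * e : ℕ) : ℝ) (compM g (real u)) L ∧ L.order = e * Q.ord u) :
    CuspDict Γ real jF := by
  intro Q hQ
  obtain ⟨g, w, e, hw, he, hmem, hexp⟩ := H Q hQ
  refine ⟨g, w, e, hw, he, hmem, fun u hu => ?_⟩
  obtain ⟨L, hL0, hL, hord⟩ := hexp u hu
  have hpos : (0 : ℝ) < ((w * e : ℕ) : ℝ) := by exact_mod_cast Nat.mul_pos hw he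
  rw [← hord]
  exact hL.merOrdAtImInfty hpos hL0

end Dict

/-! ### (P) -/

section PDiv

variable {Γ : Subgroup SL(2, ℤ)} {F : Type*} [Field F] [Algebra ℂ F] {real : F →+* Mer} {jF : F}
variable {p : ℕ} [NeZero p] {ζ : ℂ}

/-- **(P), interior half**: for a Kummer datum whose character kills the elements of finite
order. -/
theorem dvd_ord_of_datum_interior (hI : IntDict Γ real jF) {ψ : Additive ↥Γ →+ ZMod p}
    {h : Mer} {u : F} (D : IsKumDatumG Γ real ζ ψ h u)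
    (hfin : ∀ g : ↥Γ, IsOfFinOrder g → ψ (Additive.ofMul g) = 0)
    (Q : Place ℂ F) (hQ : ¬ Q.ord jF < 0) : (p : ℤ) ∣ Q.ord u := by
  obtain ⟨τ, e, he, hdvd, hord⟩ := hI Q hQ
  have h1 := hord u D.ne_zero
  rw [D.2.2, ordM_pow] at h1
  obtain ⟨m, hm⟩ := hdvd h (fun γ hγ hfix => compM_eq_of_fixes hfin D.2.1 hγ hfix)
  rw [hm] at h1
  have hne : (e : ℤ) ≠ 0 := by exact_mod_cast he.ne'
  have h2 : (e : ℤ) * Q.ord u = (e : ℤ) * ((p : ℤ) * m) := by
    rw [← h1]; ring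
  exact ⟨m, mul_left_cancel₀ hne h2⟩

/-- **(P), cusp half**: for a Kummer datum of a parabolic character. -/
theorem dvd_ord_of_datum_cusp (hC : CuspDict Γ real jF) {ψ : Additive ↥Γ →+ ZMod p}
    {h : Mer} {u : F} (D : IsKumDatumG Γ real ζ ψ h u) (hpar : IsParabolicHom Γ ψ)
    (Q : Place ℂ F) (hQ : Q.ord jF < 0) : (p : ℤ) ∣ Q.ord u := by
  obtain ⟨g, w, e, hw, he, hmem, hord⟩ := hC Q hQ
  obtain ⟨n', hn', hdvd⟩ :=
    exists_order_eq_mul_of_merOrd hpar D g hw he hmem (hord u D.ne_zero)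
  have hne : (e : ℤ) ≠ 0 := by exact_mod_cast he.ne'
  have h9 : Q.ord u = n' := mul_left_cancel₀ hne hn'
  rwa [h9]

/-- **(P)**: the `u`-part of a Kummer datum of a good character is `p`-divisible at every place of
`F`. -/
theorem dvd_ord_of_datum (hI : IntDict Γ real jF) (hC : CuspDict Γ real jF)
    {ψ : Additive ↥Γ →+ ZMod p} {h : Mer} {u : F} (D : IsKumDatumG Γ real ζ ψ h u)
    (hgood : IsGoodG Γ ψ) (Q : Place ℂ F) : (p : ℤ) ∣ Q.ord u := by
  by_cases hQ : Q.ord jF < 0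
  · exact dvd_ord_of_datum_cusp hC D hgood.1 Q hQ
  · exact dvd_ord_of_datum_interior hI D hgood.2 Q hQ

/-- **(P), assembly form** = the binder `hpd` of `EigAsmG.exists_eigenvector` at `K := ℂ`,
`Good := IsGoodG Γ`. -/
theorem pdiv_of_dict (hI : IntDict Γ real jF) (hC : CuspDict Γ real jF) :
    ∀ (ψ : Additive ↥Γ →+ ZMod p) (h : Mer) (u : F), IsGoodG Γ ψ →
      IsKumDatumG Γ real ζ ψ h u → ∀ P : Place ℂ F, (p : ℤ) ∣ P.ord u :=
  fun _ _ _ hgood D P => dvd_ord_of_datum hI hC D hgood P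

/-- **(P), torsion-free form**: `Good := IsParabolicHom Γ`. -/
theorem pdiv_of_dict_torsionFree (htf : ∀ g : ↥Γ, IsOfFinOrder g → g = 1)
    (hI : IntDict Γ real jF) (hC : CuspDict Γ real jF) :
    ∀ (ψ : Additive ↥Γ →+ ZMod p) (h : Mer) (u : F), IsParabolicHom Γ ψ →
      IsKumDatumG Γ real ζ ψ h u → ∀ P : Place ℂ F, (p : ℤ) ∣ P.ord u :=
  fun ψ _ _ hpar D P =>
    dvd_ord_of_datum hI hC D ((isGoodG_iff_of_torsionFree htf ψ).mpr hpar) P

/-! ### The instance `Γ := Γ₁(M)`, `4 ≤ M` (torsion-free) -/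

open CongruenceSubgroup in
/-- on `Γ₁(M)`, `4 ≤ M`: "good" = "parabolic". -/
theorem isGoodG_Gamma1_iff {M : ℕ} (hM : 4 ≤ M) {A : Type*} [AddCommGroup A]
    (ψ : Additive ↥(Gamma1 M) →+ A) : IsGoodG (Gamma1 M) ψ ↔ IsParabolicHom (Gamma1 M) ψ :=
  isGoodG_iff_of_torsionFree (TorsionFree1.torsionFree_Gamma1 hM) ψ

open CongruenceSubgroup in
/-- **(P) for `Γ₁(M)`, `4 ≤ M`**, `Good := IsParabolicHom (Γ₁(M))`. -/
theorem pdiv_of_dict_Gamma1 {M : ℕ} (hM : 4 ≤ M) {F : Type*} [Field F] [Algebra ℂ F]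
    {real : F →+* Mer} {jF : F} {p : ℕ} [NeZero p] {ζ : ℂ}
    (hI : IntDict (Gamma1 M) real jF) (hC : CuspDict (Gamma1 M) real jF) :
    ∀ (ψ : Additive ↥(Gamma1 M) →+ ZMod p) (h : Mer) (u : F), IsParabolicHom (Gamma1 M) ψ →
      IsKumDatumG (Gamma1 M) real ζ ψ h u → ∀ P : Place ℂ F, (p : ℤ) ∣ P.ord u :=
  pdiv_of_dict_torsionFree (TorsionFree1.torsionFree_Gamma1 hM) hI hC

end PDiv

end

end Fermat.Agent.DS.P3.PDiv1
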