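/-
GATE-N / S48 J1-port, P3 (EIG twin), leaf S48-P3-FINAL, CLASSICAL convention (helper94).

After the convention gate (helper42 board 3526, helper69 board 3531) the export of P3 is helper69's
`DS/P5/ClModel.EIG1RelCl`: an eigenvector of `k0 ⊗ Kum_p(FL F₀)` for the CLASSICAL operators
`HNcl_ℓ u = N_ℓ(u) · (⟨ℓ⟩u)(q^ℓ)` and `diaCl d = ⟨d⟩`.  This file wires the abstract assembly
(`EigAsmG.exists_eigenvector`, `EigDescG.exists_eigenvector_of_C`) to that export, `Γ`-generic: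

* `eig1RelCl_of_hyps` : realisation `real : FL F₀ →+* Mer` directly over `ℚ̄`;
* `eig1RelCl_of_C`    : realisation `realC : FC →+* Mer` over `ℂ`, base change `bc : FL F₀ →+* FC`
  and the descent bricks of `EigDescG` (what P1/DESC1 deliver).

Operators: `Op := {ℓ // ℓ prime, ℓ ∤ M p} ⊕ (ZMod M)ˣ`; the field relation is
`series Tu = hnclSeries ℓ (diaCl ℓ) u` for `ℓ` and `Tu = diaCl d u` for `d`.
-/
import Mathlib
import Fermat.Agent.DS.P3.EigFinalHyp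
import Fermat.Agent.DS.P5.ClModel

set_option autoImplicit false
set_option linter.unusedSectionVars false

open UpperHalfPlane Complex AlgebraicCurve ModularCurve TensorProduct
open scoped MatrixGroups

noncomputable section

namespace Fermat.Agent.DS.P3.EigFinalCl

open Fermat.Agent.S24_helper82 Fermat.Agent.GJ.HeckeMer Fermat.Agent.GJ.KumGroup
open Fermat.Agent.DS.P3.KumCoreG Fermat.Agent.DS.P3.EigAsmG Fermat.Agent.DS.P3.EigDescG
open Fermat.Agent.DS.P3.EigFinalHyp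
open Fermat.Agent.DS.P5 Fermat.Agent.DS.P5.KumType1 Fermat.Agent.DS.P5.KumTypeCl

variable {F₀ : IntermediateField ℚ (LaurentSeries ℚ)} {M : ℕ} [NeZero M] {p : ℕ} [Fact p.Prime]
  {diaCl : (ZMod M)ˣ → (FL F₀ ≃ₐ[Kb] FL F₀)}

/-- **(EIG1), classical convention, hypothesis form over `ℚ̄`**: helper69's `EIG1RelCl` from the
abstract assembly.  Inputs: `real : FL F₀ →+* Mer` with (INV), (SAT), an eigenclass `χ : Γ → k0`
with good coordinates, (EX), (PDIV), and for the two families of operators `T_ℓ` (`ℓ ∤ M p`) and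
`⟨d⟩`: the action on `Hom(Γ, ℤ/p)`, on `Mer` with (K4), the bridge (HN) to `hnclSeries` resp.
`diaCl d`, and the eigen-relation of `χ`. -/
theorem eig1RelCl_of_hyps {Γ : Subgroup SL(2, ℤ)} (real : FL F₀ →+* Mer) {ζ : ℂ}
    (hζ : IsPrimitiveRoot ζ p)
    (hinv : ∀ (γ : Γ) (u : FL F₀), compM (γ : SL(2, ℤ)) (real u) = real u)
    (hsat : SatG Γ p real)
    {k0 : Type} [Field k0] [Algebra (ZMod p) k0] [Module.Finite (ZMod p) k0]
    (χ : Additive Γ →+ k0) (hχ0 : χ ≠ 0)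
    (Good : (Additive Γ →+ ZMod p) → Prop)
    (hχgood : ∀ f : k0 →+ ZMod p, Good (f.comp χ))
    (hex : ∀ ψ : Additive Γ →+ ZMod p, Good ψ →
      ∃ (h : Mer) (u : FL F₀), IsKumDatumG Γ real ζ ψ h u)
    (hpd : ∀ (ψ : Additive Γ →+ ZMod p) (h : Mer) (u : FL F₀), Good ψ →
      IsKumDatumG Γ real ζ ψ h u → ∀ P : Place Kb (FL F₀), (p : ℤ) ∣ P.ord u)
    -- the Hecke operators
    (cohT : PrimeIdx M p → (Additive Γ →+ ZMod p) → (Additive Γ →+ ZMod p))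
    (hcohTgood : ∀ ℓ ψ, Good ψ → Good (cohT ℓ ψ))
    (merT : PrimeIdx M p → Mer → Mer)
    (hK4T : ∀ (ℓ : PrimeIdx M p) (ψ : Additive Γ →+ ZMod p) (h : Mer) (u Tu : FL F₀),
      IsKumDatumG Γ real ζ ψ h u → real Tu = merT ℓ (real u) →
        IsKumDatumG Γ real ζ (cohT ℓ ψ) (merT ℓ h) Tu)
    (hHNT : ∀ (ℓ : PrimeIdx M p) (u : FL F₀), u ≠ 0 → ∃ Tu : FL F₀,
      ((Tu : FL F₀) : LaurentSeries Kb) =
        @hnclSeries F₀ ℓ.1 ⟨ℓ.2.1.ne_zero⟩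
          (diaCl (unitOfPrime ℓ.2.1 (not_dvd_left_of_not_dvd_mul ℓ.2.2))) u ∧
      real Tu = merT ℓ (real u))
    (a : ℕ → k0)
    (heigT : ∀ (ℓ : PrimeIdx M p) (f : k0 →+ ZMod p) (g : Γ),
      cohT ℓ (f.comp χ) (Additive.ofMul g) = f (a ℓ.1 * χ (Additive.ofMul g)))
    -- the diamond operators
    (cohD : (ZMod M)ˣ → (Additive Γ →+ ZMod p) → (Additive Γ →+ ZMod p))
    (hcohDgood : ∀ d ψ, Good ψ → Good (cohD d ψ))
    (merD : (ZMod M)ˣ → Mer → Mer)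
    (hK4D : ∀ (d : (ZMod M)ˣ) (ψ : Additive Γ →+ ZMod p) (h : Mer) (u Tu : FL F₀),
      IsKumDatumG Γ real ζ ψ h u → real Tu = merD d (real u) →
        IsKumDatumG Γ real ζ (cohD d ψ) (merD d h) Tu)
    (hHND : ∀ (d : (ZMod M)ˣ) (u : FL F₀), real (diaCl d u) = merD d (real u))
    (χd : (ZMod M)ˣ →* k0ˣ)
    (heigD : ∀ (d : (ZMod M)ˣ) (f : k0 →+ ZMod p) (g : Γ),
      cohD d (f.comp χ) (Additive.ofMul g) = f (((χd d : k0ˣ) : k0) * χ (Additive.ofMul g))) :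
    EIG1RelCl F₀ p diaCl k0 a χd := by
  classical
  -- the operator package on `Op := PrimeIdx ⊕ (ZMod M)ˣ`
  let coh : PrimeIdx M p ⊕ (ZMod M)ˣ → (Additive Γ →+ ZMod p) → (Additive Γ →+ ZMod p) :=
    fun t => Sum.elim cohT cohD t
  let mer : PrimeIdx M p ⊕ (ZMod M)ˣ → Mer → Mer := fun t => Sum.elim merT merD t
  let Rel : PrimeIdx M p ⊕ (ZMod M)ˣ → FL F₀ → FL F₀ → Prop := fun t u Tu =>
    Sum.elim
      (fun ℓ : PrimeIdx M p => ((Tu : FL F₀) : LaurentSeries Kb) =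
        @hnclSeries F₀ ℓ.1 ⟨ℓ.2.1.ne_zero⟩
          (diaCl (unitOfPrime ℓ.2.1 (not_dvd_left_of_not_dvd_mul ℓ.2.2))) u)
      (fun d : (ZMod M)ˣ => Tu = diaCl d u) t
  let aa : PrimeIdx M p ⊕ (ZMod M)ˣ → k0 :=
    fun t => Sum.elim (fun ℓ : PrimeIdx M p => a ℓ.1) (fun d => ((χd d : k0ˣ) : k0)) t
  obtain ⟨n, c, u, hne, hrel⟩ := exists_eigenvector (K := Kb) (Γ := Γ) (real := real) hζ hinv hsat
    χ hχ0 Good hχgood hex hpd coh
    (by rintro (ℓ | d) ψ hψ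
        · exact hcohTgood ℓ ψ hψ
        · exact hcohDgood d ψ hψ)
    mer
    (by rintro (ℓ | d) ψ h u Tu D hT
        · exact hK4T ℓ ψ h u Tu D hT
        · exact hK4D d ψ h u Tu D hT)
    Rel
    (by rintro (ℓ | d) u hu
        · exact hHNT ℓ u hu
        · exact ⟨diaCl d u, rfl, hHND d u⟩)
    aa
    (by rintro (ℓ | d) f g
        · exact heigT ℓ f g
        · exact heigD d f g)
  refine ⟨n, c, u, hne, ?_, ?_⟩
  · intro ℓ hℓ hℓMp
    obtain ⟨u', hu', hev⟩ := hrel (Sum.inl ⟨ℓ, hℓ, hℓMp⟩)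
    exact ⟨u', fun i => hu' i, hev⟩
  · intro d
    obtain ⟨u', hu', hev⟩ := hrel (Sum.inr d)
    exact ⟨u', fun i => hu' i, hev⟩

/-- **(EIG1), classical convention, hypothesis form over `ℂ`**: the same with the analytic inputs
(INV), (SAT), (EX), (PDIV) stated for a realisation `realC : FC →+* Mer` of a function field
`FC / ℂ`, a base change `bc : FL F₀ →+* FC`, and the descent bricks (DESC), (D1), (LD-d) + a
primitive `p`-th root of unity of `FL F₀`.  (K4), (HN) are for `realC ∘ bc`. -/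
theorem eig1RelCl_of_C {Γ : Subgroup SL(2, ℤ)} {FC : Type*} [Field FC] [Algebra ℂ FC]
    (bc : FL F₀ →+* FC) (realC : FC →+* Mer) {ζ : ℂ} (hζ : IsPrimitiveRoot ζ p)
    (hinvC : ∀ (γ : Γ) (f : FC), compM (γ : SL(2, ℤ)) (realC f) = realC f)
    (hS : SatG Γ p realC) (hL : IsPowDescG p bc) {ξ : FL F₀} (hξ : IsPrimitiveRoot ξ p)
    {k0 : Type} [Field k0] [Algebra (ZMod p) k0] [Module.Finite (ZMod p) k0]
    (χ : Additive Γ →+ k0) (hχ0 : χ ≠ 0)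
    (Good : (Additive Γ →+ ZMod p) → Prop)
    (hχgood : ∀ f : k0 →+ ZMod p, Good (f.comp χ))
    (hE : ExG Γ p realC ζ Good) (hP : PDivG Γ p (K := ℂ) realC ζ Good)
    (hD : DescPG (KQ := Kb) (KC := ℂ) p bc) (hD1 : D1G (KQ := Kb) (KC := ℂ) p bc)
    -- the Hecke operators
    (cohT : PrimeIdx M p → (Additive Γ →+ ZMod p) → (Additive Γ →+ ZMod p))
    (hcohTgood : ∀ ℓ ψ, Good ψ → Good (cohT ℓ ψ))
    (merT : PrimeIdx M p → Mer → Mer)
    (hK4T : ∀ (ℓ : PrimeIdx M p) (ψ : Additive Γ →+ ZMod p) (h : Mer) (u Tu : FL F₀),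
      IsKumDatumG Γ (realQ bc realC) ζ ψ h u → realC (bc Tu) = merT ℓ (realC (bc u)) →
        IsKumDatumG Γ (realQ bc realC) ζ (cohT ℓ ψ) (merT ℓ h) Tu)
    (hHNT : ∀ (ℓ : PrimeIdx M p) (u : FL F₀), u ≠ 0 → ∃ Tu : FL F₀,
      ((Tu : FL F₀) : LaurentSeries Kb) =
        @hnclSeries F₀ ℓ.1 ⟨ℓ.2.1.ne_zero⟩
          (diaCl (unitOfPrime ℓ.2.1 (not_dvd_left_of_not_dvd_mul ℓ.2.2))) u ∧
      realC (bc Tu) = merT ℓ (realC (bc u)))
    (a : ℕ → k0)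
    (heigT : ∀ (ℓ : PrimeIdx M p) (f : k0 →+ ZMod p) (g : Γ),
      cohT ℓ (f.comp χ) (Additive.ofMul g) = f (a ℓ.1 * χ (Additive.ofMul g)))
    -- the diamond operators
    (cohD : (ZMod M)ˣ → (Additive Γ →+ ZMod p) → (Additive Γ →+ ZMod p))
    (hcohDgood : ∀ d ψ, Good ψ → Good (cohD d ψ))
    (merD : (ZMod M)ˣ → Mer → Mer)
    (hK4D : ∀ (d : (ZMod M)ˣ) (ψ : Additive Γ →+ ZMod p) (h : Mer) (u Tu : FL F₀),
      IsKumDatumG Γ (realQ bc realC) ζ ψ h u → realC (bc Tu) = merD d (realC (bc u)) →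
        IsKumDatumG Γ (realQ bc realC) ζ (cohD d ψ) (merD d h) Tu)
    (hHND : ∀ (d : (ZMod M)ˣ) (u : FL F₀), realC (bc (diaCl d u)) = merD d (realC (bc u)))
    (χd : (ZMod M)ˣ →* k0ˣ)
    (heigD : ∀ (d : (ZMod M)ˣ) (f : k0 →+ ZMod p) (g : Γ),
      cohD d (f.comp χ) (Additive.ofMul g) = f (((χd d : k0ˣ) : k0) * χ (Additive.ofMul g))) :
    EIG1RelCl F₀ p diaCl k0 a χd :=
  eig1RelCl_of_hyps (Γ := Γ) (realQ bc realC) hζ (compM_realQ hinvC) (satQ_of hS hL hξ) χ hχ0 Good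
    hχgood (exQ_of hinvC hE hP hD) (pDivQ_of hP hD1) cohT hcohTgood merT hK4T hHNT a heigT
    cohD hcohDgood merD hK4D hHND χd heigD

end Fermat.Agent.DS.P3.EigFinalCl
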