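/-
S48 / GATE-N, J1-port node S48-P3-PER1 (helper19): the HOLOMORPHIC period map
`per Γ : CuspForm Γ 2 →ₗ[ℂ] (Additive Γ →+ ℂ)` for an arbitrary finite-index subgroup
`Γ ≤ SL(2, ℤ)` (Γ-generic twin of the `Γ₀(N)` files `S21_helper65/*`, `S16/LB/HeckePeriod`).

* `exists_prim`, `exists_prim_slash` : primitives vanishing at `i∞` of `f` and of `f ∣[2] δ`;
* `per`, `per_apply` : the period homomorphism, computed through ANY primitive and base point;
* `perLin` : linearity;
* `per_mem_parabolicHoms` : periods of parabolic elements vanish;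
* `perLin_injective` : the holomorphic half alone is injective (weight `0` forms are constant);
* `per_eq_sum` : telescoping identity for `f' = ∑ₓ f ∣[2] αₓ` (Hecke equivariance, coset form);
* `per_slash_conj` : `per (f ∣ σ) γ = per f (σ γ σ⁻¹)` for `σ` normalising `Γ` (diamonds).
-/
import Mathlib
import Fermat.Prelude.Def_ModularCurve_PeriodMap
import Fermat.Agent.S16.LB.HeckePeriod
import Fermat.Agent.S21_helper65.Parabolic

set_option autoImplicit false

open UpperHalfPlane hiding I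
open ModularForm Complex Filter Topology CongruenceSubgroup
open scoped MatrixGroups ModularForm Manifold

namespace Fermat.Agent.DS.P3.Per1

open Fermat.Agent.S21_helper65 ModularCurve.Period Matrix.SpecialLinearGroup
open Fermat.Agent.S16.LB.HeckePeriod (isPrim_slash_GL isPrim_sum)

variable {Γ : Subgroup SL(2, ℤ)}

/-! ### Invariance, primitives -/

theorem slash_eq_self {k : ℤ} (f : CuspForm Γ k) {γ : SL(2, ℤ)} (hγ : γ ∈ Γ) :
    (⇑f) ∣[k] γ = ⇑f :=
  SlashInvariantForm.slash_action_eqn f _ ⟨γ, hγ, rfl⟩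

/-- The primitive of a weight two cusp form that vanishes at `i∞`. -/
theorem exists_prim [Γ.FiniteIndex] (f : CuspForm Γ 2) :
    ∃ F : ℍ → ℂ, IsPrim (⇑f) F ∧ Tendsto F atImInfty (𝓝 0) :=
  exists_isPrim (Subgroup.strictWidthInfty_pos (Γ : Subgroup (GL (Fin 2) ℝ)))
    (CuspFormClass.holo f)
    (SlashInvariantFormClass.periodic_comp_ofComplex f
      (Subgroup.strictWidthInfty_mem_strictPeriods _))
    (CuspFormClass.zero_at_infty f)

open ConjAct Pointwise in
/-- The primitive of a translate `f ∣[2] δ` that vanishes at `i∞`. -/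
theorem exists_prim_slash [Γ.FiniteIndex] (f : CuspForm Γ 2) (δ : SL(2, ℤ)) :
    ∃ G : ℍ → ℂ, IsPrim ((⇑f) ∣[(2 : ℤ)] δ) G ∧ Tendsto G atImInfty (𝓝 0) := by
  have hA : ((toConjAct (δ : GL (Fin 2) ℝ)⁻¹) • (Γ : Subgroup (GL (Fin 2) ℝ))).IsArithmetic := by
    simpa [(show Rat.castHom ℝ = algebraMap ℚ ℝ by rfl), map_inv, map_mapGL]
      using! Subgroup.IsArithmetic.conj (Γ : Subgroup (GL (Fin 2) ℝ)) (mapGL ℚ δ)⁻¹
  have h := exists_isPrim
    (Subgroup.strictWidthInfty_pos
      ((toConjAct (δ : GL (Fin 2) ℝ)⁻¹) • (Γ : Subgroup (GL (Fin 2) ℝ))))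
    (CuspFormClass.holo (CuspForm.translate f δ))
    (SlashInvariantFormClass.periodic_comp_ofComplex (CuspForm.translate f δ)
      (Subgroup.strictWidthInfty_mem_strictPeriods _))
    (CuspFormClass.zero_at_infty (CuspForm.translate f δ))
  rwa [CuspForm.coe_translate] at h


theorem isEquivariantPrimitive_of_isPrim (f : CuspForm Γ 2) {F : ℍ → ℂ}
    (hF : IsPrim (⇑f) F) : IsEquivariantPrimitive Γ F := by
  intro γ
  have h1 : IsPrim ((⇑f) ∣[(2 : ℤ)] (γ : SL(2, ℤ))) (F ∣[(0 : ℤ)] (γ : SL(2, ℤ))) := hF.slash γ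
  rw [slash_eq_self f γ.2] at h1
  obtain ⟨c, hc⟩ := h1.exists_sub_const hF
  refine ⟨c, fun z => ?_⟩
  rw [← slash_zero_apply F (γ : SL(2, ℤ)) z]
  exact hc z

/-- Every primitive of a weight two cusp form has a limit at every cusp. -/
theorem exists_cusp_limit [Γ.FiniteIndex] (f : CuspForm Γ 2) {F : ℍ → ℂ}
    (hF : IsPrim (⇑f) F) (δ : SL(2, ℤ)) :
    ∃ L : ℂ, Tendsto (fun w : ℍ => F (δ • w)) atImInfty (𝓝 L) := by
  obtain ⟨G, hG, hG0⟩ := exists_prim_slash f δ
  obtain ⟨c, hc⟩ := (hF.slash δ).exists_sub_const hG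
  refine ⟨c, ?_⟩
  have e : (fun w : ℍ => F (δ • w)) = fun w => G w + c := by
    funext w
    rw [← slash_zero_apply F δ w, ← hc w]
    ring
  rw [e]
  simpa using hG0.add_const c

/-! ### The period homomorphism -/

/-- The primitive of `f` vanishing at `i∞`. -/
noncomputable def prim [Γ.FiniteIndex] (f : CuspForm Γ 2) : ℍ → ℂ := (exists_prim f).choose

theorem isPrim_prim [Γ.FiniteIndex] (f : CuspForm Γ 2) : IsPrim (⇑f) (prim f) :=
  (exists_prim f).choose_spec.1

theorem tendsto_prim [Γ.FiniteIndex] (f : CuspForm Γ 2) : Tendsto (prim f) atImInfty (𝓝 0) :=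
  (exists_prim f).choose_spec.2

/-- The (holomorphic) period homomorphism `γ ↦ ∫_{z}^{γ z} f` of a weight two cusp form on a
finite index subgroup `Γ ≤ SL(2, ℤ)`. -/
noncomputable def per [Γ.FiniteIndex] (f : CuspForm Γ 2) : Additive Γ →+ ℂ :=
  (isEquivariantPrimitive_of_isPrim f (isPrim_prim f)).periodHom

/-- The period evaluated through ANY primitive and ANY base point. -/
theorem per_apply [Γ.FiniteIndex] (f : CuspForm Γ 2) {F : ℍ → ℂ} (hF : IsPrim (⇑f) F) (γ : Γ)
    (z : ℍ) : per f (Additive.ofMul γ) = F ((γ : SL(2, ℤ)) • z) - F z := by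
  obtain ⟨c, hc⟩ := (isPrim_prim f).exists_sub_const hF
  rw [per, IsEquivariantPrimitive.periodHom_apply,
    ← (isEquivariantPrimitive_of_isPrim f (isPrim_prim f)).sub_eq_period γ z]
  have h1 := hc ((γ : SL(2, ℤ)) • z)
  have h2 := hc z
  linear_combination h1 - h2

theorem per_add [Γ.FiniteIndex] (f g : CuspForm Γ 2) : per (f + g) = per f + per g := by
  refine AddMonoidHom.ext fun γ => ?_
  obtain ⟨γ, rfl⟩ := Additive.ofMul.surjective γ
  have hfg : IsPrim (⇑(f + g)) (prim f + prim g) := by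
    rw [FunLike.coe_add]
    exact (isPrim_prim f).add (isPrim_prim g)
  rw [AddMonoidHom.add_apply, per_apply (f + g) hfg γ UpperHalfPlane.I,
    per_apply f (isPrim_prim f) γ UpperHalfPlane.I, per_apply g (isPrim_prim g) γ UpperHalfPlane.I]
  simp only [Pi.add_apply]
  ring

theorem per_smul [Γ.FiniteIndex] (c : ℂ) (f : CuspForm Γ 2) : per (c • f) = c • per f := by
  refine AddMonoidHom.ext fun γ => ?_
  obtain ⟨γ, rfl⟩ := Additive.ofMul.surjective γ
  have hcf : IsPrim (⇑(c • f)) (c • prim f) := by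
    rw [FunLike.coe_smul]
    exact (isPrim_prim f).const_smul c
  rw [AddMonoidHom.smul_apply, per_apply (c • f) hcf γ UpperHalfPlane.I,
    per_apply f (isPrim_prim f) γ UpperHalfPlane.I]
  simp only [Pi.smul_apply, smul_eq_mul]
  ring

/-- The period map as a `ℂ`-linear map. -/
noncomputable def perLin (Γ : Subgroup SL(2, ℤ)) [Γ.FiniteIndex] :
    CuspForm Γ 2 →ₗ[ℂ] (Additive Γ →+ ℂ) where
  toFun := per
  map_add' := per_add
  map_smul' c f := by
    rw [RingHom.id_apply]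
    exact per_smul c f

@[simp] theorem perLin_apply [Γ.FiniteIndex] (f : CuspForm Γ 2) : perLin Γ f = per f := rfl


/-! ### Parabolic elements have zero period -/

/-- The period of a parabolic element (trace squared equal to four) vanishes. -/
theorem per_eq_zero_of_trace [Γ.FiniteIndex] (f : CuspForm Γ 2) (γ : Γ)
    (htr : (((γ : SL(2, ℤ)) : Matrix (Fin 2) (Fin 2) ℤ)).trace ^ 2 = 4) :
    per f (Additive.ofMul γ) = 0 := by
  obtain ⟨δ, hδ⟩ := exists_conj_upper (γ : SL(2, ℤ)) htr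
  obtain ⟨n, hn⟩ := ModularGroup.exists_eq_T_zpow_of_c_eq_zero hδ
  have hF := isPrim_prim f
  obtain ⟨L, hL⟩ := exists_cusp_limit f hF δ
  set F := prim f with hFdef
  set c := per f (Additive.ofMul γ) with hc
  have h1 : ∀ w : ℍ, F (δ • (ModularGroup.T ^ n • w)) - F (δ • w) = c := by
    intro w
    rw [hc, per_apply f hF γ (δ • w), ← hn w]
    congr 2
    rw [← mul_smul, ← mul_smul]
    congr 1
    group
  have h2 : Tendsto (fun w : ℍ => F (δ • (ModularGroup.T ^ n • w)) - F (δ • w)) atImInfty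
      (𝓝 (L - L)) :=
    (hL.comp (tendsto_T_zpow_smul_atImInfty n)).sub hL
  have h3 : Tendsto (fun w : ℍ => F (δ • (ModularGroup.T ^ n • w)) - F (δ • w)) atImInfty
      (𝓝 c) := by
    simp_rw [h1]
    exact tendsto_const_nhds
  have := tendsto_nhds_unique h3 h2
  rw [this, sub_self]

/-- The period map takes values in the parabolic homomorphisms (prelude sense). -/
theorem per_mem_parabolicHoms [Γ.FiniteIndex] (f : CuspForm Γ 2) :
    per f ∈ parabolicHoms ℂ Γ ℂ := by
  rw [mem_parabolicHoms_iff]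
  intro γ hγ
  exact per_eq_zero_of_trace f γ hγ

theorem isParabolicHom_per [Γ.FiniteIndex] (f : CuspForm Γ 2) : IsParabolicHom Γ (per f) :=
  fun γ hγ => per_eq_zero_of_trace f γ hγ

/-! ### Injectivity of the holomorphic period map -/

/-- A `Γ`-invariant primitive of a cusp form is a weight zero modular form. -/
noncomputable def primForm [Γ.FiniteIndex] (f : CuspForm Γ 2) {F : ℍ → ℂ} (hF : IsPrim (⇑f) F)
    (hinv : ∀ γ : SL(2, ℤ), γ ∈ Γ → ∀ z : ℍ, F (γ • z) = F z) :
    ModularForm (Γ : Subgroup (GL (Fin 2) ℝ)) 0 where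
  toFun := F
  slash_action_eq' := by
    rintro _ ⟨γ, hγ, rfl⟩
    funext z
    exact (slash_zero_apply F γ z).trans (hinv γ hγ z)
  holo' := hF.mdiff
  bdd_at_cusps' {c} hc := by
    rw [OnePoint.isBoundedAt_iff_forall_SL2Z
      ((Subgroup.IsArithmetic.isCusp_iff_isCusp_SL2Z _).mp hc)]
    intro δ _
    obtain ⟨L, hL⟩ := exists_cusp_limit f hF δ
    have e : (F ∣[(0 : ℤ)] δ) = fun w : ℍ => F (δ • w) := by
      funext w
      exact slash_zero_apply F δ w
    show IsBoundedAtImInfty (F ∣[(0 : ℤ)] δ)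
    rw [e]
    exact hL.isBigO_one ℝ

/-- **Injectivity of the holomorphic period map**: a weight two cusp form all of whose periods
vanish is zero. -/
theorem eq_zero_of_per_eq_zero [Γ.FiniteIndex] (f : CuspForm Γ 2) (h : per f = 0) : f = 0 := by
  have hF := isPrim_prim f
  have hinv : ∀ γ : SL(2, ℤ), γ ∈ Γ → ∀ z : ℍ, prim f (γ • z) = prim f z := by
    intro γ hγ z
    have h1 := per_apply f hF ⟨γ, hγ⟩ z
    rw [h, AddMonoidHom.zero_apply] at h1
    exact (sub_eq_zero.mp h1.symm)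
  obtain ⟨c, hc⟩ := ModularForm.eq_const_of_weight_zero (primForm f hF hinv)
  have hc' : prim f = fun _ => c := hc
  have h0 : IsPrim (0 : ℍ → ℂ) (prim f) := by
    rw [hc']
    exact isPrim_const c
  have hd : ∀ τ : ℍ, f τ = 0 := by
    intro τ
    exact (hF τ).unique (h0 τ)
  exact DFunLike.ext _ _ hd

theorem perLin_injective (Γ : Subgroup SL(2, ℤ)) [Γ.FiniteIndex] :
    Function.Injective (perLin Γ) := by
  rw [← LinearMap.ker_eq_bot, LinearMap.ker_eq_bot']
  intro f hf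
  exact eq_zero_of_per_eq_zero f hf


/-! ### Hecke equivariance in coset form -/

/-- **Core telescoping identity** (Γ-generic twin of `S16.LB.HeckePeriod.periodMap_eq_sum`, with
possibly different groups for `f` and `f'`).  If `f' = ∑ₓ f ∣[2] αₓ` for a finite family `α` of
matrices of positive determinant, and `αₓ γ = tₓ α_{σ x}` with `tₓ ∈ Γ` and `σ` a permutation, then
the period of `f'` at `γ ∈ Γ'` is the sum of the periods of `f` at the `tₓ`. -/
theorem per_eq_sum {Γ' : Subgroup SL(2, ℤ)} [Γ.FiniteIndex] [Γ'.FiniteIndex]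
    {X : Type*} [Fintype X] (α : X → GL (Fin 2) ℝ)
    (hα : ∀ x, 0 < (α x).det.val)
    (f : CuspForm Γ 2) (f' : CuspForm Γ' 2) (hf' : (⇑f' : ℍ → ℂ) = ∑ x, (⇑f) ∣[(2 : ℤ)] α x)
    (γ : Γ') (σ : Equiv.Perm X) (t : X → Γ)
    (h : ∀ x, α x * mapGL ℝ (γ : SL(2, ℤ)) = mapGL ℝ ((t x : Γ) : SL(2, ℤ)) * α (σ x)) :
    per f' (Additive.ofMul γ) = ∑ x, per f (Additive.ofMul (t x)) := by
  have hFp := isPrim_prim f
  set F := prim f with hFdef
  have hG : IsPrim (⇑f') (fun z => ∑ x, F (α x • z)) := by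
    rw [hf']
    exact isPrim_sum Finset.univ (fun x => (⇑f) ∣[(2 : ℤ)] α x) (fun x z => F (α x • z))
      (fun x _ => isPrim_slash_GL hFp (α x) (hα x))
  rw [per_apply f' hG γ UpperHalfPlane.I]
  have e2 : ∀ x, F (α x • ((γ : SL(2, ℤ)) • UpperHalfPlane.I))
      = F (α (σ x) • UpperHalfPlane.I) + per f (Additive.ofMul (t x)) := by
    intro x
    rw [per_apply f hFp (t x) (α (σ x) • UpperHalfPlane.I)]
    have : α x • ((γ : SL(2, ℤ)) • UpperHalfPlane.I)
        = ((t x : Γ) : SL(2, ℤ)) • (α (σ x) • UpperHalfPlane.I) := by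
      rw [ModularGroup.sl_moeb, ModularGroup.sl_moeb, ← mul_smul, ← mul_smul]
      congr 1
      exact h x
    rw [this]
    ring
  simp_rw [e2]
  rw [Finset.sum_add_distrib, Equiv.sum_comp σ (fun x => F (α x • UpperHalfPlane.I))]
  ring

/-- Periods of a translate by an element `σ ∈ SL(2, ℤ)`: if `f' = f ∣[2] σ` and `σ γ σ⁻¹ ∈ Γ`
then `per f' γ = per f (σ γ σ⁻¹)` (diamond operators; restriction/conjugation maps). -/
theorem per_slash_conj {Γ' : Subgroup SL(2, ℤ)} [Γ.FiniteIndex] [Γ'.FiniteIndex]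
    (f : CuspForm Γ 2) (f' : CuspForm Γ' 2) (σ : SL(2, ℤ))
    (hf' : (⇑f' : ℍ → ℂ) = (⇑f) ∣[(2 : ℤ)] σ) (γ : Γ')
    (hγ : σ * (γ : SL(2, ℤ)) * σ⁻¹ ∈ Γ) :
    per f' (Additive.ofMul γ) = per f (Additive.ofMul ⟨σ * (γ : SL(2, ℤ)) * σ⁻¹, hγ⟩) := by
  have h := per_eq_sum (X := Unit) (fun _ => mapGL ℝ σ) (fun _ => by simp) f f'
    (by rw [hf', Fintype.sum_unique]; rfl) γ (Equiv.refl _)
    (fun _ => ⟨σ * (γ : SL(2, ℤ)) * σ⁻¹, hγ⟩)
    (fun _ => by
      rw [← map_mul, ← map_mul]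
      congr 1
      simp [mul_assoc])
  rw [h, Fintype.sum_unique]

/-- Restriction of the group: a form on `Γ` seen on a subgroup `Γ' ≤ Γ` has the restricted
period homomorphism. -/
theorem per_restrict {Γ' : Subgroup SL(2, ℤ)} [Γ.FiniteIndex] [Γ'.FiniteIndex] (hle : Γ' ≤ Γ)
    (f : CuspForm Γ 2) (f' : CuspForm Γ' 2) (hf' : (⇑f' : ℍ → ℂ) = ⇑f) (γ : Γ') :
    per f' (Additive.ofMul γ) = per f (Additive.ofMul ⟨(γ : SL(2, ℤ)), hle γ.2⟩) := by
  have hF : IsPrim (⇑f') (prim f) := by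
    rw [hf']
    exact isPrim_prim f
  rw [per_apply f' hF γ UpperHalfPlane.I, per_apply f (isPrim_prim f) _ UpperHalfPlane.I]

end Fermat.Agent.DS.P3.Per1
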