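/-
S48 / GATE-N, J1-port node S48-P3-PER1 (helper19), part 2: the `Γ₁(M)` instance of the holomorphic
period map of `DS/P3/Per1.lean`, equivariant for helper18's `heckeT1Lin`, `diamondLin`
(`DS/Hecke`) against helper42's `cohT1`, `diaCoh` (`DS/P3/Coh1`).

* `per_coh` : Γ-generic — for a Hecke system `S` (helper42 `HeckeSys`) with representatives of
  positive determinant, `⇑f' = ∑ₓ ⇑f ∣[2] S.rep x ⟹ per f' = S.coh ℂ (per f)`;
* `per1 M`, `per1_injective`, `isParabolicHom_per1`;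
* `per1_heckeT1Lin`, `per1_diamondLin`;
* `per1Hyp M` : the existential package consumed by helper70's `LatInst1`.
-/
import Fermat.Agent.DS.P3.Per1
import Fermat.Agent.DS.P3.Coh1
import Fermat.Agent.DS.Hecke.HeckeNeb

set_option autoImplicit false

open UpperHalfPlane hiding I
open ModularForm Complex Filter Topology CongruenceSubgroup
open scoped MatrixGroups ModularForm Manifold

namespace Fermat.Agent.DS.P3.Per1

open ModularCurve.Period Matrix.SpecialLinearGroup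
open Fermat.Agent.DS.P3 Fermat.Agent.DS.P3.Coh1 Fermat.Agent.DS.Hecke Fermat.Agent.DS.N0

/-- **Hecke equivariance, Γ-generic**: for a Hecke system `S` on `Γ` whose representatives have
positive determinant, if `f' = ∑ₓ f ∣[2] S.rep x` then `per f' = S.coh ℂ (per f)`. -/
theorem per_coh {Γ : Subgroup SL(2, ℤ)} [Γ.FiniteIndex] (S : HeckeSys Γ)
    (hdet : ∀ x, 0 < (S.rep x).det.val) (f f' : CuspForm Γ 2)
    (hf' : (⇑f' : ℍ → ℂ) = ∑ x, (⇑f) ∣[(2 : ℤ)] S.rep x) :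
    per f' = S.coh ℂ (per f) := by
  refine AddMonoidHom.ext fun γ => ?_
  obtain ⟨γ, rfl⟩ := Additive.ofMul.surjective γ
  rw [HeckeSys.coh_apply]
  exact per_eq_sum S.rep hdet f f' hf' γ (S.perm γ) (S.c γ) (S.c_rel γ)

theorem det_rep1_pos (p : ℕ) (σ : SL(2, ℤ)) (x : OnePoint (ZMod p)) :
    0 < (rep1 p σ x).det.val := by
  induction x using OnePoint.rec with
  | infty =>
    rw [rep1_infty, map_mul, Units.val_mul]
    have h1 : ((mapGL ℝ σ : GL (Fin 2) ℝ).det : ℝ) = 1 := by simp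
    rw [h1, one_mul]
    exact det_heckeDiagMatrix_pos p
  | coe j => exact det_heckeMatrix_pos p j.val

variable (M : ℕ) [NeZero M]

/-- **The holomorphic period map of `Γ₁(M)`.** -/
noncomputable def per1 :
    CuspForm (Gamma1 M : Subgroup (GL (Fin 2) ℝ)) 2 →ₗ[ℂ] (Additive (Gamma1 M) →+ ℂ) :=
  perLin (Gamma1 M)

theorem per1_apply (f : CuspForm (Gamma1 M : Subgroup (GL (Fin 2) ℝ)) 2) : per1 M f = per f := rfl

theorem per1_injective : Function.Injective (per1 M) := perLin_injective (Gamma1 M)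

theorem isParabolicHom_per1 (f : CuspForm (Gamma1 M : Subgroup (GL (Fin 2) ℝ)) 2) :
    IsParabolicHom (Gamma1 M) (per1 M f) :=
  isParabolicHom_per f

/-- **`T_ℓ`-equivariance**: `per1 (T_ℓ f) = cohT1 ℓ (per1 f)`. -/
theorem per1_heckeT1Lin {ℓ : ℕ} [Fact ℓ.Prime] (hℓ : ℓ.Prime) (hℓM : ¬ ℓ ∣ M)
    (f : CuspForm (Gamma1 M : Subgroup (GL (Fin 2) ℝ)) 2) :
    per1 M (heckeT1Lin 2 hℓ hℓM f) = cohT1 ℂ hℓM (per1 M f) := by
  have : NeZero ℓ := ⟨hℓ.ne_zero⟩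
  rw [cohT1_eq hℓM (primeRep hℓ hℓM) (primeRep_dvd hℓ hℓM) (primeRep_d hℓ hℓM), per1_apply,
    per1_apply]
  refine per_coh (sysT hℓM (primeRep hℓ hℓM) (primeRep_dvd hℓ hℓM) (primeRep_d hℓ hℓM))
    (fun x => det_rep1_pos ℓ _ x) f _ ?_
  rw [coe_heckeT1Lin, heckeT1_eq_sum]
  rfl

/-- **Diamond equivariance**: `per1 (⟨d⟩ f) = diaCoh d (per1 f)`. -/
theorem per1_diamondLin (d : (ZMod M)ˣ) (f : CuspForm (Gamma1 M : Subgroup (GL (Fin 2) ℝ)) 2) :
    per1 M (diamondLin 2 d f) = diaCoh ℂ d (per1 M f) := by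
  have hσ0 : (M : ℤ) ∣ (diamondRep d) 1 0 := mem_Gamma0_iff_dvd.1 (diamondRep_mem d)
  rw [diaCoh_eq d (diamondRep d) hσ0 (diamondRep_d d), per1_apply, per1_apply]
  refine per_coh (sysD (diamondRep d) hσ0) (fun _ => by simp [sysD]) f _ ?_
  rw [coe_diamondLin]
  show _ = ∑ x : Unit, (⇑f) ∣[(2 : ℤ)] (mapGL ℝ (diamondRep d))
  rw [Fintype.sum_unique]

/-- The package consumed by `LatInst1` (helper70, board 3536 (P)). -/
theorem per1Hyp :
    ∃ per : CuspForm (Gamma1 M : Subgroup (GL (Fin 2) ℝ)) 2 →ₗ[ℂ] (Additive (Gamma1 M) →+ ℂ),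
      Function.Injective per ∧ (∀ f, IsParabolicHom (Gamma1 M) (per f)) ∧
      (∀ (ℓ : ℕ) [Fact ℓ.Prime] (hℓ : ℓ.Prime) (hℓM : ¬ ℓ ∣ M) f,
        per (heckeT1Lin 2 hℓ hℓM f) = cohT1 ℂ hℓM (per f)) ∧
      ∀ (d : (ZMod M)ˣ) f, per (diamondLin 2 d f) = diaCoh ℂ d (per f) :=
  ⟨per1 M, per1_injective M, isParabolicHom_per1 M,
    fun _ _ hℓ hℓM f => per1_heckeT1Lin M hℓ hℓM f, fun d f => per1_diamondLin M d f⟩

end Fermat.Agent.DS.P3.Per1
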