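/-
GATE-N / S48 J1-port, P3 (EIG twin), leaf S48-P3-FINAL (helper94): **the `Γ₁(M)` instantiation**.

`eig1AllCl_Gamma1` / `eig1AllCl_bcG` : helper69's `DS/P5/FinalCl.EIG1AllCl F₀ p diaCl S` (the export
of P3, classical convention, = the `hE` of `FinalCl.exists_rep_of_thetaCl`) from the LANDED leaves

* COH1 (`Coh1.cohT1`, `Coh1.diaCoh`, parabolic preservation, naturality) — helper42,
* HECKEMER1 (`HeckeMer1.heckeNormT1`, `HeckeMerSys.IsKumDatumG.cohT1 / .diaCoh`) — helper49,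
* LAT1 + PER1 (`Lat.lat1_thm`, unconditional) — helper70, helper19,
* EXC (`TwEisG.exists_isKumDatumG_Gamma1`) — helper94,
* PDIV1 (`PDiv1.pdiv_of_dict_Gamma1`) — helper75,
* SAT1 (`Sat1.sat_of_fieldGen`, `Sat1.compM_real_of_quot`) — helper16,
* FINC1 (`FinC1.finite_kum_Gamma1`) — helper6,
* DESC1 (`Desc1G.d1G / descPG / isPowDescG`, any `F₀`) — helper49,
* the abstract assembly + descent (`EigFinalCl.eig1RelCl_of_C`) — helper94,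

and the following NAMED hypotheses, one per remaining leaf (exact shapes for their owners), for
`realC : laurentBaseChange ℂ F₀ →+* Mer`:

* (P1b)  `hreal : FieldGenHol (Gamma1 M) M realC`, `hquot : QuotHyp (Gamma1 M) M realC`;
* (P1c)  a generator `x₀ : FL F₀` (`[IsGen ℚ̄ x₀]`), `hq : ∃ f ∈ F₀, f.order ≠ 0`;
* (DICT) `hI : IntDict (Gamma1 M) realC jF`, `hC : CuspDict (Gamma1 M) realC jF`,
  `hE1 : FinC1.E1 realC` (every point of `ℍ` gives a place);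
* (HN1Q1) `hHNT` : for `ℓ ∤ M p`, `u ≠ 0` there is `Tu : FL F₀` with series
  `hnclSeries ℓ (diaCl ℓ) u = N_ℓ(u) · (⟨ℓ⟩u)(q^ℓ)` realised by `heckeNormT1 ℓ σ_ℓ (realC (bc u))`;
* (P1e)  `hHND` : `realC (bc (diaCl d u)) = compM σ_d (realC (bc u))`.

The representatives `σ_ℓ`, `σ_d ∈ Γ₀(M)` (lower right entry `≡ ℓ`, `≡ d`) are PARAMETERS: the
cohomological operators do not depend on them (`Coh1.cohT1_eq`, `Coh1.diaCoh_eq`), so the owners of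
(HN1Q1)/(P1e) may use any choice (`Coh1.sigmaOf`, helper18's `primeRep` / `diamondRep`, …).
-/
import Mathlib
import Fermat.Agent.DS.P3.EigFinalCl
import Fermat.Agent.DS.P3.HeckeMerSys
import Fermat.Agent.DS.P3.PDiv1
import Fermat.Agent.DS.P3.Sat1
import Fermat.Agent.DS.P3.FinC1
import Fermat.Agent.DS.P3.Desc1G
import Fermat.Agent.DS.P3.TwEisG.Field
import Fermat.Agent.DS.P3.Lat.LatFinal
import Fermat.Agent.DS.P5.FinalCl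

set_option autoImplicit false
set_option linter.unusedSectionVars false
set_option linter.style.haveILetI false

open UpperHalfPlane Complex AlgebraicCurve ModularCurve TensorProduct CongruenceSubgroup
open scoped MatrixGroups

noncomputable section

namespace Fermat.Agent.DS.P3.EigFinal1

open Fermat.Agent.S24 Fermat.Agent.S24_helper82 Fermat.Agent.GJ.HeckeMer Fermat.Agent.GJ.KumGroup
open Fermat.Agent.DS.P3.KumCoreG Fermat.Agent.DS.P3.EigAsmG Fermat.Agent.DS.P3.EigDescG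
open Fermat.Agent.DS.P3.EigFinalHyp Fermat.Agent.DS.P3.EigFinalCl
open Fermat.Agent.DS.P3.Coh1 Fermat.Agent.DS.P3.HeckeMerG Fermat.Agent.DS.P3.HeckeMer1
open Fermat.Agent.DS.P3.PDiv1 Fermat.Agent.DS.P3.Sat1 Fermat.Agent.DS.P3.TwEisG
open Fermat.Agent.DS.P3.Lat Fermat.Agent.DS.P3.Desc1G Fermat.Agent.DS.N0
open Fermat.Agent.DS.Hecke
open Fermat.Agent.DS.P5 Fermat.Agent.DS.P5.KumType1 Fermat.Agent.DS.P5.KumTypeCl
open Fermat.Agent.DS.P5.Final Fermat.Agent.DS.P5.FinalCl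
open ModularCurve.Period ModularForm

variable {M : ℕ} [NeZero M]

/-- `cohT1` with the primality of `ℓ` as an explicit argument -/
abbrev cohTp (A : Type*) [AddCommGroup A] {ℓ : ℕ} (hℓ : ℓ.Prime) (hℓM : ¬ ℓ ∣ M) :
    (Additive (Gamma1 M) →+ A) →+ (Additive (Gamma1 M) →+ A) :=
  @cohT1 M _ A _ ℓ ⟨hℓ⟩ hℓM

theorem isParabolicHom_comp {Γ : Subgroup SL(2, ℤ)} {A B : Type*} [AddCommGroup A]
    [AddCommGroup B] (f : A →+ B) {χ : Additive Γ →+ A} (hχ : IsParabolicHom Γ χ) :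
    IsParabolicHom Γ (f.comp χ) := by
  intro γ hγ
  rw [AddMonoidHom.comp_apply, hχ γ hγ, map_zero]

variable {F₀ : IntermediateField ℚ (LaurentSeries ℚ)} {p : ℕ} [Fact p.Prime]
  {diaCl : (ZMod M)ˣ → (FL F₀ ≃ₐ[Kb] FL F₀)}

/-! ### One eigensystem, abstract base change -/

/-- **(EIG1) for `Γ₁(M)`, classical convention, one eigensystem**: from an eigenclass `χ` of (LAT1)
with eigenvalues `a ℓ` (all `ℓ ∤ M p`) and `χd`; abstract `FC`, `bc` with the descent bricks as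
hypotheses. -/
theorem eig1RelCl_Gamma1 (hM : 4 ≤ M)
    {FC : Type*} [Field FC] [Algebra ℂ FC] (bc : FL F₀ →+* FC) (realC : FC →+* Mer) (jF : FC)
    -- (P1b)
    (hreal : FieldGenHol (Gamma1 M) M realC) (hquot : QuotHyp (Gamma1 M) M realC)
    -- (DICT)
    (hI : IntDict (Gamma1 M) realC jF) (hC : CuspDict (Gamma1 M) realC jF)
    -- (DESC1)
    (hL : IsPowDescG p bc) {ξ : FL F₀} (hξ : IsPrimitiveRoot ξ p)
    (hD : DescPG (KQ := Kb) (KC := ℂ) p bc) (hD1 : D1G (KQ := Kb) (KC := ℂ) p bc)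
    -- the representatives
    (σT : PrimeIdx M p → SL(2, ℤ)) (hσT0 : ∀ ℓ, (M : ℤ) ∣ σT ℓ 1 0)
    (hσT1 : ∀ ℓ : PrimeIdx M p, ((σT ℓ 1 1 : ℤ) : ZMod M) = (ℓ.1 : ZMod M))
    (σD : (ZMod M)ˣ → SL(2, ℤ)) (hσD0 : ∀ d, (M : ℤ) ∣ σD d 1 0)
    (hσD1 : ∀ d : (ZMod M)ˣ, ((σD d 1 1 : ℤ) : ZMod M) = (d : ZMod M))
    -- (HN1Q1)
    (hHNT : ∀ (ℓ : PrimeIdx M p) (u : FL F₀), u ≠ 0 → ∃ Tu : FL F₀,
      ((Tu : FL F₀) : LaurentSeries Kb) =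
        @hnclSeries F₀ ℓ.1 ⟨ℓ.2.1.ne_zero⟩
          (diaCl (unitOfPrime ℓ.2.1 (not_dvd_left_of_not_dvd_mul ℓ.2.2))) u ∧
      realC (bc Tu) = @heckeNormT1 ℓ.1 ⟨ℓ.2.1.ne_zero⟩ (σT ℓ) (realC (bc u)))
    -- (P1e)
    (hHND : ∀ (d : (ZMod M)ˣ) (u : FL F₀), realC (bc (diaCl d u)) = compM (σD d) (realC (bc u)))
    -- (LAT1), for one eigensystem
    {k0 : Type} [Field k0] [Algebra (ZMod p) k0] [Module.Finite (ZMod p) k0]
    (χ : Additive (Gamma1 M) →+ k0) (hχ0 : χ ≠ 0) (hχpar : IsParabolicHom (Gamma1 M) χ)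
    (a : ℕ → k0)
    (hχT : ∀ ℓ : PrimeIdx M p,
      cohTp k0 ℓ.2.1 (not_dvd_left_of_not_dvd_mul ℓ.2.2) χ = a ℓ.1 • χ)
    (χd : (ZMod M)ˣ →* k0ˣ)
    (hχD : ∀ d : (ZMod M)ˣ, diaCoh k0 d χ = ((χd d : k0ˣ) : k0) • χ) :
    EIG1RelCl F₀ p diaCl k0 a χd := by
  have hζ : IsPrimitiveRoot (Complex.exp (2 * Real.pi * Complex.I / p)) p :=
    Complex.isPrimitiveRoot_exp p (NeZero.ne p)
  have hinvC : ∀ (γ : Gamma1 M) (f : FC), compM (γ : SL(2, ℤ)) (realC f) = realC f :=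
    fun γ f => compM_real_of_quot hquot f γ.2
  have hM3 : 3 ≤ M := by omega
  refine eig1RelCl_of_C (Γ := Gamma1 M) bc realC hζ hinvC
    (sat_of_fieldGen hreal hquot (Fact.out : p.Prime).pos) hL hξ χ hχ0
    (fun ψ => IsParabolicHom (Gamma1 M) ψ) (fun f => isParabolicHom_comp f hχpar)
    (fun ψ hψ => exists_isKumDatumG_Gamma1 p hM3 hreal hζ.pow_eq_one ψ hψ)
    (pdiv_of_dict_Gamma1 hM hI hC) hD hD1
    (fun ℓ ψ => cohTp (ZMod p) ℓ.2.1 (not_dvd_left_of_not_dvd_mul ℓ.2.2) ψ)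
    (fun ℓ ψ hψ => ?_)
    (fun ℓ => @heckeNormT1 ℓ.1 ⟨ℓ.2.1.ne_zero⟩ (σT ℓ))
    (fun ℓ ψ h u Tu D hT => ?_) hHNT a (fun ℓ f g => ?_)
    (fun d ψ => diaCoh (ZMod p) d ψ)
    (fun d ψ hψ => diaCoh_isParabolicHom d ψ hψ)
    (fun d => compM (σD d))
    (fun d ψ h u Tu D hT => ?_) hHND χd (fun d f g => ?_)
  · haveI : Fact ℓ.1.Prime := ⟨ℓ.2.1⟩
    exact cohT1_isParabolicHom _ ψ hψ
  · haveI : Fact ℓ.1.Prime := ⟨ℓ.2.1⟩
    exact HeckeMerSys.IsKumDatumG.cohT1 (not_dvd_left_of_not_dvd_mul ℓ.2.2)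
      ⟨hσT0 ℓ, hσT1 ℓ⟩ hζ.pow_eq_one D hT
  · haveI : Fact ℓ.1.Prime := ⟨ℓ.2.1⟩
    exact cohT1_comp_eigen (not_dvd_left_of_not_dvd_mul ℓ.2.2) (hχT ℓ) f g
  · exact HeckeMerSys.IsKumDatumG.diaCoh d (hσD0 d) (hσD1 d) D hT
  · exact diaCoh_comp_eigen d (hχD d) f g

/-! ### All eigensystems, abstract base change -/

/-- **(EIG1) for `Γ₁(M)`, classical convention = the export of P3** (helper69's
`FinalCl.EIG1AllCl`), abstract `FC`, `bc` with the descent bricks as hypotheses; (LAT1) is the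
theorem `Lat.lat1_thm`. -/
theorem eig1AllCl_Gamma1 (hM : 4 ≤ M) (S : Set ℕ)
    {FC : Type*} [Field FC] [Algebra ℂ FC] (bc : FL F₀ →+* FC) (realC : FC →+* Mer) (jF : FC)
    -- (P1b)
    (hreal : FieldGenHol (Gamma1 M) M realC) (hquot : QuotHyp (Gamma1 M) M realC)
    -- (DICT)
    (hI : IntDict (Gamma1 M) realC jF) (hC : CuspDict (Gamma1 M) realC jF)
    -- (DESC1)
    (hL : IsPowDescG p bc) {ξ : FL F₀} (hξ : IsPrimitiveRoot ξ p)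
    (hD : DescPG (KQ := Kb) (KC := ℂ) p bc) (hD1 : D1G (KQ := Kb) (KC := ℂ) p bc)
    -- the representatives
    (σT : PrimeIdx M p → SL(2, ℤ)) (hσT0 : ∀ ℓ, (M : ℤ) ∣ σT ℓ 1 0)
    (hσT1 : ∀ ℓ : PrimeIdx M p, ((σT ℓ 1 1 : ℤ) : ZMod M) = (ℓ.1 : ZMod M))
    (σD : (ZMod M)ˣ → SL(2, ℤ)) (hσD0 : ∀ d, (M : ℤ) ∣ σD d 1 0)
    (hσD1 : ∀ d : (ZMod M)ˣ, ((σD d 1 1 : ℤ) : ZMod M) = (d : ZMod M))
    -- (HN1Q1)
    (hHNT : ∀ (ℓ : PrimeIdx M p) (u : FL F₀), u ≠ 0 → ∃ Tu : FL F₀,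
      ((Tu : FL F₀) : LaurentSeries Kb) =
        @hnclSeries F₀ ℓ.1 ⟨ℓ.2.1.ne_zero⟩
          (diaCl (unitOfPrime ℓ.2.1 (not_dvd_left_of_not_dvd_mul ℓ.2.2))) u ∧
      realC (bc Tu) = @heckeNormT1 ℓ.1 ⟨ℓ.2.1.ne_zero⟩ (σT ℓ) (realC (bc u)))
    -- (P1e)
    (hHND : ∀ (d : (ZMod M)ˣ) (u : FL F₀), realC (bc (diaCl d u)) = compM (σD d) (realC (bc u)))
    (hS : ∀ ℓ : ℕ, ℓ.Prime → ¬ ℓ ∣ M * p → ℓ ∉ S) :
    EIG1AllCl F₀ p diaCl S := by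
  intro k0 _ _ _ θ
  letI : Algebra (ZMod p) k0 := ZMod.algebra k0 p
  haveI : Module.Finite (ZMod p) k0 := Module.Finite.of_finite
  obtain ⟨χ, hχ0, hχpar, hχT, hχD⟩ := lat1_thm M p S k0 θ
  refine eig1RelCl_Gamma1 hM bc realC jF hreal hquot hI hC hL hξ hD hD1 σT hσT0 hσT1 σD hσD0 hσD1
    hHNT hHND χ hχ0 hχpar (aOf θ) (fun ℓ => ?_) (chiOf θ) (fun d => ?_)
  · show @cohT1 M _ k0 _ ℓ.1 ⟨ℓ.2.1⟩ (not_dvd_left_of_not_dvd_mul ℓ.2.2) χ = _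
    rw [hχT ℓ.1 ℓ.2.1 (not_dvd_left_of_not_dvd_mul ℓ.2.2) (hS ℓ.1 ℓ.2.1 ℓ.2.2),
      aOf_eq θ ℓ.2.1 (not_dvd_left_of_not_dvd_mul ℓ.2.2) (hS ℓ.1 ℓ.2.1 ℓ.2.2)]
  · rw [hχD d, coe_chiOf]

/-! ### The concrete base change `ℚ̄ → ℂ` of `F₀` -/

/-- a primitive `p`-th root of unity of `FL F₀ = ℚ̄ · F₀` -/
theorem exists_primitiveRoot_FL (F₀ : IntermediateField ℚ (LaurentSeries ℚ)) (p : ℕ)
    [Fact p.Prime] : ∃ ξ : FL F₀, IsPrimitiveRoot ξ p := by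
  haveI : NeZero ((p : ℕ) : ℚ) := ⟨Nat.cast_ne_zero.mpr (NeZero.ne p)⟩
  obtain ⟨ξ, hξ⟩ := HasEnoughRootsOfUnity.exists_primitiveRoot Kb p
  exact ⟨algebraMap Kb (FL F₀) ξ, hξ.map_of_injective (algebraMap Kb (FL F₀)).injective⟩

/-- **(EIG1) for `Γ₁(M)`, classical convention = the export of P3**, for the concrete base change
`bc := Desc1G.bcG F₀ : ℚ̄ · F₀ → ℂ · F₀`: (LAT1), (DESC1), (FINC1) are discharged; what remains are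
the P1 inputs on `realC : ℂ · F₀ →+* Mer`, the dictionary, (HN1Q1) and (P1e). -/
theorem eig1AllCl_bcG (hM : 4 ≤ M) (S : Set ℕ)
    (realC : ↥(laurentBaseChange ℂ F₀) →+* Mer) (jF : ↥(laurentBaseChange ℂ F₀))
    -- (P1b)
    (hreal : FieldGenHol (Gamma1 M) M realC) (hquot : QuotHyp (Gamma1 M) M realC)
    -- (P1c)
    (x₀ : FL F₀) [IsGen Kb x₀] (hq : ∃ f ∈ F₀, f.order ≠ 0)
    -- (DICT)
    (hI : IntDict (Gamma1 M) realC jF) (hC : CuspDict (Gamma1 M) realC jF)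
    (hE1 : FinC1.E1 realC)
    -- the representatives
    (σT : PrimeIdx M p → SL(2, ℤ)) (hσT0 : ∀ ℓ, (M : ℤ) ∣ σT ℓ 1 0)
    (hσT1 : ∀ ℓ : PrimeIdx M p, ((σT ℓ 1 1 : ℤ) : ZMod M) = (ℓ.1 : ZMod M))
    (σD : (ZMod M)ˣ → SL(2, ℤ)) (hσD0 : ∀ d, (M : ℤ) ∣ σD d 1 0)
    (hσD1 : ∀ d : (ZMod M)ˣ, ((σD d 1 1 : ℤ) : ZMod M) = (d : ZMod M))
    -- (HN1Q1)
    (hHNT : ∀ (ℓ : PrimeIdx M p) (u : FL F₀), u ≠ 0 → ∃ Tu : FL F₀,
      ((Tu : FL F₀) : LaurentSeries Kb) =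
        @hnclSeries F₀ ℓ.1 ⟨ℓ.2.1.ne_zero⟩
          (diaCl (unitOfPrime ℓ.2.1 (not_dvd_left_of_not_dvd_mul ℓ.2.2))) u ∧
      realC (bcG F₀ Tu) = @heckeNormT1 ℓ.1 ⟨ℓ.2.1.ne_zero⟩ (σT ℓ) (realC (bcG F₀ u)))
    -- (P1e)
    (hHND : ∀ (d : (ZMod M)ˣ) (u : FL F₀),
      realC (bcG F₀ (diaCl d u)) = compM (σD d) (realC (bcG F₀ u)))
    (hS : ∀ ℓ : ℕ, ℓ.Prime → ¬ ℓ ∣ M * p → ℓ ∉ S) :
    EIG1AllCl F₀ p diaCl S := by
  obtain ⟨ξ, hξ⟩ := exists_primitiveRoot_FL F₀ p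
  have hinvC : ∀ (γ : Gamma1 M) (f : ↥(laurentBaseChange ℂ F₀)),
      compM (γ : SL(2, ℤ)) (realC f) = realC f :=
    fun γ f => compM_real_of_quot hquot f γ.2
  have hfin : Finite (Kum ℂ ↥(laurentBaseChange ℂ F₀) p) :=
    FinC1.finite_kum_Gamma1 M hE1 hinvC (sat_of_fieldGen hreal hquot (Fact.out : p.Prime).pos)
  exact eig1AllCl_Gamma1 hM S (bcG F₀) realC jF hreal hquot hI hC (isPowDescG F₀ p) hξ
    (descPG F₀ p x₀ hq hfin) (d1G F₀ p x₀) σT hσT0 hσT1 σD hσD0 hσD1 hHNT hHND hS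

end Fermat.Agent.DS.P3.EigFinal1
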