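/-
GATE-N / S48 J1-port, P3 (EIG twin), leaf S48-P3-HECKEMER1, plug file (helper49): (K4) for
helper42's FINAL TRIPLE (board 3526) of helper94's `EigFinalHyp.eig1Rel_of_hyps`, in the exact
spelling of helper70's `Lat/LatExport.lean`:

* `cohT ℓ ψ := cohT1 (ZMod p) hℓM (diaCoh (ZMod p) (unitOf hℓM)⁻¹ ψ)`,
  `merT ℓ h := heckeNormT1 ℓ σ (diaNorm σ' h)` (`σ₁₁ ≡ ℓ`, `σ'₁₁ ≡ ℓ⁻¹`) : `IsKumDatumG.tripleT`;
* `cohD d ψ := diaCoh (ZMod p) d⁻¹ ψ`, `merD d h := diaNorm σ' h` (`σ'₁₁ ≡ d⁻¹`) : `IsKumDatumG.tripleD`.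

The composite needs NO intermediate field element: only multipliers compose
(`HasMultG.diaCoh` then `HasMultG.cohT1`), and `real Tu = merT (real u)` gives
`real Tu = (merT h) ^ p` because both factors are multiplicative.
-/
import Mathlib
import Fermat.Agent.DS.P3.HeckeMerSys

set_option autoImplicit false
set_option linter.unusedSectionVars false

open UpperHalfPlane Complex CongruenceSubgroup
open scoped MatrixGroups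

noncomputable section

namespace Fermat.Agent.DS.P3.HeckeMerTriple

open Fermat.Agent.S24_helper82 Fermat.Agent.GJ.HeckeMer Fermat.Agent.DS.P3.KumCoreG
open Fermat.Agent.DS.P3.HeckeMerG Fermat.Agent.DS.P3.HeckeMer1 Fermat.Agent.DS.N0
open Fermat.Agent.DS.P3 Matrix.SpecialLinearGroup

variable {M : ℕ} [NeZero M] {p : ℕ} [NeZero p]

/-! ### Multipliers -/

/-- `h ∘ σ` (`σ ∈ Γ₀(M)`, `σ₁₁ ≡ d`) has multiplier `ζ^(diaCoh d ψ)`. -/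
theorem HasMultG.diaCoh (d : (ZMod M)ˣ) {σ : SL(2, ℤ)} (hσ0 : (M : ℤ) ∣ σ 1 0)
    (hσ1 : ((σ 1 1 : ℤ) : ZMod M) = (d : ZMod M)) {ζ : ℂ}
    {ψ : Additive (Gamma1 M) →+ ZMod p} {h : Mer} (H : HasMultG (Gamma1 M) ζ ψ h) :
    HasMultG (Gamma1 M) ζ (Coh1.diaCoh (ZMod p) d ψ) (diaNorm σ h) :=
  HasMultG.conj H σ (HeckeMer1.conjG1 hσ0) (HeckeMer1.conjG1_rel hσ0) _
    (fun g => Coh1.diaCoh_apply' d σ hσ0 hσ1 ψ g)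

/-- `heckeNormT1 ℓ σ h` (`σ ∈ Γ₀(M)`, `σ₁₁ ≡ ℓ`) has multiplier `ζ^(cohT1 ψ)`. -/
theorem HasMultG.cohT1 {ℓ : ℕ} [Fact ℓ.Prime] (hℓM : ¬ ℓ ∣ M) {σ : SL(2, ℤ)}
    (hσ : IsTwist M ℓ σ) {ζ : ℂ} (hζ : ζ ^ p = 1)
    {ψ : Additive (Gamma1 M) →+ ZMod p} {h : Mer} (H : HasMultG (Gamma1 M) ζ ψ h) :
    HasMultG (Gamma1 M) ζ (Coh1.cohT1 (ZMod p) hℓM ψ) (heckeNormT1 ℓ σ h) :=
  HasMultG.heckeNormT1 hℓM hσ hζ H _
    (fun g => ⟨(Coh1.sysT hℓM σ hσ.dvd hσ.d_eq).c g,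
      fun x => (Coh1.sysT hℓM σ hσ.dvd hσ.d_eq).c_rel g x,
      Coh1.cohT1_apply hℓM σ hσ.dvd hσ.d_eq ψ g⟩)

/-! ### (K4) for the final triple -/

/-- **(K4), `T`-part of the final triple**: `cohT ℓ := cohT1 ℓ ∘ diaCoh ℓ⁻¹`,
`merT ℓ := heckeNormT1 ℓ σ ∘ diaNorm σ'` with `σ₁₁ ≡ ℓ`, `σ'₁₁ ≡ ℓ⁻¹`. -/
theorem IsKumDatumG.tripleT {ℓ : ℕ} [Fact ℓ.Prime] (hℓM : ¬ ℓ ∣ M) {σ : SL(2, ℤ)}
    (hσ : IsTwist M ℓ σ) {σ' : SL(2, ℤ)} (hσ'0 : (M : ℤ) ∣ σ' 1 0)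
    (hσ'1 : ((σ' 1 1 : ℤ) : ZMod M) = (((Coh1.unitOf hℓM)⁻¹ : (ZMod M)ˣ) : ZMod M))
    {F : Type*} [Field F] {real : F →+* Mer} {ζ : ℂ} (hζ : ζ ^ p = 1)
    {ψ : Additive (Gamma1 M) →+ ZMod p} {h : Mer} {u : F}
    (D : IsKumDatumG (Gamma1 M) real ζ ψ h u) {Tu : F}
    (hTu : real Tu = heckeNormT1 ℓ σ (diaNorm σ' (real u))) :
    IsKumDatumG (Gamma1 M) real ζ
      (Coh1.cohT1 (ZMod p) hℓM (Coh1.diaCoh (ZMod p) (Coh1.unitOf hℓM)⁻¹ ψ))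
      (heckeNormT1 ℓ σ (diaNorm σ' h)) Tu :=
  ⟨heckeNormT1_ne_zero ℓ σ (diaNorm_ne_zero σ' D.1),
    HasMultG.cohT1 hℓM hσ hζ (HasMultG.diaCoh _ hσ'0 hσ'1 D.2.1), by
    rw [hTu, D.2.2, map_pow, map_pow]⟩

/-- **(K4), diamond part of the final triple**: `cohD d := diaCoh d⁻¹`, `merD d := diaNorm σ'`
with `σ'₁₁ ≡ d⁻¹`. -/
theorem IsKumDatumG.tripleD (d : (ZMod M)ˣ) {σ' : SL(2, ℤ)} (hσ'0 : (M : ℤ) ∣ σ' 1 0)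
    (hσ'1 : ((σ' 1 1 : ℤ) : ZMod M) = ((d⁻¹ : (ZMod M)ˣ) : ZMod M))
    {F : Type*} [Field F] {real : F →+* Mer} {ζ : ℂ}
    {ψ : Additive (Gamma1 M) →+ ZMod p} {h : Mer} {u : F}
    (D : IsKumDatumG (Gamma1 M) real ζ ψ h u) {Du : F}
    (hDu : real Du = diaNorm σ' (real u)) :
    IsKumDatumG (Gamma1 M) real ζ (Coh1.diaCoh (ZMod p) d⁻¹ ψ) (diaNorm σ' h) Du :=
  HeckeMerSys.IsKumDatumG.diaCoh d⁻¹ hσ'0 hσ'1 D hDu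

/-! ### Canonical representatives (`Coh1.sigmaOf`) -/

/-- the canonical `merT` of the final triple -/
def merT {ℓ : ℕ} [Fact ℓ.Prime] (hℓM : ¬ ℓ ∣ M) (h : Mer) : Mer :=
  heckeNormT1 ℓ (Coh1.sigmaOf (Coh1.unitOf hℓM)) (diaNorm (Coh1.sigmaOf (Coh1.unitOf hℓM)⁻¹) h)

/-- the canonical `merD` of the final triple -/
def merD (d : (ZMod M)ˣ) (h : Mer) : Mer := diaNorm (Coh1.sigmaOf d⁻¹) h

theorem isTwist_sigmaOf {ℓ : ℕ} [Fact ℓ.Prime] (hℓM : ¬ ℓ ∣ M) :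
    IsTwist M ℓ (Coh1.sigmaOf (Coh1.unitOf hℓM)) :=
  ⟨Coh1.sigmaOf_dvd _, (Coh1.sigmaOf_cast _).trans (Coh1.coe_unitOf hℓM)⟩

/-- **`hK4T` of `eig1Rel_of_hyps`** at `Γ := Γ₁(M)` with the canonical representatives. -/
theorem hK4T {ℓ : ℕ} [Fact ℓ.Prime] (hℓM : ¬ ℓ ∣ M)
    {F : Type*} [Field F] {real : F →+* Mer} {ζ : ℂ} (hζ : ζ ^ p = 1)
    (ψ : Additive (Gamma1 M) →+ ZMod p) (h : Mer) (u Tu : F)
    (D : IsKumDatumG (Gamma1 M) real ζ ψ h u) (hTu : real Tu = merT hℓM (real u)) :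
    IsKumDatumG (Gamma1 M) real ζ
      (Coh1.cohT1 (ZMod p) hℓM (Coh1.diaCoh (ZMod p) (Coh1.unitOf hℓM)⁻¹ ψ)) (merT hℓM h) Tu :=
  IsKumDatumG.tripleT hℓM (isTwist_sigmaOf hℓM) (Coh1.sigmaOf_dvd _) (Coh1.sigmaOf_cast _) hζ D hTu

/-- **`hK4D` of `eig1Rel_of_hyps`** at `Γ := Γ₁(M)` with the canonical representatives. -/
theorem hK4D (d : (ZMod M)ˣ)
    {F : Type*} [Field F] {real : F →+* Mer} {ζ : ℂ}
    (ψ : Additive (Gamma1 M) →+ ZMod p) (h : Mer) (u Du : F)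
    (D : IsKumDatumG (Gamma1 M) real ζ ψ h u) (hDu : real Du = merD d (real u)) :
    IsKumDatumG (Gamma1 M) real ζ (Coh1.diaCoh (ZMod p) d⁻¹ ψ) (merD d h) Du :=
  IsKumDatumG.tripleD d (Coh1.sigmaOf_dvd _) (Coh1.sigmaOf_cast _) D hDu

/-- `Γ₁(M)`-invariance of `merT f` for invariant `f`. -/
theorem compM_merT_of_invariant {ℓ : ℕ} [Fact ℓ.Prime] (hℓM : ¬ ℓ ∣ M) (f : Mer)
    (hf : ∀ γ : Gamma1 M, compM (γ : SL(2, ℤ)) f = f) (γ : Gamma1 M) :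
    compM (γ : SL(2, ℤ)) (merT hℓM f) = merT hℓM f :=
  compM_heckeNormT1_of_invariant hℓM (isTwist_sigmaOf hℓM) _
    (fun γ => compM_diaNorm_of_invariant (Coh1.sigmaOf_dvd _) f hf γ) γ

/-- `Γ₁(M)`-invariance of `merD f` for invariant `f`. -/
theorem compM_merD_of_invariant (d : (ZMod M)ˣ) (f : Mer)
    (hf : ∀ γ : Gamma1 M, compM (γ : SL(2, ℤ)) f = f) (γ : Gamma1 M) :
    compM (γ : SL(2, ℤ)) (merD d f) = merD d f :=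
  compM_diaNorm_of_invariant (Coh1.sigmaOf_dvd _) f hf γ

/-- On invariant functions `merT` may be computed with ANY representatives `σ₁₁ ≡ ℓ`,
`σ'₁₁ ≡ ℓ⁻¹` in the diamond slot (the Hecke slot is fixed to the canonical one). -/
theorem merD_eq_of_invariant (d : (ZMod M)ˣ) {σ' : SL(2, ℤ)} (hσ' : σ' ∈ Gamma0 M)
    (hσ'1 : ((σ' 1 1 : ℤ) : ZMod M) = ((d⁻¹ : (ZMod M)ˣ) : ZMod M)) (f : Mer)
    (hf : ∀ γ : Gamma1 M, compM (γ : SL(2, ℤ)) f = f) :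
    merD d f = diaNorm σ' f := by
  unfold merD
  refine diaNorm_congr hσ' ?_ ?_ f hf
  · exact Fermat.Agent.DS.Hecke.mem_Gamma0_iff_dvd.2 (Coh1.sigmaOf_dvd _)
  · rw [Coh1.sigmaOf_cast, hσ'1]

end Fermat.Agent.DS.P3.HeckeMerTriple
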