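/-
GATE-N / S48 J1-port, P3 (EIG twin), leaf S48-P3-FINAL (helper94): the `Γ₁(M)` instantiation in the
**MODULI convention** (helper42's FINAL TRIPLE, board 3526; helper69's `DS/P5/Final2.lean`).

`eig1All2_Gamma1` / `eig1All2_bcG` : helper69's `Final2.EIG1All2' F₀ p dia S`
(`= ∀ θ, EIG1Rel F₀ p dia k0 (aDual θ) (chiOf θ)⁻¹`, hence `EIG1All2`, `PortExport1.EIG1Prime`,
the `hE` of `Final2.exists_rep_of_theta2` / `PortExport1.portExport_heckePkg1`), where `dia` is the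
MODULI diamond family (`dia_d = ⟨d⟩_std⁻¹`) and `HN1_ℓ u = u(q^ℓ) · N_ℓ(dia_ℓ u)`.

The triple: `cohT ℓ := cohT1 ℓ ∘ diaCoh ℓ⁻¹`, `merT ℓ := heckeNormT1 ℓ σ_ℓ ∘ compM σ'_ℓ`
(`σ_ℓ ≡ ℓ`, `σ'_ℓ ≡ ℓ⁻¹` lower right), `a' ℓ := θ(T_ℓ)·θ⟨ℓ⟩⁻¹`; `cohD d := diaCoh d⁻¹`,
`merD d := compM σ'_d` (`σ'_d ≡ d⁻¹`), `χd := (chiOf θ)⁻¹`.

Landed leaves used: as in `EigFinal1.lean` + helper49's `HeckeMerTriple.IsKumDatumG.tripleT/D`,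
helper70/helper19's `Lat.lat1_export_thm`.  Remaining NAMED hypotheses:

* (P1b) `hreal`, `hquot`; (P1c) `x₀`, `hq`; (DICT) `hI`, `hC`, `hE1`  — as in `EigFinal1`;
* (HN1Q1) `hHNT` : for `ℓ ∤ M p`, `u ≠ 0` there is `Tu : FL F₀` with series
  `hn1Series ℓ (dia_ℓ) u` realised by `heckeNormT1 ℓ σ_ℓ (compM σ'_ℓ (realC (bc u)))`;
* (P1e)  `hHND` : `realC (bc (dia d u)) = compM σ'_d (realC (bc u))`, `σ'_d ≡ d⁻¹` lower right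
  (i.e. upper left `≡ d`).
-/
import Mathlib
import Fermat.Agent.DS.P3.EigFinal1
import Fermat.Agent.DS.P3.HeckeMerTriple
import Fermat.Agent.DS.P5.Final2

set_option autoImplicit false
set_option linter.unusedSectionVars false
set_option linter.style.haveILetI false

open UpperHalfPlane Complex AlgebraicCurve ModularCurve TensorProduct CongruenceSubgroup
open scoped MatrixGroups

noncomputable section

namespace Fermat.Agent.DS.P3.EigFinal2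

open Fermat.Agent.S24 Fermat.Agent.S24_helper82 Fermat.Agent.GJ.HeckeMer Fermat.Agent.GJ.KumGroup
open Fermat.Agent.DS.P3.KumCoreG Fermat.Agent.DS.P3.EigAsmG Fermat.Agent.DS.P3.EigDescG
open Fermat.Agent.DS.P3.EigFinalHyp Fermat.Agent.DS.P3.EigFinal1
open Fermat.Agent.DS.P3.Coh1 Fermat.Agent.DS.P3.HeckeMerG Fermat.Agent.DS.P3.HeckeMer1
open Fermat.Agent.DS.P3.PDiv1 Fermat.Agent.DS.P3.Sat1 Fermat.Agent.DS.P3.TwEisG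
open Fermat.Agent.DS.P3.Lat Fermat.Agent.DS.P3.Desc1G Fermat.Agent.DS.N0
open Fermat.Agent.DS.Hecke
open Fermat.Agent.DS.P5 Fermat.Agent.DS.P5.KumType1
open Fermat.Agent.DS.P5.Final Fermat.Agent.DS.P5.Final2
open ModularCurve.Period ModularForm

variable {F₀ : IntermediateField ℚ (LaurentSeries ℚ)} {M : ℕ} [NeZero M] {p : ℕ} [Fact p.Prime]
  {dia : (ZMod M)ˣ → (FL F₀ ≃ₐ[Kb] FL F₀)}

/-! ### The abstract assembly over `ℂ`, moduli convention -/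

/-- **(EIG1), moduli convention, hypothesis form over `ℂ`** (descent form of
`EigFinalHyp.eig1Rel_of_hyps`): the analytic inputs (INV), (SAT), (EX), (PDIV) are stated for a
realisation `realC : FC →+* Mer` of a function field `FC / ℂ`, a base change `bc : FL F₀ →+* FC`,
and the descent bricks (DESC), (D1), (LD-d) + a primitive `p`-th root of unity of `FL F₀`.
(K4), (HN) are for `realC ∘ bc`. -/
theorem eig1Rel_of_C {Γ : Subgroup SL(2, ℤ)} {FC : Type*} [Field FC] [Algebra ℂ FC]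
    (bc : FL F₀ →+* FC) (realC : FC →+* Mer) {ζ : ℂ} (hζ : IsPrimitiveRoot ζ p)
    (hinvC : ∀ (γ : Γ) (f : FC), compM (γ : SL(2, ℤ)) (realC f) = realC f)
    (hS : SatG Γ p realC) (hL : IsPowDescG p bc) {ξ : FL F₀} (hξ : IsPrimitiveRoot ξ p)
    {k0 : Type} [Field k0] [Algebra (ZMod p) k0] [Module.Finite (ZMod p) k0]
    (χ : Additive Γ →+ k0) (hχ0 : χ ≠ 0)
    (Good : (Additive Γ →+ ZMod p) → Prop)
    (hχgood : ∀ f : k0 →+ ZMod p, Good (f.comp χ))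
    (hE : ExG Γ p realC ζ Good) (hP : PDivG Γ p (K := ℂ) realC ζ Good)
    (hD : DescPG (KQ := Kb) (KC := ℂ) p bc) (hD1 : D1G (KQ := Kb) (KC := ℂ) p bc)
    -- the Hecke operators
    (cohT : PrimeIdx M p → (Additive Γ →+ ZMod p) → (Additive Γ →+ ZMod p))
    (hcohTgood : ∀ ℓ ψ, Good ψ → Good (cohT ℓ ψ))
    (merT : PrimeIdx M p → Mer → Mer)
    (hK4T : ∀ (ℓ : PrimeIdx M p) (ψ : Additive Γ →+ ZMod p) (h : Mer) (u Tu : FL F₀),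
      IsKumDatumG Γ (realQ bc realC) ζ ψ h u → realC (bc Tu) = merT ℓ (realC (bc u)) →
        IsKumDatumG Γ (realQ bc realC) ζ (cohT ℓ ψ) (merT ℓ h) Tu)
    (hHNT : ∀ (ℓ : PrimeIdx M p) (u : FL F₀), u ≠ 0 → ∃ Tu : FL F₀,
      ((Tu : FL F₀) : LaurentSeries Kb) =
        @hn1Series F₀ ℓ.1 ⟨ℓ.2.1.ne_zero⟩
          (diaP dia ℓ.2.1 (not_dvd_left_of_not_dvd_mul ℓ.2.2)) u ∧
      realC (bc Tu) = merT ℓ (realC (bc u)))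
    (a : ℕ → k0)
    (heigT : ∀ (ℓ : PrimeIdx M p) (f : k0 →+ ZMod p) (g : Γ),
      cohT ℓ (f.comp χ) (Additive.ofMul g) = f (a ℓ.1 * χ (Additive.ofMul g)))
    -- the diamond operators
    (cohD : (ZMod M)ˣ → (Additive Γ →+ ZMod p) → (Additive Γ →+ ZMod p))
    (hcohDgood : ∀ d ψ, Good ψ → Good (cohD d ψ))
    (merD : (ZMod M)ˣ → Mer → Mer)
    (hK4D : ∀ (d : (ZMod M)ˣ) (ψ : Additive Γ →+ ZMod p) (h : Mer) (u Tu : FL F₀),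
      IsKumDatumG Γ (realQ bc realC) ζ ψ h u → realC (bc Tu) = merD d (realC (bc u)) →
        IsKumDatumG Γ (realQ bc realC) ζ (cohD d ψ) (merD d h) Tu)
    (hHND : ∀ (d : (ZMod M)ˣ) (u : FL F₀), realC (bc (dia d u)) = merD d (realC (bc u)))
    (χd : (ZMod M)ˣ →* k0ˣ)
    (heigD : ∀ (d : (ZMod M)ˣ) (f : k0 →+ ZMod p) (g : Γ),
      cohD d (f.comp χ) (Additive.ofMul g) = f (((χd d : k0ˣ) : k0) * χ (Additive.ofMul g))) :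
    EIG1Rel F₀ p dia k0 a χd :=
  eig1Rel_of_hyps (Γ := Γ) (realQ bc realC) hζ (compM_realQ hinvC) (satQ_of hS hL hξ) χ hχ0 Good
    hχgood (exQ_of hinvC hE hP hD) (pDivQ_of hP hD1) cohT hcohTgood merT hK4T hHNT a heigT
    cohD hcohDgood merD hK4D hHND χd heigD

/-! ### Small bricks -/

/-- `θ ⟨d⁻¹⟩ = (θ ⟨d⟩)⁻¹` -/
theorem theta_D_inv {S : Set ℕ} {k0 : Type} [Field k0] (θ : heckeAlgebra1 M 2 S →+* k0)
    (d : (ZMod M)ˣ) : θ (heckeAlgebra1.D d⁻¹) = (θ (heckeAlgebra1.D d))⁻¹ := by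
  apply eq_inv_of_mul_eq_one_left
  rw [← map_mul, ← heckeAlgebra1.D_mul, inv_mul_cancel, heckeAlgebra1.D_one, map_one]

theorem coe_chiOf_inv {S : Set ℕ} {k0 : Type} [Field k0] (θ : heckeAlgebra1 M 2 S →+* k0)
    (d : (ZMod M)ˣ) : ((((chiOf θ)⁻¹ : (ZMod M)ˣ →* k0ˣ) d : k0ˣ) : k0)
      = θ (heckeAlgebra1.D d⁻¹) := by
  rw [MonoidHom.inv_apply, Units.val_inv_eq_inv_val, coe_chiOf, theta_D_inv]

/-! ### One eigensystem, abstract base change -/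

/-- **(EIG1) for `Γ₁(M)`, moduli convention, one eigensystem**: from an eigenclass `χ` in the
export shape of `Lat.lat1_export_thm` (`cohT1 ℓ ∘ diaCoh ℓ⁻¹` with eigenvalue `a ℓ`, `diaCoh d⁻¹`
with eigenvalue `χd d`). -/
theorem eig1Rel_Gamma1 (hM : 4 ≤ M)
    {FC : Type*} [Field FC] [Algebra ℂ FC] (bc : FL F₀ →+* FC) (realC : FC →+* Mer) (jF : FC)
    -- (P1b)
    (hreal : FieldGenHol (Gamma1 M) M realC) (hquot : QuotHyp (Gamma1 M) M realC)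
    -- (DICT)
    (hI : IntDict (Gamma1 M) realC jF) (hC : CuspDict (Gamma1 M) realC jF)
    -- (DESC1)
    (hL : IsPowDescG p bc) {ξ : FL F₀} (hξ : IsPrimitiveRoot ξ p)
    (hD : DescPG (KQ := Kb) (KC := ℂ) p bc) (hD1 : D1G (KQ := Kb) (KC := ℂ) p bc)
    -- the representatives
    (σT : PrimeIdx M p → SL(2, ℤ)) (hσT0 : ∀ ℓ, (M : ℤ) ∣ σT ℓ 1 0)
    (hσT1 : ∀ ℓ : PrimeIdx M p, ((σT ℓ 1 1 : ℤ) : ZMod M) = (ℓ.1 : ZMod M))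
    (σT' : PrimeIdx M p → SL(2, ℤ)) (hσT'0 : ∀ ℓ, (M : ℤ) ∣ σT' ℓ 1 0)
    (hσT'1 : ∀ ℓ : PrimeIdx M p, ((σT' ℓ 1 1 : ℤ) : ZMod M) =
      (((unitOfPrime ℓ.2.1 (not_dvd_left_of_not_dvd_mul ℓ.2.2))⁻¹ : (ZMod M)ˣ) : ZMod M))
    (σD' : (ZMod M)ˣ → SL(2, ℤ)) (hσD'0 : ∀ d, (M : ℤ) ∣ σD' d 1 0)
    (hσD'1 : ∀ d : (ZMod M)ˣ, ((σD' d 1 1 : ℤ) : ZMod M) = ((d⁻¹ : (ZMod M)ˣ) : ZMod M))
    -- (HN1Q1)
    (hHNT : ∀ (ℓ : PrimeIdx M p) (u : FL F₀), u ≠ 0 → ∃ Tu : FL F₀,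
      ((Tu : FL F₀) : LaurentSeries Kb) =
        @hn1Series F₀ ℓ.1 ⟨ℓ.2.1.ne_zero⟩
          (diaP dia ℓ.2.1 (not_dvd_left_of_not_dvd_mul ℓ.2.2)) u ∧
      realC (bc Tu) =
        @heckeNormT1 ℓ.1 ⟨ℓ.2.1.ne_zero⟩ (σT ℓ) (compM (σT' ℓ) (realC (bc u))))
    -- (P1e)
    (hHND : ∀ (d : (ZMod M)ˣ) (u : FL F₀), realC (bc (dia d u)) = compM (σD' d) (realC (bc u)))
    -- (LAT1), for one eigensystem, export shape
    {k0 : Type} [Field k0] [Algebra (ZMod p) k0] [Module.Finite (ZMod p) k0]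
    (χ : Additive (Gamma1 M) →+ k0) (hχ0 : χ ≠ 0)
    (hχgood : ∀ f : k0 →+ ZMod p, IsParabolicHom (Gamma1 M) (f.comp χ))
    (a : ℕ → k0)
    (heigT : ∀ (ℓ : PrimeIdx M p) (f : k0 →+ ZMod p) (g : Gamma1 M),
      cohTp (ZMod p) ℓ.2.1 (not_dvd_left_of_not_dvd_mul ℓ.2.2)
          (diaCoh (ZMod p) (unitOfPrime ℓ.2.1 (not_dvd_left_of_not_dvd_mul ℓ.2.2))⁻¹ (f.comp χ))
          (Additive.ofMul g)
        = f (a ℓ.1 * χ (Additive.ofMul g)))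
    (χd : (ZMod M)ˣ →* k0ˣ)
    (heigD : ∀ (d : (ZMod M)ˣ) (f : k0 →+ ZMod p) (g : Gamma1 M),
      diaCoh (ZMod p) d⁻¹ (f.comp χ) (Additive.ofMul g)
        = f (((χd d : k0ˣ) : k0) * χ (Additive.ofMul g))) :
    EIG1Rel F₀ p dia k0 a χd := by
  have hζ : IsPrimitiveRoot (Complex.exp (2 * Real.pi * Complex.I / p)) p :=
    Complex.isPrimitiveRoot_exp p (NeZero.ne p)
  have hinvC : ∀ (γ : Gamma1 M) (f : FC), compM (γ : SL(2, ℤ)) (realC f) = realC f :=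
    fun γ f => compM_real_of_quot hquot f γ.2
  have hM3 : 3 ≤ M := by omega
  refine eig1Rel_of_C (Γ := Gamma1 M) bc realC hζ hinvC
    (sat_of_fieldGen hreal hquot (Fact.out : p.Prime).pos) hL hξ χ hχ0
    (fun ψ => IsParabolicHom (Gamma1 M) ψ) hχgood
    (fun ψ hψ => exists_isKumDatumG_Gamma1 p hM3 hreal hζ.pow_eq_one ψ hψ)
    (pdiv_of_dict_Gamma1 hM hI hC) hD hD1
    (fun ℓ ψ => cohTp (ZMod p) ℓ.2.1 (not_dvd_left_of_not_dvd_mul ℓ.2.2)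
      (diaCoh (ZMod p) (unitOfPrime ℓ.2.1 (not_dvd_left_of_not_dvd_mul ℓ.2.2))⁻¹ ψ))
    (fun ℓ ψ hψ => ?_)
    (fun ℓ h => @heckeNormT1 ℓ.1 ⟨ℓ.2.1.ne_zero⟩ (σT ℓ) (compM (σT' ℓ) h))
    (fun ℓ ψ h u Tu D hT => ?_) hHNT a heigT
    (fun d ψ => diaCoh (ZMod p) d⁻¹ ψ)
    (fun d ψ hψ => diaCoh_isParabolicHom d⁻¹ ψ hψ)
    (fun d => compM (σD' d))
    (fun d ψ h u Tu D hT => ?_) hHND χd heigD
  · haveI : Fact ℓ.1.Prime := ⟨ℓ.2.1⟩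
    exact cohT1_isParabolicHom _ _ (diaCoh_isParabolicHom _ ψ hψ)
  · haveI : Fact ℓ.1.Prime := ⟨ℓ.2.1⟩
    exact HeckeMerTriple.IsKumDatumG.tripleT (not_dvd_left_of_not_dvd_mul ℓ.2.2)
      ⟨hσT0 ℓ, hσT1 ℓ⟩ (hσT'0 ℓ) (hσT'1 ℓ) hζ.pow_eq_one D hT
  · exact HeckeMerTriple.IsKumDatumG.tripleD d (hσD'0 d) (hσD'1 d) D hT

/-! ### All eigensystems -/

/-- **(EIG1) for `Γ₁(M)`, moduli convention = the export of P3** (helper69's `Final2.EIG1All2'`),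
abstract `FC`, `bc` with the descent bricks as hypotheses; (LAT1) is `Lat.lat1_export_thm`. -/
theorem eig1All2_Gamma1 (hM : 4 ≤ M) (S : Set ℕ)
    {FC : Type*} [Field FC] [Algebra ℂ FC] (bc : FL F₀ →+* FC) (realC : FC →+* Mer) (jF : FC)
    -- (P1b)
    (hreal : FieldGenHol (Gamma1 M) M realC) (hquot : QuotHyp (Gamma1 M) M realC)
    -- (DICT)
    (hI : IntDict (Gamma1 M) realC jF) (hC : CuspDict (Gamma1 M) realC jF)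
    -- (DESC1)
    (hL : IsPowDescG p bc) {ξ : FL F₀} (hξ : IsPrimitiveRoot ξ p)
    (hD : DescPG (KQ := Kb) (KC := ℂ) p bc) (hD1 : D1G (KQ := Kb) (KC := ℂ) p bc)
    -- the representatives
    (σT : PrimeIdx M p → SL(2, ℤ)) (hσT0 : ∀ ℓ, (M : ℤ) ∣ σT ℓ 1 0)
    (hσT1 : ∀ ℓ : PrimeIdx M p, ((σT ℓ 1 1 : ℤ) : ZMod M) = (ℓ.1 : ZMod M))
    (σT' : PrimeIdx M p → SL(2, ℤ)) (hσT'0 : ∀ ℓ, (M : ℤ) ∣ σT' ℓ 1 0)
    (hσT'1 : ∀ ℓ : PrimeIdx M p, ((σT' ℓ 1 1 : ℤ) : ZMod M) =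
      (((unitOfPrime ℓ.2.1 (not_dvd_left_of_not_dvd_mul ℓ.2.2))⁻¹ : (ZMod M)ˣ) : ZMod M))
    (σD' : (ZMod M)ˣ → SL(2, ℤ)) (hσD'0 : ∀ d, (M : ℤ) ∣ σD' d 1 0)
    (hσD'1 : ∀ d : (ZMod M)ˣ, ((σD' d 1 1 : ℤ) : ZMod M) = ((d⁻¹ : (ZMod M)ˣ) : ZMod M))
    -- (HN1Q1)
    (hHNT : ∀ (ℓ : PrimeIdx M p) (u : FL F₀), u ≠ 0 → ∃ Tu : FL F₀,
      ((Tu : FL F₀) : LaurentSeries Kb) =
        @hn1Series F₀ ℓ.1 ⟨ℓ.2.1.ne_zero⟩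
          (diaP dia ℓ.2.1 (not_dvd_left_of_not_dvd_mul ℓ.2.2)) u ∧
      realC (bc Tu) =
        @heckeNormT1 ℓ.1 ⟨ℓ.2.1.ne_zero⟩ (σT ℓ) (compM (σT' ℓ) (realC (bc u))))
    -- (P1e)
    (hHND : ∀ (d : (ZMod M)ˣ) (u : FL F₀), realC (bc (dia d u)) = compM (σD' d) (realC (bc u)))
    (hS : ∀ ℓ : ℕ, ℓ.Prime → ¬ ℓ ∣ M * p → ℓ ∉ S) :
    EIG1All2' F₀ p dia S := by
  intro k0 _ _ _ θ
  letI : Algebra (ZMod p) k0 := ZMod.algebra k0 p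
  haveI : Module.Finite (ZMod p) k0 := Module.Finite.of_finite
  obtain ⟨χ, hχ0, hχgood, hχT, hχD⟩ := lat1_export_thm (M := M) p S θ
  refine eig1Rel_Gamma1 hM bc realC jF hreal hquot hI hC hL hξ hD hD1 σT hσT0 hσT1 σT' hσT'0 hσT'1
    σD' hσD'0 hσD'1 hHNT hHND χ hχ0 (fun f => hχgood f) (aDual θ) (fun ℓ f g => ?_)
    (chiOf θ)⁻¹ (fun d f g => ?_)
  · have h1 := hχT ℓ.1 ℓ.2.1 (not_dvd_left_of_not_dvd_mul ℓ.2.2) (hS ℓ.1 ℓ.2.1 ℓ.2.2) f g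
    rw [aDual_eq θ ℓ.2.1 (not_dvd_left_of_not_dvd_mul ℓ.2.2) (hS ℓ.1 ℓ.2.1 ℓ.2.2),
      ← theta_D_inv]
    exact h1
  · rw [coe_chiOf_inv]
    exact hχD d f g

/-- **(EIG1) for `Γ₁(M)`, moduli convention = the export of P3**, for the concrete base change
`bc := Desc1G.bcG F₀ : ℚ̄ · F₀ → ℂ · F₀`: (LAT1), (DESC1), (FINC1) are discharged; what remains are
the P1 inputs on `realC : ℂ · F₀ →+* Mer`, the dictionary, (HN1Q1) and (P1e). -/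
theorem eig1All2_bcG (hM : 4 ≤ M) (S : Set ℕ)
    (realC : ↥(laurentBaseChange ℂ F₀) →+* Mer) (jF : ↥(laurentBaseChange ℂ F₀))
    -- (P1b)
    (hreal : FieldGenHol (Gamma1 M) M realC) (hquot : QuotHyp (Gamma1 M) M realC)
    -- (P1c)
    (x₀ : FL F₀) [IsGen Kb x₀] (hq : ∃ f ∈ F₀, f.order ≠ 0)
    -- (DICT)
    (hI : IntDict (Gamma1 M) realC jF) (hC : CuspDict (Gamma1 M) realC jF)
    (hE1 : FinC1.E1 realC)
    -- the representatives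
    (σT : PrimeIdx M p → SL(2, ℤ)) (hσT0 : ∀ ℓ, (M : ℤ) ∣ σT ℓ 1 0)
    (hσT1 : ∀ ℓ : PrimeIdx M p, ((σT ℓ 1 1 : ℤ) : ZMod M) = (ℓ.1 : ZMod M))
    (σT' : PrimeIdx M p → SL(2, ℤ)) (hσT'0 : ∀ ℓ, (M : ℤ) ∣ σT' ℓ 1 0)
    (hσT'1 : ∀ ℓ : PrimeIdx M p, ((σT' ℓ 1 1 : ℤ) : ZMod M) =
      (((unitOfPrime ℓ.2.1 (not_dvd_left_of_not_dvd_mul ℓ.2.2))⁻¹ : (ZMod M)ˣ) : ZMod M))
    (σD' : (ZMod M)ˣ → SL(2, ℤ)) (hσD'0 : ∀ d, (M : ℤ) ∣ σD' d 1 0)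
    (hσD'1 : ∀ d : (ZMod M)ˣ, ((σD' d 1 1 : ℤ) : ZMod M) = ((d⁻¹ : (ZMod M)ˣ) : ZMod M))
    -- (HN1Q1)
    (hHNT : ∀ (ℓ : PrimeIdx M p) (u : FL F₀), u ≠ 0 → ∃ Tu : FL F₀,
      ((Tu : FL F₀) : LaurentSeries Kb) =
        @hn1Series F₀ ℓ.1 ⟨ℓ.2.1.ne_zero⟩
          (diaP dia ℓ.2.1 (not_dvd_left_of_not_dvd_mul ℓ.2.2)) u ∧
      realC (bcG F₀ Tu) =
        @heckeNormT1 ℓ.1 ⟨ℓ.2.1.ne_zero⟩ (σT ℓ) (compM (σT' ℓ) (realC (bcG F₀ u))))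
    -- (P1e)
    (hHND : ∀ (d : (ZMod M)ˣ) (u : FL F₀),
      realC (bcG F₀ (dia d u)) = compM (σD' d) (realC (bcG F₀ u)))
    (hS : ∀ ℓ : ℕ, ℓ.Prime → ¬ ℓ ∣ M * p → ℓ ∉ S) :
    EIG1All2' F₀ p dia S := by
  obtain ⟨ξ, hξ⟩ := exists_primitiveRoot_FL F₀ p
  have hinvC : ∀ (γ : Gamma1 M) (f : ↥(laurentBaseChange ℂ F₀)),
      compM (γ : SL(2, ℤ)) (realC f) = realC f :=
    fun γ f => compM_real_of_quot hquot f γ.2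
  have hfin : Finite (Kum ℂ ↥(laurentBaseChange ℂ F₀) p) :=
    FinC1.finite_kum_Gamma1 M hE1 hinvC (sat_of_fieldGen hreal hquot (Fact.out : p.Prime).pos)
  exact eig1All2_Gamma1 hM S (bcG F₀) realC jF hreal hquot hI hC (isPowDescG F₀ p) hξ
    (descPG F₀ p x₀ hq hfin) (d1G F₀ p x₀) σT hσT0 hσT1 σT' hσT'0 hσT'1 σD' hσD'0 hσD'1
    hHNT hHND hS

end Fermat.Agent.DS.P3.EigFinal2
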