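/-
GATE-N / S48 J1-port, P3 (EIG twin), leaf S48-P3-FINAL, hypothesis form (helper94): the wiring of
the abstract assembly `EigAsmG.exists_eigenvector` to the export `EIG1Rel` consumed by helper69's
concrete Kummer model `DS/P5/KumType1.lean` (`exists_rep_of_rel`).

Operators: `Op := {ℓ // ℓ prime, ℓ ∤ M p} ⊕ (ZMod M)ˣ`; the field relation is
`series Tu = hn1Series ℓ (dia_ℓ) u` for `ℓ` and `Tu = dia d u` for `d`.  Everything else
(`Γ`, `real`, the operators on `Hom(Γ, ℤ/p)` and on `Mer`, (K4), (HN), the eigenclass `χ`) stays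
abstract; the instantiation at `Γ := Γ₁(M)`, `F₀ := F1 M` is one call once the leaves are on main.
-/
import Mathlib
import Fermat.Agent.DS.P3.EigDescG
import Fermat.Agent.DS.P5.KumType1

set_option autoImplicit false
set_option linter.unusedSectionVars false

open UpperHalfPlane Complex AlgebraicCurve ModularCurve TensorProduct
open scoped MatrixGroups

noncomputable section

namespace Fermat.Agent.DS.P3.EigFinalHyp

open Fermat.Agent.S24_helper82 Fermat.Agent.GJ.HeckeMer Fermat.Agent.GJ.KumGroup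
open Fermat.Agent.DS.P3.KumCoreG Fermat.Agent.DS.P3.EigAsmG
open Fermat.Agent.DS.P5 Fermat.Agent.DS.P5.KumType1

variable (F₀ : IntermediateField ℚ (LaurentSeries ℚ)) {M : ℕ} [NeZero M] (p : ℕ) [Fact p.Prime]
  (dia : (ZMod M)ˣ → (FL F₀ ≃ₐ[Kb] FL F₀))

/-- the primes at which the Hecke operators of the port live -/
abbrev PrimeIdx (M p : ℕ) : Type := {ℓ : ℕ // ℓ.Prime ∧ ¬ ℓ ∣ M * p}

variable {F₀ p dia}

/-- **(EIG1) in hypothesis form**: helper69's `EIG1Rel` from the abstract assembly.  Inputs: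
`real : FL F₀ →+* Mer` with (INV), (SAT), an eigenclass `χ : Γ → k0` with good coordinates, (EX),
(PDIV), and for the two families of operators `T_ℓ` (`ℓ ∤ M p`) and `⟨d⟩`: the action on
`Hom(Γ, ℤ/p)`, on `Mer` with (K4), the bridge (HN) to `hn1Series` resp. `dia d`, and the
eigen-relation of `χ`. -/
theorem eig1Rel_of_hyps {Γ : Subgroup SL(2, ℤ)} (real : FL F₀ →+* Mer) {ζ : ℂ}
    (hζ : IsPrimitiveRoot ζ p)
    (hinv : ∀ (γ : Γ) (u : FL F₀), compM (γ : SL(2, ℤ)) (real u) = real u)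
    (hsat : SatG Γ p real)
    {k0 : Type} [Field k0] [Algebra (ZMod p) k0] [Module.Finite (ZMod p) k0]
    (χ : Additive Γ →+ k0) (hχ0 : χ ≠ 0)
    (Good : (Additive Γ →+ ZMod p) → Prop)
    (hχgood : ∀ f : k0 →+ ZMod p, Good (f.comp χ))
    (hex : ∀ ψ : Additive Γ →+ ZMod p, Good ψ →
      ∃ (h : Mer) (u : FL F₀), IsKumDatumG Γ real ζ ψ h u)
    (hpd : ∀ (ψ : Additive Γ →+ ZMod p) (h : Mer) (u : FL F₀), Good ψ →
      IsKumDatumG Γ real ζ ψ h u → ∀ P : Place Kb (FL F₀), (p : ℤ) ∣ P.ord u)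
    -- the Hecke operators
    (cohT : PrimeIdx M p → (Additive Γ →+ ZMod p) → (Additive Γ →+ ZMod p))
    (hcohTgood : ∀ ℓ ψ, Good ψ → Good (cohT ℓ ψ))
    (merT : PrimeIdx M p → Mer → Mer)
    (hK4T : ∀ (ℓ : PrimeIdx M p) (ψ : Additive Γ →+ ZMod p) (h : Mer) (u Tu : FL F₀),
      IsKumDatumG Γ real ζ ψ h u → real Tu = merT ℓ (real u) →
        IsKumDatumG Γ real ζ (cohT ℓ ψ) (merT ℓ h) Tu)
    (hHNT : ∀ (ℓ : PrimeIdx M p) (u : FL F₀), u ≠ 0 → ∃ Tu : FL F₀,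
      ((Tu : FL F₀) : LaurentSeries Kb) =
        @hn1Series F₀ ℓ.1 ⟨ℓ.2.1.ne_zero⟩
          (diaP dia ℓ.2.1 (not_dvd_left_of_not_dvd_mul ℓ.2.2)) u ∧
      real Tu = merT ℓ (real u))
    (a : ℕ → k0)
    (heigT : ∀ (ℓ : PrimeIdx M p) (f : k0 →+ ZMod p) (g : Γ),
      cohT ℓ (f.comp χ) (Additive.ofMul g) = f (a ℓ.1 * χ (Additive.ofMul g)))
    -- the diamond operators
    (cohD : (ZMod M)ˣ → (Additive Γ →+ ZMod p) → (Additive Γ →+ ZMod p))
    (hcohDgood : ∀ d ψ, Good ψ → Good (cohD d ψ))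
    (merD : (ZMod M)ˣ → Mer → Mer)
    (hK4D : ∀ (d : (ZMod M)ˣ) (ψ : Additive Γ →+ ZMod p) (h : Mer) (u Tu : FL F₀),
      IsKumDatumG Γ real ζ ψ h u → real Tu = merD d (real u) →
        IsKumDatumG Γ real ζ (cohD d ψ) (merD d h) Tu)
    (hHND : ∀ (d : (ZMod M)ˣ) (u : FL F₀), real (dia d u) = merD d (real u))
    (χd : (ZMod M)ˣ →* k0ˣ)
    (heigD : ∀ (d : (ZMod M)ˣ) (f : k0 →+ ZMod p) (g : Γ),
      cohD d (f.comp χ) (Additive.ofMul g) = f (((χd d : k0ˣ) : k0) * χ (Additive.ofMul g))) :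
    EIG1Rel F₀ p dia k0 a χd := by
  classical
  -- the operator package on `Op := PrimeIdx ⊕ (ZMod M)ˣ`
  let coh : PrimeIdx M p ⊕ (ZMod M)ˣ → (Additive Γ →+ ZMod p) → (Additive Γ →+ ZMod p) :=
    fun t => Sum.elim cohT cohD t
  let mer : PrimeIdx M p ⊕ (ZMod M)ˣ → Mer → Mer := fun t => Sum.elim merT merD t
  let Rel : PrimeIdx M p ⊕ (ZMod M)ˣ → FL F₀ → FL F₀ → Prop := fun t u Tu =>
    Sum.elim
      (fun ℓ : PrimeIdx M p => ((Tu : FL F₀) : LaurentSeries Kb) =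
        @hn1Series F₀ ℓ.1 ⟨ℓ.2.1.ne_zero⟩
          (diaP dia ℓ.2.1 (not_dvd_left_of_not_dvd_mul ℓ.2.2)) u)
      (fun d : (ZMod M)ˣ => Tu = dia d u) t
  let aa : PrimeIdx M p ⊕ (ZMod M)ˣ → k0 :=
    fun t => Sum.elim (fun ℓ : PrimeIdx M p => a ℓ.1) (fun d => ((χd d : k0ˣ) : k0)) t
  obtain ⟨n, c, u, hne, hrel⟩ := exists_eigenvector (K := Kb) (Γ := Γ) (real := real) hζ hinv hsat
    χ hχ0 Good hχgood hex hpd coh
    (by rintro (ℓ | d) ψ hψ
        · exact hcohTgood ℓ ψ hψ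
        · exact hcohDgood d ψ hψ)
    mer
    (by rintro (ℓ | d) ψ h u Tu D hT
        · exact hK4T ℓ ψ h u Tu D hT
        · exact hK4D d ψ h u Tu D hT)
    Rel
    (by rintro (ℓ | d) u hu
        · exact hHNT ℓ u hu
        · exact ⟨dia d u, rfl, hHND d u⟩)
    aa
    (by rintro (ℓ | d) f g
        · exact heigT ℓ f g
        · exact heigD d f g)
  refine ⟨n, c, u, hne, ?_, ?_⟩
  · intro ℓ hℓ hℓMp
    obtain ⟨u', hu', hev⟩ := hrel (Sum.inl ⟨ℓ, hℓ, hℓMp⟩)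
    exact ⟨u', fun i => hu' i, hev⟩
  · intro d
    obtain ⟨u', hu', hev⟩ := hrel (Sum.inr d)
    exact ⟨u', fun i => hu' i, hev⟩

end Fermat.Agent.DS.P3.EigFinalHyp
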