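/-
GATE-N / S48 J1-port, P3, leaf S48-P3-HN1Q1, ANALYTIC CORE (helper86): the cusp expansion of the
multiplicative Hecke norm.  `Γ`-free, no dependence on P0/P1.

For `m : Mer` with expansion `L` at `i∞` (`MerCE 1 m L`, helper94's calculus) and a prime-free
`ℓ ≥ 1`:
* `merCE_prod_heckeMatrix` : `∏_{j<ℓ} m ∘ [1 j; 0 ℓ]` has the width-`ℓ` expansion
  `(N_ℓ L)(q^ℓ)`, `N_ℓ = Kum.normL ℓ`;
* `merCE_heckeDiagMatrix` : `m ∘ [ℓ 0; 0 1]` has the width-`ℓ` expansion `L(q^{ℓ·ℓ})`;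
* `MerCE.period_nat` : change of width.
-/
import Mathlib
import Fermat.Agent.GJ.J2.TwistedEisCusp
import Fermat.Agent.GJ.Kum.ZetaProd
import Fermat.Agent.S28.AnalyticInputCE
import Fermat.Agent.S28.MeroSubst
import Fermat.Agent.GJ.J2.HeckeMer
import Fermat.Prelude.Def_ModularForm_HeckeOperator

set_option autoImplicit false
set_option linter.unusedSectionVars false

open Complex ModularCurve ModularForm
open UpperHalfPlane hiding I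
open scoped MatrixGroups Manifold Real

noncomputable section

namespace Fermat.Agent.DS.P3.HNBridge

open Fermat.Agent.S24_helper82 Fermat.Agent.S28 Fermat.Agent.S28.MeroCusp
open Fermat.Agent.GJ.HeckeMer Fermat.Agent.GJ.TwEis Fermat.Agent.GJ.Kum

variable (ℓ : ℕ) [NeZero ℓ]

/-! ### The root of unity -/

/-- `exp(2πi/ℓ)` as a unit of `ℂ` -/
def xiU : ℂˣ := Units.mk0 (Complex.exp (2 * π * I / ℓ)) (Complex.exp_ne_zero _)

theorem coe_xiU : ((xiU ℓ : ℂˣ) : ℂ) = Complex.exp (2 * π * I / ℓ) := rfl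

theorem isPrimitiveRoot_xiU : IsPrimitiveRoot ((xiU ℓ : ℂˣ) : ℂ) ℓ := by
  rw [coe_xiU]
  exact Complex.isPrimitiveRoot_exp ℓ (NeZero.ne ℓ)

/-! ### Holomorphic functions -/

theorem lpos : (0 : ℝ) < (ℓ : ℝ) := by exact_mod_cast Nat.pos_of_ne_zero (NeZero.ne ℓ)

theorem isCE_comp_heckeMatrix {f : ℍ → ℂ} (hf : IsCE 1 f) (j : ℕ) :
    IsCE ℓ (fun τ => f (heckeMatrix ℓ j • τ)) ∧
      cuspExp ℓ (fun τ => f (heckeMatrix ℓ j • τ)) = scaleHom ℂ (xiU ℓ ^ j) (cuspExp 1 f) := by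
  have hℓ : 0 < ℓ := Nat.pos_of_ne_zero (NeZero.ne ℓ)
  have hℓ0 : (ℓ : ℂ) ≠ 0 := Nat.cast_ne_zero.mpr hℓ.ne'
  have h := isCE_subst hf 1 j ℓ ℓ 1 hℓ hℓ (by ring) (xiU ℓ ^ j)
    (by
      rw [Units.val_pow_eq_pow_val, coe_xiU, ← Complex.exp_nat_mul]
      congr 1
      field_simp)
    (fun τ => heckeMatrix ℓ j • τ)
    (fun τ => by rw [coe_heckeMatrix_smul (NeZero.ne ℓ)]; simp)
  rw [cuspS, RingHom.comp_apply, qExpand_one_apply] at h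
  exact h

theorem isCE_comp_heckeDiagMatrix {f : ℍ → ℂ} (hf : IsCE 1 f) :
    IsCE ℓ (fun τ => f (heckeDiagMatrix ℓ • τ)) ∧
      cuspExp ℓ (fun τ => f (heckeDiagMatrix ℓ • τ)) = qExpand ℂ (ℓ * ℓ) (cuspExp 1 f) := by
  have hℓ : 0 < ℓ := Nat.pos_of_ne_zero (NeZero.ne ℓ)
  have h := isCE_subst hf ℓ 0 1 ℓ (ℓ * ℓ) one_pos hℓ (by ring) (1 : ℂˣ) (by simp)
    (fun τ => heckeDiagMatrix ℓ • τ)
    (fun τ => by rw [coe_heckeDiagMatrix_smul (NeZero.ne ℓ)]; simp)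
  rw [cuspS_one] at h
  exact h

/-- cusp expansions of finite products -/
theorem isCE_finset_prod {h : ℝ} (hh : 0 < h) {ι : Type*} (s : Finset ι) (f : ι → ℍ → ℂ)
    (hf : ∀ i ∈ s, IsCE h (f i)) :
    IsCE h (∏ i ∈ s, f i) ∧ cuspExp h (∏ i ∈ s, f i) = ∏ i ∈ s, cuspExp h (f i) := by
  classical
  induction s using Finset.induction_on with
  | empty =>
    rw [Finset.prod_empty, Finset.prod_empty]
    have h1 : (1 : ℍ → ℂ) = fun _ => (1 : ℂ) := rfl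
    rw [h1]
    exact ⟨isCE_const h 1, by rw [cuspExp_const hh, map_one]⟩
  | insert a s ha ih =>
    have ih' := ih fun i hi => hf i (Finset.mem_insert_of_mem hi)
    have ha' := hf a (Finset.mem_insert_self a s)
    rw [Finset.prod_insert ha, Finset.prod_insert ha]
    exact ⟨ha'.mul hh ih'.1, by rw [cuspExp_mul hh ha' ih'.1, ih'.2]⟩

/-- the product of the `ℓ` translates `a ∘ [1 j; 0 ℓ]` of a holomorphic function -/
def prodTrans (a : Hol) : Hol :=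
  ∏ j ∈ Finset.range ℓ, compGL (heckeMatrix ℓ j) (det_heckeMatrix_pos ℓ j) a

theorem coe_prodTrans (a : Hol) :
    ((prodTrans ℓ a : Hol) : ℍ → ℂ) =
      ∏ j ∈ Finset.range ℓ, fun τ : ℍ => (a : ℍ → ℂ) (heckeMatrix ℓ j • τ) := by
  rw [prodTrans]
  exact map_prod Hol.val _ _

theorem prodTrans_ne_zero {a : Hol} (ha : a ≠ 0) : prodTrans ℓ a ≠ 0 :=
  Finset.prod_ne_zero_iff.mpr fun _ _ => compGL_ne_zero _ _ ha

/-- **the cusp expansion of the product of the translates** is the norm series -/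
theorem isCE_prodTrans {a : Hol} (ha : IsCE 1 (a : ℍ → ℂ)) :
    IsCE ℓ ((prodTrans ℓ a : Hol) : ℍ → ℂ) ∧
      cuspExp ℓ ((prodTrans ℓ a : Hol) : ℍ → ℂ)
        = qExpand ℂ ℓ (normL ℓ (cuspExp 1 (a : ℍ → ℂ))) := by
  rw [coe_prodTrans]
  obtain ⟨h1, h2⟩ := isCE_finset_prod (lpos ℓ) (Finset.range ℓ)
    (fun j => fun τ : ℍ => (a : ℍ → ℂ) (heckeMatrix ℓ j • τ))
    (fun j _ => (isCE_comp_heckeMatrix ℓ ha j).1)
  refine ⟨h1, ?_⟩
  rw [h2, qExpand_normL_eq_prod ℓ (xiU ℓ) (isPrimitiveRoot_xiU ℓ)]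
  exact Finset.prod_congr rfl fun j _ => (isCE_comp_heckeMatrix ℓ ha j).2

/-! ### Meromorphic functions -/

/-- change of width -/
theorem merCE_period_nat {m : Mer} {L : LaurentSeries ℂ} (h : MerCE 1 m L) (N : ℕ) [NeZero N] :
    MerCE N m (qExpand ℂ N L) := by
  obtain ⟨a, b, hb, ham, hbm, hF, hE⟩ := h
  have hN : (0 : ℝ) < N := by exact_mod_cast Nat.pos_of_ne_zero (NeZero.ne N)
  have haCE := (isMeroCusp_iff_isCE one_pos).mp ham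
  have hbCE := (isMeroCusp_iff_isCE one_pos).mp hbm
  refine ⟨a, b, hb, (haCE.period_nat N).isMeroCusp hN, (hbCE.period_nat N).isMeroCusp hN, hF, ?_⟩
  rw [(haCE.period_nat N).laurentExp_eq hN, (hbCE.period_nat N).laurentExp_eq hN,
    cuspExp_period_nat haCE N, cuspExp_period_nat hbCE N, ← map_mul,
    ← ham.laurentExp_eq_cuspExp one_pos, ← hbm.laurentExp_eq_cuspExp one_pos, hE]

/-- **(B1)** the product of the `ℓ` translates `m ∘ [1 j; 0 ℓ]` has the width-`ℓ` expansion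
`(N_ℓ L)(q^ℓ)` -/
theorem merCE_prod_heckeMatrix {m : Mer} {L : LaurentSeries ℂ} (h : MerCE 1 m L) :
    MerCE ℓ (∏ j ∈ Finset.range ℓ, compMGL (heckeMatrix ℓ j) (det_heckeMatrix_pos ℓ j) m)
      (qExpand ℂ ℓ (normL ℓ L)) := by
  obtain ⟨a, b, hb, ham, hbm, hF, hE⟩ := h
  have haCE := (isMeroCusp_iff_isCE one_pos).mp ham
  have hbCE := (isMeroCusp_iff_isCE one_pos).mp hbm
  obtain ⟨ha1, ha2⟩ := isCE_prodTrans ℓ haCE
  obtain ⟨hb1, hb2⟩ := isCE_prodTrans ℓ hbCE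
  refine ⟨prodTrans ℓ a, prodTrans ℓ b, prodTrans_ne_zero ℓ hb, ha1.isMeroCusp (lpos ℓ),
    hb1.isMeroCusp (lpos ℓ), ?_, ?_⟩
  · rw [prodTrans, prodTrans, map_prod, map_prod, ← Finset.prod_mul_distrib]
    refine Finset.prod_congr rfl fun j _ => ?_
    rw [← compMGL_algebraMap, ← compMGL_algebraMap, ← map_mul, hF]
  · rw [ha1.laurentExp_eq (lpos ℓ), hb1.laurentExp_eq (lpos ℓ), ha2, hb2, ← map_mul, ← normL_mul,
      ← ham.laurentExp_eq_cuspExp one_pos, ← hbm.laurentExp_eq_cuspExp one_pos, hE]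

/-- **(B2)** `m ∘ [ℓ 0; 0 1]` has the width-`ℓ` expansion `L(q^{ℓ·ℓ})` -/
theorem merCE_heckeDiagMatrix {m : Mer} {L : LaurentSeries ℂ} (h : MerCE 1 m L) :
    MerCE ℓ (compMGL (heckeDiagMatrix ℓ) (det_heckeDiagMatrix_pos ℓ) m)
      (qExpand ℂ (ℓ * ℓ) L) := by
  obtain ⟨a, b, hb, ham, hbm, hF, hE⟩ := h
  have haCE := (isMeroCusp_iff_isCE one_pos).mp ham
  have hbCE := (isMeroCusp_iff_isCE one_pos).mp hbm
  obtain ⟨ha1, ha2⟩ := isCE_comp_heckeDiagMatrix ℓ haCE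
  obtain ⟨hb1, hb2⟩ := isCE_comp_heckeDiagMatrix ℓ hbCE
  refine ⟨compGL (heckeDiagMatrix ℓ) (det_heckeDiagMatrix_pos ℓ) a,
    compGL (heckeDiagMatrix ℓ) (det_heckeDiagMatrix_pos ℓ) b, compGL_ne_zero _ _ hb,
    ha1.isMeroCusp (lpos ℓ), hb1.isMeroCusp (lpos ℓ), ?_, ?_⟩
  · rw [← compMGL_algebraMap, ← compMGL_algebraMap, ← map_mul, hF]
  · have e1 : laurentExp ℓ ((compGL (heckeDiagMatrix ℓ) (det_heckeDiagMatrix_pos ℓ) a : Hol) : ℍ → ℂ)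
        = qExpand ℂ (ℓ * ℓ) (cuspExp 1 (a : ℍ → ℂ)) := by
      rw [← ha2]; exact ha1.laurentExp_eq (lpos ℓ)
    have e2 : laurentExp ℓ ((compGL (heckeDiagMatrix ℓ) (det_heckeDiagMatrix_pos ℓ) b : Hol) : ℍ → ℂ)
        = qExpand ℂ (ℓ * ℓ) (cuspExp 1 (b : ℍ → ℂ)) := by
      rw [← hb2]; exact hb1.laurentExp_eq (lpos ℓ)
    rw [e1, e2, ← map_mul, ← ham.laurentExp_eq_cuspExp one_pos,
      ← hbm.laurentExp_eq_cuspExp one_pos, hE]

/-! ### The multiplicative Hecke operator and its expansion -/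

/-- the analytic multiplicative Hecke operator built from two functions:
`τ ↦ m₁(ℓτ) · ∏_{j<ℓ} m₂((τ+j)/ℓ)` -/
def merHN (m₁ m₂ : Mer) : Mer :=
  compMGL (heckeDiagMatrix ℓ) (det_heckeDiagMatrix_pos ℓ) m₁ *
    ∏ j ∈ Finset.range ℓ, compMGL (heckeMatrix ℓ j) (det_heckeMatrix_pos ℓ j) m₂

theorem merHN_mul (m₁ m₂ n₁ n₂ : Mer) :
    merHN ℓ (m₁ * n₁) (m₂ * n₂) = merHN ℓ m₁ m₂ * merHN ℓ n₁ n₂ := by
  simp only [merHN, map_mul, Finset.prod_mul_distrib]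
  ring

theorem merHN_one : merHN ℓ 1 1 = 1 := by
  simp [merHN]

theorem merCE_merHN {m₁ m₂ : Mer} {L₁ L₂ : LaurentSeries ℂ} (h₁ : MerCE 1 m₁ L₁)
    (h₂ : MerCE 1 m₂ L₂) :
    MerCE ℓ (merHN ℓ m₁ m₂) (qExpand ℂ ℓ (qExpand ℂ ℓ L₁ * normL ℓ L₂)) := by
  have h := (merCE_heckeDiagMatrix ℓ h₁).mul (lpos ℓ) (merCE_prod_heckeMatrix ℓ h₂)
  rwa [← qExpand_qExpand, ← map_mul] at h

/-- **the `q`-expansion of the multiplicative Hecke operator** : if `X = merHN ℓ m₁ m₂` has an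
expansion of width one, it is `L₁(q^ℓ) · N_ℓ(L₂)`. -/
theorem series_eq_of_merHN {m₁ m₂ X : Mer} {L₁ L₂ LX : LaurentSeries ℂ} (h₁ : MerCE 1 m₁ L₁)
    (h₂ : MerCE 1 m₂ L₂) (hX : MerCE 1 X LX) (h : X = merHN ℓ m₁ m₂) :
    LX = qExpand ℂ ℓ L₁ * normL ℓ L₂ := by
  apply qExpand_injective ℓ
  have h2 := merCE_merHN ℓ h₁ h₂
  rw [← h] at h2
  exact MerCE.unique (lpos ℓ) (merCE_period_nat hX ℓ) h2

end Fermat.Agent.DS.P3.HNBridge
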