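/-
GATE-N / S48 J1-port, P3, leaf S48-P3-HN1Q1, ASSEMBLY (helper86, acting owner): the (HN) input
`hHNT` of helper94's `EigFinalHyp.eig1Rel_of_hyps` at `Γ := Γ₁(M)`, for ANY field `F₀ ⊂ ℚ((q))` and
any realisation `realC` of `F₀ ⊗ ℂ` satisfying

* (EXP)  `MerCE 1 (realC f) f`                         [helper16 `DS/P1/ExpBridge`],
* (GEN)  `FieldGenHol (Gamma1 M) M realC`             [helper57/helper16/helper30 `fieldGenHyp1`],
* (QUOT) `HNMem.QuotHol (Gamma1 M) M realC`           [quotients of invariant generators],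
* (DIA)  `realC (bc (δ u)) = compM σ' (realC (bc u))`  [(P1e): the moduli diamond].

Pieces: helper42 `HNMem` (membership), `HNBridge` (expansion of the Hecke norm), helper84
`GJ/Desc/Retract.mem_range_bcHom_of_coeff_mem` (descent `ℂ → ℚ̄`).

* `heckeNormT1_real_mem_range` : (MEM) for `T_ℓ` on `Γ₁(M)`;
* `heckeNormT1_eq_merHN`       : `heckeNormT1 ℓ σ m = merHN ℓ (m ∘ σ) m`;
* `exists_real_eq_heckeNormT1` : over `ℂ`, with the series identity;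
* `exists_hn1`                 : over `ℚ̄`, series `= hn1Series ℓ δ u`;
* `exists_hn1_merT`, `hHNT_Gamma1` : the canonical representatives of `HeckeMerTriple`, and the
  binder `hHNT` VERBATIM.
-/
import Mathlib
import Fermat.Agent.DS.P3.HNBridge
import Fermat.Agent.DS.P3.HNMem
import Fermat.Agent.DS.P3.HeckeMerTriple
import Fermat.Agent.DS.P3.Desc1G
import Fermat.Agent.DS.P3.EigFinalHyp
import Fermat.Agent.DS.ES.HeckeAlgebra1Finite
import Fermat.Agent.GJ.Desc.Retract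
import Fermat.Agent.DS.P5.KumType1

set_option autoImplicit false
set_option linter.unusedSectionVars false

open Complex ModularCurve ModularForm CongruenceSubgroup
open UpperHalfPlane hiding I
open scoped MatrixGroups Manifold Real

noncomputable section

namespace Fermat.Agent.DS.P3.HNAsm

open Fermat.Agent.S24_helper82 Fermat.Agent.S28
open Fermat.Agent.GJ.HeckeMer Fermat.Agent.GJ.TwEis Fermat.Agent.GJ.Kum Fermat.Agent.GJ.Desc
open Fermat.Agent.GJ.KumGroup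
open Fermat.Agent.DS.P3 Fermat.Agent.DS.P3.HeckeMerG Fermat.Agent.DS.P3.HeckeMer1
open Fermat.Agent.DS.P3.HNMem Fermat.Agent.DS.P3.HNBridge Fermat.Agent.DS.P3.TwEisG
open Fermat.Agent.DS.N0 Fermat.Agent.DS.ES Fermat.Agent.DS.P5 Fermat.Agent.DS.P5.KumType1
open Fermat.Agent.DS.P3.Desc1G

attribute [local instance] Fermat.Agent.GJ.EigAsm.algKbC

variable {M : ℕ} [NeZero M] {ℓ : ℕ} [Fact ℓ.Prime]

/-! ### Membership -/

section Mem

variable {F : Type*} [Field F] {real : F →+* Mer}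

/-- **(MEM)** for `T_ℓ` on `Γ₁(M)` -/
theorem heckeNormT1_real_mem_range (hℓM : ¬ ℓ ∣ M) {σ : SL(2, ℤ)} (hσ : IsTwist M ℓ σ)
    (hgen : FieldGenHol (Gamma1 M) M real) (hq : QuotHol (Gamma1 M) M real) (f : F) :
    heckeNormT1 ℓ σ (real f) ∈ Set.range real :=
  merSys_real_mem_range (Coh1.sysT hℓM σ hσ.dvd hσ.d_eq) (det_rep1_pos ℓ σ) hgen hq
    (fun x => isIntGL_rep1 (Fact.out : ℓ.Prime).ne_zero σ x) f

/-- invariance of the realisation, from the quotient presentation -/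
theorem compM_real_of_quotHol {Γ : Subgroup SL(2, ℤ)} {N : ℕ} (hq : QuotHol Γ N real) (f : F)
    {γ : SL(2, ℤ)} (hγ : γ ∈ Γ) : compM γ (real f) = real f := by
  obtain ⟨A, B, -, hA, hB, -, -, hf⟩ := hq f
  rw [hf, compM_div, hA γ hγ, hB γ hγ]

end Mem

/-! ### The Hecke norm as `merHN` -/

theorem prod_zmod_val' {A : Type*} [CommMonoid A] (n : ℕ) [NeZero n] (f : ℕ → A) :
    ∏ b : ZMod n, f b.val = ∏ i ∈ Finset.range n, f i := by
  cases n with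
  | zero => exact absurd rfl (NeZero.ne 0)
  | succ n => exact Fin.prod_univ_eq_prod_range f (n + 1)

theorem heckeNormT1_eq_merHN (σ : SL(2, ℤ)) (m : Mer) :
    heckeNormT1 ℓ σ m = merHN ℓ (compM σ m) m := by
  rw [heckeNormT1_apply, merHN]
  have h := Fintype.prod_option
    (fun x : Option (ZMod ℓ) => compMGL (rep1 ℓ σ x) (det_rep1_pos ℓ σ x) m)
  refine h.trans ?_
  congr 1
  · exact compMGL_rep1_infty ℓ σ m
  · exact prod_zmod_val' ℓ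
      (fun j => compMGL (heckeMatrix ℓ j) (det_heckeMatrix_pos ℓ j) m)

/-! ### Over `ℂ` -/

theorem mul_mem_Gamma1 {σ σ' : SL(2, ℤ)} (hσ : IsTwist M ℓ σ) (hσ'0 : (M : ℤ) ∣ σ' 1 0)
    (hσ'1 : ((σ' 1 1 : ℤ) : ZMod M) * (ℓ : ZMod M) = 1) : σ' * σ ∈ Gamma1 M := by
  rw [mem_Gamma1_iff_dvd_and]
  refine ⟨dvd_mul_apply_one_zero hσ'0 hσ.dvd, ?_⟩
  rw [cast_mul_apply_one_one hσ'0, hσ.d_eq, hσ'1]

/-- **(HN) over `ℂ`**: for `u, v` in a field of `q`-expansions `FC ⊂ ℂ((q))` with `realC v =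
(realC u) ∘ σ'` (`σ'₁₁ ≡ ℓ⁻¹`), the Hecke norm `T_ℓ^×(realC v)` is realised by an element of `FC`
whose series is `u(q^ℓ) · N_ℓ(v)`. -/
theorem exists_real_eq_heckeNormT1 {FC : IntermediateField ℂ (LaurentSeries ℂ)}
    (realC : FC →+* Mer)
    (hexp : ∀ f : FC, MerCE 1 (realC f) (f : LaurentSeries ℂ))
    (hgen : FieldGenHol (Gamma1 M) M realC) (hq : QuotHol (Gamma1 M) M realC)
    (hℓM : ¬ ℓ ∣ M) {σ σ' : SL(2, ℤ)} (hσ : IsTwist M ℓ σ) (hσ'0 : (M : ℤ) ∣ σ' 1 0)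
    (hσ'1 : ((σ' 1 1 : ℤ) : ZMod M) * (ℓ : ZMod M) = 1)
    (u v : FC) (hv : realC v = compM σ' (realC u)) :
    ∃ T : FC, realC T = heckeNormT1 ℓ σ (realC v) ∧
      (T : LaurentSeries ℂ) = qExpand ℂ ℓ (u : LaurentSeries ℂ) * normL ℓ (v : LaurentSeries ℂ) := by
  obtain ⟨T, hT⟩ := heckeNormT1_real_mem_range hℓM hσ hgen hq v
  refine ⟨T, hT, ?_⟩
  have hinv : compM σ (realC v) = realC u := by
    rw [hv, ← compM_mul]
    exact compM_real_of_quotHol hq u (mul_mem_Gamma1 hσ hσ'0 hσ'1)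
  have hT' : realC T = merHN ℓ (realC u) (realC v) := by
    rw [hT, heckeNormT1_eq_merHN, hinv]
  exact series_eq_of_merHN ℓ (hexp u) (hexp v) (hexp T) hT'

/-! ### Over `ℚ̄` -/

section OverQbar

variable (F₀ : IntermediateField ℚ (LaurentSeries ℚ))

/-- **(HN) over `ℚ̄`**, general representatives: `δ` is the moduli diamond `⟨ℓ⟩` (realised by
`σ'`, `σ'₁₁ ≡ ℓ⁻¹`), `σ` the twist of the Hecke representatives (`σ₁₁ ≡ ℓ`). -/
theorem exists_hn1 (realC : ↥(laurentBaseChange ℂ F₀) →+* Mer)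
    (hexp : ∀ f : ↥(laurentBaseChange ℂ F₀), MerCE 1 (realC f) (f : LaurentSeries ℂ))
    (hgen : FieldGenHol (Gamma1 M) M realC) (hq : QuotHol (Gamma1 M) M realC)
    (hℓM : ¬ ℓ ∣ M) {σ σ' : SL(2, ℤ)} (hσ : IsTwist M ℓ σ) (hσ'0 : (M : ℤ) ∣ σ' 1 0)
    (hσ'1 : ((σ' 1 1 : ℤ) : ZMod M) * (ℓ : ZMod M) = 1)
    (δ : FL F₀ ≃ₐ[Kb] FL F₀)
    (hδ : ∀ u : FL F₀, realC (bcG F₀ (δ u)) = compM σ' (realC (bcG F₀ u))) (u : FL F₀) :
    ∃ Tu : FL F₀, ((Tu : FL F₀) : LaurentSeries Kb) = hn1Series ℓ δ u ∧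
      realC (bcG F₀ Tu) = heckeNormT1 ℓ σ (compM σ' (realC (bcG F₀ u))) := by
  obtain ⟨T, hT1, hT2⟩ := exists_real_eq_heckeNormT1 realC hexp hgen hq hℓM hσ hσ'0 hσ'1
    (bcG F₀ u) (bcG F₀ (δ u)) (hδ u)
  -- the series of `T` has coefficients in `ℚ̄`
  have hser : (T : LaurentSeries ℂ) = coeffMap (algebraMap Kb ℂ) (hn1Series ℓ δ u) := by
    rw [hT2, hn1Series, map_mul, coeffMap_qExpand, coeffMap_normL]
    rfl
  obtain ⟨Tu, hTu⟩ := mem_range_bcHom_of_coeff_mem Kb ℂ F₀ T (fun n =>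
    ⟨(hn1Series ℓ δ u).coeff n, by rw [hser, coeffMap_coeff]⟩)
  refine ⟨Tu, ?_, ?_⟩
  · apply coeffMap_injective (f := algebraMap Kb ℂ) (algebraMap Kb ℂ).injective
    rw [← hser, ← hTu]
    rfl
  · have : bcG F₀ Tu = T := hTu
    rw [this, hT1, hδ u]

/-- **(HN) over `ℚ̄`** with the canonical representatives of `HeckeMerTriple`
(`merT ℓ h = heckeNormT1 ℓ σ_ℓ (h ∘ σ_{ℓ⁻¹})`, `merD d h = h ∘ σ_{d⁻¹}`). -/
theorem exists_hn1_merT (realC : ↥(laurentBaseChange ℂ F₀) →+* Mer)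
    (hexp : ∀ f : ↥(laurentBaseChange ℂ F₀), MerCE 1 (realC f) (f : LaurentSeries ℂ))
    (hgen : FieldGenHol (Gamma1 M) M realC) (hq : QuotHol (Gamma1 M) M realC)
    (hℓM : ¬ ℓ ∣ M) (δ : FL F₀ ≃ₐ[Kb] FL F₀)
    (hδ : ∀ u : FL F₀, realC (bcG F₀ (δ u))
      = HeckeMerTriple.merD (Coh1.unitOf hℓM) (realC (bcG F₀ u))) (u : FL F₀) :
    ∃ Tu : FL F₀, ((Tu : FL F₀) : LaurentSeries Kb) = hn1Series ℓ δ u ∧
      realC (bcG F₀ Tu) = HeckeMerTriple.merT hℓM (realC (bcG F₀ u)) :=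
  exists_hn1 F₀ realC hexp hgen hq hℓM (HeckeMerTriple.isTwist_sigmaOf hℓM)
    (Coh1.sigmaOf_dvd _)
    (by rw [Coh1.sigmaOf_cast, ← Coh1.coe_unitOf hℓM, ← Units.val_mul, inv_mul_cancel,
      Units.val_one]) δ hδ u

/-- **the binder `hHNT` of `EigFinalHyp.eig1Rel_of_hyps` VERBATIM** at `Γ := Γ₁(M)`,
`real := realC ∘ bcG F₀`, `merT ℓ := HeckeMerTriple.merT`, from `hHND` with
`merD := HeckeMerTriple.merD`. -/
theorem hHNT_Gamma1 (p : ℕ) (realC : ↥(laurentBaseChange ℂ F₀) →+* Mer)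
    (hexp : ∀ f : ↥(laurentBaseChange ℂ F₀), MerCE 1 (realC f) (f : LaurentSeries ℂ))
    (hgen : FieldGenHol (Gamma1 M) M realC) (hq : QuotHol (Gamma1 M) M realC)
    (dia : (ZMod M)ˣ → (FL F₀ ≃ₐ[Kb] FL F₀))
    (hHND : ∀ (d : (ZMod M)ˣ) (u : FL F₀),
      (realC.comp (bcG F₀)) (dia d u) = HeckeMerTriple.merD d ((realC.comp (bcG F₀)) u)) :
    ∀ (ℓ : EigFinalHyp.PrimeIdx M p) (u : FL F₀), u ≠ 0 → ∃ Tu : FL F₀,
      ((Tu : FL F₀) : LaurentSeries Kb) =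
        @hn1Series F₀ ℓ.1 ⟨ℓ.2.1.ne_zero⟩
          (diaP dia ℓ.2.1 (not_dvd_left_of_not_dvd_mul ℓ.2.2)) u ∧
      (realC.comp (bcG F₀)) Tu =
        @HeckeMerTriple.merT M _ ℓ.1 ⟨ℓ.2.1⟩ (not_dvd_left_of_not_dvd_mul ℓ.2.2)
          ((realC.comp (bcG F₀)) u) := by
  intro ℓ u _
  have : Fact ℓ.1.Prime := ⟨ℓ.2.1⟩
  exact exists_hn1_merT F₀ realC hexp hgen hq (not_dvd_left_of_not_dvd_mul ℓ.2.2)
    (diaP dia ℓ.2.1 (not_dvd_left_of_not_dvd_mul ℓ.2.2))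
    (fun v => hHND _ v) u

/-- **(HNMem1)** of `DS/P5/KumType1` (= helper17's `ESGen.HNMem1`): the Hecke norm with
nebentypus of a function of `FL F₀` is one. -/
theorem hnMem1_Gamma1 (realC : ↥(laurentBaseChange ℂ F₀) →+* Mer)
    (hexp : ∀ f : ↥(laurentBaseChange ℂ F₀), MerCE 1 (realC f) (f : LaurentSeries ℂ))
    (hgen : FieldGenHol (Gamma1 M) M realC) (hq : QuotHol (Gamma1 M) M realC)
    (hℓM : ¬ ℓ ∣ M) (δ : FL F₀ ≃ₐ[Kb] FL F₀)
    (hδ : ∀ u : FL F₀, realC (bcG F₀ (δ u))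
      = HeckeMerTriple.merD (Coh1.unitOf hℓM) (realC (bcG F₀ u))) :
    HNMem1 ℓ δ := by
  intro _ u
  obtain ⟨Tu, h, -⟩ := exists_hn1_merT F₀ realC hexp hgen hq hℓM δ hδ u
  rw [← h]
  exact Tu.2

end OverQbar

end Fermat.Agent.DS.P3.HNAsm
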