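/-
GATE-N / S48 J1-port, P3 (EIG twin), leaf S48-P3-FINAL (helper94): **the (HN1Q1) plug**.

helper86's `DS/P3/HNAsm.exists_hn1` (membership `HNMem` of helper42 + expansion `HNBridge` +
descent `ℂ → ℚ̄`) discharges the hypothesis `hHNT` of `EigFinal2.eig1All2_bcG` (moduli convention)
and of `EigFinal1.eig1AllCl_bcG` (classical convention) from

* (EXP)  `hexp : ∀ f, MerCE 1 (realC f) f` — the `q`-expansion of `realC f` at `i∞` is `f`;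
* (QUOT) `hq : HNMem.QuotHol (Gamma1 M) M realC` — every `realC f` is a quotient of `Γ₁(M)`-invariant
  holomorphic functions of moderate growth (which also gives `Sat1.QuotHyp`);
* (P1e)  `hHND` — the diamond automorphisms are realised by composition with `σ ∈ Γ₀(M)`.

So after this file the open inputs of P3 are: P1 = (EXP), (GEN) `hreal`, (QUOT), (P1e), the generator
`x₀` and `hq0`; DICT = `hI`, `hC`, `hE1`.

* `eig1All2_of_exp`  : `Final2.EIG1All2' F₀ p dia S`     (moduli: `dia d u ∘ = u ∘ σ'_d`, `σ'_d ≡ d⁻¹`);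
* `eig1AllCl_of_exp` : `FinalCl.EIG1AllCl F₀ p diaCl S`  (classical: `diaCl d u ∘ = u ∘ σ_d`, `σ_d ≡ d`).
-/
import Mathlib
import Fermat.Agent.DS.P3.EigFinal2
import Fermat.Agent.DS.P3.HNAsm

set_option autoImplicit false
set_option linter.unusedSectionVars false
set_option linter.style.haveILetI false

open UpperHalfPlane Complex AlgebraicCurve ModularCurve TensorProduct CongruenceSubgroup
open scoped MatrixGroups

noncomputable section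

namespace Fermat.Agent.DS.P3.EigFinalHN

open Fermat.Agent.S24 Fermat.Agent.S24_helper82 Fermat.Agent.GJ.HeckeMer Fermat.Agent.GJ.KumGroup
open Fermat.Agent.GJ.TwEis
open Fermat.Agent.DS.P3.KumCoreG Fermat.Agent.DS.P3.EigAsmG Fermat.Agent.DS.P3.EigDescG
open Fermat.Agent.DS.P3.EigFinalHyp Fermat.Agent.DS.P3.EigFinal1 Fermat.Agent.DS.P3.EigFinal2
open Fermat.Agent.DS.P3.Coh1 Fermat.Agent.DS.P3.HeckeMerG Fermat.Agent.DS.P3.HeckeMer1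
open Fermat.Agent.DS.P3.PDiv1 Fermat.Agent.DS.P3.Sat1 Fermat.Agent.DS.P3.TwEisG
open Fermat.Agent.DS.P3.HNMem Fermat.Agent.DS.P3.HNAsm
open Fermat.Agent.DS.P3.Lat Fermat.Agent.DS.P3.Desc1G Fermat.Agent.DS.N0
open Fermat.Agent.DS.Hecke
open Fermat.Agent.DS.P5 Fermat.Agent.DS.P5.KumType1 Fermat.Agent.DS.P5.KumTypeCl
open Fermat.Agent.DS.P5.Final Fermat.Agent.DS.P5.Final2 Fermat.Agent.DS.P5.FinalCl
open ModularCurve.Period ModularForm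

/-! ### The two quotient hypotheses -/

/-- helper42's `QuotHol` gives helper16's `QuotHyp` -/
theorem quotHyp_of_quotHol {Γ : Subgroup SL(2, ℤ)} {N : ℕ} [NeZero N] {F : Type*} [Field F]
    {real : F →+* Mer} (hq : QuotHol Γ N real) : QuotHyp Γ N real := by
  intro f
  obtain ⟨A, B, hB, hAinv, hBinv, hAmg, hBmg, hf⟩ := hq f
  refine ⟨A, B, ⟨hAmg, hAinv⟩, ⟨hBmg, hBinv⟩, hB, ?_⟩
  rw [hf, mul_div_cancel₀ _ (algebraMap_ne_zero hB)]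

/-- helper16's `QuotHyp` gives helper42's `QuotHol` -/
theorem quotHol_of_quotHyp {Γ : Subgroup SL(2, ℤ)} {N : ℕ} [NeZero N] {F : Type*} [Field F]
    {real : F →+* Mer} (hq : QuotHyp Γ N real) : QuotHol Γ N real := by
  intro f
  obtain ⟨H, Q, hH, hQ, hQ0, hrel⟩ := hq f
  refine ⟨H, Q, hQ0, hH.2, hQ.2, hH.1, hQ.1, ?_⟩
  rw [← hrel, mul_div_cancel_left₀ _ (algebraMap_ne_zero hQ0)]

variable {F₀ : IntermediateField ℚ (LaurentSeries ℚ)} {M : ℕ} [NeZero M] {p : ℕ} [Fact p.Prime]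

/-! ### Moduli convention -/

/-- **(EIG1) for `Γ₁(M)`, moduli convention, with (HN1Q1) discharged**: helper69's
`Final2.EIG1All2' F₀ p dia S` from P1 = (EXP), (GEN), (QUOT), (P1e), the generator, and DICT. -/
theorem eig1All2_of_exp {dia : (ZMod M)ˣ → (FL F₀ ≃ₐ[Kb] FL F₀)} (hM : 4 ≤ M) (S : Set ℕ)
    (realC : ↥(laurentBaseChange ℂ F₀) →+* Mer) (jF : ↥(laurentBaseChange ℂ F₀))
    -- P1
    (hexp : ∀ f : ↥(laurentBaseChange ℂ F₀), MerCE 1 (realC f) (f : LaurentSeries ℂ))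
    (hreal : FieldGenHol (Gamma1 M) M realC) (hq : QuotHol (Gamma1 M) M realC)
    (x₀ : FL F₀) [IsGen Kb x₀] (hq0 : ∃ f ∈ F₀, f.order ≠ 0)
    -- DICT
    (hI : IntDict (Gamma1 M) realC jF) (hC : CuspDict (Gamma1 M) realC jF)
    (hE1 : FinC1.E1 realC)
    -- (P1e), moduli diamonds
    (σD' : (ZMod M)ˣ → SL(2, ℤ)) (hσD'0 : ∀ d, (M : ℤ) ∣ σD' d 1 0)
    (hσD'1 : ∀ d : (ZMod M)ˣ, ((σD' d 1 1 : ℤ) : ZMod M) = ((d⁻¹ : (ZMod M)ˣ) : ZMod M))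
    (hHND : ∀ (d : (ZMod M)ˣ) (u : FL F₀),
      realC (bcG F₀ (dia d u)) = compM (σD' d) (realC (bcG F₀ u)))
    (hS : ∀ ℓ : ℕ, ℓ.Prime → ¬ ℓ ∣ M * p → ℓ ∉ S) :
    EIG1All2' F₀ p dia S := by
  refine eig1All2_bcG hM S realC jF hreal (quotHyp_of_quotHol hq) x₀ hq0 hI hC hE1
    (fun ℓ => sigmaOf (unitOfPrime ℓ.2.1 (not_dvd_left_of_not_dvd_mul ℓ.2.2)))
    (fun ℓ => sigmaOf_dvd _)
    (fun ℓ => (sigmaOf_cast _).trans (coe_unitOfPrime _ _))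
    (fun ℓ => σD' (unitOfPrime ℓ.2.1 (not_dvd_left_of_not_dvd_mul ℓ.2.2)))
    (fun ℓ => hσD'0 _) (fun ℓ => hσD'1 _) σD' hσD'0 hσD'1 ?_ hHND hS
  intro ℓ u _
  haveI : Fact ℓ.1.Prime := ⟨ℓ.2.1⟩
  have hℓM : ¬ ℓ.1 ∣ M := not_dvd_left_of_not_dvd_mul ℓ.2.2
  exact exists_hn1 F₀ realC hexp hreal hq hℓM
    (σ := sigmaOf (unitOfPrime ℓ.2.1 hℓM)) (σ' := σD' (unitOfPrime ℓ.2.1 hℓM))
    ⟨sigmaOf_dvd _, (sigmaOf_cast _).trans (coe_unitOfPrime _ _)⟩ (hσD'0 _)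
    (by rw [hσD'1, ← coe_unitOfPrime ℓ.2.1 hℓM, ← Units.val_mul, inv_mul_cancel, Units.val_one])
    (diaP dia ℓ.2.1 hℓM) (fun v => hHND _ v) u

/-! ### Classical convention -/

/-- **(EIG1) for `Γ₁(M)`, classical convention, with (HN1Q1) discharged**: helper69's
`FinalCl.EIG1AllCl F₀ p diaCl S` from P1 = (EXP), (GEN), (QUOT), (P1e), the generator, and DICT. -/
theorem eig1AllCl_of_exp {diaCl : (ZMod M)ˣ → (FL F₀ ≃ₐ[Kb] FL F₀)} (hM : 4 ≤ M) (S : Set ℕ)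
    (realC : ↥(laurentBaseChange ℂ F₀) →+* Mer) (jF : ↥(laurentBaseChange ℂ F₀))
    -- P1
    (hexp : ∀ f : ↥(laurentBaseChange ℂ F₀), MerCE 1 (realC f) (f : LaurentSeries ℂ))
    (hreal : FieldGenHol (Gamma1 M) M realC) (hq : QuotHol (Gamma1 M) M realC)
    (x₀ : FL F₀) [IsGen Kb x₀] (hq0 : ∃ f ∈ F₀, f.order ≠ 0)
    -- DICT
    (hI : IntDict (Gamma1 M) realC jF) (hC : CuspDict (Gamma1 M) realC jF)
    (hE1 : FinC1.E1 realC)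
    -- (P1e), classical diamonds
    (σD : (ZMod M)ˣ → SL(2, ℤ)) (hσD0 : ∀ d, (M : ℤ) ∣ σD d 1 0)
    (hσD1 : ∀ d : (ZMod M)ˣ, ((σD d 1 1 : ℤ) : ZMod M) = (d : ZMod M))
    (hHND : ∀ (d : (ZMod M)ˣ) (u : FL F₀),
      realC (bcG F₀ (diaCl d u)) = compM (σD d) (realC (bcG F₀ u)))
    (hS : ∀ ℓ : ℕ, ℓ.Prime → ¬ ℓ ∣ M * p → ℓ ∉ S) :
    EIG1AllCl F₀ p diaCl S := by
  have hquot : QuotHyp (Gamma1 M) M realC := quotHyp_of_quotHol hq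
  refine eig1AllCl_bcG hM S realC jF hreal hquot x₀ hq0 hI hC hE1
    (fun ℓ => σD (unitOfPrime ℓ.2.1 (not_dvd_left_of_not_dvd_mul ℓ.2.2)))
    (fun ℓ => hσD0 _) (fun ℓ => (hσD1 _).trans (coe_unitOfPrime _ _))
    σD hσD0 hσD1 ?_ hHND hS
  intro ℓ u _
  haveI : Fact ℓ.1.Prime := ⟨ℓ.2.1⟩
  have hℓM : ¬ ℓ.1 ∣ M := not_dvd_left_of_not_dvd_mul ℓ.2.2
  set d : (ZMod M)ˣ := unitOfPrime ℓ.2.1 hℓM with hd
  set σ : SL(2, ℤ) := σD d with hσ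
  have hσ0 : (M : ℤ) ∣ σ 1 0 := hσD0 d
  have hσ1 : ((σ 1 1 : ℤ) : ZMod M) = (ℓ.1 : ZMod M) := (hσD1 d).trans (coe_unitOfPrime _ _)
  -- the moduli diamond `(diaCl d).symm` is realised by `σ⁻¹`
  have hδ : ∀ v : FL F₀, realC (bcG F₀ ((diaCl d).symm v)) = compM σ⁻¹ (realC (bcG F₀ v)) := by
    intro v
    have h1 := hHND d ((diaCl d).symm v)
    rw [AlgEquiv.apply_symm_apply] at h1
    rw [h1, ← compM_mul, mul_inv_cancel, compM_one]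
  have hσ'1 : (((σ⁻¹) 1 1 : ℤ) : ZMod M) * (ℓ.1 : ZMod M) = 1 := by
    rw [sl_inv_apply_one_one, ← hσ1]
    exact cast_zero_zero_mul_one_one hσ0
  obtain ⟨Tu, hTu1, hTu2⟩ := exists_hn1 F₀ realC hexp hreal hq hℓM (σ := σ) (σ' := σ⁻¹)
    ⟨hσ0, hσ1⟩ (dvd_inv_apply_one_zero hσ0) hσ'1 (diaCl d).symm hδ (diaCl d u)
  refine ⟨Tu, ?_, ?_⟩
  · rw [hTu1]
    exact hn1Series_symm_apply ℓ.1 (diaCl d) u
  · rw [hTu2, hHND d u, ← compM_mul, mul_inv_cancel, compM_one]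

end Fermat.Agent.DS.P3.EigFinalHN
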