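/-
GATE-N / S48 J1-port, P3 (EIG twin), leaf S48-P3-FINAL-F1 (helper94): **the instance of P3's export
at `F₀ := F1 M = ℚ(X₁(M))`**, with P1 (helper30 `RealizeF1`, helper16 `ExpBridge` / `FieldGenAsm` /
`DictCuspInst`, helper71 `WeberData`) plugged in.

* `eig1All2_of_exp'`, `eig1AllCl_of_exp'` : the theorems of `EigFinalHN` for a realisation on ANY
  intermediate field `FCI ⊂ ℂ((q))` EQUAL to `laurentBaseChange ℂ F₀` (transport by `subst`; the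
  base change is `bcOf hFC = inclusion ∘ Desc1G.bcG F₀`);
* `eig1All2_F1` : `Final2.EIG1All2' (F1 M) p dia S` from `D : WeberData M` (= `weberData M hM`,
  helper71/helper30, unconditional), the interior dictionary `hI`, `hE1` (DICT-INT) and the moduli
  diamonds `dia`, `hHND` (P1e);
* `eig1AllCl_F1` : the classical twin (`FinalCl.EIG1AllCl (F1 M) p diaCl S`);
* `eig1Prime_F1` : `PortExport1.EIG1Prime (F1 M) p dia` — the `hE` of
  `PortAsm.portExport1_of_leaves` / `PortExport1.portExport_heckePkg1`.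

Everything else of P3 (LAT1, PER1, COH1, HECKEMER1, K4, EXC, PDIV1, DICT-CUSP, SAT1, FINC1, DESC1,
HN1Q1) and of P1a–P1d is discharged inside.
-/
import Mathlib
import Fermat.Agent.DS.P3.EigFinalHN
import Fermat.Agent.DS.P3.DictCuspInst
import Fermat.Agent.DS.P1.ExpBridge
import Fermat.Agent.DS.P5.PortExport1

set_option autoImplicit false
set_option linter.unusedSectionVars false
set_option linter.style.haveILetI false

open UpperHalfPlane Complex AlgebraicCurve ModularCurve TensorProduct CongruenceSubgroup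
open scoped MatrixGroups

noncomputable section

namespace Fermat.Agent.DS.P3.EigFinalF1

open Fermat.Agent.S24 Fermat.Agent.S24_helper82 Fermat.Agent.GJ.HeckeMer Fermat.Agent.GJ.KumGroup
open Fermat.Agent.GJ.TwEis
open Fermat.Agent.DS.P3.EigFinalHyp Fermat.Agent.DS.P3.EigFinalHN
open Fermat.Agent.DS.P3.PDiv1 Fermat.Agent.DS.P3.Sat1 Fermat.Agent.DS.P3.TwEisG
open Fermat.Agent.DS.P3.HNMem Fermat.Agent.DS.P3.Desc1G Fermat.Agent.DS.P3.DictCuspInst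
open Fermat.Agent.DS.P0 Fermat.Agent.DS.P1 Fermat.Agent.DS.P1.RealizeF1
open Fermat.Agent.DS.Hecke
open Fermat.Agent.DS.P5 Fermat.Agent.DS.P5.KumType1
open Fermat.Agent.DS.P5.Final Fermat.Agent.DS.P5.Final2 Fermat.Agent.DS.P5.FinalCl
open Fermat.Agent.DS.P5.PortExport1

/-! ### Transport along `laurentBaseChange ℂ F₀ = FCI` -/

section Transport

variable {F₀ : IntermediateField ℚ (LaurentSeries ℚ)}
  {FCI : IntermediateField ℂ (LaurentSeries ℂ)}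

/-- the base change `ℚ̄ · F₀ → FCI` for an intermediate field `FCI = ℂ · F₀` -/
def bcOf (hFC : laurentBaseChange ℂ F₀ = FCI) : FL F₀ →+* ↥FCI :=
  ((IntermediateField.inclusion (le_of_eq hFC)).toRingHom).comp (bcG F₀)

theorem coe_bcOf (hFC : laurentBaseChange ℂ F₀ = FCI) (u : FL F₀) :
    ((bcOf hFC u : ↥FCI) : LaurentSeries ℂ) = ((bcG F₀ u : ↥(laurentBaseChange ℂ F₀)) :
      LaurentSeries ℂ) := rfl

variable {M : ℕ} [NeZero M] {p : ℕ} [Fact p.Prime]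

/-- `EigFinalHN.eig1All2_of_exp` for a realisation on `FCI = laurentBaseChange ℂ F₀`. -/
theorem eig1All2_of_exp' {dia : (ZMod M)ˣ → (FL F₀ ≃ₐ[Kb] FL F₀)} (hM : 4 ≤ M) (S : Set ℕ)
    (hFC : laurentBaseChange ℂ F₀ = FCI)
    (realC : ↥FCI →+* Mer) (jF : ↥FCI)
    (hexp : ∀ f : ↥FCI, MerCE 1 (realC f) (f : LaurentSeries ℂ))
    (hreal : FieldGenHol (Gamma1 M) M realC) (hq : QuotHol (Gamma1 M) M realC)
    (x₀ : FL F₀) [IsGen Kb x₀] (hq0 : ∃ f ∈ F₀, f.order ≠ 0)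
    (hI : IntDict (Gamma1 M) realC jF) (hC : CuspDict (Gamma1 M) realC jF)
    (hE1 : FinC1.E1 realC)
    (σD' : (ZMod M)ˣ → SL(2, ℤ)) (hσD'0 : ∀ d, (M : ℤ) ∣ σD' d 1 0)
    (hσD'1 : ∀ d : (ZMod M)ˣ, ((σD' d 1 1 : ℤ) : ZMod M) = ((d⁻¹ : (ZMod M)ˣ) : ZMod M))
    (hHND : ∀ (d : (ZMod M)ˣ) (u : FL F₀),
      realC (bcOf hFC (dia d u)) = compM (σD' d) (realC (bcOf hFC u)))
    (hS : ∀ ℓ : ℕ, ℓ.Prime → ¬ ℓ ∣ M * p → ℓ ∉ S) :
    EIG1All2' F₀ p dia S := by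
  subst hFC
  exact eig1All2_of_exp hM S realC jF hexp hreal hq x₀ hq0 hI hC hE1 σD' hσD'0 hσD'1
    (fun d u => hHND d u) hS

/-- `EigFinalHN.eig1AllCl_of_exp` for a realisation on `FCI = laurentBaseChange ℂ F₀`. -/
theorem eig1AllCl_of_exp' {diaCl : (ZMod M)ˣ → (FL F₀ ≃ₐ[Kb] FL F₀)} (hM : 4 ≤ M) (S : Set ℕ)
    (hFC : laurentBaseChange ℂ F₀ = FCI)
    (realC : ↥FCI →+* Mer) (jF : ↥FCI)
    (hexp : ∀ f : ↥FCI, MerCE 1 (realC f) (f : LaurentSeries ℂ))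
    (hreal : FieldGenHol (Gamma1 M) M realC) (hq : QuotHol (Gamma1 M) M realC)
    (x₀ : FL F₀) [IsGen Kb x₀] (hq0 : ∃ f ∈ F₀, f.order ≠ 0)
    (hI : IntDict (Gamma1 M) realC jF) (hC : CuspDict (Gamma1 M) realC jF)
    (hE1 : FinC1.E1 realC)
    (σD : (ZMod M)ˣ → SL(2, ℤ)) (hσD0 : ∀ d, (M : ℤ) ∣ σD d 1 0)
    (hσD1 : ∀ d : (ZMod M)ˣ, ((σD d 1 1 : ℤ) : ZMod M) = (d : ZMod M))
    (hHND : ∀ (d : (ZMod M)ˣ) (u : FL F₀),
      realC (bcOf hFC (diaCl d u)) = compM (σD d) (realC (bcOf hFC u)))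
    (hS : ∀ ℓ : ℕ, ℓ.Prime → ¬ ℓ ∣ M * p → ℓ ∉ S) :
    EIG1AllCl F₀ p diaCl S := by
  subst hFC
  exact eig1AllCl_of_exp hM S realC jF hexp hreal hq x₀ hq0 hI hC hE1 σD hσD0 hσD1
    (fun d u => hHND d u) hS

/-- transport of a generator along an equality of intermediate fields -/
theorem isGen_of_eq {K : Type*} [Field K] {E E' : IntermediateField K (LaurentSeries K)}
    (h : E = E') (x : ↥E') [hx : IsGen K x] :
    IsGen K (⟨(x : LaurentSeries K), by rw [h]; exact x.2⟩ : ↥E) := by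
  subst h
  exact hx

end Transport

/-! ### The instance at `F₀ := F1 M` -/

section F1

variable {M : ℕ} [NeZero M] (D : WeberData M) {p : ℕ} [Fact p.Prime]

/-- the base change `ℚ̄(X₁(M)) → ℂ(X₁(M))` in P5's / P1's types:
`FL (F1 M) = ℚ̄ · F1 M → F1C ℂ M` -/
def bc1 (M : ℕ) [NeZero M] : FL (F1 M) →+* ↥(F1C ℂ M) := bcOf (laurentBaseChange_F1 ℂ M)

/-- `j(q)` as an element of `FL (F1 M)` -/
def jFL (M : ℕ) [NeZero M] : FL (F1 M) :=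
  ⟨((j1K M : ↥(F1C Kbar M)) : LaurentSeries Kbar), by
    rw [laurentBaseChange_F1 Kbar M]; exact (j1K M).2⟩

include D in
theorem isGen_jFL : IsGen Kb (jFL M) := by
  haveI : IsGen Kbar (j1K M) := isGen_j1 D
  exact isGen_of_eq (laurentBaseChange_F1 Kbar M) (j1K M)

theorem exists_order_ne_zero_F1 (M : ℕ) [NeZero M] : ∃ f ∈ F1 M, f.order ≠ 0 := by
  refine ⟨jqModC ℚ, jqModC_mem_F1C ℚ M, ?_⟩
  rw [Fermat.Agent.S28.order_jqModC]
  decide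

theorem merCE_realR (f : ↥(F1C ℂ M)) : MerCE 1 (realR D f) (f : LaurentSeries ℂ) :=
  ExpBridge.merCE_realOf (genFam D) (isCE_genFam D) (F1C_eq_FG D) f

theorem quotHol_realR : QuotHol (Gamma1 M) M (realR D) :=
  quotHol_of_quotHyp (FieldGenAsm.quotHyp_realOf (genFam D) (isCE_genFam D) (F1C_eq_FG D)
    (hquot_realG (genFam D) (isCE_genFam D) (genFam_mem_IMGG D)))

/-- **P3's export at `F₀ := F1 M`, moduli convention**: `Final2.EIG1All2' (F1 M) p dia S` from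
`D : WeberData M`, the interior dictionary and the moduli diamonds (P1e). -/
theorem eig1All2_F1 {dia : (ZMod M)ˣ → (FL (F1 M) ≃ₐ[Kb] FL (F1 M))} (hM4 : 4 ≤ M)
    (hM : ¬ M ∣ 4) (S : Set ℕ)
    -- (DICT-INT)
    (hI : IntDict (Gamma1 M) (realR D) (j1C M)) (hE1 : FinC1.E1 (realR D))
    -- (P1e), moduli diamonds
    (σD' : (ZMod M)ˣ → SL(2, ℤ)) (hσD'0 : ∀ d, (M : ℤ) ∣ σD' d 1 0)
    (hσD'1 : ∀ d : (ZMod M)ˣ, ((σD' d 1 1 : ℤ) : ZMod M) = ((d⁻¹ : (ZMod M)ˣ) : ZMod M))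
    (hHND : ∀ (d : (ZMod M)ˣ) (u : FL (F1 M)),
      realR D (bc1 M (dia d u)) = compM (σD' d) (realR D (bc1 M u)))
    (hS : ∀ ℓ : ℕ, ℓ.Prime → ¬ ℓ ∣ M * p → ℓ ∉ S) :
    EIG1All2' (F1 M) p dia S := by
  haveI : IsGen Kb (jFL M) := isGen_jFL D
  exact eig1All2_of_exp' hM4 S (laurentBaseChange_F1 ℂ M) (realR D) (j1C M) (merCE_realR D)
    (fieldGenHyp1 D) (quotHol_realR D) (jFL M) (exists_order_ne_zero_F1 M) hI
    (cuspDict1 D hM) hE1 σD' hσD'0 hσD'1 hHND hS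

/-- **P3's export at `F₀ := F1 M`, classical convention**: `FinalCl.EIG1AllCl (F1 M) p diaCl S`. -/
theorem eig1AllCl_F1 {diaCl : (ZMod M)ˣ → (FL (F1 M) ≃ₐ[Kb] FL (F1 M))} (hM4 : 4 ≤ M)
    (hM : ¬ M ∣ 4) (S : Set ℕ)
    -- (DICT-INT)
    (hI : IntDict (Gamma1 M) (realR D) (j1C M)) (hE1 : FinC1.E1 (realR D))
    -- (P1e), classical diamonds
    (σD : (ZMod M)ˣ → SL(2, ℤ)) (hσD0 : ∀ d, (M : ℤ) ∣ σD d 1 0)
    (hσD1 : ∀ d : (ZMod M)ˣ, ((σD d 1 1 : ℤ) : ZMod M) = (d : ZMod M))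
    (hHND : ∀ (d : (ZMod M)ˣ) (u : FL (F1 M)),
      realR D (bc1 M (diaCl d u)) = compM (σD d) (realR D (bc1 M u)))
    (hS : ∀ ℓ : ℕ, ℓ.Prime → ¬ ℓ ∣ M * p → ℓ ∉ S) :
    EIG1AllCl (F1 M) p diaCl S := by
  haveI : IsGen Kb (jFL M) := isGen_jFL D
  exact eig1AllCl_of_exp' hM4 S (laurentBaseChange_F1 ℂ M) (realR D) (j1C M) (merCE_realR D)
    (fieldGenHyp1 D) (quotHol_realR D) (jFL M) (exists_order_ne_zero_F1 M) hI
    (cuspDict1 D hM) hE1 σD hσD0 hσD1 hHND hS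

/-- **the `hE` of `PortAsm.portExport1_of_leaves`** at `F₀ := F1 M`. -/
theorem eig1Prime_F1 {dia : (ZMod M)ˣ → (FL (F1 M) ≃ₐ[Kb] FL (F1 M))} (hM4 : 4 ≤ M)
    (hM : ¬ M ∣ 4)
    (hI : IntDict (Gamma1 M) (realR D) (j1C M)) (hE1 : FinC1.E1 (realR D))
    (σD' : (ZMod M)ˣ → SL(2, ℤ)) (hσD'0 : ∀ d, (M : ℤ) ∣ σD' d 1 0)
    (hσD'1 : ∀ d : (ZMod M)ˣ, ((σD' d 1 1 : ℤ) : ZMod M) = ((d⁻¹ : (ZMod M)ˣ) : ZMod M))
    (hHND : ∀ (d : (ZMod M)ˣ) (u : FL (F1 M)),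
      realR D (bc1 M (dia d u)) = compM (σD' d) (realR D (bc1 M u))) :
    EIG1Prime (F1 M) p dia :=
  eig1Prime_of_all2 (EIG1All2_of_canonical
    (eig1All2_F1 D hM4 hM (∅ : Set ℕ) hI hE1 σD' hσD'0 hσD'1 hHND
      (fun ℓ _ _ => Set.notMem_empty ℓ)))

end F1

end Fermat.Agent.DS.P3.EigFinalF1
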