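import Mathlib
import Fermat.Agent.DS.P3.DictCusp.Orbit
import Fermat.Agent.DS.P3.PDiv1
import Fermat.Agent.DS.P1.OrbitGen
import Fermat.Agent.DS.P1.SepAsm
import Fermat.Agent.GJ.J2.Dict.InteriorAsmC

/-!
# GATE-N / S48-P3-DICT-INT (free case): the interior dictionary from `CuspHyp`

Let `H : CuspHyp real jF Γ' N` (helper80; only the fields `real_const`, `real_j`, `inv`, `sep`,
`finite`, `deg` are used) and assume that `Γ'/±1` acts FREELY on `ℍ`:
`hfree : ∀ γ ∈ Γ', ∀ τ, γ • τ = τ → γ = 1 ∨ γ = -1`.  Then every place `Q` of `F` at which `jF` has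
no pole is a point `τ ∈ ℍ`, unramified: `ordM τ (real u) = Q.ord u` for all `u ≠ 0`
(`exists_point`).  Hence `IntDict Γ real jF` for every `Γ` (`intDict_of_free`).

Proof: S24 orbit lemma at `x = jF - c` for the valuations `ord_{τ₀} ∘ compM (out q)⁻¹ ∘ real`
indexed by `q ∈ SL(2,ℤ)/Γ'`, with `s` a generator of the stabiliser of the base point `τ₀`
(`GJ.Dict.exists_base`); by freeness all the `⟨s⟩`-orbits have `e₀` elements, so all the
multiplicities are `1`.
-/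

set_option autoImplicit false
set_option linter.unusedSectionVars false
set_option linter.style.haveILetI false

noncomputable section

namespace Fermat.Agent.DS.P3.IntDictFree

open UpperHalfPlane IntermediateField AlgebraicCurve MulAction
open scoped MatrixGroups Manifold
open Fermat.Agent.S24 Fermat.Agent.S24_helper82 Fermat.Agent.S28
open Fermat.Agent.S20_helper25 (Stab mem_Stab)
open Fermat.Agent.LevelOne_helper29 (jInv jInv_smul)
open Fermat.Agent.GJ.Dict (merIntValC merIntValC_apply exists_base)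
open Fermat.Agent.DS.P3.DictCusp Fermat.Agent.DS.P3.PDiv1

variable {F : Type*} [Field F] [Algebra ℂ F]
variable {real : F →+* Mer} {jF : F} {Γ' : Subgroup SL(2, ℤ)} {N : ℕ} [NeZero N]
  (H : CuspHyp real jF Γ' N)

/-! ### The conjugate embeddings -/

/-- the conjugate embeddings `f ↦ (real f) ∘ a⁻¹`, `a` the chosen representative of `q` -/
def intSigma (q : SL(2, ℤ) ⧸ Γ') : F →ₐ[ℂ] Mer where
  __ := (compM (Quotient.out q)⁻¹).comp real
  commutes' c := by
    show compM (Quotient.out q)⁻¹ (real (algebraMap ℂ F c)) = algebraMap ℂ Mer c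
    rw [H.real_const, compM_const]

theorem intSigma_apply (q : SL(2, ℤ) ⧸ Γ') (f : F) :
    intSigma H q f = compM (Quotient.out q)⁻¹ (real f) := rfl

theorem intSigma_mk (a : SL(2, ℤ)) (f : F) :
    intSigma H (a : SL(2, ℤ) ⧸ Γ') f = compM a⁻¹ (real f) := by
  rw [intSigma_apply]
  exact H.compM_inv_eq_of_coset_eq (QuotientGroup.out_eq' _) f

theorem intSigma_injective :
    Function.Injective (fun q => ((intSigma H q : F →ₐ[ℂ] Mer) : F →+* Mer)) := by
  intro q q' h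
  induction q using QuotientGroup.induction_on with | _ a => ?_
  induction q' using QuotientGroup.induction_on with | _ a' => ?_
  have h1 : ∀ f : F, compM a⁻¹ (real f) = compM a'⁻¹ (real f) := by
    intro f
    have := congrArg (fun φ : F →+* Mer => φ f) h
    simp only [RingHom.coe_coe] at this
    rwa [intSigma_mk, intSigma_mk] at this
  have h2 : a'⁻¹ * a ∈ Γ' := by
    apply H.sep
    intro f
    rw [compM_mul, ← h1 f, ← compM_mul, inv_mul_cancel, compM_one]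
  exact (QuotientGroup.eq.mpr h2).symm

include H in
/-- `real jF` is the `j`-function -/
theorem real_jF : real jF = algebraMap Hol Mer jHol := by
  obtain ⟨jH, hjH, hj⟩ := H.real_j
  have : jH = jHol := by
    apply Subtype.ext
    funext τ
    rw [hjH τ, jHol_apply]
    rfl
  rw [hj, this]

theorem compSL_jHol (g : SL(2, ℤ)) : compSL g jHol = jHol := by
  apply Subtype.ext
  funext z
  show (jHol : ℍ → ℂ) (g • z) = (jHol : ℍ → ℂ) z
  rw [jHol_apply, jHol_apply]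
  exact jInv_smul g z

theorem intSigma_jF (q : SL(2, ℤ) ⧸ Γ') : intSigma H q jF = algebraMap Hol Mer jHol := by
  rw [intSigma_apply, real_jF H, compM_algebraMap, compSL_jHol]

theorem intSigma_jF_sub (q : SL(2, ℤ) ⧸ Γ') (c : ℂ) :
    intSigma H q (jF - algebraMap ℂ F c) = algebraMap Hol Mer (jHol - algebraMap ℂ Hol c) := by
  rw [map_sub, intSigma_jF, AlgHom.commutes, map_sub, ← IsScalarTower.algebraMap_apply ℂ Hol Mer]

/-- the norm to `ℂ(jF)` is the product of the conjugates -/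
theorem intSigma_norm (f : F) (q₀ : SL(2, ℤ) ⧸ Γ') :
    letI := H.fintypeQuotient
    letI := H.finite
    intSigma H q₀ ((Algebra.norm ℂ⟮jF⟯ f : ℂ⟮jF⟯) : F) = ∏ q, intSigma H q f := by
  letI := H.fintypeQuotient
  letI := H.finite
  have hcard : Fintype.card (SL(2, ℤ) ⧸ Γ') = Module.finrank ℂ⟮jF⟯ F := by
    rw [← H.deg, Nat.card_eq_fintype_card]
  exact Fermat.Agent.S24_helper66.ringHom_norm_eq_prod jF
    (fun q => ((intSigma H q : F →ₐ[ℂ] Mer) : F →+* Mer)) q₀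
    (fun q c => by
      show intSigma H q (algebraMap ℂ F c) = intSigma H q₀ (algebraMap ℂ F c)
      rw [AlgHom.commutes, AlgHom.commutes])
    (fun q => by
      show intSigma H q jF = intSigma H q₀ jF
      rw [intSigma_jF, intSigma_jF]) (intSigma_injective H) hcard f

/-! ### The valuations and the orbit data -/

/-- the valuation `f ↦ ord_{τ₀} ((real f) ∘ a⁻¹)` attached to the coset `q = a Γ'` -/
def V (τ₀ : ℍ) (q : SL(2, ℤ) ⧸ Γ') : IntVal ℂ F := IntVal.comap (intSigma H q) (merIntValC τ₀)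

theorem V_apply (τ₀ : ℍ) (q : SL(2, ℤ) ⧸ Γ') (f : F) :
    V H τ₀ q f = ordM τ₀ (intSigma H q f) := rfl

theorem V_mk (τ₀ : ℍ) (a : SL(2, ℤ)) (f : F) :
    V H τ₀ (a : SL(2, ℤ) ⧸ Γ') f = ordM (a⁻¹ • τ₀) (real f) := by
  rw [V_apply, intSigma_mk, ordM_compM]

theorem V_jF_sub {τ₀ : ℍ} {c : ℂ} (hc : jInv τ₀ = c) (q : SL(2, ℤ) ⧸ Γ') :
    V H τ₀ q (jF - algebraMap ℂ F c) = ((Nat.card (Stab τ₀) / 2 : ℕ) : ℤ) := by
  have hc' : jFun τ₀ = c := hc
  rw [V_apply, intSigma_jF_sub, ordM_algebraMap τ₀ (jHol_sub_ne_zero _), ordNat, ← hc',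
    ordAt_jHol_sub]
  rfl

include H in
theorem jF_sub_ne_zero (c : ℂ) : jF - algebraMap ℂ F c ≠ 0 := by
  intro h
  have h1 := congrArg (intSigma H ((1 : SL(2, ℤ)) : SL(2, ℤ) ⧸ Γ')) h
  rw [intSigma_jF_sub, map_zero] at h1
  exact algebraMap_ne_zero (jHol_sub_ne_zero _) h1

/-- the orbit data at the finite value `c = j(τ₀)` -/
def orbitData {τ₀ : ℍ} {c : ℂ} (hc : jInv τ₀ = c) :
    OrbitData ℂ (jF - algebraMap ℂ F c) (SL(2, ℤ) ⧸ Γ') where
  V := V H τ₀
  e₀ := Nat.card (Stab τ₀) / 2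
  he₀ := card_Stab_div_two_pos τ₀
  hx0 := jF_sub_ne_zero H c
  hVx q := V_jF_sub H hc q

theorem orbitData_V {τ₀ : ℍ} {c : ℂ} (hc : jInv τ₀ = c) (q : SL(2, ℤ) ⧸ Γ') (f : F) :
    (orbitData H hc).V q f = V H τ₀ q f := rfl

theorem orbitData_e₀ {τ₀ : ℍ} {c : ℂ} (hc : jInv τ₀ = c) :
    (orbitData H hc).e₀ = Nat.card (Stab τ₀) / 2 := rfl

/-- `hnorm` of the orbit lemma -/
theorem hnorm (τ₀ : ℍ) (f : F) (hf : f ≠ 0) (i₀ : SL(2, ℤ) ⧸ Γ') :
    letI := H.fintypeQuotient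
    letI := H.finite
    ∑ i, V H τ₀ i f = V H τ₀ i₀ (algebraMap ℂ⟮jF⟯ F (Algebra.norm ℂ⟮jF⟯ f)) := by
  letI := H.fintypeQuotient
  letI := H.finite
  exact hnorm_of_prod ℂ⟮jF⟯ (merIntValC τ₀) (intSigma H)
    (fun f i₀ => intSigma_norm H f i₀) f hf i₀

/-- `hsymm` of the orbit lemma -/
theorem V_smul {τ₀ : ℍ} {s : SL(2, ℤ)} (hs : s • τ₀ = τ₀) (i : SL(2, ℤ) ⧸ Γ') (f : F) :
    V H τ₀ (s • i) f = V H τ₀ i f := by
  induction i using QuotientGroup.induction_on with | _ g => ?_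
  have h1 : s • (g : SL(2, ℤ) ⧸ Γ') = ((s * g : SL(2, ℤ)) : SL(2, ℤ) ⧸ Γ') := rfl
  rw [h1, V_mk, V_mk, mul_inv_rev, mul_smul]
  have : s⁻¹ • τ₀ = τ₀ := by rw [inv_smul_eq_iff, hs]
  rw [this]

include H in
/-- `-1 ∈ Γ'` -/
theorem neg_one_mem : (-1 : SL(2, ℤ)) ∈ Γ' := by
  apply H.sep
  intro f
  rw [Fermat.Agent.DS.P1.FieldGenAsm.compM_neg, compM_one]

/-! ### Freeness -/

/-- an element fixing a coset is conjugate into `Γ'` -/
theorem conj_mem_of_smul_eq {s g : SL(2, ℤ)}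
    (hi : s • (g : SL(2, ℤ) ⧸ Γ') = (g : SL(2, ℤ) ⧸ Γ')) : g⁻¹ * s * g ∈ Γ' := by
  have h1 : s • (g : SL(2, ℤ) ⧸ Γ') = ((s * g : SL(2, ℤ)) : SL(2, ℤ) ⧸ Γ') := rfl
  rw [h1, QuotientGroup.eq] at hi
  have := inv_mem hi
  rwa [mul_inv_rev, inv_inv, ← mul_assoc] at this

/-- under the freeness hypothesis, an element `s` of the stabiliser of `τ₀` fixing a coset has
trace `±2` -/
theorem trace_of_smul_eq (hfree : ∀ γ ∈ Γ', ∀ τ : ℍ, γ • τ = τ → γ = 1 ∨ γ = -1)
    {τ₀ : ℍ} {s : SL(2, ℤ)} (hs : s • τ₀ = τ₀) {i : SL(2, ℤ) ⧸ Γ'} (hi : s • i = i) :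
    s 0 0 + s 1 1 = 2 ∨ s 0 0 + s 1 1 = -2 := by
  induction i using QuotientGroup.induction_on with | _ g => ?_
  have hmem := conj_mem_of_smul_eq hi
  have hfix : (g⁻¹ * s * g) • (g⁻¹ • τ₀) = g⁻¹ • τ₀ := by
    rw [mul_smul, mul_smul, smul_inv_smul, hs]
  have ht := Fermat.Agent.S24.Interior.Realization.trace_conj g s
  rcases hfree _ hmem _ hfix with h | h
  · left
    rw [h] at ht
    rw [← ht]
    simp
  · right
    rw [h] at ht
    rw [← ht]
    simp [Matrix.SpecialLinearGroup.coe_neg]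

/-- **freeness**: a power `s ^ h`, `h ∣ e₀`, of the generator of the stabiliser of `τ₀` fixing a
coset is `s ^ e₀` -/
theorem eq_of_pow_smul_eq (hfree : ∀ γ ∈ Γ', ∀ τ : ℍ, γ • τ = τ → γ = 1 ∨ γ = -1)
    {τ₀ : ℍ} {s : SL(2, ℤ)} (hs : s • τ₀ = τ₀)
    (h2 : Nat.card (Stab τ₀) / 2 = 2 → s 0 0 + s 1 1 = 0)
    (h3 : Nat.card (Stab τ₀) / 2 = 3 → (s 0 0 + s 1 1) ^ 2 = 1)
    (i : SL(2, ℤ) ⧸ Γ') (h : ℕ) (hh : h ∣ Nat.card (Stab τ₀) / 2) (hi : s ^ h • i = i) :
    h = Nat.card (Stab τ₀) / 2 := by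
  rcases Fermat.Agent.S20_helper25.card_Stab τ₀ with hc | hc | hc
  · have he : Nat.card (Stab τ₀) / 2 = 1 := by rw [hc]
    rw [he] at hh ⊢
    exact Nat.dvd_one.mp hh
  · have he : Nat.card (Stab τ₀) / 2 = 2 := by rw [hc]
    rw [he] at hh ⊢
    rcases (Nat.dvd_prime Nat.prime_two).mp hh with rfl | rfl
    · exfalso
      rw [pow_one] at hi
      have h0 := h2 he
      rcases trace_of_smul_eq hfree hs hi with ht | ht <;> omega
    · rfl
  · have he : Nat.card (Stab τ₀) / 2 = 3 := by rw [hc]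
    rw [he] at hh ⊢
    rcases (Nat.dvd_prime Nat.prime_three).mp hh with rfl | rfl
    · exfalso
      rw [pow_one] at hi
      have h0 := h3 he
      rcases trace_of_smul_eq hfree hs hi with ht | ht <;> rw [ht] at h0 <;> norm_num at h0
    · rfl

/-! ### The main theorem -/

include H in
theorem isGen_jF : IsGen ℂ jF := ⟨H.transcendental_jF, H.finite⟩

include H in
/-- **the unramified interior dictionary**: every place of `F` at which `jF` has no pole is a point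
of `ℍ`, and the order at the place is the order of vanishing of the realisation at that point. -/
theorem exists_point (hfree : ∀ γ ∈ Γ', ∀ τ : ℍ, γ • τ = τ → γ = 1 ∨ γ = -1)
    (Q : Place ℂ F) (hQ : ¬ Q.ord jF < 0) :
    ∃ τ : ℍ, ∀ u : F, u ≠ 0 → ordM τ (real u) = Q.ord u := by
  haveI := isGen_jF H
  rcases PlaceB.pole_or_center Q jF with h | ⟨c, hc⟩
  · exact absurd h hQ
  obtain ⟨τ₀, s, hτ₀, hs, hpow, h2, h3⟩ := exists_base c
  letI := H.fintypeQuotient
  haveI hfd : FiniteDimensional ℂ⟮jF⟯ F := H.finite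
  have hk : ℂ⟮jF⟯ = ℂ⟮jF - algebraMap ℂ F c⟯ := (Norm.adjoin_simple_sub_algebraMap jF c).symm
  haveI : FiniteDimensional ℂ⟮jF - algebraMap ℂ F c⟯ F := hk ▸ hfd
  obtain ⟨hfin, hN, hWA⟩ := Norm.fibre_package (jF - algebraMap ℂ F c)
    (Norm.transcendental_sub_algebraMap H.transcendental_jF c) ℂ⟮jF⟯ hk
  haveI := hfin
  haveI : Nonempty (SL(2, ℤ) ⧸ Γ') := ⟨((1 : SL(2, ℤ)) : SL(2, ℤ) ⧸ Γ')⟩
  set D := orbitData H hτ₀ with hD
  have hkey := eq_of_pow_smul_eq hfree hs h2 h3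
  obtain ⟨φ, hφ, hord⟩ := orbit_lemma ℂ⟮jF⟯ (jF - algebraMap ℂ F c) hN hWA s D
    (fun f hf i₀ => hnorm H τ₀ f hf i₀) (fun i f => V_smul H hs i f)
    (fun i => Fermat.Agent.DS.P1.OrbitGen.Realization1.pow_smul_coset (neg_one_mem H) hpow i)
    (fun i h hh hi f _ => by
      have : h = Nat.card (Stab τ₀) / 2 := hkey i h hh hi
      rw [orbitData_e₀, ← this, Nat.div_self (Nat.pos_of_ne_zero (by
        rintro rfl
        exact (card_Stab_div_two_pos τ₀).ne' this.symm))]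
      simp)
  obtain ⟨o, ho⟩ := φ.surjective ⟨Q, hc⟩
  induction o using Quotient.inductionOn with | _ i => ?_
  have h1 : φ (Quotient.mk _ i) = D.place i := hφ i
  -- the orbit of `i` has `e₀` elements
  have h4 : D.mult i * ((D.place i).1.ord (jF - algebraMap ℂ F c)) =
      ((Nat.card (Stab τ₀) / 2 : ℕ) : ℤ) := D.mult_mul_ord_x i
  have h5 := hord (Quotient.mk _ i)
  rw [h1] at h5
  have h5' : ((D.place i).1.ord (jF - algebraMap ℂ F c) : ℤ) =
      (Nat.card (orbit (Subgroup.zpowers s) i) : ℤ) := by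
    rw [h5]
    congr 2
  rw [h5'] at h4
  have hfinq := H.finite_quotient
  have hper : s ^ Nat.card (orbit (Subgroup.zpowers s) i) • i = i :=
    pow_card_orbit_zpowers_smul s i
  have hdvd : Nat.card (orbit (Subgroup.zpowers s) i) ∣ Nat.card (Stab τ₀) / 2 := by
    have : ((Nat.card (orbit (Subgroup.zpowers s) i) : ℕ) : ℤ) ∣
        ((Nat.card (Stab τ₀) / 2 : ℕ) : ℤ) := ⟨D.mult i, by rw [← h4]; ring⟩
    exact_mod_cast this
  have hn := hkey i _ hdvd hper
  rw [hn] at h4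
  have he0 : ((Nat.card (Stab τ₀) / 2 : ℕ) : ℤ) ≠ 0 := by
    exact_mod_cast (card_Stab_div_two_pos τ₀).ne'
  have hmult : D.mult i = 1 := by
    have h6 : D.mult i * ((Nat.card (Stab τ₀) / 2 : ℕ) : ℤ) =
        1 * ((Nat.card (Stab τ₀) / 2 : ℕ) : ℤ) := by
      rw [one_mul]
      exact h4
    exact mul_right_cancel₀ he0 h6
  -- conclusion
  have hQi : Q = (D.place i).1 := by
    rw [← h1, ho]
  induction i using QuotientGroup.induction_on with | _ g => ?_
  refine ⟨g⁻¹ • τ₀, fun u hu => ?_⟩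
  have h7 := D.eq_mult_mul_ord (g : SL(2, ℤ) ⧸ Γ') hu
  rw [hmult, one_mul, ← hQi] at h7
  rw [← h7]
  exact (V_mk H τ₀ g u).symm

include H in
/-- **`IntDict` in the free case**, for ANY `Γ` -/
theorem intDict_of_free (hfree : ∀ γ ∈ Γ', ∀ τ : ℍ, γ • τ = τ → γ = 1 ∨ γ = -1)
    (Γ : Subgroup SL(2, ℤ)) : IntDict Γ real jF :=
  intDict_of_unramified (fun Q hQ => exists_point H hfree Q hQ)

end Fermat.Agent.DS.P3.IntDictFree
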