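import Mathlib
import Fermat.Agent.DS.P3.IntDictFree
import Fermat.Agent.DS.P3.DictCuspInst

/-!
# GATE-N / S48-P3-DICT-INT, instance at `Γ₁(M)`, `4 ≤ M`

`intDict1 D hM : IntDict (Gamma1 M) (real1C D) (j1C M)` from the analytic Weber data
`D : WeberData M`, via `IntDictFree.intDict_of_free` at `H := cuspHyp1 D` and the freeness of the
action of `±Γ₁(M)/±1` on `ℍ` (`TorsionFree1.torsionFree_Gamma1`).  Together with `cuspDict1`:
`pdivG1 D hM hM4 : PDivG (Gamma1 M) p (real1C D) ζ IsParabolicHom` = the binder `hpd` of helper94's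
`EigDescG.exists_eigenvector_of_C` / `EigFinalHyp.eig1Rel_of_hyps`.
-/

set_option autoImplicit false
set_option linter.unusedSectionVars false

noncomputable section

namespace Fermat.Agent.DS.P3.IntDictInst

open UpperHalfPlane CongruenceSubgroup AlgebraicCurve
open scoped MatrixGroups Manifold
open Fermat.Agent.S24_helper82
open Fermat.Agent.DS.P0 Fermat.Agent.DS.P1.FieldGenG Fermat.Agent.DS.P1.RealizeF1
open Fermat.Agent.DS.P3.DictCuspInst Fermat.Agent.DS.P3.PDiv1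
open ModularCurve.Period (IsParabolicHom)

/-- `±Γ₁(M)/±1`, `4 ≤ M`, acts freely on `ℍ` -/
theorem free_pm_Gamma1 {M : ℕ} (hM : 4 ≤ M) :
    ∀ γ ∈ pm (Gamma1 M), ∀ τ : ℍ, γ • τ = τ → γ = 1 ∨ γ = -1 := by
  intro γ hγ τ hfix
  rcases mem_pm.mp hγ with h | h
  · left
    have h1 := TorsionFree1.torsionFree_Gamma1 hM ⟨γ, h⟩ (isOfFinOrder_mk_of_fixes h hfix)
    exact congrArg Subtype.val h1
  · right
    have hfix' : (-γ) • τ = τ := by rw [ModularGroup.SL_neg_smul]; exact hfix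
    have h1 := TorsionFree1.torsionFree_Gamma1 hM ⟨-γ, h⟩ (isOfFinOrder_mk_of_fixes h hfix')
    have h2 : -γ = 1 := congrArg Subtype.val h1
    rw [← h2, neg_neg]

variable {M : ℕ} [NeZero M] (D : WeberData M)

/-- **the unramified interior dictionary of `X₁(M)`, `4 ≤ M`** -/
theorem exists_point1 (hM : 4 ≤ M) (Q : Place ℂ (F1C ℂ M)) (hQ : ¬ Q.ord (j1C M) < 0) :
    ∃ τ : ℍ, ∀ u : F1C ℂ M, u ≠ 0 → ordM τ (realR D u) = Q.ord u :=
  IntDictFree.exists_point (cuspHyp1 D) (free_pm_Gamma1 hM) Q hQ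

/-- **the interior dictionary of `X₁(M)`, `4 ≤ M`** (`hI` of helper75's `pdivG_of_dict_Gamma1`) -/
theorem intDict1 (hM : 4 ≤ M) : IntDict (Gamma1 M) (realR D) (j1C M) :=
  IntDictFree.intDict_of_free (cuspHyp1 D) (free_pm_Gamma1 hM) (Gamma1 M)

/-- **(PDIV) for `Γ₁(M)`, `5 ≤ M`**, in helper94's shape `EigDescG.PDivG` -/
theorem pdivG1 (hM : 5 ≤ M) {p : ℕ} [Fact p.Prime] {ζ : ℂ} :
    EigDescG.PDivG (Gamma1 M) p (K := ℂ) (realR D) ζ (fun ψ => IsParabolicHom (Gamma1 M) ψ) := by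
  have hM4 : ¬ M ∣ 4 := fun h => by
    have := Nat.le_of_dvd (by norm_num) h
    omega
  exact PDiv1Plug.pdivG_of_dict_Gamma1 (by omega) (intDict1 D (by omega)) (cuspDict1 D hM4)

end Fermat.Agent.DS.P3.IntDictInst
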