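import Mathlib
import Fermat.Agent.DS.P3.IntDictInst
import Fermat.Agent.DS.P3.FinC1

/-!
# GATE-N / S48-P3-DICT-INT: the hypothesis `(E1)` of `FinC1` from `CuspHyp`, and at `Γ₁(M)`

`FinC1.E1 real` : for every `τ ∈ ℍ` the valuation `ord_τ ∘ real` is a positive multiple of the
order at a place of `F`.  It holds for every `H : CuspHyp real jF Γ' N` (no freeness needed):
`e1_of_cuspHyp`.  Instance: `e1_1 D : FinC1.E1 (real1C D)`.
-/

set_option autoImplicit false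
set_option linter.unusedSectionVars false

noncomputable section

namespace Fermat.Agent.DS.P3.IntDictFree

open UpperHalfPlane AlgebraicCurve
open scoped MatrixGroups Manifold
open Fermat.Agent.S24 Fermat.Agent.S24_helper82
open Fermat.Agent.LevelOne_helper29 (jInv)
open Fermat.Agent.DS.P3.DictCusp

variable {F : Type*} [Field F] [Algebra ℂ F]
variable {real : F →+* Mer} {jF : F} {Γ' : Subgroup SL(2, ℤ)} {N : ℕ} [NeZero N]

/-- the place of `F` at the image of `τ ∈ ℍ` and its ramification index: `(E1)` in the exact form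
`ordM τ (real f) = e * P.ord f` with `0 < e` -/
theorem exists_place_of_point (H : CuspHyp real jF Γ' N) (τ : ℍ) :
    ∃ (P : Place ℂ F) (e : ℕ), 0 < e ∧ 0 < P.ord (jF - algebraMap ℂ F (jInv τ)) ∧
      ∀ f : F, f ≠ 0 → ordM τ (real f) = (e : ℤ) * P.ord f := by
  have hc : jInv τ = jInv τ := rfl
  have hpos := (orbitData H hc).mult_pos ((1 : SL(2, ℤ)) : SL(2, ℤ) ⧸ Γ')
  refine ⟨((orbitData H hc).place ((1 : SL(2, ℤ)) : SL(2, ℤ) ⧸ Γ')).1,
    ((orbitData H hc).mult ((1 : SL(2, ℤ)) : SL(2, ℤ) ⧸ Γ')).toNat, ?_,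
    ((orbitData H hc).place ((1 : SL(2, ℤ)) : SL(2, ℤ) ⧸ Γ')).2, fun f hf => ?_⟩
  · have : (0 : ℤ) < (((orbitData H hc).mult ((1 : SL(2, ℤ)) : SL(2, ℤ) ⧸ Γ')).toNat : ℤ) := by
      rw [Int.toNat_of_nonneg hpos.le]
      exact hpos
    exact_mod_cast this
  · rw [Int.toNat_of_nonneg hpos.le,
      ← (orbitData H hc).eq_mult_mul_ord ((1 : SL(2, ℤ)) : SL(2, ℤ) ⧸ Γ') hf]
    show ordM τ (real f) = V H τ ((1 : SL(2, ℤ)) : SL(2, ℤ) ⧸ Γ') f
    rw [V_mk, inv_one, one_smul]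

/-- **`(E1)` of `FinC1`** -/
theorem e1_of_cuspHyp (H : CuspHyp real jF Γ' N) : Fermat.Agent.DS.P3.FinC1.E1 real := by
  intro τ
  obtain ⟨P, e, -, -, h⟩ := exists_place_of_point H τ
  exact ⟨P, e, h⟩

end Fermat.Agent.DS.P3.IntDictFree

namespace Fermat.Agent.DS.P3.IntDictInst

open Fermat.Agent.DS.P1.RealizeF1 Fermat.Agent.DS.P3.DictCuspInst

/-- **`(E1)` for `X₁(M)`** (`hE1` of helper94's `EigFinal2.eig1All2_bcG`) -/
theorem e1_1 {M : ℕ} [NeZero M] (D : WeberData M) : Fermat.Agent.DS.P3.FinC1.E1 (realR D) :=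
  Fermat.Agent.DS.P3.IntDictFree.e1_of_cuspHyp (cuspHyp1 D)

end Fermat.Agent.DS.P3.IntDictInst
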