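/-
GATE-N / S48 J1-port, P3 (EIG twin), leaf S48-P3-FINAL-F1 (helper94): **DICT-INT plugged**, and the
`ℚ̄`-form of the (P1e) hypothesis.

* `toK u : F1C ℚ̄ M` : an element of `FL (F1 M) = ℚ̄ · F1 M` seen in P1's field `F1C ℚ̄ M`;
* `realR_bc1 D u : realR D (bc1 M u) = real1 D (toK u)` : the `ℂ`-realisation of the base change is
  the `ℚ̄`-realisation (same `q`-expansion, `MerCE` uniqueness);
* `hHND_of_real1` : (P1e) for `real1 D ∘ toK` gives (P1e) for `realR D ∘ bc1 M`;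
* `eig1Prime_F1_dict` : `PortExport1.EIG1Prime (F1 M) p dia` from `D : WeberData M` and (P1e) ONLY
  (DICT-INT := helper16 `IntDictInst.intDict1 / e1_1`);
* `eig1Prime_F1_real1` : the same with (P1e) stated for the `ℚ̄`-realisation `real1 D`
  (`real1 D (toK (dia d u)) = compM σ'_d (real1 D (toK u))`, the natural output of a
  permutation-of-generators construction of `dia`);
* `eig1All2_F1_real1`, `eig1AllCl_F1_real1` : the `EIG1All2'` / `EIG1AllCl` forms.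
-/
import Mathlib
import Fermat.Agent.DS.P3.EigFinalF1
import Fermat.Agent.DS.P3.IntDictInst
import Fermat.Agent.DS.P3.IntDictE1

set_option autoImplicit false
set_option linter.unusedSectionVars false
set_option linter.style.haveILetI false

open UpperHalfPlane Complex AlgebraicCurve ModularCurve TensorProduct CongruenceSubgroup
open scoped MatrixGroups

noncomputable section

namespace Fermat.Agent.DS.P3.EigFinalF1Plug

open Fermat.Agent.S24 Fermat.Agent.S24_helper82 Fermat.Agent.GJ.HeckeMer Fermat.Agent.GJ.KumGroup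
open Fermat.Agent.GJ.TwEis
open Fermat.Agent.DS.P3.EigFinalF1
open Fermat.Agent.DS.P3.PDiv1 Fermat.Agent.DS.P3.DictCuspInst Fermat.Agent.DS.P3.DictCusp
open Fermat.Agent.DS.P3.Desc1G
open Fermat.Agent.DS.P0 Fermat.Agent.DS.P1 Fermat.Agent.DS.P1.RealizeF1
open Fermat.Agent.DS.P5 Fermat.Agent.DS.P5.KumType1

attribute [local instance] Fermat.Agent.GJ.EigAsm.algKbC

variable {M : ℕ} [NeZero M] (D : WeberData M) {p : ℕ} [Fact p.Prime]

/-- an element of `FL (F1 M) = ℚ̄ · F1 M`, as an element of P1's field `F1C ℚ̄ M` -/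
def toK (u : FL (F1 M)) : ↥(F1C Kbar M) :=
  ⟨(u : LaurentSeries Kbar), by rw [← laurentBaseChange_F1 Kbar M]; exact u.2⟩

theorem coe_toK (u : FL (F1 M)) : ((toK u : ↥(F1C Kbar M)) : LaurentSeries Kbar) = u := by
  unfold toK
  exact Subtype.coe_mk _ _

/-- the series of the base change is the coefficientwise image -/
theorem coe_bc1 (u : FL (F1 M)) :
    ((bc1 M u : ↥(F1C ℂ M)) : LaurentSeries ℂ)
      = coeffMap Fermat.Agent.S24_helper62.iotaC (u : LaurentSeries Kbar) := rfl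

theorem merCE_realR_bc1 (u : FL (F1 M)) : MerCE 1 (realR D (bc1 M u))
    (coeffMap Fermat.Agent.S24_helper62.iotaC (u : LaurentSeries Kbar)) := by
  have := merCE_realR D (bc1 M u)
  rwa [coe_bc1] at this

theorem merCE_real1_toK (u : FL (F1 M)) : MerCE 1 (real1 D (toK u))
    (coeffMap Fermat.Agent.S24_helper62.iotaC (u : LaurentSeries Kbar)) := by
  have h := ExpBridge.merCE_realKOf (genFam D) (serFam M Kbar) (isCE_genFam D) (coeffMap_serFam D)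
    F1C_eq_FK (toK u)
  unfold real1
  exact h

/-- **the `ℂ`-realisation of the base change is the `ℚ̄`-realisation** -/
theorem realR_bc1 (u : FL (F1 M)) : realR D (bc1 M u) = real1 D (toK u) :=
  merCE_eq_of_eq one_pos (merCE_realR_bc1 D u) (merCE_real1_toK D u)

open Fermat.Agent.DS.P5.Final Fermat.Agent.DS.P5.Final2 Fermat.Agent.DS.P5.FinalCl
open Fermat.Agent.DS.P5.PortExport1

/-- transport of (P1e) from the `ℚ̄`-realisation to the `ℂ`-realisation of the base change -/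
theorem hHND_of_real1 {dia : (ZMod M)ˣ → (FL (F1 M) ≃ₐ[Kb] FL (F1 M))}
    (σD' : (ZMod M)ˣ → SL(2, ℤ))
    (hHND : ∀ (d : (ZMod M)ˣ) (u : FL (F1 M)),
      real1 D (toK (dia d u)) = compM (σD' d) (real1 D (toK u)))
    (d : (ZMod M)ˣ) (u : FL (F1 M)) :
    realR D (bc1 M (dia d u)) = compM (σD' d) (realR D (bc1 M u)) :=
  (realR_bc1 D (dia d u)).trans ((hHND d u).trans
    (congrArg (compM (σD' d)) (realR_bc1 D u).symm))

/-- **P3's export at `F₀ := F1 M`** from `D : WeberData M` and (P1e) only. -/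
theorem eig1Prime_F1_dict {dia : (ZMod M)ˣ → (FL (F1 M) ≃ₐ[Kb] FL (F1 M))} (hM4 : 4 ≤ M)
    (hM : ¬ M ∣ 4)
    (σD' : (ZMod M)ˣ → SL(2, ℤ)) (hσD'0 : ∀ d, (M : ℤ) ∣ σD' d 1 0)
    (hσD'1 : ∀ d : (ZMod M)ˣ, ((σD' d 1 1 : ℤ) : ZMod M) = ((d⁻¹ : (ZMod M)ˣ) : ZMod M))
    (hHND : ∀ (d : (ZMod M)ˣ) (u : FL (F1 M)),
      realR D (bc1 M (dia d u)) = compM (σD' d) (realR D (bc1 M u))) :
    EIG1Prime (F1 M) p dia :=
  eig1Prime_F1 D hM4 hM (IntDictInst.intDict1 D hM4) (IntDictInst.e1_1 D) σD' hσD'0 hσD'1 hHND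

/-- **P3's export at `F₀ := F1 M`**, (P1e) stated for the `ℚ̄`-realisation `real1 D`. -/
theorem eig1Prime_F1_real1 {dia : (ZMod M)ˣ → (FL (F1 M) ≃ₐ[Kb] FL (F1 M))} (hM4 : 4 ≤ M)
    (hM : ¬ M ∣ 4)
    (σD' : (ZMod M)ˣ → SL(2, ℤ)) (hσD'0 : ∀ d, (M : ℤ) ∣ σD' d 1 0)
    (hσD'1 : ∀ d : (ZMod M)ˣ, ((σD' d 1 1 : ℤ) : ZMod M) = ((d⁻¹ : (ZMod M)ˣ) : ZMod M))
    (hHND : ∀ (d : (ZMod M)ˣ) (u : FL (F1 M)),
      real1 D (toK (dia d u)) = compM (σD' d) (real1 D (toK u))) :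
    EIG1Prime (F1 M) p dia :=
  eig1Prime_F1_dict D hM4 hM σD' hσD'0 hσD'1 (hHND_of_real1 D σD' hHND)

/-- the `Final2.EIG1All2'` form (any `S` avoiding the primes `ℓ ∤ M p`). -/
theorem eig1All2_F1_real1 {dia : (ZMod M)ˣ → (FL (F1 M) ≃ₐ[Kb] FL (F1 M))} (hM4 : 4 ≤ M)
    (hM : ¬ M ∣ 4) (S : Set ℕ)
    (σD' : (ZMod M)ˣ → SL(2, ℤ)) (hσD'0 : ∀ d, (M : ℤ) ∣ σD' d 1 0)
    (hσD'1 : ∀ d : (ZMod M)ˣ, ((σD' d 1 1 : ℤ) : ZMod M) = ((d⁻¹ : (ZMod M)ˣ) : ZMod M))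
    (hHND : ∀ (d : (ZMod M)ˣ) (u : FL (F1 M)),
      real1 D (toK (dia d u)) = compM (σD' d) (real1 D (toK u)))
    (hS : ∀ ℓ : ℕ, ℓ.Prime → ¬ ℓ ∣ M * p → ℓ ∉ S) :
    EIG1All2' (F1 M) p dia S :=
  eig1All2_F1 D hM4 hM S (IntDictInst.intDict1 D hM4) (IntDictInst.e1_1 D) σD' hσD'0 hσD'1
    (hHND_of_real1 D σD' hHND) hS

/-- the classical twin: `FinalCl.EIG1AllCl (F1 M) p diaCl S` from `D` and (P1e) for `real1 D`. -/
theorem eig1AllCl_F1_real1 {diaCl : (ZMod M)ˣ → (FL (F1 M) ≃ₐ[Kb] FL (F1 M))} (hM4 : 4 ≤ M)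
    (hM : ¬ M ∣ 4) (S : Set ℕ)
    (σD : (ZMod M)ˣ → SL(2, ℤ)) (hσD0 : ∀ d, (M : ℤ) ∣ σD d 1 0)
    (hσD1 : ∀ d : (ZMod M)ˣ, ((σD d 1 1 : ℤ) : ZMod M) = (d : ZMod M))
    (hHND : ∀ (d : (ZMod M)ˣ) (u : FL (F1 M)),
      real1 D (toK (diaCl d u)) = compM (σD d) (real1 D (toK u)))
    (hS : ∀ ℓ : ℕ, ℓ.Prime → ¬ ℓ ∣ M * p → ℓ ∉ S) :
    EIG1AllCl (F1 M) p diaCl S :=
  eig1AllCl_F1 D hM4 hM S (IntDictInst.intDict1 D hM4) (IntDictInst.e1_1 D) σD hσD0 hσD1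
    (hHND_of_real1 D σD hHND) hS

end Fermat.Agent.DS.P3.EigFinalF1Plug
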