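/-
GATE-N / S48 J1-port, P3 (EIG twin), leaf S48-P3-HECKEMER1, generic part (helper49): the
multiplicative Hecke norms on T24's `Mer` for an ARBITRARY subgroup `Γ ≤ SL(2,ℤ)` and an arbitrary
finite family of coset representatives `α : X → GL(2,ℝ)⁺` (twin of helper86's
`GJ/J2/HeckeMerMult.lean`, which is stated for `Γ₀(N)` and the prelude representatives).

* `normG α hα : Mer →* Mer`, `m ↦ ∏ₓ m ∘ α_x`;
* `compM_prod_compMGL_G` / `compM_normG` : if `h(γτ) = χ(γ) h(τ)` on `Γ` and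
  `α_x γ = t_x α_{σ x}` (`t_x ∈ Γ`, `σ` a permutation) then `normG α h` is multiplied by `∏ₓ χ(t_x)`;
* `compM_normG_zmod` / `HasMultG.normG` : additive form, multiplier `ζ^(∑ₓ ψ(t_x))`;
* `IsKumDatumG.normG` : **(K4)**, the Hecke norm of a Kummer datum for `ψ` is a Kummer datum for
  the transfer sum `ψ' γ = ∑ₓ ψ (coc γ x)` (the caller plugs in `ψ' := cohT1 ψ`);
* `compM_conj_mult`, `HasMultG.conj`, `IsKumDatumG.conj` : the same for a normalising element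
  `σ ∈ SL(2,ℤ)` (diamond operators): `h ∘ σ` has multiplier `ψ ∘ (σ · σ⁻¹)`.
-/
import Mathlib
import Fermat.Agent.GJ.J2.HeckeMerMult
import Fermat.Agent.DS.P3.KumCoreG

set_option autoImplicit false
set_option linter.unusedSectionVars false

open UpperHalfPlane Complex
open scoped MatrixGroups

noncomputable section

namespace Fermat.Agent.DS.P3.HeckeMerG

open Fermat.Agent.S24_helper82 Fermat.Agent.GJ.HeckeMer Fermat.Agent.DS.P3.KumCoreG
open Matrix.SpecialLinearGroup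

variable {Γ : Subgroup SL(2, ℤ)}

/-! ### Generic telescoping for multipliers -/

/-- **Generic multiplier identity** for an arbitrary subgroup `Γ ≤ SL(2,ℤ)`.  If
`h(γτ) = χ(γ) h(τ)` for `γ ∈ Γ` and `α_x γ = t_x α_{σ x}` with `σ` a permutation, then
`∏ₓ h ∘ α_x` is multiplied by `∏ₓ χ(t_x)` under `γ`. -/
theorem compM_prod_compMGL_G {X : Type*} [Fintype X] (α : X → GL (Fin 2) ℝ)
    (hα : ∀ x, 0 < (α x).det.val) (h : Mer) (χ : Γ → ℂ)
    (hχ : ∀ γ : Γ, compM (γ : SL(2, ℤ)) h = algebraMap ℂ Mer (χ γ) * h)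
    (γ : Γ) (σ : Equiv.Perm X) (t : X → Γ)
    (hmul : ∀ x, α x * mapGL ℝ (γ : SL(2, ℤ)) = mapGL ℝ ((t x : Γ) : SL(2, ℤ)) * α (σ x)) :
    compM (γ : SL(2, ℤ)) (∏ x, compMGL (α x) (hα x) h)
      = algebraMap ℂ Mer (∏ x, χ (t x)) * ∏ x, compMGL (α x) (hα x) h := by
  rw [map_prod, map_prod, ← Equiv.prod_comp σ (fun x => compMGL (α x) (hα x) h),
    ← Finset.prod_mul_distrib]
  refine Finset.prod_congr rfl fun x _ => ?_
  rw [← compMGL_mapGL, ← compMGL_mul (hα x) (det_mapGL_pos _),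
    compMGL_congr (hmul x) _ (det_mul_pos (det_mapGL_pos _) (hα (σ x))),
    compMGL_mul (det_mapGL_pos _) (hα (σ x)), compMGL_mapGL, hχ (t x), map_mul, compMGL_const]

/-! ### The norm attached to a finite family of representatives -/

section Norm

variable {X : Type*} [Fintype X] (α : X → GL (Fin 2) ℝ) (hα : ∀ x, 0 < (α x).det.val)

/-- The multiplicative operator `m ↦ ∏ₓ m ∘ α_x` on meromorphic functions. -/
def normG : Mer →* Mer where
  toFun m := ∏ x : X, compMGL (α x) (hα x) m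
  map_one' := by simp
  map_mul' a b := by simp [Finset.prod_mul_distrib]

theorem normG_apply (m : Mer) : normG α hα m = ∏ x : X, compMGL (α x) (hα x) m := rfl

theorem normG_ne_zero {m : Mer} (hm : m ≠ 0) : normG α hα m ≠ 0 := by
  rw [normG_apply]
  exact Finset.prod_ne_zero_iff.mpr fun x _ =>
    (map_ne_zero_iff _ (compMGL_injective _ _)).mpr hm

theorem ordM_normG {m : Mer} (hm : m ≠ 0) (τ : ℍ) :
    ordM τ (normG α hα m) = ∑ x : X, ordM (α x • τ) m := by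
  rw [normG_apply]
  have key : ∀ s : Finset X,
      ordM τ (∏ x ∈ s, compMGL (α x) (hα x) m) = ∑ x ∈ s, ordM (α x • τ) m := by
    intro s
    classical
    induction s using Finset.induction_on with
    | empty =>
      rw [Finset.prod_empty, Finset.sum_empty]
      have := ordM_const τ (one_ne_zero : (1 : ℂ) ≠ 0)
      rwa [map_one] at this
    | insert i s hi ih =>
      rw [Finset.prod_insert hi, Finset.sum_insert hi,
        ordM_mul τ ((map_ne_zero_iff _ (compMGL_injective _ _)).mpr hm)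
          (Finset.prod_ne_zero_iff.mpr fun x _ =>
            (map_ne_zero_iff _ (compMGL_injective _ _)).mpr hm), ih, ordM_compMGL]
  exact key Finset.univ

theorem normG_const (c : ℂ) :
    normG α hα (algebraMap ℂ Mer c) = algebraMap ℂ Mer (c ^ Fintype.card X) := by
  rw [normG_apply]
  simp only [compMGL_const, Finset.prod_const, Finset.card_univ]
  rw [map_pow]

theorem normG_pow (m : Mer) (n : ℕ) : normG α hα (m ^ n) = normG α hα m ^ n :=
  map_pow _ _ _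

/-- **Multiplier of the norm**, multiplicative form. -/
theorem compM_normG (h : Mer) (χ : Γ → ℂ)
    (hχ : ∀ γ : Γ, compM (γ : SL(2, ℤ)) h = algebraMap ℂ Mer (χ γ) * h)
    (γ : Γ) (σ : Equiv.Perm X) (t : X → Γ)
    (hmul : ∀ x, α x * mapGL ℝ (γ : SL(2, ℤ)) = mapGL ℝ ((t x : Γ) : SL(2, ℤ)) * α (σ x)) :
    compM (γ : SL(2, ℤ)) (normG α hα h)
      = algebraMap ℂ Mer (∏ x, χ (t x)) * normG α hα h :=
  compM_prod_compMGL_G α hα h χ hχ γ σ t hmul

/-- **Multiplier of the norm**, additive form: if `h` has multiplier `ζ^ψ` on `Γ` then, under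
`γ`, `normG α h` is multiplied by `ζ^(∑ₓ ψ(t_x))`. -/
theorem compM_normG_zmod {p : ℕ} [NeZero p] {ζ : ℂ} (hζ : ζ ^ p = 1) (h : Mer)
    (ψ : Additive Γ →+ ZMod p) (hψ : HasMultG Γ ζ ψ h)
    (γ : Γ) (σ : Equiv.Perm X) (t : X → Γ)
    (hmul : ∀ x, α x * mapGL ℝ (γ : SL(2, ℤ)) = mapGL ℝ ((t x : Γ) : SL(2, ℤ)) * α (σ x)) :
    compM (γ : SL(2, ℤ)) (normG α hα h)
      = algebraMap ℂ Mer (zmodPow ζ (∑ x, ψ (Additive.ofMul (t x)))) * normG α hα h := by
  rw [compM_normG α hα h (fun γ => zmodPow ζ (ψ (Additive.ofMul γ))) hψ γ σ t hmul,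
    zmodPow_sum hζ]

/-- `Γ`-invariant functions are mapped to `Γ`-invariant functions by the norm of a family of
representatives permuted by `Γ`. -/
theorem compM_normG_of_invariant (f : Mer) (hf : ∀ γ : Γ, compM (γ : SL(2, ℤ)) f = f)
    (γ : Γ) (σ : Equiv.Perm X) (t : X → Γ)
    (hmul : ∀ x, α x * mapGL ℝ (γ : SL(2, ℤ)) = mapGL ℝ ((t x : Γ) : SL(2, ℤ)) * α (σ x)) :
    compM (γ : SL(2, ℤ)) (normG α hα f) = normG α hα f := by
  have := compM_normG α hα f (fun _ => 1) (fun γ => by rw [hf γ, map_one, one_mul]) γ σ t hmul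
  rwa [Finset.prod_const_one, map_one, one_mul] at this

/-- **Multiplier of the norm**, bundled: if the representatives satisfy
`α_x γ = coc γ x · α_{perm γ x}` for every `γ ∈ Γ`, and `ψ'` is the transfer sum
`γ ↦ ∑ₓ ψ (coc γ x)`, then `normG α h` has multiplier `ζ^ψ'`. -/
theorem HasMultG.normG {p : ℕ} [NeZero p] {ζ : ℂ} (hζ : ζ ^ p = 1) {h : Mer}
    {ψ : Additive Γ →+ ZMod p} (H : HasMultG Γ ζ ψ h)
    (perm : Γ → Equiv.Perm X) (coc : Γ → X → Γ)
    (hrel : ∀ (γ : Γ) (x : X), α x * mapGL ℝ (γ : SL(2, ℤ))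
      = mapGL ℝ ((coc γ x : Γ) : SL(2, ℤ)) * α (perm γ x))
    (ψ' : Additive Γ →+ ZMod p)
    (hψ' : ∀ γ : Γ, ψ' (Additive.ofMul γ) = ∑ x, ψ (Additive.ofMul (coc γ x))) :
    HasMultG Γ ζ ψ' (Fermat.Agent.DS.P3.HeckeMerG.normG α hα h) := by
  intro γ
  rw [hψ' γ]
  exact compM_normG_zmod α hα hζ h ψ H γ (perm γ) (coc γ) (hrel γ)

/-- **(K4)**, generic form: the norm of a Kummer datum for `ψ` along a family of representatives
is a Kummer datum for the transfer sum `ψ'`. -/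
theorem IsKumDatumG.normG {p : ℕ} [NeZero p] {F : Type*} [Field F] {real : F →+* Mer} {ζ : ℂ}
    (hζ : ζ ^ p = 1) {ψ : Additive Γ →+ ZMod p} {h : Mer} {u : F}
    (D : IsKumDatumG Γ real ζ ψ h u)
    (perm : Γ → Equiv.Perm X) (coc : Γ → X → Γ)
    (hrel : ∀ (γ : Γ) (x : X), α x * mapGL ℝ (γ : SL(2, ℤ))
      = mapGL ℝ ((coc γ x : Γ) : SL(2, ℤ)) * α (perm γ x))
    (ψ' : Additive Γ →+ ZMod p)
    (hψ' : ∀ γ : Γ, ψ' (Additive.ofMul γ) = ∑ x, ψ (Additive.ofMul (coc γ x)))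
    {Tu : F} (hTu : real Tu = Fermat.Agent.DS.P3.HeckeMerG.normG α hα (real u)) :
    IsKumDatumG Γ real ζ ψ' (Fermat.Agent.DS.P3.HeckeMerG.normG α hα h) Tu :=
  ⟨normG_ne_zero α hα D.1, HasMultG.normG α hα hζ D.2.1 perm coc hrel ψ' hψ', by
    rw [hTu, D.2.2, map_pow]⟩

end Norm

/-! ### Normalising elements (diamond operators) -/

section Conj

/-- If `σ ∈ SL(2,ℤ)` normalises `Γ` (in the sense `σ γ σ⁻¹ = c γ ∈ Γ`) and `h(γτ) = χ(γ) h(τ)`
on `Γ`, then `h ∘ σ` has multiplier `χ ∘ c`. -/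
theorem compM_conj_mult (σ : SL(2, ℤ)) (h : Mer) (χ : Γ → ℂ)
    (hχ : ∀ γ : Γ, compM (γ : SL(2, ℤ)) h = algebraMap ℂ Mer (χ γ) * h)
    (γ c : Γ) (hc : σ * (γ : SL(2, ℤ)) = (c : SL(2, ℤ)) * σ) :
    compM (γ : SL(2, ℤ)) (compM σ h) = algebraMap ℂ Mer (χ c) * compM σ h := by
  rw [← compM_mul, hc, compM_mul, hχ c, map_mul, compM_const]

/-- Additive form: `h ∘ σ` has multiplier `ζ^ψ'` with `ψ' γ = ψ (σ γ σ⁻¹)`. -/
theorem HasMultG.conj {p : ℕ} [NeZero p] {ζ : ℂ} {h : Mer} {ψ : Additive Γ →+ ZMod p}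
    (H : HasMultG Γ ζ ψ h) (σ : SL(2, ℤ)) (c : Γ → Γ)
    (hc : ∀ γ : Γ, σ * (γ : SL(2, ℤ)) = ((c γ : Γ) : SL(2, ℤ)) * σ)
    (ψ' : Additive Γ →+ ZMod p)
    (hψ' : ∀ γ : Γ, ψ' (Additive.ofMul γ) = ψ (Additive.ofMul (c γ))) :
    HasMultG Γ ζ ψ' (compM σ h) := by
  intro γ
  rw [hψ' γ]
  exact compM_conj_mult σ h (fun γ => zmodPow ζ (ψ (Additive.ofMul γ))) H γ (c γ) (hc γ)

/-- **(K4) for diamonds**, generic form. -/
theorem IsKumDatumG.conj {p : ℕ} [NeZero p] {F : Type*} [Field F] {real : F →+* Mer} {ζ : ℂ}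
    {ψ : Additive Γ →+ ZMod p} {h : Mer} {u : F} (D : IsKumDatumG Γ real ζ ψ h u)
    (σ : SL(2, ℤ)) (c : Γ → Γ)
    (hc : ∀ γ : Γ, σ * (γ : SL(2, ℤ)) = ((c γ : Γ) : SL(2, ℤ)) * σ)
    (ψ' : Additive Γ →+ ZMod p)
    (hψ' : ∀ γ : Γ, ψ' (Additive.ofMul γ) = ψ (Additive.ofMul (c γ)))
    {Du : F} (hDu : real Du = compM σ (real u)) :
    IsKumDatumG Γ real ζ ψ' (compM σ h) Du :=
  ⟨(map_ne_zero_iff _ (compM σ).injective).mpr D.1, HasMultG.conj D.2.1 σ c hc ψ' hψ', by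
    rw [hDu, D.2.2, map_pow]⟩

/-- `Γ`-invariant functions are mapped to `Γ`-invariant functions by a normalising element. -/
theorem compM_conj_of_invariant (σ : SL(2, ℤ)) (f : Mer)
    (hf : ∀ γ : Γ, compM (γ : SL(2, ℤ)) f = f)
    (γ c : Γ) (hc : σ * (γ : SL(2, ℤ)) = (c : SL(2, ℤ)) * σ) :
    compM (γ : SL(2, ℤ)) (compM σ f) = compM σ f := by
  have := compM_conj_mult σ f (fun _ => 1) (fun γ => by rw [hf γ, map_one, one_mul]) γ c hc
  rwa [map_one, one_mul] at this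

end Conj

end Fermat.Agent.DS.P3.HeckeMerG
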