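/-
GATE-N / S48 J1-port, P3, leaf S48-P3-HN1Q1, PLUG (helper86): the binder `hHNT` of helper94's
`EigFinal2.eig1All2_bcG` / `eig1All2_Gamma1` VERBATIM (general representatives `σT`, `σT'`, `σD'`),
from the SAME hypotheses `hreal`, `hquot`, `hHND` of that theorem plus the expansion bridge
(EXP) `MerCE 1 (realC f) f` (helper16 `DS/P1/ExpBridge.merCE_realOf`).

So (HN1Q1) is no longer an input of P3-FINAL: `eig1All2_bcG_of_exp`.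
-/
import Mathlib
import Fermat.Agent.DS.P3.HNAsm
import Fermat.Agent.DS.P3.EigFinal2

set_option autoImplicit false
set_option linter.unusedSectionVars false

open Complex ModularCurve ModularForm CongruenceSubgroup AlgebraicCurve
open UpperHalfPlane hiding I
open scoped MatrixGroups Manifold Real

noncomputable section

namespace Fermat.Agent.DS.P3.HNFinal

open Fermat.Agent.S24 Fermat.Agent.S24_helper82 Fermat.Agent.S28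
open Fermat.Agent.GJ.HeckeMer Fermat.Agent.GJ.TwEis Fermat.Agent.GJ.Kum Fermat.Agent.GJ.Desc
open Fermat.Agent.GJ.KumGroup Fermat.Agent.GJ.Dict.FieldGen
open Fermat.Agent.DS.P3 Fermat.Agent.DS.P3.HeckeMerG Fermat.Agent.DS.P3.HeckeMer1
open Fermat.Agent.DS.P3.HNMem Fermat.Agent.DS.P3.HNBridge Fermat.Agent.DS.P3.TwEisG
open Fermat.Agent.DS.P3.HNAsm Fermat.Agent.DS.P3.Sat1 Fermat.Agent.DS.P3.EigFinalHyp
open Fermat.Agent.DS.N0 Fermat.Agent.DS.ES Fermat.Agent.DS.P5 Fermat.Agent.DS.P5.KumType1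
open Fermat.Agent.DS.P3.Desc1G Fermat.Agent.DS.P3.EigFinal2 Fermat.Agent.DS.P3.EigFinal1
open Fermat.Agent.DS.P5.Final Fermat.Agent.DS.P5.Final2 Fermat.Agent.DS.P3.PDiv1

attribute [local instance] Fermat.Agent.GJ.EigAsm.algKbC

variable {F₀ : IntermediateField ℚ (LaurentSeries ℚ)} {M : ℕ} [NeZero M] {p : ℕ} [Fact p.Prime]
  {dia : (ZMod M)ˣ → (FL F₀ ≃ₐ[Kb] FL F₀)}

/-- helper16's quotient hypothesis gives helper42's -/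
theorem quotHol_of_quotHyp {Γ : Subgroup SL(2, ℤ)} {N : ℕ} [NeZero N] {F : Type*} [Field F]
    {real : F →+* Mer} (h : QuotHyp Γ N real) : QuotHol Γ N real := by
  intro f
  obtain ⟨H, Q, hH, hQ, hQ0, hrel⟩ := h f
  have hQ' : algebraMap Hol Mer Q ≠ 0 := algebraMap_ne_zero hQ0
  exact ⟨H, Q, hQ0, hH.2, hQ.2, hH.1, hQ.1, by rw [eq_div_iff hQ', mul_comm, hrel]⟩

/-- **the binder `hHNT` of `EigFinal2.eig1All2_bcG` VERBATIM.** -/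
theorem hHNT_bcG (realC : ↥(laurentBaseChange ℂ F₀) →+* Mer)
    (hexp : ∀ f : ↥(laurentBaseChange ℂ F₀), MerCE 1 (realC f) (f : LaurentSeries ℂ))
    (hreal : FieldGenHol (Gamma1 M) M realC) (hquot : QuotHyp (Gamma1 M) M realC)
    (σT : PrimeIdx M p → SL(2, ℤ)) (hσT0 : ∀ ℓ, (M : ℤ) ∣ σT ℓ 1 0)
    (hσT1 : ∀ ℓ : PrimeIdx M p, ((σT ℓ 1 1 : ℤ) : ZMod M) = (ℓ.1 : ZMod M))
    (σT' : PrimeIdx M p → SL(2, ℤ)) (hσT'0 : ∀ ℓ, (M : ℤ) ∣ σT' ℓ 1 0)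
    (hσT'1 : ∀ ℓ : PrimeIdx M p, ((σT' ℓ 1 1 : ℤ) : ZMod M) =
      (((unitOfPrime ℓ.2.1 (not_dvd_left_of_not_dvd_mul ℓ.2.2))⁻¹ : (ZMod M)ˣ) : ZMod M))
    (σD' : (ZMod M)ˣ → SL(2, ℤ)) (hσD'0 : ∀ d, (M : ℤ) ∣ σD' d 1 0)
    (hσD'1 : ∀ d : (ZMod M)ˣ, ((σD' d 1 1 : ℤ) : ZMod M) = ((d⁻¹ : (ZMod M)ˣ) : ZMod M))
    (hHND : ∀ (d : (ZMod M)ˣ) (u : FL F₀),
      realC (bcG F₀ (dia d u)) = compM (σD' d) (realC (bcG F₀ u))) :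
    ∀ (ℓ : PrimeIdx M p) (u : FL F₀), u ≠ 0 → ∃ Tu : FL F₀,
      ((Tu : FL F₀) : LaurentSeries Kb) =
        @hn1Series F₀ ℓ.1 ⟨ℓ.2.1.ne_zero⟩
          (diaP dia ℓ.2.1 (not_dvd_left_of_not_dvd_mul ℓ.2.2)) u ∧
      realC (bcG F₀ Tu) =
        @heckeNormT1 ℓ.1 ⟨ℓ.2.1.ne_zero⟩ (σT ℓ) (compM (σT' ℓ) (realC (bcG F₀ u))) := by
  intro ℓ u _
  have : Fact ℓ.1.Prime := ⟨ℓ.2.1⟩
  have hℓM : ¬ ℓ.1 ∣ M := not_dvd_left_of_not_dvd_mul ℓ.2.2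
  have hq := quotHol_of_quotHyp hquot
  have hinv : ∀ (f : ↥(laurentBaseChange ℂ F₀)) (γ : Gamma1 M),
      compM (γ : SL(2, ℤ)) (realC f) = realC f :=
    fun f γ => compM_real_of_quotHol hq f γ.2
  refine exists_hn1 F₀ realC hexp hreal hq hℓM (σ := σT ℓ) (σ' := σT' ℓ)
    ⟨hσT0 ℓ, hσT1 ℓ⟩ (hσT'0 ℓ) ?_ (diaP dia ℓ.2.1 hℓM) (fun v => ?_) u
  · rw [hσT'1 ℓ, ← coe_unitOfPrime ℓ.2.1 hℓM, ← Units.val_mul, inv_mul_cancel, Units.val_one]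
  · show realC (bcG F₀ (dia (unitOfPrime ℓ.2.1 hℓM) v)) = _
    rw [hHND]
    exact diaNorm_congr (Fermat.Agent.DS.Hecke.mem_Gamma0_iff_dvd.2 (hσT'0 ℓ))
      (Fermat.Agent.DS.Hecke.mem_Gamma0_iff_dvd.2 (hσD'0 _))
      ((hσD'1 _).trans (hσT'1 ℓ).symm) _ (hinv _)

/-- **helper94's `EigFinal2.eig1All2_bcG` with (HN1Q1) DISCHARGED**: the export of P3 in the
moduli convention from the P1 inputs on `realC : ℂ · F₀ →+* Mer` ((P1b) field generation +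
quotient presentation, (P1c), (P1d) = the expansion bridge `hexp`, (P1e) = `hHND`) and the
dictionary. -/
theorem eig1All2_bcG_of_exp (hM : 4 ≤ M) (S : Set ℕ)
    (realC : ↥(laurentBaseChange ℂ F₀) →+* Mer) (jF : ↥(laurentBaseChange ℂ F₀))
    -- (P1b)
    (hreal : FieldGenHol (Gamma1 M) M realC) (hquot : QuotHyp (Gamma1 M) M realC)
    -- (P1c)
    (x₀ : FL F₀) [IsGen Kb x₀] (hq : ∃ f ∈ F₀, f.order ≠ 0)
    -- (P1d)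
    (hexp : ∀ f : ↥(laurentBaseChange ℂ F₀), MerCE 1 (realC f) (f : LaurentSeries ℂ))
    -- (DICT)
    (hI : IntDict (Gamma1 M) realC jF) (hC : CuspDict (Gamma1 M) realC jF)
    (hE1 : FinC1.E1 realC)
    -- the representatives
    (σT : PrimeIdx M p → SL(2, ℤ)) (hσT0 : ∀ ℓ, (M : ℤ) ∣ σT ℓ 1 0)
    (hσT1 : ∀ ℓ : PrimeIdx M p, ((σT ℓ 1 1 : ℤ) : ZMod M) = (ℓ.1 : ZMod M))
    (σT' : PrimeIdx M p → SL(2, ℤ)) (hσT'0 : ∀ ℓ, (M : ℤ) ∣ σT' ℓ 1 0)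
    (hσT'1 : ∀ ℓ : PrimeIdx M p, ((σT' ℓ 1 1 : ℤ) : ZMod M) =
      (((unitOfPrime ℓ.2.1 (not_dvd_left_of_not_dvd_mul ℓ.2.2))⁻¹ : (ZMod M)ˣ) : ZMod M))
    (σD' : (ZMod M)ˣ → SL(2, ℤ)) (hσD'0 : ∀ d, (M : ℤ) ∣ σD' d 1 0)
    (hσD'1 : ∀ d : (ZMod M)ˣ, ((σD' d 1 1 : ℤ) : ZMod M) = ((d⁻¹ : (ZMod M)ˣ) : ZMod M))
    -- (P1e)
    (hHND : ∀ (d : (ZMod M)ˣ) (u : FL F₀),
      realC (bcG F₀ (dia d u)) = compM (σD' d) (realC (bcG F₀ u)))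
    (hS : ∀ ℓ : ℕ, ℓ.Prime → ¬ ℓ ∣ M * p → ℓ ∉ S) :
    EIG1All2' F₀ p dia S :=
  eig1All2_bcG hM S realC jF hreal hquot x₀ hq hI hC hE1 σT hσT0 hσT1 σT' hσT'0 hσT'1
    σD' hσD'0 hσD'1
    (hHNT_bcG realC hexp hreal hquot σT hσT0 hσT1 σT' hσT'0 hσT'1 σD' hσD'0 hσD'1 hHND)
    hHND hS

end Fermat.Agent.DS.P3.HNFinal
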