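/-
S48 / GATE-N, leaf S48-P3-HN1Q1-MEM, `Γ₁(M)` instance (helper42): the Hecke representatives
`rep1 ℓ σ x` are integral, hence (membership half of (HN)) the analytic Hecke norm
`heckeNormT1 ℓ σ` of a realised function is realised:
`heckeNormT1 ℓ σ (real f) ∈ Set.range real`, from `FieldGenHol (Gamma1 M) N real` +
`QuotHol (Gamma1 M) N real`.
-/
import Mathlib
import Fermat.Agent.DS.P3.HNMem

set_option autoImplicit false
set_option linter.unusedSectionVars false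

open UpperHalfPlane CongruenceSubgroup
open scoped MatrixGroups

noncomputable section

namespace Fermat.Agent.DS.P3.HNMem1

open Fermat.Agent.S24_helper82 Fermat.Agent.GJ.HeckeMer
open Fermat.Agent.DS.P3 Fermat.Agent.DS.P3.HeckeMerG Fermat.Agent.DS.P3.HeckeMerSys
open Fermat.Agent.DS.P3.HeckeMer1 Fermat.Agent.DS.P3.HNMem Fermat.Agent.DS.P3.TwEisG
open Fermat.Agent.DS.N0 Fermat.Agent.DS.ES Fermat.Agent.DS.P3.Coh1
open Matrix.SpecialLinearGroup ModularForm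

theorem isIntGL_heckeMatrix {ℓ : ℕ} (hℓ : ℓ ≠ 0) (j : ℕ) : IsIntGL (heckeMatrix ℓ j) := by
  refine ⟨?_, fun a b => ?_⟩
  · rw [val_heckeMatrix hℓ, Matrix.det_fin_two_of]
    have : (0 : ℝ) < (ℓ : ℝ) := Nat.cast_pos.mpr (Nat.pos_of_ne_zero hℓ)
    simpa using this
  · rw [val_heckeMatrix hℓ]
    fin_cases a <;> fin_cases b
    · exact ⟨1, by simp⟩
    · exact ⟨(j : ℤ), by simp⟩
    · exact ⟨0, by simp⟩
    · exact ⟨(ℓ : ℤ), by simp⟩

theorem isIntGL_heckeDiagMatrix {ℓ : ℕ} (hℓ : ℓ ≠ 0) : IsIntGL (heckeDiagMatrix ℓ) := by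
  refine ⟨?_, fun a b => ?_⟩
  · rw [val_heckeDiagMatrix hℓ, Matrix.det_fin_two_of]
    have : (0 : ℝ) < (ℓ : ℝ) := Nat.cast_pos.mpr (Nat.pos_of_ne_zero hℓ)
    simpa using this
  · rw [val_heckeDiagMatrix hℓ]
    fin_cases a <;> fin_cases b
    · exact ⟨(ℓ : ℤ), by simp⟩
    · exact ⟨0, by simp⟩
    · exact ⟨0, by simp⟩
    · exact ⟨1, by simp⟩

/-- the Hecke representatives of `T_ℓ` on `Γ₁(M)` are integral of positive determinant -/
theorem isIntGL_rep1 {ℓ : ℕ} (hℓ : ℓ ≠ 0) (σ : SL(2, ℤ)) (x : OnePoint (ZMod ℓ)) :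
    IsIntGL (rep1 ℓ σ x) := by
  induction x using OnePoint.rec with
  | infty =>
    rw [rep1_infty]
    exact (isIntGL_mapGL σ).mul (isIntGL_heckeDiagMatrix hℓ)
  | coe j =>
    rw [rep1_coe]
    exact isIntGL_heckeMatrix hℓ j.val

variable {M : ℕ} {ℓ : ℕ} [Fact ℓ.Prime] {N : ℕ} [NeZero N] {F : Type*} [Field F]
  {real : F →+* Mer}

/-- **(MEM) for `T_ℓ` on `Γ₁(M)`**: the analytic Hecke norm of a realised function is realised. -/
theorem heckeNormT1_real_mem_range (hℓM : ¬ ℓ ∣ M) (σ : SL(2, ℤ)) (hσ0 : (M : ℤ) ∣ σ 1 0)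
    (hσ1 : ((σ 1 1 : ℤ) : ZMod M) = (ℓ : ZMod M))
    (hreal : FieldGenHol (Gamma1 M) N real) (hq : QuotHol (Gamma1 M) N real) (f : F) :
    heckeNormT1 ℓ σ (real f) ∈ Set.range real :=
  merSys_real_mem_range (sysT hℓM σ hσ0 hσ1) (det_rep1_pos ℓ σ) hreal hq
    (fun x => isIntGL_rep1 (Fact.out : ℓ.Prime).ne_zero σ x) f

/-- **(MEM) for the diamonds on `Γ₁(M)`**: the translate of a realised function by `σ ∈ Γ₀(M)` is
realised. -/
theorem diaNorm_real_mem_range (σ : SL(2, ℤ)) (hσ0 : (M : ℤ) ∣ σ 1 0)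
    (hreal : FieldGenHol (Gamma1 M) N real) (hq : QuotHol (Gamma1 M) N real) (f : F) :
    compM σ (real f) ∈ Set.range real :=
  compM_real_mem_range hreal hq σ (fun _ hγ => Fermat.Agent.DS.N0.conj_mem_Gamma1 hσ0 hγ) f

end Fermat.Agent.DS.P3.HNMem1
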