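/-
S48 / GATE-N, node S48-P3-ZSTR1 (helper42): `Γ₁(N)` (and every finite-index subgroup of `SL(2, ℤ)`)
is finitely generated; the `ZStructGen` integral basis of `Hom_par(Γ₁(N), -)`.

Twin of `S22_helper71/Gamma0FG.lean` + the first half of `GJ/J2/ZStruct.lean` (the genus / rank
statements of the latter are NOT needed for `EIG1`).  Consumer: helper70's `DS/P3/Lat/LatAbs.lean`
(`[Group.FG G]` at `G := Gamma1 N`).
-/
import Mathlib
import Fermat.Prelude.Def_ModularCurve_PeriodMap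
import Fermat.Agent.S22_helper71.Gamma0FG
import Fermat.Agent.GJ.J2.ZStructGen

set_option autoImplicit false

open scoped MatrixGroups
open CongruenceSubgroup ModularCurve.Period

namespace Fermat.Agent.DS.P3.ZStr1

/-- every finite-index subgroup of `SL(2, ℤ)` is finitely generated (Schreier) -/
theorem fg_of_finiteIndex (Γ : Subgroup SL(2, ℤ)) [Γ.FiniteIndex] : Group.FG Γ := by
  have := Fermat.Agent.S22_helper71.sl2z_fg
  exact Subgroup.fg_of_index_ne_zero _

instance gamma1_fg (N : ℕ) [NeZero N] : Group.FG (Gamma1 N) := fg_of_finiteIndex _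

theorem gamma1_subgroup_fg (N : ℕ) [NeZero N] : (Gamma1 N).FG :=
  (Group.fg_iff_subgroup_fg _).mp (gamma1_fg N)

/-- the parabolic elements of a subgroup of `SL(2, ℤ)` -/
def parSet (Γ : Subgroup SL(2, ℤ)) : Set Γ :=
  {g | ((g : SL(2, ℤ)) : Matrix (Fin 2) (Fin 2) ℤ).trace ^ 2 = 4}

theorem mem_parSet {Γ : Subgroup SL(2, ℤ)} {g : Γ} :
    g ∈ parSet Γ ↔ ((g : SL(2, ℤ)) : Matrix (Fin 2) (Fin 2) ℤ).trace ^ 2 = 4 := Iff.rfl

/-- `IsParabolicHom` is "kills the parabolic set" (in the `ZStructGen` vocabulary) -/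
theorem isParabolicHom_iff_killsOn {Γ : Subgroup SL(2, ℤ)} {A : Type*} [AddCommGroup A]
    (φ : Additive Γ →+ A) :
    IsParabolicHom Γ φ ↔ Fermat.Agent.GJ.J2.ZStruct.KillsOn (parSet Γ) φ := Iff.rfl

/-- the expansion of a parabolic homomorphism of `Γ₁(N)` into a torsion-free group on the integral
basis `PhiB`, `betaB` of `ZStructGen` -/
theorem expansion_gamma1 (N : ℕ) [NeZero N] {A : Type*} [AddCommGroup A]
    (hA : ∀ (n : ℤ) (a : A), n ≠ 0 → n • a = 0 → a = 0)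
    (φ : Additive (Gamma1 N) →+ A) (hφ : IsParabolicHom (Gamma1 N) φ)
    (γ : Additive (Gamma1 N)) :
    φ γ = ∑ i, Fermat.Agent.GJ.J2.ZStruct.PhiB (parSet (Gamma1 N)) i γ •
      φ (Fermat.Agent.GJ.J2.ZStruct.betaB (parSet (Gamma1 N)) i) :=
  Fermat.Agent.GJ.J2.ZStruct.expansion (parSet (Gamma1 N)) hA φ hφ γ

theorem PhiB_isParabolicHom (N : ℕ) [NeZero N]
    (i : Fermat.Agent.GJ.J2.ZStruct.Idx (parSet (Gamma1 N))) :
    IsParabolicHom (Gamma1 N) (Fermat.Agent.GJ.J2.ZStruct.PhiB (parSet (Gamma1 N)) i) :=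
  Fermat.Agent.GJ.J2.ZStruct.PhiB_kills (parSet (Gamma1 N)) i

end Fermat.Agent.DS.P3.ZStr1
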