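/-
GATE-N / S48 J1-port, P3, leaf S48-P3-PDIV1, adapter for DICT-CUSP (helper75): from ABSTRACT cusp
data in the `GJ/J2/Dict/CuspC` shape — cusp embeddings `σ q : F → ℂ((t))` (`t = 𝕢_N`) indexed by the
cosets `q ∈ SL(2,ℤ) ⧸ Γ'`, places `pl q`, multiplicities `mult q` with
`(σ q f).order = mult q * (pl q).ord f`, `mult q * width q = N`, exhaustion — to
`PDiv1.CuspDict Γ real jF` (hence to the cusp half of (P)).  Γ-generic twin of the set-up part of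
`GJ/J2/PDivC.dvd_ord_cuspPlaceC`.
-/
import Fermat.Agent.DS.P3.PDiv1

set_option autoImplicit false
set_option linter.unusedSectionVars false

open Complex UpperHalfPlane AlgebraicCurve MulAction
open scoped MatrixGroups
open Fermat.Agent.S24_helper82 Fermat.Agent.GJ.Root Fermat.Agent.GJ.HeckeMer

namespace Fermat.Agent.DS.P3.PDiv1CuspData

open Fermat.Agent.DS.P3.KumCoreG Fermat.Agent.DS.P3.PDiv1
open Fermat.Agent.GJ.TwEis (MerCE)
open ModularCurve.Period (IsParabolicHom)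

noncomputable section

/-- `g ^ (size of the ⟨g⟩-orbit of a)` fixes `a`. -/
theorem pow_card_orbit_zpowers_smul {G α : Type*} [Group G] [MulAction G α] (g : G) (a : α)
    [Finite (orbit (Subgroup.zpowers g) a)] :
    g ^ Nat.card (orbit (Subgroup.zpowers g) a) • a = a := by
  have := Fintype.ofFinite (orbit (Subgroup.zpowers g) a)
  rw [Nat.card_eq_fintype_card, ← MulAction.minimalPeriod_eq_card,
    ← MulAction.period_eq_minimalPeriod]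
  exact MulAction.pow_period_smul g a

/-- a coset `a Γ'` fixed by `s` gives `a⁻¹ s a ∈ Γ'`. -/
theorem conj_mem_of_smul_coset_eq {Γ' : Subgroup SL(2, ℤ)} {s a : SL(2, ℤ)}
    (hi : s • (a : SL(2, ℤ) ⧸ Γ') = (a : SL(2, ℤ) ⧸ Γ')) : a⁻¹ * s * a ∈ Γ' := by
  rw [MulAction.Quotient.smul_mk, QuotientGroup.eq, smul_eq_mul] at hi
  have := inv_mem hi
  simpa [mul_assoc] using this

variable {Γ Γ' : Subgroup SL(2, ℤ)} {F : Type*} [Field F] [Algebra ℂ F] {real : F →+* Mer}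
  {jF : F} {N : ℕ} [NeZero N]

/-- **abstract cusp data ⟹ `CuspDict`**. -/
theorem cuspDict_of_cuspData
    (hreg : ∀ (g : SL(2, ℤ)) (w : ℕ), g * ModularGroup.T ^ w * g⁻¹ ∈ Γ' →
      g * ModularGroup.T ^ w * g⁻¹ ∈ Γ)
    (σ : SL(2, ℤ) ⧸ Γ' → F → LaurentSeries ℂ) (pl : SL(2, ℤ) ⧸ Γ' → Place ℂ F)
    (mult : SL(2, ℤ) ⧸ Γ' → ℤ)
    (hmer : ∀ (a : SL(2, ℤ)) (f : F),
      MerCE (N : ℝ) (compM a⁻¹ (real f)) (σ (a : SL(2, ℤ) ⧸ Γ') f))
    (hσ0 : ∀ q f, f ≠ 0 → σ q f ≠ 0)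
    (hord : ∀ q f, f ≠ 0 → (σ q f).order = mult q * (pl q).ord f)
    (hpos : ∀ q, 0 < mult q)
    (hfin : ∀ q : SL(2, ℤ) ⧸ Γ', Finite (orbit (Subgroup.zpowers ModularGroup.T) q))
    (hwidth : ∀ q : SL(2, ℤ) ⧸ Γ',
      mult q * (Nat.card (orbit (Subgroup.zpowers ModularGroup.T) q) : ℤ) = N)
    (hex : ∀ Q : Place ℂ F, Q.ord jF < 0 → ∃ q, Q = pl q) :
    CuspDict Γ real jF := by
  apply cuspDict_of_merCE
  intro Q hQ
  obtain ⟨q, rfl⟩ := hex Q hQ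
  set w : ℕ := Nat.card (orbit (Subgroup.zpowers ModularGroup.T) q) with hw
  set e : ℕ := (mult q).toNat with he
  have hee : (e : ℤ) = mult q := Int.toNat_of_nonneg (hpos q).le
  have he0 : 0 < e := by
    have : (0 : ℤ) < (e : ℤ) := by rw [hee]; exact hpos q
    exact_mod_cast this
  have hwN : w * e = N := by
    have h1 := hwidth q
    rw [← hw] at h1
    have : ((w * e : ℕ) : ℤ) = (N : ℤ) := by
      push_cast
      rw [hee, mul_comm]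
      exact h1
    exact_mod_cast this
  have hw0 : 0 < w := by
    rcases Nat.eq_zero_or_pos w with h0 | h0
    · rw [h0, zero_mul] at hwN
      exact absurd hwN.symm (NeZero.ne N)
    · exact h0
  set a : SL(2, ℤ) := Quotient.out q with ha
  have haq : ((a : SL(2, ℤ)) : SL(2, ℤ) ⧸ Γ') = q := QuotientGroup.out_eq' q
  have hfixq : ModularGroup.T ^ w • q = q :=
    @pow_card_orbit_zpowers_smul _ _ _ _ ModularGroup.T q (hfin q)
  have hmem' : a⁻¹ * ModularGroup.T ^ w * a⁻¹⁻¹ ∈ Γ' := by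
    rw [inv_inv]
    apply conj_mem_of_smul_coset_eq
    rw [haq]
    exact hfixq
  refine ⟨a⁻¹, w, e, hw0, he0, hreg _ _ hmem', fun u hu => ?_⟩
  refine ⟨σ q u, hσ0 q u hu, ?_, ?_⟩
  · rw [hwN]
    have h1 := hmer a u
    rwa [haq] at h1
  · rw [hord q u hu, hee]

/-- the same for `Γ'` of finite index (no orbit-finiteness hypothesis). -/
theorem cuspDict_of_cuspData_finiteIndex [Γ'.FiniteIndex]
    (hreg : ∀ (g : SL(2, ℤ)) (w : ℕ), g * ModularGroup.T ^ w * g⁻¹ ∈ Γ' →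
      g * ModularGroup.T ^ w * g⁻¹ ∈ Γ)
    (σ : SL(2, ℤ) ⧸ Γ' → F → LaurentSeries ℂ) (pl : SL(2, ℤ) ⧸ Γ' → Place ℂ F)
    (mult : SL(2, ℤ) ⧸ Γ' → ℤ)
    (hmer : ∀ (a : SL(2, ℤ)) (f : F),
      MerCE (N : ℝ) (compM a⁻¹ (real f)) (σ (a : SL(2, ℤ) ⧸ Γ') f))
    (hσ0 : ∀ q f, f ≠ 0 → σ q f ≠ 0)
    (hord : ∀ q f, f ≠ 0 → (σ q f).order = mult q * (pl q).ord f)
    (hpos : ∀ q, 0 < mult q)
    (hwidth : ∀ q : SL(2, ℤ) ⧸ Γ',
      mult q * (Nat.card (orbit (Subgroup.zpowers ModularGroup.T) q) : ℤ) = N)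
    (hex : ∀ Q : Place ℂ F, Q.ord jF < 0 → ∃ q, Q = pl q) :
    CuspDict Γ real jF := by
  have hfinq : Finite (SL(2, ℤ) ⧸ Γ') := Subgroup.finite_quotient_of_finiteIndex
  exact cuspDict_of_cuspData hreg σ pl mult hmer hσ0 hord hpos
    (fun q => Subtype.finite) hwidth hex

/-- **cusp half of (P) from abstract cusp data**. -/
theorem dvd_ord_of_datum_cusp_of_cuspData [Γ'.FiniteIndex]
    (hreg : ∀ (g : SL(2, ℤ)) (w : ℕ), g * ModularGroup.T ^ w * g⁻¹ ∈ Γ' →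
      g * ModularGroup.T ^ w * g⁻¹ ∈ Γ)
    (σ : SL(2, ℤ) ⧸ Γ' → F → LaurentSeries ℂ) (pl : SL(2, ℤ) ⧸ Γ' → Place ℂ F)
    (mult : SL(2, ℤ) ⧸ Γ' → ℤ)
    (hmer : ∀ (a : SL(2, ℤ)) (f : F),
      MerCE (N : ℝ) (compM a⁻¹ (real f)) (σ (a : SL(2, ℤ) ⧸ Γ') f))
    (hσ0 : ∀ q f, f ≠ 0 → σ q f ≠ 0)
    (hord : ∀ q f, f ≠ 0 → (σ q f).order = mult q * (pl q).ord f)
    (hpos : ∀ q, 0 < mult q)
    (hwidth : ∀ q : SL(2, ℤ) ⧸ Γ',
      mult q * (Nat.card (orbit (Subgroup.zpowers ModularGroup.T) q) : ℤ) = N)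
    (hex : ∀ Q : Place ℂ F, Q.ord jF < 0 → ∃ q, Q = pl q)
    {p : ℕ} [NeZero p] {ζ : ℂ} {ψ : Additive ↥Γ →+ ZMod p} {h : Mer} {u : F}
    (D : IsKumDatumG Γ real ζ ψ h u) (hpar : IsParabolicHom Γ ψ)
    (Q : Place ℂ F) (hQ : Q.ord jF < 0) : (p : ℤ) ∣ Q.ord u :=
  dvd_ord_of_datum_cusp
    (cuspDict_of_cuspData_finiteIndex hreg σ pl mult hmer hσ0 hord hpos hwidth hex) D hpar Q hQ

end

end Fermat.Agent.DS.P3.PDiv1CuspData
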