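/-
S48 / GATE-N, port P3, leaf S48-P3-PER1-HECKE (helper18): the HECKE / DIAMOND EQUIVARIANCE of the
weight-two period map, in ABSTRACT-INTEGRAL form.

`PathInt Good I` axiomatises a weight-two path integral `I f a b = ∫_a^b f(z) dz` on a class
`Good` of functions on `ℍ` (e.g. holomorphic functions): additivity in the endpoints, additivity
in `f`, and the change of variables `I (f ∣[2] α) a b = I f (α a) (α b)` for `α ∈ GL(2, ℝ)⁺`.
Nothing else about the integral is used.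

* `perOf I f τ₀ γ := I f τ₀ (γ τ₀)` and, for `Γ`-invariant `f`, the homomorphism
  `perHom : Additive Γ →+ ℂ`;
* `perHom_sysSum` : for ANY Hecke correspondence `S : HeckeSys Γ` (helper42) with representatives
  of positive determinant, `per (∑ₓ f ∣[2] S.rep x) = S.coh ℂ (per f)` (telescoping);
* at `Γ₁(N)`: `per (T_ℓ f) = cohT1 ℂ hℓN (per f)`, `per (⟨d⟩ f) = diaCoh ℂ d (per f)` for
  `heckeT1Lin` / `diamondLin` of `DS/Hecke`, and the indexed form `per (opLin 2 i f) =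
  cohOp ℂ i (per f)` in the shape of `DS/P3/Lat/LatAbs.exists_eigenclass_abs` (P3), together with
  (O1), (O2) for `cohOp`.
-/
import Fermat.Agent.DS.P3.Coh1
import Fermat.Agent.DS.Hecke.HeckeAlgebra1Gen

set_option autoImplicit false
set_option linter.unusedSectionVars false

open CongruenceSubgroup Matrix.SpecialLinearGroup UpperHalfPlane ModularCurve.Period
open scoped MatrixGroups ModularForm

noncomputable section

namespace Fermat.Agent.DS.P3.Per1Hecke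

open Fermat.Agent.DS.P3 Fermat.Agent.DS.P3.Coh1 Fermat.Agent.DS.Hecke Fermat.Agent.DS.N0

/-! ### Abstract weight-two path integrals -/

/-- An abstract weight-two path integral on the class `Good` of functions. -/
structure PathInt (Good : (ℍ → ℂ) → Prop) (I : (ℍ → ℂ) → ℍ → ℍ → ℂ) : Prop where
  good_zero : Good 0
  good_add : ∀ f g, Good f → Good g → Good (f + g)
  good_slash : ∀ f, Good f → ∀ α : GL (Fin 2) ℝ, 0 < α.det.val → Good (f ∣[(2 : ℤ)] α)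
  /-- additivity in the endpoints (path independence) -/
  add : ∀ f, Good f → ∀ a b c : ℍ, I f a b + I f b c = I f a c
  /-- additivity in the integrand -/
  map_add : ∀ f g, Good f → Good g → ∀ a b : ℍ, I (f + g) a b = I f a b + I g a b
  /-- change of variables `z ↦ α z` in weight two -/
  slash : ∀ f, Good f → ∀ α : GL (Fin 2) ℝ, 0 < α.det.val → ∀ a b : ℍ,
    I (f ∣[(2 : ℤ)] α) a b = I f (α • a) (α • b)

namespace PathInt

variable {Good : (ℍ → ℂ) → Prop} {I : (ℍ → ℂ) → ℍ → ℍ → ℂ} (P : PathInt Good I)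
include P

theorem self {f : ℍ → ℂ} (hf : Good f) (a : ℍ) : I f a a = 0 := by
  have := P.add f hf a a a
  exact left_eq_add.mp this.symm |>.symm ▸ rfl

theorem symm {f : ℍ → ℂ} (hf : Good f) (a b : ℍ) : I f b a = - I f a b := by
  have h := P.add f hf a b a
  rw [P.self hf a] at h
  exact eq_neg_of_add_eq_zero_right h

theorem map_zero (a b : ℍ) : I 0 a b = 0 := by
  have h := P.map_add 0 0 P.good_zero P.good_zero a b
  rw [add_zero] at h
  exact left_eq_add.mp h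

theorem good_sum {X : Type*} (s : Finset X) (f : X → ℍ → ℂ) (hf : ∀ x ∈ s, Good (f x)) :
    Good (∑ x ∈ s, f x) := by
  classical
  induction s using Finset.induction_on with
  | empty => rw [Finset.sum_empty]; exact P.good_zero
  | insert i s hi ih =>
    rw [Finset.sum_insert hi]
    exact P.good_add _ _ (hf i (Finset.mem_insert_self i s))
      (ih fun x hx => hf x (Finset.mem_insert_of_mem hx))

theorem map_sum {X : Type*} (s : Finset X) (f : X → ℍ → ℂ) (hf : ∀ x ∈ s, Good (f x))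
    (a b : ℍ) : I (∑ x ∈ s, f x) a b = ∑ x ∈ s, I (f x) a b := by
  classical
  induction s using Finset.induction_on with
  | empty => rw [Finset.sum_empty, Finset.sum_empty]; exact P.map_zero a b
  | insert i s hi ih =>
    rw [Finset.sum_insert hi, Finset.sum_insert hi,
      P.map_add _ _ (hf i (Finset.mem_insert_self i s))
        (P.good_sum s f fun x hx => hf x (Finset.mem_insert_of_mem hx)),
      ih fun x hx => hf x (Finset.mem_insert_of_mem hx)]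

end PathInt

/-! ### Periods -/

/-- `Γ`-invariance in weight two. -/
def IsInv (Γ : Subgroup SL(2, ℤ)) (f : ℍ → ℂ) : Prop :=
  ∀ γ : SL(2, ℤ), γ ∈ Γ → f ∣[(2 : ℤ)] mapGL ℝ γ = f

/-- The period of `f` along `γ`, with base point `τ₀`. -/
def perOf (I : (ℍ → ℂ) → ℍ → ℍ → ℂ) (f : ℍ → ℂ) (τ₀ : ℍ) (γ : SL(2, ℤ)) : ℂ :=
  I f τ₀ (mapGL ℝ γ • τ₀)

theorem det_mapGL_pos (γ : SL(2, ℤ)) : 0 < (mapGL ℝ γ).det.val := by
  rw [Matrix.SpecialLinearGroup.det_mapGL]; exact one_pos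

section Per

variable {Good : (ℍ → ℂ) → Prop} {I : (ℍ → ℂ) → ℍ → ℍ → ℂ} (P : PathInt Good I)
variable {Γ : Subgroup SL(2, ℤ)}
include P

/-- translation of both endpoints by an element of `Γ` -/
theorem I_smul_smul {f : ℍ → ℂ} (hf : Good f) (hinv : IsInv Γ f) {γ : SL(2, ℤ)} (hγ : γ ∈ Γ)
    (a b : ℍ) : I f (mapGL ℝ γ • a) (mapGL ℝ γ • b) = I f a b := by
  rw [← P.slash f hf _ (det_mapGL_pos γ), hinv γ hγ]

theorem perOf_mul {f : ℍ → ℂ} (hf : Good f) (hinv : IsInv Γ f) (τ₀ : ℍ) {γ δ : SL(2, ℤ)}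
    (hγ : γ ∈ Γ) : perOf I f τ₀ (γ * δ) = perOf I f τ₀ γ + perOf I f τ₀ δ := by
  unfold perOf
  rw [← P.add f hf τ₀ (mapGL ℝ γ • τ₀) (mapGL ℝ (γ * δ) • τ₀), map_mul, mul_smul,
    I_smul_smul P hf hinv hγ]

/-- The period homomorphism of a `Γ`-invariant function. -/
def perHom {f : ℍ → ℂ} (hf : Good f) (hinv : IsInv Γ f) (τ₀ : ℍ) : Additive Γ →+ ℂ :=
  AddMonoidHom.mk' (fun γ => perOf I f τ₀ ((Additive.toMul γ : Γ) : SL(2, ℤ)))
    (fun γ _ => perOf_mul P hf hinv τ₀ (Additive.toMul γ : Γ).2)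

theorem perHom_apply {f : ℍ → ℂ} (hf : Good f) (hinv : IsInv Γ f) (τ₀ : ℍ) (γ : Γ) :
    perHom P hf hinv τ₀ (Additive.ofMul γ) = I f τ₀ (mapGL ℝ (γ : SL(2, ℤ)) • τ₀) := rfl

/-- independence of the base point -/
theorem perOf_base {f : ℍ → ℂ} (hf : Good f) (hinv : IsInv Γ f) (τ₀ τ₁ : ℍ) {γ : SL(2, ℤ)}
    (hγ : γ ∈ Γ) : perOf I f τ₁ γ = perOf I f τ₀ γ := by
  unfold perOf
  rw [← P.add f hf τ₁ τ₀ (mapGL ℝ γ • τ₁), ← P.add f hf τ₀ (mapGL ℝ γ • τ₀) (mapGL ℝ γ • τ₁),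
    I_smul_smul P hf hinv hγ, P.symm hf τ₀ τ₁]
  ring

/-! ### Hecke correspondences -/

variable (S : HeckeSys Γ)

/-- the sum of the translates of `f` over the representatives of `S` -/
def sysSum (f : ℍ → ℂ) : ℍ → ℂ := ∑ x : S.X, f ∣[(2 : ℤ)] S.rep x

omit P in
theorem isInv_sysSum {f : ℍ → ℂ} (hinv : IsInv Γ f) : IsInv Γ (sysSum S f) := by
  intro γ hγ
  unfold sysSum
  rw [SlashAction.sum_slash]
  have h1 : ∀ x : S.X, (f ∣[(2 : ℤ)] S.rep x) ∣[(2 : ℤ)] mapGL ℝ γ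
      = f ∣[(2 : ℤ)] S.rep (S.perm ⟨γ, hγ⟩ x) := by
    intro x
    rw [← SlashAction.slash_mul, S.c_rel ⟨γ, hγ⟩ x, SlashAction.slash_mul,
      hinv _ (S.c ⟨γ, hγ⟩ x).2]
  simp_rw [h1]
  exact Equiv.sum_comp (S.perm ⟨γ, hγ⟩) (fun x => f ∣[(2 : ℤ)] S.rep x)

theorem good_sysSum (hdet : ∀ x, 0 < (S.rep x).det.val) {f : ℍ → ℂ} (hf : Good f) :
    Good (sysSum S f) :=
  P.good_sum _ _ fun x _ => P.good_slash f hf _ (hdet x)

/-- **Telescoping**: the period of `∑ₓ f ∣ rep x` along `γ` is `∑ₓ per f (c γ x)`. -/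
theorem perOf_sysSum (hdet : ∀ x, 0 < (S.rep x).det.val) {f : ℍ → ℂ} (hf : Good f)
    (hinv : IsInv Γ f) (τ₀ : ℍ) (γ : Γ) :
    perOf I (sysSum S f) τ₀ (γ : SL(2, ℤ))
      = ∑ x : S.X, perOf I f τ₀ ((S.c γ x : Γ) : SL(2, ℤ)) := by
  unfold perOf sysSum
  rw [P.map_sum _ _ fun x _ => P.good_slash f hf _ (hdet x)]
  have h1 : ∀ x : S.X, I (f ∣[(2 : ℤ)] S.rep x) τ₀ (mapGL ℝ (γ : SL(2, ℤ)) • τ₀)
      = I f τ₀ (mapGL ℝ ((S.c γ x : Γ) : SL(2, ℤ)) • τ₀)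
        + (I f τ₀ (S.rep (S.perm γ x) • τ₀) - I f τ₀ (S.rep x • τ₀)) := by
    intro x
    rw [P.slash f hf _ (hdet x), ← mul_smul, S.c_rel γ x, mul_smul,
      ← P.add f hf (S.rep x • τ₀) τ₀ _,
      ← P.add f hf τ₀ (mapGL ℝ ((S.c γ x : Γ) : SL(2, ℤ)) • τ₀) _,
      I_smul_smul P hf hinv (S.c γ x).2, P.symm hf τ₀ (S.rep x • τ₀)]
    ring
  simp_rw [h1]
  rw [Finset.sum_add_distrib, Finset.sum_sub_distrib,
    Equiv.sum_comp (S.perm γ) (fun x => I f τ₀ (S.rep x • τ₀)), sub_self, add_zero]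

/-- **Equivariance, generic form**: `per (∑ₓ f ∣ rep x) = S.coh ℂ (per f)`. -/
theorem perHom_sysSum (hdet : ∀ x, 0 < (S.rep x).det.val) {f : ℍ → ℂ} (hf : Good f)
    (hinv : IsInv Γ f) (τ₀ : ℍ) :
    perHom P (good_sysSum P S hdet hf) (isInv_sysSum S hinv) τ₀
      = S.coh ℂ (perHom P hf hinv τ₀) := by
  refine AddMonoidHom.ext fun γ => ?_
  obtain ⟨γ, rfl⟩ : ∃ γ' : Γ, Additive.ofMul γ' = γ := ⟨Additive.toMul γ, rfl⟩
  rw [HeckeSys.coh_apply]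
  exact perOf_sysSum P S hdet hf hinv τ₀ γ

end Per

/-! ### `Γ₁(N)`: `T_ℓ` and the diamond operators -/

section Gamma1

variable {N : ℕ} [NeZero N]
variable {Good : (ℍ → ℂ) → Prop} {I : (ℍ → ℂ) → ℍ → ℍ → ℂ} (P : PathInt Good I)

omit [NeZero N] in
theorem isInv_cuspForm (f : CuspForm (Gamma1 N : Subgroup (GL (Fin 2) ℝ)) 2) :
    IsInv (Gamma1 N) (f : ℍ → ℂ) := fun _ hγ => isG1Inv_of_form f _ hγ

theorem det_rep1_pos (ℓ : ℕ) [NeZero ℓ] (σ : SL(2, ℤ)) (x : OnePoint (ZMod ℓ)) :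
    0 < (rep1 ℓ σ x).det.val := by
  induction x using OnePoint.rec with
  | infty =>
    rw [rep1_infty, map_mul, Units.val_mul]
    exact mul_pos (det_mapGL_pos σ) (ModularForm.det_heckeDiagMatrix_pos ℓ)
  | coe j => exact ModularForm.det_heckeMatrix_pos ℓ j.val

variable (τ₀ : ℍ)
  (per : CuspForm (Gamma1 N : Subgroup (GL (Fin 2) ℝ)) 2 → (Additive (Gamma1 N) →+ ℂ))
  (hGood : ∀ f : CuspForm (Gamma1 N : Subgroup (GL (Fin 2) ℝ)) 2, Good (f : ℍ → ℂ))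
  (hper : ∀ (f : CuspForm (Gamma1 N : Subgroup (GL (Fin 2) ℝ)) 2) (γ : Gamma1 N),
    per f (Additive.ofMul γ) = I (f : ℍ → ℂ) τ₀ (mapGL ℝ (γ : SL(2, ℤ)) • τ₀))

include P hGood hper

theorem per_eq_perHom (f : CuspForm (Gamma1 N : Subgroup (GL (Fin 2) ℝ)) 2) :
    per f = perHom P (hGood f) (isInv_cuspForm f) τ₀ := by
  refine AddMonoidHom.ext fun γ => ?_
  obtain ⟨γ, rfl⟩ : ∃ γ' : Gamma1 N, Additive.ofMul γ' = γ := ⟨Additive.toMul γ, rfl⟩
  rw [hper, perHom_apply]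

/-- **`per (T_ℓ f) = cohT1 (per f)`.** -/
theorem per_heckeT1Lin {ℓ : ℕ} [Fact ℓ.Prime] (hℓ : ℓ.Prime) (hℓN : ¬ ℓ ∣ N)
    (f : CuspForm (Gamma1 N : Subgroup (GL (Fin 2) ℝ)) 2) :
    per (heckeT1Lin 2 hℓ hℓN f) = cohT1 ℂ hℓN (per f) := by
  have : NeZero ℓ := ⟨hℓ.ne_zero⟩
  set S := sysT hℓN (primeRep hℓ hℓN) (primeRep_dvd hℓ hℓN) (primeRep_d hℓ hℓN) with hS
  have hdet : ∀ x, 0 < (S.rep x).det.val := fun x => det_rep1_pos ℓ _ x
  have hcoe : (heckeT1Lin 2 hℓ hℓN f : ℍ → ℂ) = sysSum S (f : ℍ → ℂ) := by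
    rw [coe_heckeT1Lin, heckeT1_eq_sum]
    rfl
  rw [cohT1_eq hℓN (primeRep hℓ hℓN) (primeRep_dvd hℓ hℓN) (primeRep_d hℓ hℓN),
    per_eq_perHom P τ₀ per hGood hper f,
    ← perHom_sysSum P S hdet (hGood f) (isInv_cuspForm f) τ₀]
  refine AddMonoidHom.ext fun γ => ?_
  obtain ⟨γ, rfl⟩ : ∃ γ' : Gamma1 N, Additive.ofMul γ' = γ := ⟨Additive.toMul γ, rfl⟩
  rw [hper, perHom_apply, hcoe]

/-- **`per (⟨d⟩ f) = diaCoh d (per f)`.** -/
theorem per_diamondLin (d : (ZMod N)ˣ) (f : CuspForm (Gamma1 N : Subgroup (GL (Fin 2) ℝ)) 2) :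
    per (diamondLin 2 d f) = diaCoh ℂ d (per f) := by
  have h0 : (N : ℤ) ∣ (diamondRep d) 1 0 := mem_Gamma0_iff_dvd.1 (diamondRep_mem d)
  have hdet : ∀ x, 0 < ((sysD (N := N) (diamondRep d) h0).rep x).det.val :=
    fun _ => det_mapGL_pos _
  have hcoe : (diamondLin 2 d f : ℍ → ℂ)
      = sysSum (sysD (N := N) (diamondRep d) h0) (f : ℍ → ℂ) := by
    rw [coe_diamondLin]
    show _ = ∑ _x : Unit, (f : ℍ → ℂ) ∣[(2 : ℤ)] mapGL ℝ (diamondRep d)
    rw [Fintype.sum_unique]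
  rw [diaCoh_eq d (diamondRep d) h0 (diamondRep_d d), per_eq_perHom P τ₀ per hGood hper f,
    ← perHom_sysSum P (sysD (N := N) (diamondRep d) h0) hdet (hGood f) (isInv_cuspForm f) τ₀]
  refine AddMonoidHom.ext fun γ => ?_
  obtain ⟨γ, rfl⟩ : ∃ γ' : Gamma1 N, Additive.ofMul γ' = γ := ⟨Additive.toMul γ, rfl⟩
  rw [hper, perHom_apply, hcoe]

end Gamma1

/-! ### The indexed form consumed by `LatAbs.exists_eigenclass_abs` -/

section Indexed

variable {N : ℕ} [NeZero N] {S : Set ℕ}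

/-- The cohomological operators indexed like the generators of `heckeAlgebra1 N 2 S`. -/
def cohOp (A : Type) [AddCommGroup A] :
    heckeAlgebra1.Idx N S → (Additive (Gamma1 N) →+ A) →+ (Additive (Gamma1 N) →+ A)
  | Sum.inl ℓ => haveI : Fact ℓ.1.Prime := ⟨ℓ.2.1⟩; cohT1 A ℓ.2.2.1
  | Sum.inr d => diaCoh A d

/-- (O1) naturality in the coefficients -/
theorem cohOp_comp {A B : Type} [AddCommGroup A] [AddCommGroup B] (f : A →+ B)
    (i : heckeAlgebra1.Idx N S) (φ : Additive (Gamma1 N) →+ A) :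
    cohOp B i (f.comp φ) = f.comp (cohOp A i φ) := by
  cases i with
  | inl ℓ => have : Fact ℓ.1.Prime := ⟨ℓ.2.1⟩; exact cohT1_comp ℓ.2.2.1 f φ
  | inr d => exact diaCoh_comp d f φ

/-- (O2) preservation of parabolic homomorphisms -/
theorem cohOp_isParabolicHom {A : Type} [AddCommGroup A] (i : heckeAlgebra1.Idx N S)
    (φ : Additive (Gamma1 N) →+ A) (hφ : IsParabolicHom (Gamma1 N) φ) :
    IsParabolicHom (Gamma1 N) (cohOp A i φ) := by
  cases i with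
  | inl ℓ => have : Fact ℓ.1.Prime := ⟨ℓ.2.1⟩; exact cohT1_isParabolicHom ℓ.2.2.1 φ hφ
  | inr d => exact diaCoh_isParabolicHom d φ hφ

variable {Good : (ℍ → ℂ) → Prop} {I : (ℍ → ℂ) → ℍ → ℍ → ℂ} (P : PathInt Good I) (τ₀ : ℍ)
  (per : CuspForm (Gamma1 N : Subgroup (GL (Fin 2) ℝ)) 2 → (Additive (Gamma1 N) →+ ℂ))
  (hGood : ∀ f : CuspForm (Gamma1 N : Subgroup (GL (Fin 2) ℝ)) 2, Good (f : ℍ → ℂ))
  (hper : ∀ (f : CuspForm (Gamma1 N : Subgroup (GL (Fin 2) ℝ)) 2) (γ : Gamma1 N),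
    per f (Additive.ofMul γ) = I (f : ℍ → ℂ) τ₀ (mapGL ℝ (γ : SL(2, ℤ)) • τ₀))

include P hGood hper in
/-- **(P3) of `LatAbs.exists_eigenclass_abs`** with `t := opLin 2`, `op := cohOp`. -/
theorem per_opLin (i : heckeAlgebra1.Idx N S)
    (f : CuspForm (Gamma1 N : Subgroup (GL (Fin 2) ℝ)) 2) :
    per (opLin 2 i f) = cohOp ℂ i (per f) := by
  cases i with
  | inl ℓ =>
    have : Fact ℓ.1.Prime := ⟨ℓ.2.1⟩
    exact per_heckeT1Lin P τ₀ per hGood hper ℓ.2.1 ℓ.2.2.1 f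
  | inr d => exact per_diamondLin P τ₀ per hGood hper d f

end Indexed

end Fermat.Agent.DS.P3.Per1Hecke

end
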